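import Fermat.Agent.LanglandsTunnell.Lift.Levels

/-!
# The lift is a cusp form with explicit coefficients

`exists_form`: one of the two lifts is a weight one cusp form with character on `Γ₀(3 N²)` whose
coefficients are the plane sums, respectively the point sums, of the input.  Used in `Core`.
-/

set_option autoImplicit false

noncomputable section

namespace FLTAgent.LanglandsTunnell.Lift

open FLTAgent.LanglandsTunnell MeasureTheory Complex Matrix CongruenceSubgroup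
open UpperHalfPlane hiding I
open scoped Real ENNReal MatrixGroups ModularForm Manifold

theorem LiftInput.sphFn {N : ℕ} (I : LiftInput N) : SphFn (congGroup N) I.φ :=
  ⟨I.continuous, I.bounded, I.invariant, I.spherical⟩

theorem chiInt_eq_one {d : ℤ} (h : d % 3 = 1) : WeightOneWiring.chiInt d = 1 := by
  simp [WeightOneWiring.chiInt, EisensteinWeightOne.chiNegThree, h]

theorem slash_one_apply (f : ℍ → ℂ) (γ : SL(2, ℤ)) (τ : ℍ) :
    (f ∣[(1 : ℤ)] γ) τ = f (γ • τ) * ((γ 1 0 : ℂ) * τ + γ 1 1)⁻¹ := by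
  rw [ModularForm.SL_slash_apply, _root_.zpow_neg_one]
  simp [UpperHalfPlane.denom]

theorem denom_ne_zero' (γ : SL(2, ℤ)) (τ : ℍ) : ((γ 1 0 : ℂ) * τ + γ 1 1) ≠ 0 := by
  intro h0
  have := (γ • τ).ne_zero
  rw [coe_smul_SL, h0, div_zero] at this
  exact this rfl

theorem qCoeff_eq_of_hasSum {f : ℍ → ℂ} (hf : f ∈ MFIntegral.PB) {a : ℕ → ℂ}
    (ha : ∀ τ : ℍ, HasSum (fun m => a m • Function.Periodic.qParam 1 τ ^ m) (f τ)) (n : ℕ) :
    ModularFormClass.qCoeff f n = a n :=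
  (UpperHalfPlane.qExpansion_coeff_unique (ContinuousMap.mk f hf.2.1.continuous) one_pos
    (MFIntegral.PB.analyticAt hf) ha n).symm

/-- The choice between the two lifts. -/
theorem exists_form {N : ℕ} (hN : N ≠ 0) (I : LiftInput N) :
    ∃ (w : H3 → ℝ≥0∞) (f : ℍ → ℂ), IsWt (congGroup N) w ∧
      MFIntegral.IsCF 1 (Gamma1 (3 * N ^ 2)) f ∧
      (∀ γ : SL(2, ℤ), γ ∈ Gamma0 (3 * N ^ 2) →
        f ∣[(1 : ℤ)] γ = (WeightOneWiring.chiInt (γ 1 1) : ℂ) • f) ∧
      ((∀ n : ℕ, ModularFormClass.qCoeff f n =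
          planeSum w I.φ (Lvl N n) / (2 * Real.sqrt n : ℝ)) ∨
        ((∀ n : ℕ, ModularFormClass.qCoeff f n =
          -((π : ℂ) / (Real.sqrt n : ℝ)) * pointSum w I.φ (Lvl N (-(n : ℤ)))) ∧ f ≠ 0)) := by
  classical
  have hN0 : 0 < N := Nat.pos_of_ne_zero hN
  set K := 3 * N ^ 2 with hK
  have hNK : N ∣ K := ⟨3 * N, by rw [hK]; ring⟩
  have hK3 : 3 ≤ K := Nat.le_mul_of_pos_right 3 (pow_pos hN0 2)
  obtain ⟨c, wD, hwD, hw⟩ := exists_deep_weight (by omega : K ≠ 0) (principal_le_congGroup hNK)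
    (congGroup_mono (one_dvd N))
  set w : H3 → ℝ≥0∞ := fun P => c * wD P
  have hH := congGroup_mono (one_dvd N)
  have hφ := I.sphFn
  have hφD : SphFn (principalGroup K) I.φ := hφ.mono (principal_le_congGroup hNK)
  have hc : CuspAt K I.latticeBasis I.φ := fun g hg hd P => I.cuspidal g hg hd K (by omega) hNK P
  -- properties common to both kernels
  have common : ∀ (s : ℤ) (κ : ℂ) (Φ : ℍ → H3 → HVec → ℂ), IsKernel s κ Φ → s * s = 1 → κ ≠ 0 →
      ∀ a : ℕ → ℂ, (∀ τ : ℍ, HasSum (fun n => a n • Function.Periodic.qParam 1 τ ^ n)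
          (liftFn w I.φ Φ N τ)) →
      MFIntegral.IsCF 1 (Gamma1 (3 * N ^ 2)) (liftFn w I.φ Φ N) ∧
      (∀ γ : SL(2, ℤ), γ ∈ Gamma0 (3 * N ^ 2) →
        liftFn w I.φ Φ N ∣[(1 : ℤ)] γ =
          (WeightOneWiring.chiInt (γ 1 1) : ℂ) • liftFn w I.φ Φ N) ∧
      ∀ n, ModularFormClass.qCoeff (liftFn w I.φ Φ N) n = a n := by
    intro s κ Φ hΦ hs hκ a ha
    set f := liftFn w I.φ Φ N with hf
    have hchar : ∀ γ : SL(2, ℤ), γ ∈ Gamma0 (3 * N ^ 2) →
        f ∣[(1 : ℤ)] γ = (WeightOneWiring.chiInt (γ 1 1) : ℂ) • f := by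
      intro γ hγ
      funext τ
      have hd : ((3 * N ^ 2 : ℕ) : ℤ) ∣ γ 1 0 := by
        rw [← ZMod.intCast_zmod_eq_zero_iff_dvd]; exact Gamma0_mem.mp hγ
      rw [slash_one_apply, Pi.smul_apply, smul_eq_mul]
      simp only [hf, liftFn, hΦ.thetaH_slash hs hκ hN0 hd, mul_left_comm (wmul w I.φ _),
        integral_const_mul]
      field_simp [denom_ne_zero' γ τ]
    have hslash : ∀ γ : SL(2, ℤ), γ ∈ Gamma1 (3 * N ^ 2) → f ∣[(1 : ℤ)] γ = f := by
      intro γ hγ
      obtain ⟨-, h11, h10⟩ := (Gamma1_mem _ γ).mp hγ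
      rw [hchar γ (Gamma0_mem.mpr h10)]
      have : (γ 1 1 : ℤ) % 3 = 1 := by
        have h1 : ((3 * N ^ 2 : ℕ) : ℤ) ∣ γ 1 1 - 1 := by
          rw [← ZMod.intCast_zmod_eq_zero_iff_dvd]; push_cast; rw [h11]; ring
        obtain ⟨k, hk⟩ := dvd_trans (Int.natCast_dvd_natCast.mpr ⟨N ^ 2, rfl⟩) h1
        push_cast at hk
        omega
      rw [chiInt_eq_one this, Int.cast_one, one_smul]
    have hcusp : ∀ γ : SL(2, ℤ), IsZeroAtImInfty (f ∣[(1 : ℤ)] γ) := by
      intro γ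
      obtain ⟨h, hh⟩ := thetaH_eq_famSum (Φ := Φ) hN0
      obtain ⟨h', hh'⟩ := hΦ.famSum_slash hN0 γ h
      have hz := tendsto_famSum hN0 I.latticeBasis_span hc hwD hφD hΦ h'
      have e : f ∣[(1 : ℤ)] γ = fun τ =>
          (c.toReal : ℂ) * ∫ P, wmul wD I.φ P * famSum Φ N h' τ P ∂H3.volH3 := by
        funext τ
        rw [slash_one_apply]
        simp only [hf, w, liftFn_const_mul]
        simp only [liftFn, hh, hh', mul_left_comm (wmul wD I.φ _), integral_const_mul]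
        field_simp [denom_ne_zero' γ τ]
      rw [e]
      simpa [IsZeroAtImInfty, Filter.ZeroAtFilter] using
        Filter.Tendsto.const_mul (c.toReal : ℂ) hz
    have hcf : MFIntegral.IsCF 1 (Gamma1 (3 * N ^ 2)) f :=
      ⟨⟨hslash, mdiff_of_hasSum ha, fun γ => (hcusp γ).boundedAtFilter⟩, hcusp⟩
    refine ⟨hcf, hchar, fun n => ?_⟩
    have hT : ModularGroup.T ∈ Gamma1 (3 * N ^ 2) := by
      rw [Gamma1_mem]
      simp [ModularGroup.coe_T]
    exact qCoeff_eq_of_hasSum (hcf.1.mem_PB hT) ha n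
  have hz : ∀ (s : ℤ) (κ : ℂ) (Φ : ℍ → H3 → HVec → ℂ), IsKernel s κ Φ → ∀ τ,
      liftTerm w I.φ Φ (Lvl N 0) τ = 0 := fun s κ Φ hΦ τ => by
    rw [liftTerm_const_mul, liftTerm_zero hN I.latticeBasis_span hK3 hNK hc hwD hφD hΦ τ, mul_zero]
  have hq : ∀ (n : ℕ) (τ : ℍ), ee ((n : ℂ) * τ) = Function.Periodic.qParam 1 τ ^ n := fun n τ => by
    rw [Function.Periodic.qParam, ← Complex.exp_nat_mul, ee]
    congr 1
    push_cast
    ring
  by_cases hall : ∀ m : ℕ, 0 < m → pointSum w I.φ (Lvl N (-(m : ℤ))) = 0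
  · have ha : ∀ τ : ℍ, HasSum (fun n : ℕ => (planeSum w I.φ (Lvl N n) / (2 * Real.sqrt n : ℝ)) •
        Function.Periodic.qParam 1 τ ^ n) (liftFn w I.φ Phi1 N τ) := by
      intro τ
      have h := hasSum_liftFn (N := N) hw hφ isKernel_Phi1 τ
      have hinj : Function.Injective fun n : ℕ => (n : ℤ) := Nat.cast_injective
      have hsupp : ∀ k : ℤ, k ∉ Set.range (fun n : ℕ => (n : ℤ)) →
          liftTerm w I.φ Phi1 (Lvl N k) τ = 0 := by
        intro k hk
        have hk0 : k < 0 := by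
          by_contra h0
          exact hk ⟨k.toNat, Int.toNat_of_nonneg (not_lt.mp h0)⟩
        obtain ⟨m, rfl⟩ : ∃ m : ℕ, k = -(m : ℤ) := ⟨k.natAbs, by omega⟩
        exact tsum_Phi1_neg hφ hw hH (latSet_Lvl hN _) (by exact_mod_cast hk0) τ (hall m (by omega))
      rw [← hinj.hasSum_iff hsupp] at h
      refine h.congr_fun fun n => ?_
      simp only [Function.comp_apply, smul_eq_mul]
      rcases Nat.eq_zero_or_pos n with rfl | hn
      · simp [hz _ _ _ isKernel_Phi1 τ]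
      · have h1 := tsum_Phi1_pos hφ hw hH (latSet_Lvl hN (n : ℤ)) (by exact_mod_cast hn) τ
        simp only [liftTerm, h1, Int.cast_natCast, Complex.ofReal_natCast]
        rw [hq]
        ring
    obtain ⟨h1, h2, h3⟩ := common _ _ _ isKernel_Phi1 (by norm_num)
      (div_ne_zero Complex.I_ne_zero (by exact_mod_cast (by positivity : Real.sqrt 3 ≠ 0))) _ ha
    exact ⟨w, _, hw, h1, h2, Or.inl h3⟩
  · have ha : ∀ τ : ℍ, HasSum (fun n : ℕ => (-((π : ℂ) / (Real.sqrt n : ℝ)) *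
        pointSum w I.φ (Lvl N (-(n : ℤ)))) • Function.Periodic.qParam 1 τ ^ n)
        (liftFn w I.φ Phi2 N τ) := by
      intro τ
      have h := hasSum_liftFn (N := N) hw hφ isKernel_Phi2 τ
      have hinj : Function.Injective fun n : ℕ => -(n : ℤ) := fun a b e => by simpa using e
      have hsupp : ∀ k : ℤ, k ∉ Set.range (fun n : ℕ => -(n : ℤ)) →
          liftTerm w I.φ Phi2 (Lvl N k) τ = 0 := by
        intro k hk
        have hk0 : 0 < k := by
          by_contra h0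
          exact hk ⟨(-k).toNat, by simp only; omega⟩
        exact tsum_Phi2_pos hφ hw hH (latSet_Lvl hN _) (by exact_mod_cast hk0) τ
      rw [← hinj.hasSum_iff hsupp] at h
      refine h.congr_fun fun n => ?_
      simp only [Function.comp_apply, smul_eq_mul]
      rcases Nat.eq_zero_or_pos n with rfl | hn
      · simp [hz _ _ _ isKernel_Phi2 τ]
      · have hn' : ((-(n : ℤ) : ℤ) : ℝ) < 0 := by
          push_cast; simpa using hn
        have h1 := tsum_Phi2_neg hφ hw hH (latSet_Lvl hN (-(n : ℤ))) hn' τ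
        simp only [liftTerm, h1, Int.cast_neg, Int.cast_natCast, neg_neg, Complex.ofReal_natCast]
        rw [hq]
        ring
    obtain ⟨h1, h2, h3⟩ := common _ _ _ isKernel_Phi2 (by norm_num)
      (neg_ne_zero.mpr
        (div_ne_zero Complex.I_ne_zero (by exact_mod_cast (by positivity : Real.sqrt 3 ≠ 0)))) _ ha
    refine ⟨w, _, hw, h1, h2, Or.inr ⟨h3, fun h0 => hall fun m hm => ?_⟩⟩
    have h4 := h3 m
    rw [h0] at h4
    have hz0 : ModularFormClass.qCoeff (0 : ℍ → ℂ) m = 0 := by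
      simp [ModularFormClass.qCoeff, UpperHalfPlane.qExpansion_zero]
    rw [hz0] at h4
    have hne : ((π : ℂ) / (Real.sqrt m : ℝ)) ≠ 0 :=
      div_ne_zero (by exact_mod_cast Real.pi_ne_zero)
        (by exact_mod_cast (Real.sqrt_pos.mpr (by exact_mod_cast hm)).ne')
    exact (mul_eq_zero.mp h4.symm).resolve_left (neg_ne_zero.mpr hne)

end FLTAgent.LanglandsTunnell.Lift
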