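import Fermat.Agent.LanglandsTunnell.Lift.PlaneOrbit
import Fermat.Agent.Newforms.InvariantIntegral

/-!
# The first coefficient is a multiple of the period

`planeSum_one_ne_zero`: the stabiliser of the standard norm one vector is `Γ(3N)` up to sign and
the norm one vectors form one orbit, so the first plane sum is a nonzero multiple of the period
of the input, hence nonzero.  Used in `Core`.
-/

set_option autoImplicit false

noncomputable section

namespace FLTAgent.LanglandsTunnell.Lift

open FLTAgent.LanglandsTunnell MeasureTheory Complex ComplexConjugate Matrix CongruenceSubgroup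
open UpperHalfPlane hiding I
open scoped Real ENNReal MatrixGroups

/-! ### The modular group inside -/

/-- The embedding of `SL(2, ℤ)` preserving the plane. -/
def planeHom : SL(2, ℤ) →* GL (Fin 2) ℂ where
  toFun γ := GeneralLinearGroup.mkOfDetNeZero
      (planeEmb (γ 0 0 : ℤ) (γ 0 1 : ℤ) (γ 1 0 : ℤ) (γ 1 1 : ℤ))
    (by
      rw [det_planeEmb]
      have := (Matrix.det_fin_two γ.1).symm.trans γ.2
      rw [show ((γ 0 0 : ℤ) : ℝ) * ((γ 1 1 : ℤ) : ℝ) - ((γ 0 1 : ℤ) : ℝ) * ((γ 1 0 : ℤ) : ℝ) = 1 by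
        exact_mod_cast this]
      simp)
  map_one' := Units.ext (by
    rw [GeneralLinearGroup.val_mkOfDetNeZero, Units.val_one]
    ext i j; fin_cases i <;> fin_cases j <;> simp [planeEmb])
  map_mul' γ δ := Units.ext (by
    rw [Units.val_mul, GeneralLinearGroup.val_mkOfDetNeZero, GeneralLinearGroup.val_mkOfDetNeZero,
      GeneralLinearGroup.val_mkOfDetNeZero]
    have hs := sqrt_three_ne
    ext i j
    fin_cases i <;> fin_cases j <;>
      simp [planeEmb, Matrix.mul_apply, Fin.sum_univ_two, Matrix.SpecialLinearGroup.coe_mul] <;>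
      field_simp <;> ring_nf <;> simp [I_sq])

theorem planeHom_val (γ : SL(2, ℤ)) :
    (planeHom γ).val = planeEmb (γ 0 0 : ℤ) (γ 0 1 : ℤ) (γ 1 0 : ℤ) (γ 1 1 : ℤ) := rfl

theorem planeHom_injective : Function.Injective planeHom := fun γ δ h => by
  have hs := sqrt_three_ne
  have h' := congrArg Units.val h
  rw [planeHom_val, planeHom_val] at h'
  have h00 := congrFun (congrFun h' 0) 0
  have h01 := congrFun (congrFun h' 0) 1
  have h10 := congrFun (congrFun h' 1) 0
  have h11 := congrFun (congrFun h' 1) 1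
  simp [planeEmb, hs] at h00 h01 h10 h11
  ext i j
  fin_cases i <;> fin_cases j <;> assumption

theorem planeHom_smul (γ : SL(2, ℤ)) (τ : ℍ) :
    planeHom γ • planePoint τ = planePoint (γ • τ) := by
  have hdet := (Matrix.det_fin_two γ.1).symm.trans γ.2
  have h : ((γ 0 0 : ℤ) : ℝ) * ((γ 1 1 : ℤ) : ℝ) - ((γ 0 1 : ℤ) : ℝ) * ((γ 1 0 : ℤ) : ℝ) ≠ 0 := by
    rw [show ((γ 0 0 : ℤ) : ℝ) * ((γ 1 1 : ℤ) : ℝ) - ((γ 0 1 : ℤ) : ℝ) * ((γ 1 0 : ℤ) : ℝ) = 1 by
      exact_mod_cast hdet]
    exact one_ne_zero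
  rw [smul_planePoint (planeHom_val γ) h]
  congr 1

theorem act_planeHom (γ : SL(2, ℤ)) : act (planeHom γ).val planeVec = planeVec := by
  refine mat_injective ?_
  rw [mat_act, mat_planeVec, planeHom_val]
  have hs := sqrt_three_ne
  have hd : ((γ 0 0 : ℤ) : ℂ) * (γ 1 1 : ℤ) - ((γ 0 1 : ℤ) : ℂ) * (γ 1 0 : ℤ) = 1 := by
    exact_mod_cast (Matrix.det_fin_two γ.1).symm.trans γ.2
  ext i j
  fin_cases i <;> fin_cases j <;> simp [planeEmb, Matrix.mul_apply, Fin.sum_univ_two, map_div₀]
  all_goals first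
    | ring1
    | (field_simp
       linear_combination hd + ((γ 0 1 : ℤ) : ℂ) * (γ 1 0 : ℤ) * I_sq)

theorem eisCong_planeHom {N : ℕ} {γ : SL(2, ℤ)} (hγ : γ ∈ CongruenceSubgroup.Gamma (3 * N)) :
    EisCong N (planeHom γ).val := by
  rw [Gamma_mem] at hγ
  obtain ⟨-, hb, hc, -⟩ := hγ
  obtain ⟨b, hb⟩ := (ZMod.intCast_zmod_eq_zero_iff_dvd _ _).mp hb
  obtain ⟨c, hc⟩ := (ZMod.intCast_zmod_eq_zero_iff_dvd _ _).mp hc
  have hrt : ((Real.sqrt 3 : ℝ) : ℂ) * I = 1 + 2 * omega := by simp [omega]; ring
  have hrtE : (1 : ℂ) + 2 * omega ∈ Eis := by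
    rw [two_mul]; exact add_mem (one_mem _) (add_mem omega_mem omega_mem)
  have hs := sqrt_three_ne
  have e01 : (planeHom γ).val 0 1 = N * (3 * b * (1 + 2 * omega)) := by
    rw [planeHom_val, ← hrt]; simp [planeEmb, hb]; ring
  have e10 : (planeHom γ).val 1 0 = N * (-(c : ℂ) * (1 + 2 * omega)) := by
    rw [planeHom_val, ← hrt]; simp [planeEmb, hc]; field_simp; linear_combination
        -(N : ℂ) * c * sqrt_three_sq
  have h3 : (3 : ℂ) ∈ Eis := by simp
  refine ⟨fun i j => ?_, ⟨_, mul_mem (mul_mem h3 (intCast_mem_Eis b)) hrtE, e01⟩,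
    ⟨_, mul_mem (neg_mem (intCast_mem_Eis c)) hrtE, e10⟩⟩
  fin_cases i <;> fin_cases j
  · simp [planeHom_val, planeEmb]
  · show (planeHom γ).val 0 1 ∈ Eis
    rw [e01]; exact mul_mem (natCast_mem_Eis N) (mul_mem (mul_mem h3 (intCast_mem_Eis b)) hrtE)
  · show (planeHom γ).val 1 0 ∈ Eis
    rw [e10]; exact mul_mem (natCast_mem_Eis N) (mul_mem (neg_mem (intCast_mem_Eis c)) hrtE)
  · simp [planeHom_val, planeEmb]

/-- The embedding of `Γ(3 N)`. -/
def gammaHom (N : ℕ) : CongruenceSubgroup.Gamma (3 * N) →* congGroup N :=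
  (planeHom.comp (CongruenceSubgroup.Gamma (3 * N)).subtype).codRestrict _ fun γ =>
    ⟨eisCong_planeHom γ.2, by
      show EisCong N ((planeHom γ.1)⁻¹).val
      rw [← map_inv]; exact eisCong_planeHom (inv_mem γ.2)⟩

theorem exists_gamma_of_fix {N : ℕ} (hN : N ≠ 0) {ν : congGroup N}
    (hP : (ν : GL (Fin 2) ℂ) ∈ principalGroup (9 * N))
    (hfix : act (ν : GL (Fin 2) ℂ).val planeVec = planeVec) :
    ∃ γ : CongruenceSubgroup.Gamma (3 * N), gammaHom N γ = ν := by
  set M := (ν : GL (Fin 2) ℂ).val with hM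
  choose z hz hze using hP.1
  have hK : 3 ≤ 9 * N := by omega
  have hdet1 : M.det = 1 := by
    have h00 := hze 0 0
    have h11 := hze 1 1
    have h01 := hze 0 1
    have h10 := hze 1 0
    simp only [Matrix.sub_apply, Matrix.one_apply_eq,
        Matrix.one_apply_ne (by decide : (0 : Fin 2) ≠ 1),
      Matrix.one_apply_ne (by decide : (1 : Fin 2) ≠ 0), sub_zero, ← hM] at h00 h11 h01 h10
    refine eq_one_of_normSq_le hK (z := z 0 0 + z 1 1 + ((9 * N : ℕ) : ℂ) *
        (z 0 0 * z 1 1 - z 0 1 * z 1 0))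
      (add_mem (add_mem (hz 0 0) (hz 1 1)) (mul_mem (natCast_mem_Eis _)
        (sub_mem (mul_mem (hz 0 0) (hz 1 1)) (mul_mem (hz 0 1) (hz 1 0))))) ?_
      (normSq_det_congGroup ν.2)
    rw [Matrix.det_fin_two, h01, h10, sub_eq_iff_eq_add.mp h00, sub_eq_iff_eq_add.mp h11]
    ring
  have hm : M * mat planeVec * Mᴴ = mat planeVec := by rw [← mat_act, hfix]
  have hshape : M * mat planeVec = mat planeVec * (Mᴴ).adjugate := by
    calc M * mat planeVec = M * mat planeVec * (Mᴴ * (Mᴴ).adjugate) := by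
          rw [Matrix.mul_adjugate, Matrix.det_conjTranspose, hdet1, star_one, one_smul,
              Matrix.mul_one]
      _ = mat planeVec * (Mᴴ).adjugate := by rw [← Matrix.mul_assoc, hm]
  have hp := congrFun (congrFun hshape 0) 1
  have hq := congrFun (congrFun hshape 0) 0
  have hr := congrFun (congrFun hshape 1) 1
  have hw := congrFun (congrFun hshape 1) 0
  simp [mat_planeVec, Matrix.adjugate_fin_two, Matrix.mul_apply, Fin.sum_univ_two] at hp hq hr hw
  have hrt : ((Real.sqrt 3 : ℝ) : ℂ) * I = 1 + 2 * omega := by simp [omega]; ring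
  have hKC : ((9 * N : ℕ) : ℂ) ≠ 0 := by exact_mod_cast (by omega : 9 * N ≠ 0)
  have real : ∀ u ∈ Eis, conj u = u → ∃ x : ℤ, u = (x : ℂ) := by
    rintro _ ⟨x, y, rfl⟩ h
    rw [conj_eis] at h
    have hy : y = 0 := by have := (eis_inj h).1; exact_mod_cast (by linarith : (y : ℝ) = 0)
    exact ⟨x, by simp [hy, eis]⟩
  have imag : ∀ u ∈ Eis, -conj u = u → ∃ x : ℤ, u = (x : ℂ) * (1 + 2 * omega) := by
    rintro _ ⟨x, y, rfl⟩ h
    rw [conj_eis] at h
    have h' : eis ((y : ℝ) - x) (y : ℝ) = eis (x : ℝ) (y : ℝ) := by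
      rw [← h]; simp only [eis]; push_cast; ring
    have := (eis_inj h').1
    have hy : (y : ℝ) = 2 * x := by linarith
    refine ⟨x, ?_⟩
    simp only [eis, hy]; push_cast; ring
  have e00 := hze 0 0
  have e11 := hze 1 1
  have e01 := hze 0 1
  have e10 := hze 1 0
  simp only [Matrix.sub_apply, Matrix.one_apply_eq,
      Matrix.one_apply_ne (by decide : (0 : Fin 2) ≠ 1),
    Matrix.one_apply_ne (by decide : (1 : Fin 2) ≠ 0), sub_zero, ← hM] at e00 e11 e01 e10
  obtain ⟨x00, hx00⟩ := real (z 0 0) (hz 0 0) (by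
    have := congrArg conj e00
    rw [map_sub, map_one, map_mul, map_natCast, ← hp, e00] at this
    exact (mul_left_cancel₀ hKC this).symm)
  obtain ⟨x11, hx11⟩ := real (z 1 1) (hz 1 1) (by
    have := congrArg conj e11
    rw [map_sub, map_one, map_mul, map_natCast, ← hw, e11] at this
    exact (mul_left_cancel₀ hKC this).symm)
  obtain ⟨x01, hx01⟩ := imag (z 0 1) (hz 0 1) (by
    have := congrArg conj e01
    rw [map_mul, map_natCast, show conj (M 0 1) = -M 0 1 by linear_combination hq, e01] at this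
    exact mul_left_cancel₀ hKC (by linear_combination this))
  obtain ⟨x10, hx10⟩ := imag (z 1 0) (hz 1 0) (by
    have := congrArg conj e10
    rw [map_mul, map_natCast, show conj (M 1 0) = -M 1 0 by linear_combination hr, e10] at this
    exact mul_left_cancel₀ hKC (by linear_combination this))
  have hv : M = planeEmb ((1 + 9 * N * x00 : ℤ) : ℝ) ((9 * N * x01 : ℤ) : ℝ)
      ((-(27 * N * x10) : ℤ) : ℝ) ((1 + 9 * N * x11 : ℤ) : ℝ) := by
    have hs := sqrt_three_ne
    ext i j
    fin_cases i <;> fin_cases j <;> simp [planeEmb]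
    · rw [sub_eq_iff_eq_add.mp e00, hx00]; push_cast; ring
    · rw [e01, hx01, ← hrt]; push_cast; ring
    · rw [e10, hx10, ← hrt]; field_simp; push_cast
      linear_combination (9 * (N : ℂ) * x10) * sqrt_three_sq
    · rw [sub_eq_iff_eq_add.mp e11, hx11]; push_cast; ring
  have hd : (1 + 9 * N * x00) * (1 + 9 * N * x11) - (9 * N * x01) *
      (-(27 * N * x10)) = (1 : ℤ) := by
    rw [hv, det_planeEmb] at hdet1
    have h2 := Complex.ofReal_eq_one.mp hdet1
    exact_mod_cast h2
  let γ : SL(2, ℤ) := ⟨!![1 + 9 * N * x00, 9 * N * x01; -(27 * N * x10), 1 + 9 * N * x11],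
    by rw [Matrix.det_fin_two_of]; exact hd⟩
  have hγ : γ ∈ CongruenceSubgroup.Gamma (3 * N) := by
    have h0 : ((3 * N : ℕ) : ZMod (3 * N)) = 0 := ZMod.natCast_self _
    push_cast at h0
    rw [Gamma_mem]
    refine ⟨?_, ?_, ?_, ?_⟩ <;> simp [γ]
    · linear_combination (3 * (x00 : ZMod (3 * N))) * h0
    · linear_combination (3 * (x01 : ZMod (3 * N))) * h0
    · linear_combination (9 * (x10 : ZMod (3 * N))) * h0
    · linear_combination (3 * (x11 : ZMod (3 * N))) * h0
  refine ⟨⟨γ, hγ⟩, Subtype.ext (Units.ext ?_)⟩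
  show (planeHom γ).val = M
  rw [planeHom_val, hv]
  rfl

/-! ### A weight for `SL(2, ℤ)` supported on the standard domain -/

theorem finite_smul_mem_fd (τ : ℍ) : {g : SL(2, ℤ) | g • τ ∈ ModularGroup.fd}.Finite := by
  obtain ⟨g₀, hg₀⟩ := ModularGroup.exists_smul_mem_fd τ
  have hfin : {g : SL(2, ℤ) | g • g₀ • τ ∈ ModularGroup.fd}.Finite := by
    classical
    let T := ModularGroup.T
    let S := ModularGroup.S
    let B : Finset SL(2, ℤ) :=
      {1, T, T⁻¹, S, T * S, T⁻¹ * S * T⁻¹, S * T⁻¹, S * T, T * S * T, T⁻¹ * S}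
    refine ((B.finite_toSet).union ((B.image (- ·)).finite_toSet)).subset fun g hg => ?_
    simp only [B, Set.mem_union, Finset.coe_insert, Finset.coe_singleton, Set.mem_insert_iff,
      Set.mem_singleton_iff, Finset.coe_image, Set.image_insert_eq, Set.image_singleton, T, S]
    have := ModularGroup.cases_of_mem_fd_smul_mem_fd hg₀ hg
    grind
  exact (hfin.preimage (mul_left_injective g₀⁻¹).injOn).subset fun g hg =>
      by simpa [mul_smul] using hg

attribute [local instance] Newforms.countable_SL2Z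

/-- The number of translates in the standard domain. -/
def fdCount (τ : ℍ) : ℝ≥0∞ := ∑' g : SL(2, ℤ), ModularGroup.fd.indicator 1 (g • τ)

/-- The weight of the standard domain. -/
def fdWeight (τ : ℍ) : ℝ≥0∞ := ModularGroup.fd.indicator 1 τ * (fdCount τ)⁻¹

theorem measurable_fdCount : Measurable fdCount := Measurable.tsum fun g =>
  (measurable_one.indicator Newforms.measurableSet_fd).comp (Newforms.measurable_SL_smul g)

theorem fdCount_smul (g : SL(2, ℤ)) (τ : ℍ) : fdCount (g • τ) = fdCount τ := by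
  rw [fdCount, fdCount, ← (Equiv.mulRight g⁻¹).tsum_eq]
  exact tsum_congr fun k => by simp [← mul_smul]

theorem one_le_fdCount (τ : ℍ) : 1 ≤ fdCount τ := by
  obtain ⟨g, hg⟩ := ModularGroup.exists_smul_mem_fd τ
  refine le_trans (le_of_eq ?_) (ENNReal.le_tsum g)
  rw [Set.indicator_of_mem hg, Pi.one_apply]

theorem fdCount_ne_top (τ : ℍ) : fdCount τ ≠ ⊤ := by
  rw [fdCount, tsum_eq_sum (s := (finite_smul_mem_fd τ).toFinset) fun g hg =>
    Set.indicator_of_notMem (by simpa using hg) _]
  refine ENNReal.sum_ne_top.mpr fun g _ => ?_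
  by_cases h : g • τ ∈ ModularGroup.fd
  · rw [Set.indicator_of_mem h]; simp
  · rw [Set.indicator_of_notMem h]; simp

theorem fdWeight_sum (τ : ℍ) : ∑' g : SL(2, ℤ), fdWeight (g • τ) = 1 := by
  simp only [fdWeight, fdCount_smul, ENNReal.tsum_mul_right]
  exact ENNReal.mul_inv_cancel
    (ne_of_gt (lt_of_lt_of_le zero_lt_one (one_le_fdCount τ))) (fdCount_ne_top τ)

theorem measurable_fdWeight : Measurable fdWeight :=
  (measurable_one.indicator Newforms.measurableSet_fd).mul measurable_fdCount.inv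

theorem fdWeight_le (τ : ℍ) : fdWeight τ ≤ ModularGroup.fd.indicator 1 τ :=
  mul_le_of_le_one_right' (ENNReal.inv_le_one.mpr (one_le_fdCount τ))

theorem fdCount_of_mem_fdo {τ : ℍ} (h : τ ∈ ModularGroup.fdo) : fdCount τ = 2 := by
  classical
  have hne : (1 : SL(2, ℤ)) ≠ -1 := by decide
  rw [fdCount, tsum_eq_sum (s := {1, -1}) fun g hg => Set.indicator_of_notMem (fun hm => by
    rcases ModularGroup.eq_one_or_neg_one_of_mem_fdo_mem_fd h hm with rfl | rfl <;> simp at hg) _,
    Finset.sum_pair hne]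
  have h1 := ModularGroup.fdo_subset_fd h
  rw [one_smul, ModularGroup.SL_neg_smul, one_smul, Set.indicator_of_mem h1]
  norm_num

/-! ### The two weights on the plane -/

/-- `gammaHom` is injective. -/
private theorem gammaHom_injective (N : ℕ) : Function.Injective (gammaHom N) := fun _ _ h =>
  Subtype.ext (planeHom_injective (congrArg Subtype.val h))

/-- The translates of `w` by the cosets of `Γ(3N)`, summed on the plane. -/
private def planeWeight (N : ℕ) (w : H3 → ℝ≥0∞) (τ : ℍ) : ℝ≥0∞ :=
  ∑' q : congGroup N ⧸ (gammaHom N).range, w ((q.out : GL (Fin 2) ℂ) • planePoint τ)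

/-- The translates of the standard domain weight by the cosets of `Γ(3N)`. -/
private def fdCosetWeight (N : ℕ) (τ : ℍ) : ℝ≥0∞ :=
  ∑' q : SL(2, ℤ) ⧸ CongruenceSubgroup.Gamma (3 * N), fdWeight (q.out • τ)

variable {N : ℕ} {w : H3 → ℝ≥0∞}

/-- A translate of a weight is measurable on the plane. -/
private theorem measurable_smul_planePoint (hw : IsWt (congGroup N) w) (g : GL (Fin 2) ℂ) :
    Measurable fun τ : ℍ => w (g • planePoint τ) :=
  hw.measurable.comp ((continuous_const_smul g).comp continuous_planePoint).measurable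

/-- `planeWeight` is measurable. -/
private theorem measurable_planeWeight (hw : IsWt (congGroup N) w) :
    Measurable (planeWeight N w) := by
  have : Countable (congGroup N) := countable_congGroup N
  exact Measurable.tsum fun q => measurable_smul_planePoint hw _

/-- `fdCosetWeight` is measurable. -/
private theorem measurable_fdCosetWeight : Measurable (fdCosetWeight N) :=
  Measurable.tsum fun _ => measurable_fdWeight.comp (Newforms.measurable_SL_smul _)

/-- The translates of `planeWeight` by `Γ(3N)` sum to one. -/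
private theorem tsum_planeWeight_smul (hw : IsWt (congGroup N) w) (τ : ℍ) :
    ∑' γ : CongruenceSubgroup.Gamma (3 * N), planeWeight N w (γ • τ) = 1 := by
  simp only [planeWeight]
  rw [ENNReal.tsum_comm, ← hw.sum_eq (planePoint τ),
    ← (Equiv.ofBijective _
      (LanglandsTunnell.Trace.bijective_out_mul (gammaHom N).range)).tsum_eq,
    ENNReal.tsum_prod']
  refine tsum_congr fun q => ?_
  rw [← (MonoidHom.ofInjective (gammaHom_injective N)).toEquiv.tsum_eq]
  refine tsum_congr fun γ => congrArg w ?_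
  show (q.out : GL (Fin 2) ℂ) • planePoint ((γ : SL(2, ℤ)) • τ) = _
  rw [← planeHom_smul, ← mul_smul]
  rfl

/-- The translates of `fdCosetWeight` by `Γ(3N)` sum to one. -/
private theorem tsum_fdCosetWeight_smul (τ : ℍ) :
    ∑' γ : CongruenceSubgroup.Gamma (3 * N), fdCosetWeight N (γ • τ) = 1 := by
  simp only [fdCosetWeight]
  rw [ENNReal.tsum_comm, ← fdWeight_sum τ,
    ← (Equiv.ofBijective _ (LanglandsTunnell.Trace.bijective_out_mul
      (CongruenceSubgroup.Gamma (3 * N)))).tsum_eq, ENNReal.tsum_prod']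
  refine tsum_congr fun q => tsum_congr fun γ => congrArg fdWeight ?_
  show q.out • (γ : SL(2, ℤ)) • τ = _
  rw [← mul_smul]
  rfl

/-- A translate of the weight of the standard domain has finite mass. -/
private theorem lintegral_fdWeight_smul_ne_top (g : SL(2, ℤ)) :
    ∫⁻ τ, fdWeight (g • τ) ≠ ⊤ := by
  rw [(Newforms.measurePreserving_SL_smul g).lintegral_comp measurable_fdWeight]
  refine ne_top_of_le_ne_top Newforms.volume_fd_lt_top.ne ?_
  rw [← lintegral_indicator_one Newforms.measurableSet_fd]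
  exact lintegral_mono fdWeight_le

/-- Comparing with the standard domain, `planeWeight` has finite mass. -/
private theorem lintegral_planeWeight_ne_top (hN : N ≠ 0) (hw : IsWt (congGroup N) w) :
    ∫⁻ τ, planeWeight N w τ ≠ ⊤ := by
  have : NeZero (3 * N) := ⟨by omega⟩
  let := Fintype.ofFinite (SL(2, ℤ) ⧸ CongruenceSubgroup.Gamma (3 * N))
  have : Countable (CongruenceSubgroup.Gamma (3 * N)) := Subtype.countable
  have h := tsum_lintegral_swap (1 : CongruenceSubgroup.Gamma (3 * N) →* Equiv.Perm Unit)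
    (fun _ => volume) (fun γ _ => Newforms.measurePreserving_SL_smul (γ : SL(2, ℤ)))
    (W := fun _ => planeWeight N w) (W' := fun _ => fdCosetWeight N)
    (fun _ => measurable_planeWeight hw) (fun _ => measurable_fdCosetWeight)
    (fun _ => tsum_planeWeight_smul hw) (fun _ => tsum_fdCosetWeight_smul)
    (F := fun _ _ => 1) (fun _ => measurable_const) fun _ _ _ => rfl
  simp only [mul_one] at h
  rw [tsum_eq_single (() : Unit) (fun b hb => absurd rfl hb),
    tsum_eq_single (() : Unit) (fun b hb => absurd rfl hb)] at h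
  rw [h]
  simp only [fdCosetWeight, tsum_fintype]
  rw [lintegral_finsetSum _ fun q _ =>
    (measurable_fdWeight.comp (Newforms.measurable_SL_smul _) :
      Measurable fun τ => fdWeight (q.out • τ))]
  exact ENNReal.sum_ne_top.mpr fun q _ => lintegral_fdWeight_smul_ne_top q.out

/-- A finite weight times a value of norm at most `B`. -/
private theorem enorm_toReal_mul_le {a : ℝ≥0∞} (ha : a ≠ ⊤) {z : ℂ} {B : ℝ} (hz : ‖z‖ ≤ B) :
    ‖(a.toReal : ℂ) * z‖ₑ ≤ a * ENNReal.ofReal B := by
  rw [enorm_mul, ← ofReal_norm (a.toReal : ℂ), Complex.norm_real,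
    Real.norm_of_nonneg ENNReal.toReal_nonneg, ENNReal.ofReal_toReal ha, ← ofReal_norm]
  exact mul_le_mul' le_rfl (ENNReal.ofReal_le_ofReal hz)

/-- The input may be integrated against either weight. -/
private theorem integral_planeWeight_eq_fdCosetWeight (hN : N ≠ 0) (I : LiftInput N)
    (hw : IsWt (congGroup N) w) :
    ∫ τ, ((planeWeight N w τ).toReal : ℂ) * I.φ (planePoint τ) =
      ∫ τ, ((fdCosetWeight N τ).toReal : ℂ) * I.φ (planePoint τ) := by
  have : Countable (CongruenceSubgroup.Gamma (3 * N)) := Subtype.countable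
  obtain ⟨B, hB⟩ := I.bounded
  have h := tsum_integral_swap (1 : CongruenceSubgroup.Gamma (3 * N) →* Equiv.Perm Unit)
    (fun _ => volume) (fun γ _ => Newforms.measurePreserving_SL_smul (γ : SL(2, ℤ)))
    (W := fun _ => planeWeight N w) (W' := fun _ => fdCosetWeight N)
    (fun _ => measurable_planeWeight hw) (fun _ => measurable_fdCosetWeight)
    (fun _ => tsum_planeWeight_smul hw) (fun _ => tsum_fdCosetWeight_smul)
    (F := fun _ τ => I.φ (planePoint τ))
    (fun _ => (I.continuous.comp continuous_planePoint).measurable)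
    (fun γ _ τ => by
      show I.φ (planePoint ((γ : SL(2, ℤ)) • τ)) = _
      rw [← planeHom_smul]
      exact I.invariant _ (gammaHom N γ).2 _)
    (by
      rw [tsum_eq_single (() : Unit) (fun b hb => absurd rfl hb)]
      refine ne_top_of_le_ne_top (ENNReal.mul_ne_top (lintegral_planeWeight_ne_top hN hw)
        (ENNReal.ofReal_ne_top (r := B))) ?_
      rw [← lintegral_mul_const' _ _ ENNReal.ofReal_ne_top]
      refine lintegral_mono fun τ => mul_le_mul_right ?_ _
      rw [← ofReal_norm]
      exact ENNReal.ofReal_le_ofReal (hB _))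
  rwa [tsum_eq_single (() : Unit) (fun b hb => absurd rfl hb),
    tsum_eq_single (() : Unit) (fun b hb => absurd rfl hb)] at h

/-! ### The side of the period -/

/-- The weight of the standard domain is finite. -/
private theorem fdWeight_ne_top (τ : ℍ) : fdWeight τ ≠ ⊤ :=
  ne_top_of_le_ne_top (by by_cases h : τ ∈ ModularGroup.fd <;> simp [h]) (fdWeight_le τ)

/-- The weight of the standard domain is one half on the domain, almost everywhere. -/
private theorem integral_fdWeight_mul (f : ℍ → ℂ) :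
    ∫ τ, ((fdWeight τ).toReal : ℂ) * f τ = (2 : ℂ)⁻¹ * ∫ τ in ModularGroup.fd, f τ := by
  have hae : ModularGroup.fd =ᵐ[(volume : Measure ℍ)] ModularGroup.fdo := by
    refine (ae_eq_set.mpr ⟨Newforms.volume_fd_diff_fdo, ?_⟩)
    rw [Set.sdiff_eq_empty.mpr ModularGroup.fdo_subset_fd, measure_empty]
  rw [← integral_const_mul, setIntegral_congr_set hae,
    ← integral_indicator ModularGroup.isOpen_fdo.measurableSet]
  refine integral_congr_ae (hae.mem_iff.mono fun τ h => ?_)
  by_cases hm : τ ∈ ModularGroup.fdo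
  · rw [Set.indicator_of_mem hm]
    simp [fdWeight, ModularGroup.fdo_subset_fd hm, fdCount_of_mem_fdo hm]
  · have hm' : τ ∉ ModularGroup.fd := fun hh => hm (h.mp hh)
    simp [fdWeight, hm', hm]

/-- Against the standard domain, the integral is half the period. -/
private theorem integral_fdCosetWeight (hN : N ≠ 0) (I : LiftInput N) :
    ∫ τ, ((fdCosetWeight N τ).toReal : ℂ) * I.φ (planePoint τ) =
      (2 : ℂ)⁻¹ * ∑ᶠ q : SL(2, ℤ) ⧸ CongruenceSubgroup.Gamma (3 * N),
        ∫ τ in ModularGroup.fd, I.φ (planePoint (q.out⁻¹ • τ)) := by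
  have : NeZero (3 * N) := ⟨by omega⟩
  let := Fintype.ofFinite (SL(2, ℤ) ⧸ CongruenceSubgroup.Gamma (3 * N))
  obtain ⟨B, hB⟩ := I.bounded
  rw [finsum_eq_sum_of_fintype, Finset.mul_sum]
  have hint : ∀ q : SL(2, ℤ) ⧸ CongruenceSubgroup.Gamma (3 * N),
      Integrable fun τ : ℍ => ((fdWeight (q.out • τ)).toReal : ℂ) * I.φ (planePoint τ) := by
    intro q
    refine ⟨((continuous_ofReal.measurable.comp
      (measurable_fdWeight.comp (Newforms.measurable_SL_smul _)).ennreal_toReal).mul
        (I.continuous.comp continuous_planePoint).measurable).aestronglyMeasurable, ?_⟩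
    rw [HasFiniteIntegral]
    refine lt_of_le_of_lt (lintegral_mono fun τ =>
      enorm_toReal_mul_le (fdWeight_ne_top _) (hB (planePoint τ))) ?_
    rw [lintegral_mul_const' _ _ ENNReal.ofReal_ne_top]
    exact ENNReal.mul_lt_top (lintegral_fdWeight_smul_ne_top q.out).lt_top ENNReal.ofReal_lt_top
  simp only [fdCosetWeight, tsum_fintype, ENNReal.toReal_sum fun _ _ => fdWeight_ne_top _,
    Complex.ofReal_sum, Finset.sum_mul]
  rw [integral_finsetSum _ fun q _ => hint q]
  refine Finset.sum_congr rfl fun q _ => ?_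
  rw [← integral_fdWeight_mul, ← (Newforms.measurePreserving_SL_smul q.out).integral_comp
    (Newforms.measurableEmbedding_SL_smul _)
    fun τ => ((fdWeight τ).toReal : ℂ) * I.φ (planePoint (q.out⁻¹ • τ))]
  simp

/-! ### The side of the coefficient -/

/-- The integral against the translate of `w` by a coset. -/
private def cosetTerm (w : H3 → ℝ≥0∞) (φ : H3 → ℂ)
    (q : congGroup N ⧸ (gammaHom N).range) : ℂ :=
  ∫ τ, ((w ((q.out : GL (Fin 2) ℂ) • planePoint τ)).toReal : ℂ) * φ (planePoint τ)

/-- The integrals over the cosets converge absolutely. -/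
private theorem tsum_lintegral_cosetTerm_ne_top (hN : N ≠ 0) (I : LiftInput N)
    (hw : IsWt (congGroup N) w) :
    ∑' q : congGroup N ⧸ (gammaHom N).range, ∫⁻ τ,
      ‖((w ((q.out : GL (Fin 2) ℂ) • planePoint τ)).toReal : ℂ) * I.φ (planePoint τ)‖ₑ ≠ ⊤ := by
  have : Countable (congGroup N) := countable_congGroup N
  obtain ⟨B, hB⟩ := I.bounded
  refine ne_top_of_le_ne_top (b := (∫⁻ τ, planeWeight N w τ) * ENNReal.ofReal B)
    (ENNReal.mul_ne_top (lintegral_planeWeight_ne_top hN hw) ENNReal.ofReal_ne_top) ?_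
  simp only [planeWeight]
  rw [lintegral_tsum fun q => (measurable_smul_planePoint hw _).aemeasurable,
    ← ENNReal.tsum_mul_right]
  refine ENNReal.tsum_le_tsum fun q => ?_
  rw [← lintegral_mul_const' _ _ ENNReal.ofReal_ne_top]
  exact lintegral_mono fun τ =>
    enorm_toReal_mul_le (ne_top_of_le_ne_top ENNReal.one_ne_top (hw.le_one _)) (hB _)

/-- The integrals over the cosets are summable. -/
private theorem summable_cosetTerm (hN : N ≠ 0) (I : LiftInput N) (hw : IsWt (congGroup N) w) :
    Summable (cosetTerm (N := N) w I.φ) := by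
  have h := tsum_lintegral_cosetTerm_ne_top hN I hw
  refine Summable.of_norm_bounded (ENNReal.summable_toReal h) fun q =>
    (norm_integral_le_lintegral_norm _).trans
      (ENNReal.toReal_mono (ne_top_of_le_ne_top h (ENNReal.le_tsum q)) ?_)
  simp only [ofReal_norm, le_refl]

/-- The integral against `planeWeight` is the sum over the cosets. -/
private theorem integral_planeWeight_eq_tsum (hN : N ≠ 0) (I : LiftInput N)
    (hw : IsWt (congGroup N) w) :
    ∫ τ, ((planeWeight N w τ).toReal : ℂ) * I.φ (planePoint τ) =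
      ∑' q, cosetTerm (N := N) w I.φ q := by
  have : Countable (congGroup N) := countable_congGroup N
  refine Eq.trans (integral_congr_ae (Filter.Eventually.of_forall fun τ => ?_))
    (integral_tsum (f := fun (q : congGroup N ⧸ (gammaHom N).range) (τ : ℍ) =>
      ((w ((q.out : GL (Fin 2) ℂ) • planePoint τ)).toReal : ℂ) * I.φ (planePoint τ))
      (fun q => ((continuous_ofReal.measurable.comp
        (measurable_smul_planePoint hw _).ennreal_toReal).mul
          (I.continuous.comp continuous_planePoint).measurable).aestronglyMeasurable)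
      (tsum_lintegral_cosetTerm_ne_top hN I hw))
  simp only [planeWeight]
  rw [ENNReal.tsum_toReal_eq fun q => ne_top_of_le_ne_top ENNReal.one_ne_top (hw.le_one _),
    Complex.ofReal_tsum, tsum_mul_right]

/-! ### The fibres over the orbit -/

/-- The standard vector is a vector of norm one of level `N`. -/
private theorem planeVec_mem_Lvl_one : planeVec ∈ Lvl N 1 := by
  refine ⟨![0, 0, 1, 0], ⟨⟨by simp, by simp, by simp [offNorm, isCoprime_one_left]⟩, ?_⟩, ?_⟩
  · rw [show latVec ![0, 0, 1, 0] = planeVec by ext i; fin_cases i <;>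
        simp [latVec_apply, planeVec]]
    simp [Qf_planeVec]
  · ext i; fin_cases i <;> simp [latVec_apply, planeVec]

/-- The vector carried by a coset of `Γ(3N)`. -/
private def cosetVec (hN : N ≠ 0) (q : congGroup N ⧸ (gammaHom N).range) : Lvl N 1 :=
  ⟨act (q.out : GL (Fin 2) ℂ).val planeVec,
    (latSet_Lvl hN 1).stable _ q.out.2 _ planeVec_mem_Lvl_one⟩

/-- `cosetVec` is equivariant. -/
private theorem cosetVec_smul (hN : N ≠ 0) (g : congGroup N)
    (q : congGroup N ⧸ (gammaHom N).range) :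
    (cosetVec hN (g • q)).1 = act (g : GL (Fin 2) ℂ).val (cosetVec hN q).1 := by
  show act _ planeVec = act _ (act _ planeVec)
  conv_lhs => rw [← q.out_eq, MulAction.Quotient.smul_mk]
  obtain ⟨⟨_, γ, rfl⟩, hl⟩ := QuotientGroup.mk_out_eq_mul (gammaHom N).range (g • q.out)
  rw [hl, Subgroup.coe_mul, Units.val_mul, act_mul,
    show act ((gammaHom N γ : congGroup N) : GL (Fin 2) ℂ).val planeVec = planeVec from
      act_planeHom γ.1, smul_eq_mul, Subgroup.coe_mul, Units.val_mul, act_mul]

/-- The fibre over the standard vector is finite. -/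
private theorem finite_cosetVec_fibre (hN : N ≠ 0) :
    Finite {q // cosetVec hN q = ⟨planeVec, planeVec_mem_Lvl_one⟩} := by
  set X0 : Lvl N 1 := ⟨planeVec, planeVec_mem_Lvl_one⟩
  obtain ⟨R, -, hcov⟩ := exists_right_reps (by omega : 9 * N ≠ 0) (le_refl (principalGroup (9 * N)))
  have key : ∀ q : {q // cosetVec hN q = X0}, ∃ r : R,
      ((q.1.out⁻¹ : congGroup N) : GL (Fin 2) ℂ) * (r : GL (Fin 2) ℂ)⁻¹ ∈
        principalGroup (9 * N) := fun q => by
    obtain ⟨r, hr, hm⟩ := hcov _ (congGroup_mono (one_dvd N) (q.1.out⁻¹).2)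
    exact ⟨⟨r, hr⟩, hm⟩
  choose f hf using key
  refine Finite.of_injective f fun q q' h => Subtype.ext ?_
  rw [← q.1.out_eq, ← q'.1.out_eq]
  refine QuotientGroup.eq.mpr ?_
  have hm : ((q.1.out⁻¹ * q'.1.out : congGroup N) : GL (Fin 2) ℂ) ∈ principalGroup (9 * N) := by
    have := mul_mem (hf q) (inv_mem (hf q'))
    rw [h] at this
    simpa [mul_assoc] using this
  obtain ⟨γ, hγ⟩ := exists_gamma_of_fix hN hm (by
    have h1 : act (q.1.out : GL (Fin 2) ℂ).val planeVec = planeVec := congrArg Subtype.val q.2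
    have h2 : act (q'.1.out : GL (Fin 2) ℂ).val planeVec = planeVec := congrArg Subtype.val q'.2
    rw [Subgroup.coe_mul, Units.val_mul, act_mul, h2]
    conv_lhs => rw [← h1]
    rw [← act_mul, ← Units.val_mul, InvMemClass.coe_inv, inv_mul_cancel, Units.val_one, act_one])
  exact ⟨γ, hγ⟩

/-- The integral over a coset is the plane integral at its vector. -/
private theorem cosetTerm_eq (hN : N ≠ 0) (I : LiftInput N) (hw : IsWt (congGroup N) w)
    (q : congGroup N ⧸ (gammaHom N).range) :
    cosetTerm w I.φ q = ∫ R, wmul w I.φ R ∂planeMeas (cosetVec hN q).1 := by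
  have hQ : 0 < Qf (cosetVec hN q).1 := by
    rw [(latSet_Lvl hN 1).norm_eq _ (cosetVec hN q).2]; norm_num
  rw [integral_planeMeas hQ (g := (q.out : GL (Fin 2) ℂ)) rfl (measurable_wmul hw I.continuous)]
  refine integral_congr_ae (Filter.Eventually.of_forall fun τ => ?_)
  simp only [wmul]
  rw [I.invariant _ q.out.2]

/-- The sum over the cosets is a multiple of the first plane sum. -/
private theorem exists_tsum_cosetTerm_eq (hN : N ≠ 0) (I : LiftInput N)
    (hw : IsWt (congGroup N) w) :
    ∃ m : ℕ, ∑' q, cosetTerm (N := N) w I.φ q = (m : ℂ) * planeSum w I.φ (Lvl N 1) := by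
  set X0 : Lvl N 1 := ⟨planeVec, planeVec_mem_Lvl_one⟩
  have := finite_cosetVec_fibre hN
  let := Fintype.ofFinite {q // cosetVec hN q = X0}
  refine ⟨Fintype.card {q // cosetVec hN q = X0}, ?_⟩
  rw [planeSum, ← tsum_mul_left]
  have hcomp := (Equiv.sigmaFiberEquiv (cosetVec hN)).summable_iff.mpr (summable_cosetTerm hN I hw)
  simp only [Function.comp_def] at hcomp
  rw [← (Equiv.sigmaFiberEquiv (cosetVec hN)).tsum_eq (cosetTerm w I.φ), hcomp.tsum_sigma]
  refine tsum_congr fun X => ?_
  obtain ⟨g, hg, hgX⟩ := exists_congGroup_frame hN X.2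
  let e : {q // cosetVec hN q = X0} ≃ {q // cosetVec hN q = X} :=
    (MulAction.toPerm (⟨g, hg⟩ : congGroup N)).subtypeEquiv fun q => by
      rw [MulAction.toPerm_apply, Subtype.ext_iff, Subtype.ext_iff, cosetVec_smul]
      constructor
      · intro h; rw [h]; exact hgX
      · intro h
        have := congrArg (act (g⁻¹).val) (h.trans hgX.symm)
        rwa [← act_mul g⁻¹.val g.val (cosetVec hN q).1, ← act_mul g⁻¹.val g.val planeVec,
          ← Units.val_mul, inv_mul_cancel, Units.val_one, act_one, act_one] at this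
  rw [← e.tsum_eq, tsum_fintype]
  calc ∑ i, cosetTerm w I.φ (Equiv.sigmaFiberEquiv (cosetVec hN) ⟨X, e i⟩)
      = ∑ _i : {q // cosetVec hN q = X0}, ∫ R, wmul w I.φ R ∂planeMeas X.1 := by
        refine Finset.sum_congr rfl fun i _ => ?_
        rw [cosetTerm_eq hN I hw, Equiv.sigmaFiberEquiv_apply, (e i).2]
    _ = _ := by rw [Finset.sum_const, Finset.card_univ, nsmul_eq_mul]

/-! ### The first coefficient -/

theorem planeSum_one_ne_zero {N : ℕ} (hN : N ≠ 0) (I : LiftInput N) {w : H3 → ℝ≥0∞}
    (hw : IsWt (congGroup N) w) : planeSum w I.φ (Lvl N 1) ≠ 0 := by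
  intro h0
  -- unfolding `w` gives a multiple of the plane sum, folding to the standard domain the period
  obtain ⟨m, hm⟩ := exists_tsum_cosetTerm_eq hN I hw
  have h := integral_planeWeight_eq_fdCosetWeight hN I hw
  rw [integral_planeWeight_eq_tsum hN I hw, hm, h0, mul_zero, integral_fdCosetWeight hN I] at h
  exact I.period ((mul_eq_zero.mp h.symm).resolve_left (by norm_num))

end FLTAgent.LanglandsTunnell.Lift
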