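import Fermat.Agent.LanglandsTunnell.Lift.Hecke
import Fermat.Agent.LanglandsTunnell.Lift.Form
import Fermat.Agent.LanglandsTunnell.Lift.Period

/-!
# The analytic core of the lift

`coreSpec`: the lift of a `LiftInput` is a nonzero cusp form with the Eichler relations.  It
combines the form of `Form`, the relations of `Hecke` and the nonvanishing of `Period`.
-/

set_option autoImplicit false

noncomputable section

namespace FLTAgent.LanglandsTunnell.Lift

open FLTAgent.LanglandsTunnell MeasureTheory Complex ComplexConjugate Matrix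
open scoped ENNReal

theorem mass_pos {k : ℝ → ℝ} (hk : Continuous k) (h0 : ∀ x, 0 < k x) :
    ∫⁻ Q, ‖k (H3.coshDist H3.base Q)‖ₑ ∂H3.volH3 ≠ 0 := by
  have hm : Measurable fun Q => ‖k (H3.coshDist H3.base Q)‖ₑ :=
    (hk.comp (continuous_coshDist _)).measurable.enorm
  rw [H3.lintegral_vol hm]
  refine (ne_of_gt ?_)
  rw [setLIntegral_pos_iff (f := fun x : ℂ × ℝ => ENNReal.ofReal (1 / x.2 ^ 3) *
    ‖k (H3.coshDist H3.base (H3.mkPt x))‖ₑ)
    (H3.measurable_density.mul (hm.comp H3.measurable_mkPt))]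
  refine lt_of_lt_of_le (H3.isOpen_halfSpace.measure_pos volume ⟨(0, 1), by simp [H3.halfSpace]⟩)
    (measure_mono fun x hx => ⟨?_, hx⟩)
  have ht : 0 < x.2 := hx
  simp only [Function.mem_support, ne_eq, mul_eq_zero, not_or]
  refine ⟨?_, ?_⟩
  · simp [ht]
  · simp [(h0 _).ne']

variable {H : Subgroup (GL (Fin 2) ℂ)} {w : H3 → ℝ≥0∞} {q : ℝ} {Λ : Set HVec}

/-- The weight has finite total over the measures of a level. -/
theorem weight_sum_ne_top [Countable H] (hw : IsWt H w) (hΛ : LatSet H q Λ)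
    (η : Λ → Measure H3) [∀ X, SFinite (η X)]
    (hη : ∀ (h : H) X, MeasurePreserving ((h : GL (Fin 2) ℂ) • ·) (η X) (η (actPerm hΛ.stable h X)))
    {k : ℝ → ℝ} (hk : Continuous k) (h0 : ∀ x, 0 < k x) {α B : ℝ} (hα : 0 < α) (hB : 0 ≤ B)
    (hb : ∀ (X : Λ) P, ∫⁻ R, ‖k (H3.coshDist P R)‖ₑ ∂η X ≤
      ENNReal.ofReal (B * Real.exp (-α * Mf P X.1))) :
    ∑' X : Λ, ∫⁻ R, w R ∂η X ≠ ⊤ := by
  have := hΛ.countable
  intro e
  have h := tsum_lintegral_pairing (actPerm hΛ.stable) η hη hw (k := fun x => ‖k x‖ₑ)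
    hk.measurable.enorm
  rw [e, ENNReal.mul_top (mass_pos hk h0)] at h
  exact hΛ.pairing_finite hw η hα hB hb h

theorem continuous_expNeg : Continuous fun x : ℝ => Real.exp (-1 * x ^ 2) := by fun_prop

theorem abs_expNeg_le (x : ℝ) : |Real.exp (-1 * x ^ 2)| ≤ 1 * Real.exp (-1 * x ^ 2) := by
  rw [one_mul, Real.abs_exp]

variable {N : ℕ}

theorem pairFam_plane (hN : N ≠ 0) (hw : IsWt (congGroup N) w) : PairFam N w planeMeas 1 where
  sign := one_mul _
  mp X hX g := measurePreserving_planeMeas (by simpa using hX) g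
  scale X hX r hr := planeMeas_smul (by simpa using hX) hr
  fin n hn := by
    have hΛ := latSet_Lvl hN ((1 : ℤ) * n)
    have hq : (0 : ℝ) < (((1 : ℤ) * n : ℤ) : ℝ) := by simpa using hn
    refine weight_sum_ne_top hw hΛ (fun X => planeMeas X.1)
      (fun h X => measurePreserving_planeMeas (by rw [hΛ.norm_eq _ X.2]; exact hq) h.1)
      continuous_expNeg (fun x => Real.exp_pos _) (α := 1 / (2 * (((1 : ℤ) * n : ℤ) : ℝ)))
      (by positivity) (B := 1 * Real.pi / 1) (by positivity) fun X P => ?_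
    have := lintegral_plane_le one_pos zero_le_one abs_expNeg_le
      (by rw [hΛ.norm_eq _ X.2]; exact hq : 0 < Qf X.1) P
    rwa [hΛ.norm_eq _ X.2] at this

theorem pairFam_point (hN : N ≠ 0) (hw : IsWt (congGroup N) w) :
    PairFam N w (fun X => Measure.dirac (negPt X)) (-1) where
  sign := by norm_num
  mp X hX g := measurePreserving_dirac_negPt (by simpa using hX) g
  scale X hX r hr := by
    obtain ⟨a, ha, he⟩ := exists_eq_smul_ptVec (X := X) (by simpa using hX)
    rw [he, smul_smul, negPt_smul_ptVec (mul_ne_zero hr ha), negPt_smul_ptVec ha]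
  fin n hn := by
    have hΛ := latSet_Lvl hN ((-1 : ℤ) * n)
    have hq : (((-1 : ℤ) * n : ℤ) : ℝ) < 0 := by simpa using hn
    refine weight_sum_ne_top hw hΛ (fun X => Measure.dirac (negPt X.1))
      (fun h X => measurePreserving_dirac_negPt (by rw [hΛ.norm_eq _ X.2]; exact hq) h.1)
      continuous_expNeg (fun x => Real.exp_pos _) (α := 1 / (2 * -(((-1 : ℤ) * n : ℤ) : ℝ)))
      (div_pos one_pos (by linarith)) (B := 1) zero_le_one fun X P => ?_
    have := lintegral_dirac_le one_pos zero_le_one abs_expNeg_le continuous_expNeg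
      (by rw [hΛ.norm_eq _ X.2]; exact hq : Qf X.1 < 0) P
    rwa [hΛ.norm_eq _ X.2] at this

theorem lvlSum_eq_zero {φ : H3 → ℂ} {η : HVec → Measure H3} {s : ℤ} {n : ℕ}
    (h : ¬ n.Coprime N) : lvlSum N w φ η (s * n) = 0 := by
  have he : IsEmpty (Lvl N (s * n)) := ⟨fun X => h (by
    have h1 := Lvl_coprime X.2
    have : IsCoprime (n : ℤ) (N : ℤ) := h1.of_mul_left_right
    exact_mod_cast Int.isCoprime_iff_gcd_eq_one.mp this)⟩
  exact tsum_empty

/-- The relations of a lift whose coefficients are level sums. -/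
theorem eichler_of_lvlSum (hN : N ≠ 0) (I : LiftInput N) (hw : IsWt (congGroup N) w)
    {η : HVec → Measure H3} {s : ℤ} (hF : PairFam N w η s) {c : ℕ → ℂ} {C : ℂ}
    (hc : ∀ n : ℕ, c n = C * lvlSum N w I.φ η (s * n) / (Real.sqrt n : ℝ)) :
    (∀ n : ℕ, ¬ n.Coprime N → c n = 0) ∧
    (∀ p : ℕ, p.Prime → ¬ p ∣ 3 * N → ∀ π ∈ Eis, normSq π = p → ∀ n : ℕ,
      c (p * n) + (if p ∣ n then c (n / p) else 0) = I.A π * c n) ∧
    (∀ p : ℕ, p.Prime → p % 3 = 2 → ¬ p ∣ N → ∀ n : ℕ,
      c (p ^ 2 * n) + (if p ∣ n then 0 else c n) + (if p ^ 2 ∣ n then c (n / p ^ 2) else 0) =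
        I.A p * c n) := by
  have h0 : c 0 = 0 := by simp [hc]
  refine ⟨fun n hn => by rw [hc, lvlSum_eq_zero hn, mul_zero, zero_div],
    fun p hp hpN π hπ hnorm n => ?_, fun p hp hp3 hpN n => ?_⟩
  · rcases Nat.eq_zero_or_pos n with rfl | hn
    · simp [h0]
    have hm := lvlSum_split hN hF hw I hp hpN hπ hnorm hn
    rw [show ‖π‖ = Real.sqrt p by rw [Complex.norm_def, hnorm]] at hm
    have hsp : ((Real.sqrt p : ℝ) : ℂ) * (Real.sqrt p : ℝ) = (p : ℂ) := by
      rw [← Complex.ofReal_mul, Real.mul_self_sqrt (Nat.cast_nonneg p), Complex.ofReal_natCast]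
    have hsp0 : ((Real.sqrt p : ℝ) : ℂ) ≠ 0 := by
      exact_mod_cast (Real.sqrt_pos.mpr (by exact_mod_cast hp.pos)).ne'
    have hmul : ∀ a b : ℕ, ((Real.sqrt ((a * b : ℕ) : ℝ) : ℝ) : ℂ)
        = (Real.sqrt a : ℝ) * (Real.sqrt b : ℝ) := fun a b => by
      rw [Nat.cast_mul, Real.sqrt_mul (Nat.cast_nonneg a), Complex.ofReal_mul]
    simp only [hc, hmul]
    by_cases hd : p ∣ n
    · obtain ⟨m, rfl⟩ := hd
      simp only [dvd_mul_right, if_true, Nat.mul_div_cancel_left _ hp.pos] at hm ⊢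
      have hm0 : ((Real.sqrt m : ℝ) : ℂ) ≠ 0 := by
        exact_mod_cast (Real.sqrt_pos.mpr (by exact_mod_cast Nat.pos_of_mul_pos_left hn)).ne'
      rw [hmul]
      field_simp
      linear_combination (-C) * hm + C * lvlSum N w I.φ η (s * (m : ℕ)) * hsp
    · simp only [if_neg hd, mul_zero, add_zero] at hm ⊢
      have hn0 : ((Real.sqrt n : ℝ) : ℂ) ≠ 0 := by
        exact_mod_cast (Real.sqrt_pos.mpr (by exact_mod_cast hn)).ne'
      field_simp
      linear_combination (-C) * hm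
  · rcases Nat.eq_zero_or_pos n with rfl | hn
    · simp [h0]
    have hm := lvlSum_inert hN hF hw I hp hp3 hpN hn
    have hsq : ∀ b : ℕ, ((Real.sqrt ((p ^ 2 * b : ℕ) : ℝ) : ℝ) : ℂ)
        = (p : ℂ) * (Real.sqrt b : ℝ) := fun b => by
      rw [Nat.cast_mul, Nat.cast_pow, Real.sqrt_mul (by positivity),
          Real.sqrt_sq (Nat.cast_nonneg p),
        Complex.ofReal_mul, Complex.ofReal_natCast]
    have hp0 : (p : ℂ) ≠ 0 := Nat.cast_ne_zero.mpr hp.ne_zero
    have hp2 : 0 < p ^ 2 := pow_pos hp.pos 2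
    have hn0 : ((Real.sqrt n : ℝ) : ℂ) ≠ 0 := by
      exact_mod_cast (Real.sqrt_pos.mpr (by exact_mod_cast hn)).ne'
    simp only [hc, hsq]
    by_cases hd : p ∣ n
    · simp only [if_pos hd, add_zero] at hm ⊢
      by_cases hd2 : p ^ 2 ∣ n
      · obtain ⟨m, rfl⟩ := hd2
        simp only [dvd_mul_right, if_true, Nat.mul_div_cancel_left _ hp2] at hm ⊢
        have hm0 : ((Real.sqrt m : ℝ) : ℂ) ≠ 0 := by
          exact_mod_cast (Real.sqrt_pos.mpr (by exact_mod_cast Nat.pos_of_mul_pos_left hn)).ne'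
        rw [hsq]
        field_simp
        linear_combination (-C) * hm
      · simp only [if_neg hd2, mul_zero, add_zero] at hm ⊢
        field_simp
        linear_combination (-C) * hm
    · have hd2 : ¬ p ^ 2 ∣ n := fun h => hd ((dvd_pow_self p two_ne_zero).trans h)
      simp only [if_neg hd, if_neg hd2, add_zero] at hm ⊢
      field_simp
      linear_combination (-C) * hm

/-- The analytic core of the lift. -/
theorem coreSpec : CoreSpec := by
  intro N hN I
  obtain ⟨w, f, hw, hcf, hchar, hq⟩ := exists_form hN I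
  rcases hq with hq | ⟨hq, hne⟩
  · have hc : ∀ n : ℕ, ModularFormClass.qCoeff f n
        = (1 / 2 : ℂ) * lvlSum N w I.φ planeMeas (1 * n) / (Real.sqrt n : ℝ) := fun n => by
      rw [hq n, one_mul, show lvlSum N w I.φ planeMeas (n : ℤ) = planeSum w I.φ (Lvl N n) from rfl]
      push_cast
      ring
    have hne : f ≠ 0 := fun h0 => planeSum_one_ne_zero hN I hw (by
      have h := hq 1
      rw [h0, show ModularFormClass.qCoeff (0 : UpperHalfPlane → ℂ) 1 = 0 by
        simp [ModularFormClass.qCoeff, UpperHalfPlane.qExpansion_zero]] at h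
      simpa using h.symm)
    obtain ⟨h1, h2, h3⟩ := eichler_of_lvlSum hN I hw (pairFam_plane hN hw) hc
    exact ⟨f, hcf, hchar, hne, h1, h2, h3⟩
  · have hc : ∀ n : ℕ, ModularFormClass.qCoeff f n
        = (-(Real.pi : ℂ)) * lvlSum N w I.φ (fun X => Measure.dirac (negPt X)) ((-1) * n) /
          (Real.sqrt n : ℝ) := fun n => by
      have e : lvlSum N w I.φ (fun X => Measure.dirac (negPt X)) (-(n : ℤ))
          = pointSum w I.φ (Lvl N (-(n : ℤ))) := by
        simp only [lvlSum, pointSum, integral_dirac]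
      rw [hq n, neg_one_mul, e]
      ring
    obtain ⟨h1, h2, h3⟩ := eichler_of_lvlSum hN I hw (pairFam_point hN hw) hc
    exact ⟨f, hcf, hchar, hne, h1, h2, h3⟩

end FLTAgent.LanglandsTunnell.Lift
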