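import Fermat.Agent.LanglandsTunnell.Interfaces
import Fermat.Agent.LanglandsTunnell.Geom.H3Measure
import Fermat.Agent.MFIntegral.IsMF
import Fermat.Agent.WeightOneWiring.Core

/-!
# The theta lift from `H³` to weight one: concrete setting and interfaces

`ℚ(√-3)` is modelled inside `ℂ` by the Eisenstein integers, hermitian `2 × 2` matrices by their
real coordinates `(a, c, x, y)` with off diagonal entry `x + y ω`.  The lift consumes a
`LiftInput` and delivers a `LiftOutput`; `liftSpec_of` combines the three partial specifications.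
-/

set_option autoImplicit false

noncomputable section

namespace FLTAgent.LanglandsTunnell.Lift

open FLTAgent.LanglandsTunnell MeasureTheory Complex ComplexConjugate Matrix CongruenceSubgroup
open scoped MatrixGroups ModularForm

/-! ### Eisenstein integers -/

/-- `(-1 + √-3) / 2`. -/
def omega : ℂ := (-1 + (Real.sqrt 3 : ℂ) * I) / 2

/-- `x + y ω`. -/
def eis (x y : ℝ) : ℂ := (x : ℂ) + (y : ℂ) * omega

theorem sqrt_three_sq : (Real.sqrt 3 : ℂ) * Real.sqrt 3 = 3 := by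
  rw [← ofReal_mul, Real.mul_self_sqrt (by norm_num : (0 : ℝ) ≤ 3)]
  norm_num

theorem omega_sq : omega * omega = -1 - omega := by
  have h : ((Real.sqrt 3 : ℂ) * I) * ((Real.sqrt 3 : ℂ) * I) = -3 := by
    rw [mul_mul_mul_comm, sqrt_three_sq, I_mul_I]
    norm_num
  linear_combination (norm := (simp only [omega]; ring1)) h / 4

/-- The Eisenstein integers. -/
def Eis : Subring ℂ where
  carrier := {z | ∃ x y : ℤ, z = eis x y}
  zero_mem' := ⟨0, 0, by simp [eis]⟩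
  one_mem' := ⟨1, 0, by simp [eis]⟩
  add_mem' := by
    rintro _ _ ⟨x, y, rfl⟩ ⟨x', y', rfl⟩
    exact ⟨x + x', y + y', by simp [eis]; ring⟩
  neg_mem' := by
    rintro _ ⟨x, y, rfl⟩
    exact ⟨-x, -y, by simp [eis]; ring⟩
  mul_mem' := by
    rintro _ _ ⟨x, y, rfl⟩ ⟨x', y', rfl⟩
    refine ⟨x * x' - y * y', x * y' + y * x' - y * y', ?_⟩
    simp only [eis]
    push_cast
    linear_combination ((y : ℂ) * y') * omega_sq

/-! ### Congruence group and Hecke sets -/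

/-- Entries in the Eisenstein integers, diagonal modulo `N`. -/
def EisCong (N : ℕ) (M : Matrix (Fin 2) (Fin 2) ℂ) : Prop :=
  (∀ i j, M i j ∈ Eis) ∧ (∃ z ∈ Eis, M 0 1 = N * z) ∧ ∃ z ∈ Eis, M 1 0 = N * z

theorem EisCong.mul {N : ℕ} {A B : Matrix (Fin 2) (Fin 2) ℂ} (hA : EisCong N A)
    (hB : EisCong N B) : EisCong N (A * B) := by
  obtain ⟨hA, ⟨a, ha, hA01⟩, ⟨a', ha', hA10⟩⟩ := hA
  obtain ⟨hB, ⟨b, hb, hB01⟩, ⟨b', hb', hB10⟩⟩ := hB
  refine ⟨fun i j => ?_, ⟨A 0 0 * b + a * B 1 1,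
      add_mem (mul_mem (hA 0 0) hb) (mul_mem ha (hB 1 1)), ?_⟩,
    ⟨a' * B 0 0 + A 1 1 * b', add_mem (mul_mem ha' (hB 0 0)) (mul_mem (hA 1 1) hb'), ?_⟩⟩
  · rw [mul_apply]
    exact sum_mem fun l _ => mul_mem (hA i l) (hB l j)
  · rw [mul_apply, Fin.sum_univ_two, hA01, hB01]
    ring
  · rw [mul_apply, Fin.sum_univ_two, hA10, hB10]
    ring

/-- `GL(2)` of the Eisenstein integers, diagonal modulo `N`. -/
def congGroup (N : ℕ) : Subgroup (GL (Fin 2) ℂ) where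
  carrier := {g | EisCong N g.val ∧ EisCong N (g⁻¹).val}
  one_mem' := by
    have h : EisCong N (1 : Matrix (Fin 2) (Fin 2) ℂ) :=
      ⟨fun i j => by fin_cases i <;> fin_cases j <;> simp [zero_mem, one_mem],
        ⟨0, zero_mem _, by simp⟩, ⟨0, zero_mem _, by simp⟩⟩
    refine ⟨h, ?_⟩
    rw [inv_one]
    exact h
  mul_mem' {a b} ha hb := ⟨ha.1.mul hb.1, by
    rw [_root_.mul_inv_rev, Units.val_mul]
    exact hb.2.mul ha.2⟩
  inv_mem' {a} ha := ⟨ha.2, by rw [inv_inv]; exact ha.1⟩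

/-- A prime element away from `3 N`, normalised to be rational when inert. -/
def GoodPi (N : ℕ) (π : ℂ) : Prop :=
  π ∈ Eis ∧ ∃ p : ℕ, p.Prime ∧ ¬ p ∣ 3 * N ∧
    (normSq π = p ∨ p % 3 = 2 ∧ π = (p : ℂ))

/-- Matrices with determinant generating `(π)`, diagonal modulo `N`. -/
def heckeSet (N : ℕ) (π : ℂ) : Set (GL (Fin 2) ℂ) :=
  {δ | EisCong N δ.val ∧ ∃ u ∈ Eis, (∃ u' ∈ Eis, u * u' = 1) ∧ δ.val.det = u * π}

/-- Representatives of `congGroup N \ heckeSet N π`. -/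
def IsHeckeReps (N : ℕ) (π : ℂ) (R : Finset (GL (Fin 2) ℂ)) : Prop :=
  ↑R ⊆ heckeSet N π ∧ ∀ δ ∈ heckeSet N π, ∃! r, r ∈ R ∧ δ * r⁻¹ ∈ congGroup N

/-! ### What the lift consumes -/

/-- A cuspidal eigenfunction on `H³` for `congGroup N` with spectral parameter zero and nonzero
period over the plane `z ∈ iℝ`. -/
structure LiftInput (N : ℕ) : Type where
  φ : H3 → ℂ
  A : ℂ → ℂ
  continuous : Continuous φ
  bounded : ∃ C : ℝ, ∀ P, ‖φ P‖ ≤ C
  invariant : ∀ g ∈ congGroup N, ∀ P, φ (g • P) = φ P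
  spherical : ∀ k : ℝ → ℝ, Continuous k → HasCompactSupport k → ∀ P,
    ∫ Q, (k (H3.coshDist P Q) : ℂ) * φ Q ∂H3.volH3 = (sphValue k : ℂ) * φ P
  latticeBasis : Fin 2 → ℂ
  latticeBasis_span : ∀ z : ℂ, z ∈ Eis ↔ ∃ k : Fin 2 → ℤ, z = ∑ j, (k j : ℂ) * latticeBasis j
  cuspidal : ∀ g : GL (Fin 2) ℂ, (∀ i j, g.val i j ∈ Eis) → g.val.det = 1 →
    ∀ m : ℕ, m ≠ 0 → N ∣ m → ∀ P : H3,
      ∫ s in Set.univ.pi (fun _ : Fin 2 => Set.Icc (0 : ℝ) 1),
        φ (g • H3.shift (∑ j, (s j : ℂ) * ((m : ℂ) * latticeBasis j)) P) = 0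
  period : (∑ᶠ q : SL(2, ℤ) ⧸ CongruenceSubgroup.Gamma (3 * N),
    ∫ τ in ModularGroup.fd, φ (planePoint (q.out⁻¹ • τ))) ≠ 0
  eigen : ∀ π : ℂ, GoodPi N π → ∀ R : Finset (GL (Fin 2) ℂ), IsHeckeReps N π R → ∀ P,
    ∑ δ ∈ R, φ (δ • P) = (‖π‖ : ℂ) * A π * φ P

/-! ### What the lift delivers -/

/-- A nonzero weight one cusp form with the Eichler relations. -/
structure LiftOutput (N : ℕ) (A : ℂ → ℂ) (f : UpperHalfPlane → ℂ) : Prop where
  isCF : MFIntegral.IsCF 1 (Gamma1 (3 * N ^ 2)) f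
  char : ∀ γ : SL(2, ℤ), γ ∈ Gamma0 (3 * N ^ 2) →
    f ∣[(1 : ℤ)] γ = (WeightOneWiring.chiInt (γ 1 1) : ℂ) • f
  ne_zero : f ≠ 0
  support : ∀ n : ℕ, ¬ n.Coprime N → ModularFormClass.qCoeff f n = 0
  split : ∀ p : ℕ, p.Prime → ¬ p ∣ 3 * N → ∀ π ∈ Eis, normSq π = p → ∀ n : ℕ,
    ModularFormClass.qCoeff f (p * n) +
        (if p ∣ n then ModularFormClass.qCoeff f (n / p) else 0) =
      A π * ModularFormClass.qCoeff f n
  inert : ∀ p : ℕ, p.Prime → p % 3 = 2 → ¬ p ∣ N → ∀ n : ℕ,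
    ModularFormClass.qCoeff f (p ^ 2 * n) +
        (if p ∣ n then 0 else ModularFormClass.qCoeff f n) +
        (if p ^ 2 ∣ n then ModularFormClass.qCoeff f (n / p ^ 2) else 0) =
      A p * ModularFormClass.qCoeff f n

/-- The analytic core. -/
def CoreSpec : Prop := ∀ N : ℕ, N ≠ 0 → ∀ I : LiftInput N, ∃ f, LiftOutput N I.A f

/-- The eigen system has the prescribed values at split primes. -/
def MatchesSplit (D : Datum) (N : ℕ) (A : ℂ → ℂ) : Prop :=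
  ∀ p : ℕ, p.Prime → ¬ p ∣ 3 * N → ∀ V : ValuationSubring QB, V.LiesOverPrime p →
    ∀ σ : GQ, V.IsFrobeniusAt σ p → InQ8 (D.ρ σ) →
      ∃ π ∈ Eis, normSq π = p ∧ A π = trLift (D.ρ σ)

/-- The passage from the adelic model to the concrete one. -/
def BridgeSpec : Prop :=
  ∀ (D : Datum) (P : ExtPlaces D) N φ a, Descended D P N φ a → DiagInvariant φ →
    LanglandsTunnell.planePeriod N φ ≠ 0 → ∃ I : LiftInput N, MatchesSplit D N I.A

/-- The passage to a normalised eigenform. -/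
def EigenSpec : Prop :=
  ∀ (D : Datum) (N : ℕ), N ≠ 0 → (∀ q : ℕ, q.Prime → q ^ 2 ∣ N → q = 3 ∨ D.IsBad q) →
    (D.SplitAtThree → ¬ 3 ∣ N) → ∀ A f, LiftOutput N A f → MatchesSplit D N A →
      HasWeightOneForm D

/-- Assembly of the lift. -/
theorem liftSpec_of (hb : BridgeSpec) (hc : CoreSpec) (he : EigenSpec) : LiftSpec := by
  intro D P N φ a h hd hne
  obtain ⟨I, hI⟩ := hb D P N φ a h hd hne
  obtain ⟨f, hf⟩ := hc N h.ne_zero I
  exact he D N h.ne_zero h.squarefree_away h.three_not_dvd I.A f hf hI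

end FLTAgent.LanglandsTunnell.Lift
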