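import Fermat.Agent.LanglandsTunnell.Lift.Bridge.Spec
import Fermat.Agent.LanglandsTunnell.Lift.Core
import Fermat.Agent.LanglandsTunnell.Lift.Eigen.Spec

/-!
# The theta lift

`liftSpec` assembles the bridge from the adelic form, the analytic core and the passage to an
eigenform.  It is consumed by `LanglandsTunnell.Assembly`.
-/

set_option autoImplicit false

namespace FLTAgent.LanglandsTunnell.Lift

open FLTAgent.LanglandsTunnell

/-- The lift from the hyperbolic three space to weight one. -/
theorem liftSpec : LiftSpec := liftSpec_of bridgeSpec coreSpec eigenSpec

end FLTAgent.LanglandsTunnell.Lift
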