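import Mathlib

/-!
# Radial integrals on the upper half plane, in hyperboloid coordinates

`integral_radial_uhp` evaluates the integral of a function of the hyperbolic cosine of the
distance to `i` by an antiderivative, through the change of variables `hypMap`.  Used in
`Plane`.
-/

set_option autoImplicit false

noncomputable section

namespace FLTAgent.LanglandsTunnell.Lift

open MeasureTheory Set
open scoped Real NNReal ENNReal

/-- `cosh` of the distance to `i`. -/
def coshI (τ : UpperHalfPlane) : ℝ := (τ.re ^ 2 + τ.im ^ 2 + 1) / (2 * τ.im)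

/-- The third hyperboloid coordinate. -/
def hypW (p : ℝ × ℝ) : ℝ := Real.sqrt (1 + p.1 ^ 2 + p.2 ^ 2)

theorem hypW_pos (p : ℝ × ℝ) : 0 < hypW p := Real.sqrt_pos.mpr (by positivity)

theorem hypW_sq (p : ℝ × ℝ) : hypW p ^ 2 = 1 + p.1 ^ 2 + p.2 ^ 2 :=
  Real.sq_sqrt (by positivity)

theorem sub_pos_hypW (p : ℝ × ℝ) : 0 < hypW p - p.1 := by
  have h := hypW_sq p
  have := hypW_pos p
  rcases le_or_gt p.1 0 with h1 | h1
  · linarith
  · nlinarith [sq_nonneg p.2]

/-- From the hyperboloid to the upper half plane. -/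
def hypMap (p : ℝ × ℝ) : ℝ × ℝ := (p.2 * (hypW p - p.1)⁻¹, (hypW p - p.1)⁻¹)

theorem hypMap_image : hypMap '' univ = {x : ℝ × ℝ | 0 < x.2} := by
  refine Subset.antisymm ?_ fun x hx => ?_
  · rintro _ ⟨p, -, rfl⟩
    exact inv_pos.mpr (sub_pos_hypW p)
  · have hy : 0 < x.2 := hx
    refine ⟨((x.1 ^ 2 + x.2 ^ 2 - 1) / (2 * x.2), x.1 / x.2), mem_univ _, ?_⟩
    have hW : hypW ((x.1 ^ 2 + x.2 ^ 2 - 1) / (2 * x.2), x.1 / x.2)
        = (x.1 ^ 2 + x.2 ^ 2 + 1) / (2 * x.2) := by
      rw [hypW, Real.sqrt_eq_iff_mul_self_eq (by positivity) (by positivity)]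
      field_simp
      ring
    have he : hypW ((x.1 ^ 2 + x.2 ^ 2 - 1) / (2 * x.2), x.1 / x.2)
        - (x.1 ^ 2 + x.2 ^ 2 - 1) / (2 * x.2) = x.2⁻¹ := by
      rw [hW]; field_simp; ring
    refine Prod.ext ?_ ?_ <;> simp only [hypMap, he, inv_inv]
    field_simp

theorem hypMap_injective : Function.Injective hypMap := by
  intro p q h
  have h2 : hypW p - p.1 = hypW q - q.1 := inv_injective (congrArg Prod.snd h)
  have h1 := congrArg Prod.fst h
  simp only [hypMap, ← h2] at h1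
  have hp2 : p.2 = q.2 := mul_right_cancel₀ (inv_ne_zero (sub_pos_hypW p).ne') h1
  refine Prod.ext ?_ hp2
  have hp := hypW_sq p
  have hq := hypW_sq q
  rw [← hp2] at hq
  have hd : (hypW p - hypW q) * ((hypW p - p.1) + (hypW q - q.1)) = 0 := by
    have e : hypW p - hypW q = p.1 - q.1 := by linarith
    linear_combination hp - hq - (p.1 + q.1) * e
  rcases mul_eq_zero.mp hd with h3 | h3
  · linarith
  · linarith [sub_pos_hypW p, sub_pos_hypW q]

/-- The derivative of `hypMap`. -/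
def hypDeriv (p : ℝ × ℝ) : (ℝ × ℝ) →L[ℝ] ℝ × ℝ :=
  let y := (hypW p - p.1)⁻¹
  let W := hypW p
  (((p.2 * y / W) • ContinuousLinearMap.fst ℝ ℝ ℝ
    + (y - p.2 ^ 2 * y ^ 2 / W) • ContinuousLinearMap.snd ℝ ℝ ℝ).prod
    ((y / W) • ContinuousLinearMap.fst ℝ ℝ ℝ +
      (-(p.2 * y ^ 2 / W)) • ContinuousLinearMap.snd ℝ ℝ ℝ))

theorem det_hypDeriv (p : ℝ × ℝ) :
    (hypDeriv p).det = -((hypW p - p.1)⁻¹ ^ 2 / hypW p) := by
  set y := (hypW p - p.1)⁻¹ with hy
  set W := hypW p with hW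
  set e := Module.Basis.finTwoProd ℝ
  rw [ContinuousLinearMap.det, ← LinearMap.det_toMatrix e, Matrix.det_fin_two]
  simp [LinearMap.toMatrix_apply, hypDeriv, e, ← hy, ← hW]
  ring

theorem hasFDerivAt_hypMap (p : ℝ × ℝ) : HasFDerivAt hypMap (hypDeriv p) p := by
  have hne := (sub_pos_hypW p).ne'
  have hW : HasFDerivAt hypW
      ((1 / (2 * hypW p)) • ((2 * p.1) • ContinuousLinearMap.fst ℝ ℝ ℝ
        + (2 * p.2) • ContinuousLinearMap.snd ℝ ℝ ℝ)) p := by
    have h := ((((hasFDerivAt_fst (𝕜 := ℝ) (p := p)).pow 2).const_add 1).add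
      ((hasFDerivAt_snd (𝕜 := ℝ) (p := p)).pow 2)).sqrt
        (show (1 : ℝ) + p.1 ^ 2 + p.2 ^ 2 ≠ 0 by positivity)
    refine h.congr_fderiv ?_
    ext <;> simp [hypW]
  have hy := (hasDerivAt_inv hne).comp_hasFDerivAt p (hW.sub (hasFDerivAt_fst (𝕜 := ℝ) (p := p)))
  have hx := (hasFDerivAt_snd (𝕜 := ℝ) (p := p)).mul hy
  refine ((hx.prodMk hy).congr_fderiv ?_)
  have hWp := (hypW_pos p).ne'
  ext <;> simp [hypDeriv] <;> field_simp <;> ring

theorem integral_uhp (G : UpperHalfPlane → ℂ) :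
    ∫ τ, G τ = ∫ p : ℝ × ℝ, ((hypW p)⁻¹ : ℂ) * G (UpperHalfPlane.ofComplex
      ⟨(hypMap p).1, (hypMap p).2⟩) := by
  let g : ℝ × ℝ → ℂ := fun x =>
    ((x.2 ^ 2)⁻¹ : ℂ) * G (UpperHalfPlane.ofComplex ⟨x.1, x.2⟩)
  have h1 : ∫ τ, G τ = ∫ x in {x : ℝ × ℝ | 0 < x.2}, g x := by
    let f : ℂ → ℂ := fun z => ((z.im ^ 2)⁻¹ : ℂ) * G (UpperHalfPlane.ofComplex z)
    calc ∫ τ, G τ = ∫ τ : UpperHalfPlane, f τ ∂(volume.comap UpperHalfPlane.coe) := by
          rw [UpperHalfPlane.volume_def, integral_withDensity_eq_integral_smul (by fun_prop)]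
          refine integral_congr_ae (Filter.Eventually.of_forall fun τ => ?_)
          simp [f, NNReal.smul_def, UpperHalfPlane.coe_im]
      _ = ∫ z in UpperHalfPlane.upperHalfPlaneSet, f z := by
          rw [← UpperHalfPlane.measurableEmbedding_coe.integral_map f,
            UpperHalfPlane.measurableEmbedding_coe.map_comap, UpperHalfPlane.range_coe]
      _ = _ := (Complex.volume_preserving_equiv_real_prod.symm).setIntegral_preimage_emb
            Complex.measurableEquivRealProd.symm.measurableEmbedding f _ |>.symm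
  have himg := integral_image_eq_integral_abs_det_fderiv_smul volume MeasurableSet.univ
    (fun p _ => (hasFDerivAt_hypMap p).hasFDerivWithinAt) hypMap_injective.injOn g
  rw [hypMap_image, setIntegral_univ] at himg
  rw [h1, himg]
  refine integral_congr_ae (Filter.Eventually.of_forall fun p => ?_)
  simp only [g, det_hypDeriv, hypMap, abs_neg]
  have hy := sub_pos_hypW p
  have hWp := hypW_pos p
  rw [abs_of_pos (div_pos (pow_pos (inv_pos.mpr hy) 2) hWp), Complex.real_smul]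
  have : ((hypW p : ℂ) - (p.1 : ℂ)) ≠ 0 := by exact_mod_cast hy.ne'
  push_cast
  field_simp

theorem integral_radial_uhp {F : ℝ → ℂ} {H : ℝ → ℂ} (hder : ∀ x, HasDerivAt H (F x) x)
    (hint : IntegrableOn F (Ioi 1)) (hlim : Filter.Tendsto H Filter.atTop (nhds 0)) :
    ∫ τ, F (coshI τ) = -(2 * π * H 1 : ℂ) := by
  have hco : ∀ p, coshI (UpperHalfPlane.ofComplex ⟨(hypMap p).1, (hypMap p).2⟩) = hypW p := by
    intro p
    have hy : 0 < (hypMap p).2 := inv_pos.mpr (sub_pos_hypW p)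
    rw [UpperHalfPlane.ofComplex_apply_of_im_pos hy, coshI]
    simp only [UpperHalfPlane.re, UpperHalfPlane.im]
    have h := hypW_sq p
    have hne := (sub_pos_hypW p).ne'
    simp only [hypMap]
    field_simp
    linear_combination -h
  rw [integral_uhp]
  simp only [hco]
  rw [← integral_comp_polarCoord_symm, polarCoord_target, Measure.volume_eq_prod]
  let R : ℝ → ℂ := fun r => ((r / Real.sqrt (1 + r ^ 2) : ℝ) : ℂ) * F (Real.sqrt (1 + r ^ 2))
  have e : EqOn (fun p : ℝ × ℝ =>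
        p.1 • (((hypW (polarCoord.symm p))⁻¹ : ℂ) * F (hypW (polarCoord.symm p))))
      (fun p => R p.1 * (fun _ => (1 : ℂ)) p.2) (Ioi (0 : ℝ) ×ˢ Ioo (-π) π) := by
    intro p _
    have h : hypW (polarCoord.symm p) = Real.sqrt (1 + p.1 ^ 2) := by
      rw [hypW, polarCoord_symm_apply]
      congr 1
      linear_combination p.1 ^ 2 * Real.sin_sq_add_cos_sq p.2
    simp only [h, R, Complex.real_smul, mul_one]
    push_cast
    ring
  rw [setIntegral_congr_fun (measurableSet_Ioi.prod measurableSet_Ioo) e,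
    setIntegral_prod_mul R (fun _ : ℝ => (1 : ℂ)) (Ioi (0 : ℝ)) (Ioo (-π) π),
    setIntegral_const, Real.volume_real_Ioo_of_le (by linarith [Real.pi_pos] : -π ≤ π)]
  have hφ : ∀ r : ℝ, HasDerivAt (fun r => Real.sqrt (1 + r ^ 2)) (r / Real.sqrt (1 + r ^ 2)) r := by
    intro r
    have h := ((hasDerivAt_pow 2 r).const_add 1).sqrt (by positivity)
    refine h.congr_deriv ?_
    push_cast
    field_simp
  have himg : (fun r => Real.sqrt (1 + r ^ 2)) '' Ioi 0 = Ioi 1 := by
    refine Subset.antisymm ?_ fun x hx => ?_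
    · rintro _ ⟨r, hr, rfl⟩
      have : 0 < r ^ 2 := pow_pos hr 2
      exact Real.lt_sqrt_of_sq_lt (by linarith)
    · have hx1 : (1 : ℝ) < x := hx
      refine ⟨Real.sqrt (x ^ 2 - 1), Real.sqrt_pos.mpr (by nlinarith), ?_⟩
      show Real.sqrt (1 + Real.sqrt (x ^ 2 - 1) ^ 2) = x
      rw [Real.sq_sqrt (by nlinarith), Real.sqrt_eq_iff_mul_self_eq (by nlinarith) (by linarith)]
      ring
  have hinj : InjOn (fun r => Real.sqrt (1 + r ^ 2)) (Ioi 0) := fun a ha b hb h => by
    have := (Real.sqrt_inj (by positivity) (by positivity)).mp h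
    exact (pow_left_inj₀ (le_of_lt ha) (le_of_lt hb) two_ne_zero).mp (by linarith)
  have hR : ∫ r in Ioi (0 : ℝ), R r = ∫ x in Ioi (1 : ℝ), F x := by
    rw [← himg, integral_image_eq_integral_abs_deriv_smul measurableSet_Ioi
      (fun r _ => (hφ r).hasDerivWithinAt) hinj]
    refine setIntegral_congr_fun measurableSet_Ioi fun r hr => ?_
    rw [abs_of_pos (div_pos hr (by positivity)), Complex.real_smul]
  rw [hR, integral_Ioi_of_hasDerivAt_of_tendsto' (fun x _ => hder x) hint hlim]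
  simp
  ring

end FLTAgent.LanglandsTunnell.Lift
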