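import Fermat.Agent.LanglandsTunnell.Killing.Abel

/-!
# Radial integrals: extension of the mean value property and values on the spherical function

`spherical_extend` extends the mean value property from compactly supported radial kernels to
kernels with Gaussian decay (`IsGaussKer`); `sphValue_of_deriv` evaluates it on derivatives.
Used to compute the pairings in `Expand`.
-/

set_option autoImplicit false

noncomputable section

namespace FLTAgent.LanglandsTunnell.Lift

open FLTAgent.LanglandsTunnell MeasureTheory Filter Set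
open scoped Topology ENNReal Real

/-- Kernels with Gaussian decay. -/
def IsGaussKer (k : ℝ → ℝ) : Prop :=
  Continuous k ∧ ∃ a C : ℝ, 0 < a ∧ 0 ≤ C ∧ ∀ x, |k x| ≤ C * Real.exp (-a * x ^ 2)

/-- An element carrying the base point to `P`. -/
def toPt (P : H3) : GL (Fin 2) ℂ :=
  Matrix.GeneralLinearGroup.mkOfDetNeZero !![(P.t : ℂ), P.z; 0, 1]
    (by simpa [Matrix.det_fin_two_of] using P.t_ne_zero)

theorem toPt_smul (P : H3) : toPt P • H3.base = P := by
  refine H3.ext ?_ ?_
  · simp [H3.smul_z, H3.denom, toPt, H3.base, Matrix.GeneralLinearGroup.val_mkOfDetNeZero]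
  · simp [H3.smul_t, H3.denom, toPt, H3.base, Matrix.GeneralLinearGroup.val_mkOfDetNeZero,
      Matrix.det_fin_two, abs_of_pos P.t_pos]

theorem continuous_coshDist (P : H3) : Continuous fun Q => H3.coshDist P Q := by
  unfold H3.coshDist
  exact ((((continuous_norm.comp (continuous_const.sub H3.continuous_z)).pow 2).add
    continuous_const).add (H3.continuous_t.pow 2)).div (continuous_const.mul H3.continuous_t)
    fun Q => mul_ne_zero (mul_ne_zero two_ne_zero P.t_ne_zero) Q.t_ne_zero

theorem lintegral_coshDist (P : H3) {f : ℝ → ℝ≥0∞} (hf : Measurable f) :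
    ∫⁻ Q, f (H3.coshDist P Q) ∂H3.volH3 = ∫⁻ Q, f (H3.coshDist H3.base Q) ∂H3.volH3 := by
  rw [← H3.preserves (toPt P) (fun Q => f (H3.coshDist P Q))
      (hf.comp (continuous_coshDist P).measurable)]
  refine lintegral_congr fun Q => ?_
  nth_rewrite 1 [← toPt_smul P]
  rw [H3.coshDist_smul]

theorem integral_coshDist (P : H3) (f : ℝ → ℂ) :
    ∫ Q, f (H3.coshDist P Q) ∂H3.volH3 = ∫ Q, f (H3.coshDist H3.base Q) ∂H3.volH3 := by
  rw [← (H3.measurePreserving_smul (toPt P)).integral_comp
    (Homeomorph.smul (toPt P)).measurableEmbedding]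
  refine integral_congr_ae (Eventually.of_forall fun Q => ?_)
  simp only
  nth_rewrite 1 [← toPt_smul P]
  rw [H3.coshDist_smul]

theorem gauss_coshDist_le {a : ℝ} (ha : 0 < a) {t : ℝ} (ht : 0 < t) (z : ℂ) :
    1 / t ^ 3 * Real.exp (-a * H3.coshDist H3.base ⟨z, t, ht⟩ ^ 2) ≤
      (1 + (64 / a) ^ 2) * Real.exp (-(a / 16) * t ^ 2) * Real.exp (-(a / 8) * ‖z‖ ^ 2) := by
  have hC : H3.coshDist H3.base ⟨z, t, ht⟩ = (‖z‖ ^ 2 + 1 + t ^ 2) / (2 * t) := by
    simp [H3.coshDist, H3.base]
  rw [hC]
  set C := (‖z‖ ^ 2 + 1 + t ^ 2) / (2 * t) with hCdef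
  have h1 : t ^ 2 / 4 ≤ C ^ 2 := by
    have : t / 2 ≤ C := by
      rw [hCdef, le_div_iff₀ (by positivity)]; nlinarith [sq_nonneg ‖z‖]
    nlinarith
  have h2 : 1 / (4 * t ^ 2) ≤ C ^ 2 := by
    have h : 1 / (2 * t) ≤ C := by
      rw [hCdef]; gcongr; nlinarith [sq_nonneg ‖z‖]
    calc 1 / (4 * t ^ 2) = (1 / (2 * t)) ^ 2 := by ring
      _ ≤ C ^ 2 := pow_le_pow_left₀ (by positivity) h 2
  have h3 : ‖z‖ ^ 2 / 2 ≤ C ^ 2 := by
    rw [hCdef, div_pow, le_div_iff₀ (by positivity)]
    nlinarith [sq_nonneg ‖z‖, mul_nonneg (sq_nonneg ‖z‖) (sq_nonneg ‖z‖)]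
  have h4 : -a * C ^ 2 ≤ -(a / 16) * t ^ 2 + -(a / 8) * ‖z‖ ^ 2 + -(a / (16 * t ^ 2)) := by
    have e : a / (16 * t ^ 2) = a / 4 * (1 / (4 * t ^ 2)) := by ring
    rw [e]
    nlinarith [mul_le_mul_of_nonneg_left h1 ha.le, mul_le_mul_of_nonneg_left h2 ha.le,
      mul_le_mul_of_nonneg_left h3 ha.le, mul_nonneg ha.le (sq_nonneg C)]
  have h5 : 1 / t ^ 3 * Real.exp (-(a / (16 * t ^ 2))) ≤ 1 + (64 / a) ^ 2 := by
    rcases le_or_gt 1 t with h | h
    · have e1 : 1 / t ^ 3 ≤ 1 := by rw [div_le_one (by positivity)]; exact one_le_pow₀ h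
      have e2 : Real.exp (-(a / (16 * t ^ 2))) ≤ 1 := Real.exp_le_one_iff.mpr (by
        rw [neg_nonpos]; positivity)
      have := mul_le_one₀ e1 (Real.exp_pos _).le e2
      nlinarith [sq_nonneg (64 / a)]
    · set y := a / (16 * t ^ 2) with hy
      have hy0 : 0 < y := by positivity
      have he : y ^ 2 / 4 ≤ Real.exp y := by
        have := Real.add_one_le_exp (y / 2)
        have h6 : Real.exp y = Real.exp (y / 2) ^ 2 := by rw [← Real.exp_nat_mul]; ring_nf
        rw [h6]; nlinarith
      rw [Real.exp_neg, ← div_eq_mul_inv, div_le_iff₀ (Real.exp_pos _)]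
      calc 1 / t ^ 3 ≤ 1 / t ^ 4 := by
            apply one_div_le_one_div_of_le (by positivity)
            nlinarith [pow_pos ht 3]
        _ = (16 / a) ^ 2 * y ^ 2 := by rw [hy]; field_simp
        _ ≤ (1 + (64 / a) ^ 2) * (y ^ 2 / 4) := by
            rw [show (64 / a) ^ 2 = 16 * (16 / a) ^ 2 by ring]
            nlinarith [sq_nonneg y, mul_nonneg (sq_nonneg (16 / a)) (sq_nonneg y)]
        _ ≤ _ := mul_le_mul_of_nonneg_left he (by positivity)
  calc 1 / t ^ 3 * Real.exp (-a * C ^ 2)
      ≤ 1 / t ^ 3 * (Real.exp (-(a / (16 * t ^ 2))) * (Real.exp (-(a / 16) * t ^ 2)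
          * Real.exp (-(a / 8) * ‖z‖ ^ 2))) := by
        rw [← Real.exp_add, ← Real.exp_add]
        exact mul_le_mul_of_nonneg_left (Real.exp_le_exp.mpr (by linarith)) (by positivity)
    _ ≤ _ := by
        rw [← mul_assoc, mul_assoc (1 + _)]
        exact mul_le_mul_of_nonneg_right h5 (by positivity)

theorem integrable_gauss_complex {a : ℝ} (ha : 0 < a) :
    Integrable fun z : ℂ => Real.exp (-a * ‖z‖ ^ 2) := by
  have h := GaussianFourier.integrable_cexp_neg_mul_sq_norm_add (V := ℂ) (b := (a : ℂ))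
    (by simpa using ha) 0 0
  refine h.norm.congr (Eventually.of_forall fun z => ?_)
  simp [Complex.norm_exp, sq]

theorem lintegral_gauss_coshDist_lt_top {a : ℝ} (ha : 0 < a) (P : H3) :
    ∫⁻ Q, ENNReal.ofReal (Real.exp (-a * H3.coshDist P Q ^ 2)) ∂H3.volH3 < ⊤ := by
  have hm : Measurable fun x : ℝ => ENNReal.ofReal (Real.exp (-a * x ^ 2)) := by fun_prop
  rw [lintegral_coshDist P hm, H3.lintegral_vol
    (f := fun Q => ENNReal.ofReal (Real.exp (-a * H3.coshDist H3.base Q ^ 2)))
    (hm.comp (continuous_coshDist _).measurable)]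
  have hI : Integrable fun x : ℂ × ℝ =>
      (1 + (64 / a) ^ 2) * (Real.exp (-(a / 8) * ‖x.1‖ ^ 2) * Real.exp (-(a / 16) * x.2 ^ 2)) := by
    rw [Measure.volume_eq_prod]
    exact ((integrable_gauss_complex (by positivity)).mul_prod
      (integrable_exp_neg_mul_sq (by positivity))).const_mul _
  refine lt_of_le_of_lt ((setLIntegral_mono' H3.isOpen_halfSpace.measurableSet fun x hx => ?_).trans
    (setLIntegral_le_lintegral _ _)) hI.lintegral_lt_top
  have hp : H3.mkPt x = ⟨x.1, x.2, hx⟩ := dif_pos hx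
  simp only [hp]
  rw [← ENNReal.ofReal_mul (by have : 0 < x.2 := hx; positivity)]
  refine ENNReal.ofReal_le_ofReal ((gauss_coshDist_le ha hx x.1).trans_eq ?_)
  ring

theorem integrable_gauss_coshDist {a : ℝ} (ha : 0 < a) (P : H3) :
    Integrable (fun Q => Real.exp (-a * H3.coshDist P Q ^ 2)) H3.volH3 := by
  refine ⟨(Real.continuous_exp.comp (continuous_const.mul
    ((continuous_coshDist P).pow 2))).aestronglyMeasurable, ?_⟩
  rw [hasFiniteIntegral_iff_norm]
  simp only [Real.norm_eq_abs, Real.abs_exp]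
  exact lintegral_gauss_coshDist_lt_top ha P

theorem IsGaussKer.integrable {k : ℝ → ℝ} (hk : IsGaussKer k) (P : H3) :
    Integrable (fun Q => k (H3.coshDist P Q)) H3.volH3 := by
  obtain ⟨hc, a, C, ha, -, h⟩ := hk
  exact ((integrable_gauss_coshDist ha P).const_mul C).mono'
    (hc.comp (continuous_coshDist P)).aestronglyMeasurable (Eventually.of_forall fun Q => h _)

theorem self_le_cosh {r : ℝ} (hr : 0 ≤ r) : r ≤ Real.cosh r :=
  (Real.self_le_sinh_iff.mpr hr).trans (Real.sinh_lt_cosh r).le

theorem gauss_sinh_le {a : ℝ} (ha : 0 < a) {r : ℝ} (hr : 0 ≤ r) :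
    Real.exp (-a * Real.cosh r ^ 2) * r * Real.sinh r ≤ 2 / a * Real.exp (-(a / 2) * r ^ 2) := by
  have h1 : r ≤ Real.cosh r := self_le_cosh hr
  have hs0 : 0 ≤ Real.sinh r := Real.sinh_nonneg_iff.mpr hr
  have hc : 0 < Real.cosh r := Real.cosh_pos r
  set x := a / 2 * Real.cosh r ^ 2 with hx
  have h2 : r * Real.sinh r ≤ 2 / a * Real.exp x := by
    have h3 : r * Real.sinh r ≤ Real.cosh r ^ 2 := by
      rw [sq]; exact mul_le_mul h1 (Real.sinh_lt_cosh r).le hs0 hc.le
    refine h3.trans ?_
    rw [div_mul_eq_mul_div, le_div_iff₀ ha]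
    have := Real.add_one_le_exp x
    nlinarith
  calc Real.exp (-a * Real.cosh r ^ 2) * r * Real.sinh r
      ≤ Real.exp (-a * Real.cosh r ^ 2) * (2 / a * Real.exp x) := by
        rw [mul_assoc]; exact mul_le_mul_of_nonneg_left h2 (Real.exp_pos _).le
    _ = 2 / a * Real.exp (-(a / 2) * Real.cosh r ^ 2) := by
        rw [hx, mul_left_comm, ← Real.exp_add]; ring_nf
    _ ≤ _ := by
        refine mul_le_mul_of_nonneg_left (Real.exp_le_exp.mpr ?_) (by positivity)
        nlinarith [mul_le_mul_of_nonneg_left (pow_le_pow_left₀ hr h1 2) ha.le]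

theorem IsGaussKer.integrableOn_sph {k : ℝ → ℝ} (hk : IsGaussKer k) :
    IntegrableOn (fun r => k (Real.cosh r) * r * Real.sinh r) (Ioi 0) := by
  obtain ⟨hc, a, C, ha, hC, h⟩ := hk
  refine (((integrable_exp_neg_mul_sq (by positivity : 0 < a / 2)).const_mul
    (C * (2 / a))).integrableOn).mono'
    (((hc.comp Real.continuous_cosh).mul continuous_id).mul
      Real.continuous_sinh).aestronglyMeasurable
    ?_
  refine (ae_restrict_iff' measurableSet_Ioi).mpr (Eventually.of_forall fun r hr => ?_)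
  have hr' : 0 ≤ r := le_of_lt hr
  have hs0 : 0 ≤ Real.sinh r := Real.sinh_nonneg_iff.mpr hr'
  rw [Real.norm_eq_abs, abs_mul, abs_mul, abs_of_nonneg hr', abs_of_nonneg hs0]
  calc |k (Real.cosh r)| * r * Real.sinh r
      ≤ C * Real.exp (-a * Real.cosh r ^ 2) * r * Real.sinh r := by gcongr; exact h _
    _ ≤ C * (2 / a * Real.exp (-(a / 2) * r ^ 2)) := by
        rw [mul_assoc C, mul_assoc C]
        exact mul_le_mul_of_nonneg_left (gauss_sinh_le ha hr') hC
    _ = _ := by ring

/-- Continuous cut off. -/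
def cutoff (n : ℕ) (x : ℝ) : ℝ := max 0 (min 1 ((n : ℝ) + 1 - |x|))

theorem cutoff_props (n : ℕ) :
    Continuous (cutoff n) ∧ HasCompactSupport (cutoff n) ∧ ∀ x, |cutoff n x| ≤ 1 := by
  refine ⟨by unfold cutoff; fun_prop, ?_, fun x => ?_⟩
  · refine HasCompactSupport.intro (isCompact_closedBall (0 : ℝ) (n + 1)) fun x hx => ?_
    rw [Metric.mem_closedBall, dist_zero_right, Real.norm_eq_abs, not_le] at hx
    exact max_eq_left ((min_le_right _ _).trans (by linarith))
  · rw [cutoff, abs_of_nonneg (le_max_left _ _)]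
    exact max_le zero_le_one (min_le_left _ _)

theorem tendsto_cutoff (x : ℝ) : Tendsto (fun n => cutoff n x) atTop (𝓝 1) := by
  refine tendsto_const_nhds.congr' ?_
  filter_upwards [eventually_ge_atTop ⌈|x|⌉₊] with n hn
  have h : |x| ≤ (n : ℝ) := Nat.le_ceil _ |>.trans (by exact_mod_cast hn)
  rw [cutoff, min_eq_left (by linarith), max_eq_right zero_le_one]

/-- The mean value property for Gaussian kernels. -/
theorem spherical_extend {φ : H3 → ℂ} (hφc : Continuous φ) {B : ℝ} (hφb : ∀ P, ‖φ P‖ ≤ B)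
    (hsph : ∀ k : ℝ → ℝ, Continuous k → HasCompactSupport k → ∀ P,
      ∫ Q, (k (H3.coshDist P Q) : ℂ) * φ Q ∂H3.volH3 = (sphValue k : ℂ) * φ P)
    {k : ℝ → ℝ} (hk : IsGaussKer k) (P : H3) :
    ∫ Q, (k (H3.coshDist P Q) : ℂ) * φ Q ∂H3.volH3 = (sphValue k : ℂ) * φ P := by
  set kn : ℕ → ℝ → ℝ := fun n x => k x * cutoff n x with hkn
  have hn : ∀ n, Continuous (kn n) ∧ HasCompactSupport (kn n) := fun n =>
    ⟨hk.1.mul (cutoff_props n).1, (cutoff_props n).2.1.mul_left⟩
  have hle : ∀ n x, |kn n x| ≤ |k x| := fun n x => by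
    rw [hkn, abs_mul]; exact mul_le_of_le_one_right (abs_nonneg _) ((cutoff_props n).2.2 x)
  have hlim : ∀ x, Tendsto (fun n => kn n x) atTop (𝓝 (k x)) := fun x => by
    simpa [hkn] using (tendsto_cutoff x).const_mul (k x)
  have hB : 0 ≤ B := (norm_nonneg _).trans (hφb P)
  have h1 : Tendsto (fun n => ∫ Q, (kn n (H3.coshDist P Q) : ℂ) * φ Q ∂H3.volH3) atTop
      (𝓝 (∫ Q, (k (H3.coshDist P Q) : ℂ) * φ Q ∂H3.volH3)) := by
    refine tendsto_integral_of_dominated_convergence (fun Q => |k (H3.coshDist P Q)| * B)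
      (fun n => ((Complex.continuous_ofReal.comp ((hn n).1.comp (continuous_coshDist P))).mul
        hφc).aestronglyMeasurable) ((hk.integrable P).abs.mul_const B)
      (fun n => Eventually.of_forall fun Q => ?_)
      (Eventually.of_forall fun Q => ((Complex.continuous_ofReal.tendsto _).comp
        (hlim _)).mul_const _)
    rw [norm_mul, Complex.norm_real]
    exact mul_le_mul (hle n _) (hφb Q) (norm_nonneg _) (abs_nonneg _)
  have h2 : Tendsto (fun n => sphValue (kn n)) atTop (𝓝 (sphValue k)) := by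
    refine (tendsto_integral_of_dominated_convergence
      (fun r => |k (Real.cosh r) * r * Real.sinh r|)
      (fun n => (((hn n).1.comp Real.continuous_cosh).mul continuous_id).mul
        Real.continuous_sinh |>.aestronglyMeasurable) hk.integrableOn_sph.abs
      (fun n => Eventually.of_forall fun r => ?_)
      (Eventually.of_forall fun r => ((hlim _).mul_const r).mul_const _)).const_mul _
    simp only [Real.norm_eq_abs, Pi.mul_apply, Function.comp_apply, id_eq, abs_mul]
    exact mul_le_mul_of_nonneg_right (mul_le_mul_of_nonneg_right (hle n _) (abs_nonneg r))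
      (abs_nonneg _)
  refine tendsto_nhds_unique h1 ?_
  simp only [fun n => hsph (kn n) (hn n).1 (hn n).2 P]
  exact ((Complex.continuous_ofReal.tendsto _).comp h2).mul_const _

/-- Integration by parts for `k = -K'`. -/
theorem sphValue_of_deriv {K K' : ℝ → ℝ} (hK : ∀ x, HasDerivAt K (K' x) x)
    (hKg : IsGaussKer K) (hK'g : IsGaussKer K') :
    sphValue (fun x => -K' x) = 4 * π * ∫ r in Ioi (0 : ℝ), K (Real.cosh r) := by
  obtain ⟨hKc, a, C, ha, hC, hb⟩ := hKg
  have hi1 : IntegrableOn (fun r => K (Real.cosh r)) (Ioi 0) := by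
    refine (((integrable_exp_neg_mul_sq ha).const_mul C).integrableOn).mono'
      (hKc.comp Real.continuous_cosh).aestronglyMeasurable
      ((ae_restrict_iff' measurableSet_Ioi).mpr (Eventually.of_forall fun r hr => (hb _).trans ?_))
    refine mul_le_mul_of_nonneg_left (Real.exp_le_exp.mpr ?_) hC
    have h1 : r ≤ Real.cosh r := by
      exact self_le_cosh (le_of_lt hr)
    nlinarith [mul_le_mul_of_nonneg_left (pow_le_pow_left₀ (le_of_lt hr) h1 2) ha.le]
  have hi2 := hK'g.integrableOn_sph
  have hder : ∀ r, HasDerivAt (fun r => r * K (Real.cosh r))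
      (K (Real.cosh r) + K' (Real.cosh r) * r * Real.sinh r) r := fun r => by
    refine ((hasDerivAt_id r).mul ((hK _).comp r (Real.hasDerivAt_cosh r))).congr_deriv ?_
    simp
    ring
  have hlim : Tendsto (fun r => r * K (Real.cosh r)) atTop (𝓝 0) := by
    have h0 : Tendsto (fun r : ℝ => C * (r * Real.exp (-a * r))) atTop (𝓝 0) := by
      simpa using (tendsto_rpow_mul_exp_neg_mul_atTop_nhds_zero 1 a ha).const_mul C
    refine squeeze_zero_norm' ?_ h0
    filter_upwards [eventually_ge_atTop 1] with r hr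
    rw [Real.norm_eq_abs, abs_mul, abs_of_nonneg (by linarith : 0 ≤ r), mul_left_comm C]
    refine mul_le_mul_of_nonneg_left ((hb _).trans (mul_le_mul_of_nonneg_left
      (Real.exp_le_exp.mpr ?_) hC)) (by linarith)
    have h1 : r ≤ Real.cosh r := by
      first
        | exact self_le_cosh (le_of_lt hr)
        | exact self_le_cosh (by linarith)
    nlinarith [mul_le_mul_of_nonneg_left (pow_le_pow_left₀ (by linarith) h1 2) ha.le,
      mul_le_mul_of_nonneg_left (le_self_pow₀ hr two_ne_zero) ha.le]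
  have h := integral_Ioi_of_hasDerivAt_of_tendsto' (fun r _ => hder r) (hi1.add hi2) hlim
  rw [integral_add hi1 hi2] at h
  simp only [zero_mul, sub_zero] at h
  rw [sphValue]
  simp only [neg_mul, integral_neg]
  linear_combination (-(4 * π)) * h

theorem setIntegral_sinh (g : ℝ → ℝ) :
    ∫ r in Ioi (0 : ℝ), Real.cosh r * g (Real.sinh r) = ∫ s in Ioi (0 : ℝ), g s := by
  have himg : Real.sinh '' Ioi 0 = Ioi 0 := by
    refine Set.Subset.antisymm (fun x ⟨r, hr, h⟩ => h ▸ Real.sinh_pos_iff.mpr hr) fun x hx => ?_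
    exact ⟨Real.arsinh x, Real.arsinh_pos_iff.mpr hx, Real.sinh_arsinh x⟩
  conv_rhs => rw [← himg]
  rw [integral_image_eq_integral_abs_deriv_smul measurableSet_Ioi
    (fun r _ => (Real.hasDerivAt_sinh r).hasDerivWithinAt) Real.sinh_injective.injOn]
  exact setIntegral_congr_fun measurableSet_Ioi fun r _ => by
    simp [abs_of_pos (Real.cosh_pos r)]

/-- A kernel whose total mass differs from its value on the spherical function. -/
theorem exists_sphValue_ne_mass : ∃ k : ℝ → ℝ, IsGaussKer k ∧
    ∫ Q, (k (H3.coshDist H3.base Q) : ℂ) ∂H3.volH3 ≠ (sphValue k : ℂ) := by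
  let φ : ContDiffBump (0 : ℝ) := ⟨1, 2, one_pos, one_lt_two⟩
  have hG : Killing.IsBase (φ : ℝ → ℝ) := ⟨φ.contDiff, fun u => φ.neg u, φ.hasCompactSupport⟩
  set k := Killing.abelKernel (φ : ℝ → ℝ) with hk
  have hc : Continuous k := hG.continuous_abelKernel
  have hs : HasCompactSupport k := hG.hasCompactSupport_abelKernel
  have hgk : IsGaussKer k := by
    obtain ⟨R, hR1, hR⟩ := Killing.exists_support_bound hs
    obtain ⟨B, hB⟩ := hs.exists_bound_of_continuous hc
    refine ⟨hc, 1, max B 0 * Real.exp (R ^ 2), one_pos, by positivity, fun x => ?_⟩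
    by_cases hx : R < |x|
    · rw [hR x hx, abs_zero]; positivity
    · rw [mul_assoc, ← Real.exp_add]
      refine ((hB x).trans (le_max_left _ _)).trans (le_mul_of_one_le_right (le_max_right _ _)
        (Real.one_le_exp ?_))
      nlinarith [abs_nonneg x, sq_abs x, not_lt.mp hx]
  refine ⟨k, hgk, ?_⟩
  rw [integral_complex_ofReal, Ne, Complex.ofReal_inj, hG.sphValue_abelKernel]
  have hmass : ∫ Q, k (H3.coshDist H3.base Q) ∂H3.volH3 = ∫ u, Real.cosh u * φ u := by
    have hi := hgk.integrable H3.base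
    let f : ℂ × ℝ → ℝ := fun x => (1 / x.2 ^ 3) * k (H3.coshDist H3.base (H3.mkPt x))
    have h1 : ∫ Q, k (H3.coshDist H3.base Q) ∂H3.volH3 = ∫ x in H3.halfSpace, f x := by
      calc ∫ Q, k (H3.coshDist H3.base Q) ∂H3.volH3
          = ∫ Q, (fun x => k (H3.coshDist H3.base (H3.mkPt x))) (H3.coords Q) ∂H3.volH3 := by
            simp only [H3.mkPt_coords]
        _ = _ := by
            rw [← H3.measurableEmbedding_coords.integral_map
              (fun x => k (H3.coshDist H3.base (H3.mkPt x))), H3.volH3,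
              H3.measurableEmbedding_coords.map_comap, H3.range_coords,
              restrict_withDensity H3.isOpen_halfSpace.measurableSet,
              integral_withDensity_eq_integral_toReal_smul H3.measurable_density
                (Eventually.of_forall fun _ => ENNReal.ofReal_lt_top)]
            refine setIntegral_congr_fun H3.isOpen_halfSpace.measurableSet fun x hx => ?_
            have : 0 < x.2 := hx
            simp [f, ENNReal.toReal_ofReal (le_of_lt (by positivity : (0 : ℝ) < (x.2 ^ 3)⁻¹))]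
    have hfi : IntegrableOn f H3.halfSpace := by
      refine ⟨(((by fun_prop : Measurable fun x : ℂ × ℝ => 1 / x.2 ^ 3)).mul
        ((hc.comp (continuous_coshDist _)).measurable.comp
          H3.measurable_mkPt)).aestronglyMeasurable, ?_⟩
      have hh := hi.2
      rw [HasFiniteIntegral, H3.lintegral_vol (f := fun Q => ‖k (H3.coshDist H3.base Q)‖ₑ)
        (hc.comp (continuous_coshDist _)).measurable.enorm] at hh
      rw [HasFiniteIntegral]
      refine lt_of_eq_of_lt (setLIntegral_congr_fun H3.isOpen_halfSpace.measurableSet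
          fun x hx => ?_) hh
      have : 0 < x.2 := hx
      simp [f, enorm_mul, Real.enorm_eq_ofReal (by positivity : 0 ≤ (x.2 ^ 3)⁻¹)]
    have hhs : H3.halfSpace = Set.univ ×ˢ Ioi (0 : ℝ) := by
      ext x; simp [H3.halfSpace]
    rw [h1, hhs, Measure.volume_eq_prod, ← Measure.prod_restrict, Measure.restrict_univ]
    rw [hhs, IntegrableOn, Measure.volume_eq_prod, ← Measure.prod_restrict,
        Measure.restrict_univ] at hfi
    rw [integral_prod_symm _ hfi]
    have h2 : ∀ t ∈ Ioi (0 : ℝ), ∫ z : ℂ, f (z, t) = t⁻¹ ^ 2 * φ (Real.log t) := by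
      intro t ht
      have ht' : 0 < t := ht
      have e : ∀ z : ℂ, H3.mkPt (z, t) = ⟨z, t, ht'⟩ := fun z => dif_pos ht'
      simp only [f, e, integral_const_mul, Killing.integral_horosphere, hk, hG.abel_abelKernel,
        H3.base, div_one, one_mul]
      field_simp
    rw [setIntegral_congr_fun measurableSet_Ioi h2]
    have himg : Real.exp '' Set.univ = Ioi 0 := by rw [Set.image_univ, Real.range_exp]
    rw [← himg, integral_image_eq_integral_abs_deriv_smul MeasurableSet.univ
      (fun r _ => (Real.hasDerivAt_exp r).hasDerivWithinAt) Real.exp_injective.injOn,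
        setIntegral_univ]
    have he : ∀ u : ℝ, |Real.exp u| • ((Real.exp u)⁻¹ ^ 2 * φ (Real.log (Real.exp u)))
        = Real.exp (-u) * φ u := fun u => by
      rw [Real.log_exp, Real.abs_exp, smul_eq_mul, Real.exp_neg]
      field_simp
    simp only [he]
    have hI1 : Integrable fun u => Real.exp (-u) * φ u :=
      ((Real.continuous_exp.comp continuous_neg).mul φ.continuous).integrable_of_hasCompactSupport
        φ.hasCompactSupport.mul_left
    have hI2 : Integrable fun u => Real.exp u * φ u :=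
      (Real.continuous_exp.mul φ.continuous).integrable_of_hasCompactSupport
        φ.hasCompactSupport.mul_left
    have hsym : ∫ u, Real.exp u * φ u = ∫ u, Real.exp (-u) * φ u := by
      rw [← integral_neg_eq_self]
      simp [φ.neg]
    calc ∫ u, Real.exp (-u) * φ u
        = (∫ u, (Real.exp u * φ u + Real.exp (-u) * φ u)) / 2 := by
          rw [integral_add hI2 hI1, hsym]; ring
      _ = ∫ u, Real.cosh u * φ u := by
          rw [← integral_div]
          exact integral_congr_ae (Eventually.of_forall fun u => by simp [Real.cosh_eq]; ring)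
  rw [hmass]
  intro heq
  have hIc : Integrable fun u => Real.cosh u * φ u :=
    (Real.continuous_cosh.mul φ.continuous).integrable_of_hasCompactSupport
      φ.hasCompactSupport.mul_left
  have hpos : 0 < ∫ u, (Real.cosh u - 1) * φ u := by
    refine (Real.continuous_cosh.sub continuous_const |>.mul
        φ.continuous).integral_pos_of_hasCompactSupport_nonneg_nonzero
      φ.hasCompactSupport.mul_left (fun u => mul_nonneg (by linarith [Real.one_le_cosh u]) φ.nonneg)
      (x := 1) (mul_ne_zero ?_ ?_)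
    · linarith [Real.one_lt_cosh.mpr (one_ne_zero : (1 : ℝ) ≠ 0)]
    · exact ne_of_gt (φ.pos_of_mem_ball (by simp [φ]))
  have : ∫ u, (Real.cosh u - 1) * φ u = (∫ u, Real.cosh u * φ u) - ∫ u, φ u := by
    simp only [sub_mul, one_mul]
    exact integral_sub hIc φ.integrable
  linarith

end FLTAgent.LanglandsTunnell.Lift
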