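import Fermat.Agent.LanglandsTunnell.Lift.Herm
import Fermat.Agent.LanglandsTunnell.Lift.PlaneArea
import Fermat.Agent.LanglandsTunnell.Lift.Radial

/-!
# The planes attached to positive vectors, their measures and integrals of point pair kernels

A positive vector `X` cuts out a hyperbolic plane with a measure `planeMeas X`, equivariant under
`GL(2, ℂ)`; `integral_coshDist_plane` integrates radial kernels over it in terms of
`coshPlane`.
-/

set_option autoImplicit false

noncomputable section

namespace FLTAgent.LanglandsTunnell.Lift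

open FLTAgent.LanglandsTunnell MeasureTheory Complex ComplexConjugate Matrix Set
open scoped Real ENNReal NNReal UpperHalfPlane

theorem mat_planeVec : mat planeVec = !![0, 1; 1, 0] := by
  ext i j
  fin_cases i <;> fin_cases j <;> simp [mat, planeVec, offDiag, eis]

theorem continuous_planePoint : Continuous planePoint := by
  refine H3.continuous_mk_iff.mpr ⟨?_, ?_⟩
  · exact continuous_const.mul (continuous_ofReal.comp UpperHalfPlane.continuous_re)
  · exact continuous_const.mul UpperHalfPlane.continuous_im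

theorem sqrt_three_ne : (Real.sqrt 3 : ℂ) ≠ 0 := by
  exact_mod_cast (by positivity : Real.sqrt 3 ≠ 0)

/-- Existence of a frame. -/
theorem exists_frame {X : HVec} (h : 0 < Qf X) :
    ∃ g : GL (Fin 2) ℂ, act g.val planeVec = X := by
  suffices ∃ M : Matrix (Fin 2) (Fin 2) ℂ, M.det ≠ 0 ∧ M * mat planeVec * Mᴴ = mat X by
    obtain ⟨M, hM, he⟩ := this
    exact ⟨GeneralLinearGroup.mkOfDetNeZero M hM, mat_injective (by
      rw [mat_act, GeneralLinearGroup.val_mkOfDetNeZero, he])⟩
  set b := offDiag X with hb
  have hQ : Qf X = normSq b - X 0 * X 1 := by rw [hb, offDiag, normSq_eis]; rfl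
  have hN : (normSq b : ℂ) = b * conj b := (Complex.mul_conj b).symm
  rcases eq_or_ne (X 1) 0 with hc | hc
  · have hb0 : b ≠ 0 := fun hb0 => by rw [hQ, hc, hb0] at h; simp at h
    refine ⟨!![b, b * ((X 0 / (2 * normSq b) : ℝ) : ℂ); 0, 1],
        by simp [Matrix.det_fin_two_of, hb0], ?_⟩
    have hn : normSq b ≠ 0 := (normSq_pos.mpr hb0).ne'
    have hbc : conj b ≠ 0 := by simpa using hb0
    rw [mat_planeVec, mat]
    ext i j
    fin_cases i <;> fin_cases j <;>
      simp [Matrix.mul_apply, Fin.sum_univ_two, ← hb, hc, hN, map_ofNat]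
    all_goals field_simp
    all_goals ring
  · set u : ℝ := Real.sqrt (Qf X) / X 1 with hu
    have hu2 : u ^ 2 * X 1 ^ 2 = Qf X := by
      rw [hu, div_pow, Real.sq_sqrt h.le, div_mul_cancel₀ _ (pow_ne_zero 2 hc)]
    have hu0 : u ≠ 0 := div_ne_zero (Real.sqrt_pos.mpr h).ne' hc
    set z : ℂ := b / (X 1 : ℂ) with hz
    have hcC : (X 1 : ℂ) ≠ 0 := by exact_mod_cast hc
    have hzb : z * (X 1 : ℂ) = b := div_mul_cancel₀ _ hcC
    have hzb' : conj z * (X 1 : ℂ) = conj b := by
      rw [← hzb, map_mul, conj_ofReal]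
    have hQC : (u : ℂ) ^ 2 * (X 1 : ℂ) ^ 2 = b * conj b - (X 0 : ℂ) * (X 1 : ℂ) := by
      have : ((u ^ 2 * X 1 ^ 2 : ℝ) : ℂ) = ((normSq b - X 0 * X 1 : ℝ) : ℂ) := by rw [hu2, hQ]
      push_cast [hN] at this
      exact this
    refine ⟨!![(u : ℂ) + z, -(u : ℂ) * X 1 / 2 + z * X 1 / 2; 1, (X 1 : ℂ) / 2], ?_, ?_⟩
    · rw [Matrix.det_fin_two_of,
        show ((u : ℂ) + z) * ((X 1 : ℂ) / 2) - (-(u : ℂ) * X 1 / 2 + z * X 1 / 2) * 1
          = (u : ℂ) * X 1 by ring]
      exact mul_ne_zero (by exact_mod_cast hu0) hcC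
    · rw [mat_planeVec, mat]
      ext i j
      fin_cases i <;> fin_cases j <;> simp [Matrix.mul_apply, Fin.sum_univ_two, ← hb, map_ofNat]
      · refine mul_right_cancel₀ hcC ?_
        linear_combination (-1 : ℂ) * hQC + (conj z * (X 1 : ℂ)) * hzb + b * hzb'
      · linear_combination hzb
      · linear_combination hzb'

/-- A real matrix as an element preserving the plane. -/
def planeEmb (a b c d : ℝ) : Matrix (Fin 2) (Fin 2) ℂ :=
  !![(a : ℂ), (Real.sqrt 3 : ℂ) * I * b; -(I * c / (Real.sqrt 3 : ℂ)), (d : ℂ)]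

theorem det_planeEmb (a b c d : ℝ) : (planeEmb a b c d).det = ((a * d - b * c : ℝ) : ℂ) := by
  have h3 := sqrt_three_ne
  rw [planeEmb, Matrix.det_fin_two_of]
  push_cast
  field_simp
  linear_combination (b : ℂ) * c * I_sq

/-- The real matrix. -/
def realMat (a b c d : ℝ) (h : a * d - b * c ≠ 0) : GL (Fin 2) ℝ :=
  GeneralLinearGroup.mkOfDetNeZero !![a, b; c, d] (by rwa [Matrix.det_fin_two_of])

theorem smul_planePoint {ν : GL (Fin 2) ℂ} {a b c d : ℝ} (hν : ν.val = planeEmb a b c d)
    (h : a * d - b * c ≠ 0) (τ : ℍ) :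
    ν • planePoint τ = planePoint (realMat a b c d h • τ) := by
  set s : ℝ := Real.sqrt 3
  have hs : 0 < s := Real.sqrt_pos.mpr (by norm_num)
  have hsC := sqrt_three_ne
  have hm : ∀ i j, (realMat a b c d h) i j = (!![a, b; c, d] : Matrix (Fin 2) (Fin 2) ℝ) i j :=
    fun i j => rfl
  have hd : ((realMat a b c d h).det : ℝˣ).val = a * d - b * c := by
    simp [realMat, Matrix.det_fin_two]
  have hlin : ν.val 1 0 * (planePoint τ).z + ν.val 1 1 = ((c * τ.re + d : ℝ) : ℂ) := by
    simp only [hν, planeEmb, planePoint, Matrix.of_apply, Matrix.cons_val', Matrix.cons_val_zero,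
      Matrix.cons_val_one, Matrix.cons_val_fin_one]
    push_cast
    field_simp
    linear_combination -(c * (τ.re : ℂ)) * I_sq
  have hden : H3.denom ν (planePoint τ) = (c * τ.re + d) ^ 2 + (c * τ.im) ^ 2 := by
    rw [H3.denom, hlin, normSq_ofReal]
    simp only [hν, planeEmb, planePoint, Matrix.of_apply, Matrix.cons_val', Matrix.cons_val_zero,
      Matrix.cons_val_one, Matrix.cons_val_fin_one, normSq_neg, map_div₀, map_mul, normSq_I,
      normSq_ofReal]
    field_simp
  have hns : Complex.normSq (UpperHalfPlane.denom (realMat a b c d h) τ)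
      = (c * τ.re + d) ^ 2 + (c * τ.im) ^ 2 := by
    simp [UpperHalfPlane.denom, hm, normSq_apply]
    ring
  refine H3.ext ?_ ?_
  · rw [H3.smul_z, hden, hlin, conj_ofReal]
    show _ = (s : ℂ) * I * ((realMat a b c d h • τ).re : ℂ)
    rw [UpperHalfPlane.re_smul, Complex.div_re, hns]
    simp only [hν, planeEmb, planePoint, UpperHalfPlane.num, UpperHalfPlane.denom, hm,
      Matrix.of_apply, Matrix.cons_val', Matrix.cons_val_zero, Matrix.cons_val_one,
      Matrix.cons_val_fin_one, map_neg, map_div₀, map_mul, conj_I, conj_ofReal, Complex.add_re,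
      Complex.add_im, Complex.ofReal_re, Complex.ofReal_im, mul_re, mul_im,
      UpperHalfPlane.coe_re, UpperHalfPlane.coe_im]
    push_cast
    field_simp
    ring
  · rw [H3.smul_t, hden, hν, det_planeEmb, Complex.norm_real, Real.norm_eq_abs]
    show _ = s * (realMat a b c d h • τ).im
    rw [UpperHalfPlane.im_smul_eq_div_normSq, hd, hns]
    simp only [planePoint]
    ring

theorem smul_scalar_eq {g g' : GL (Fin 2) ℂ} {u : ℂ} (h : g'.val = u • g.val) (P : H3) :
    g' • P = g • P := by
  have hu : u ≠ 0 := by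
    rintro rfl
    have := g'.det_ne_zero
    rw [h, zero_smul, Matrix.det_zero] at this
    exact this rfl
  have hn : (‖u‖ : ℂ) ≠ 0 := by exact_mod_cast (norm_pos_iff.mpr hu).ne'
  have hn2 : (‖u‖ : ℂ) ^ 2 = conj u * u := by
    rw [← Complex.normSq_eq_conj_mul_self, Complex.normSq_eq_norm_sq]; push_cast; rfl
  refine H3.form_injective ?_
  rw [H3.form_smul, H3.form_smul, h, Matrix.det_smul, Fintype.card_fin, norm_mul, norm_pow,
    Matrix.conjTranspose_smul, Matrix.smul_mul, Matrix.smul_mul, Matrix.mul_smul, smul_smul,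
    smul_smul, Complex.star_def]
  congr 1
  push_cast
  rw [hn2]
  have hg : (‖g.val.det‖ : ℂ) ≠ 0 := by exact_mod_cast (norm_pos_iff.mpr g.det_ne_zero).ne'
  have hcu : conj u ≠ 0 := by simpa using hu
  field_simp

/-- The stabiliser of the plane. -/
theorem exists_realMat {ν : GL (Fin 2) ℂ} {μ : ℝ} (hμ : μ ≠ 0)
    (h : act ν.val planeVec = μ • planeVec) :
    ∃ γ : GL (Fin 2) ℝ, ∀ τ, ν • planePoint τ = planePoint (γ • τ) := by
  have hmat : ν.val * mat planeVec * ν.valᴴ = (μ : ℂ) • mat planeVec := by
    rw [← mat_act, h, mat_smul]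
  rw [mat_planeVec] at hmat
  set p := ν.val 0 0
  set q := ν.val 0 1
  set r := ν.val 1 0
  set w := ν.val 1 1
  have e00 : p * conj q + q * conj p = 0 := by
    simpa [Matrix.mul_apply, Fin.sum_univ_two, add_comm] using congrFun (congrFun hmat 0) 0
  have e01 : p * conj w + q * conj r = μ := by
    simpa [Matrix.mul_apply, Fin.sum_univ_two, add_comm] using congrFun (congrFun hmat 0) 1
  have e11 : r * conj w + w * conj r = 0 := by
    simpa [Matrix.mul_apply, Fin.sum_univ_two, add_comm] using congrFun (congrFun hmat 1) 1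
  obtain ⟨u, hu, hq, hr, hw, hp⟩ : ∃ u : ℂ, u ≠ 0 ∧ (u * q).re = 0 ∧ (u * r).re = 0 ∧
      (u * w).im = 0 ∧ (u * p).im = 0 := by
    have hμC : (μ : ℂ) ≠ 0 := by exact_mod_cast hμ
    by_cases hp : p = 0
    · rw [hp] at e01
      simp only [zero_mul, zero_add] at e01
      have hq : q ≠ 0 := left_ne_zero_of_mul (e01 ▸ hμC)
      refine ⟨I * conj q, mul_ne_zero I_ne_zero (by simpa using hq), ?_, ?_, ?_, by simp [hp]⟩
      · simp [mul_re]; ring
      · have := congrArg Complex.im (congrArg conj e01)
        simp only [map_mul, conj_conj, conj_ofReal, ofReal_im] at this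
        simp only [mul_assoc, mul_re, I_re, zero_mul, I_im, one_mul, zero_sub, neg_eq_zero]
        exact this
      · have hr : conj r ≠ 0 := right_ne_zero_of_mul (e01 ▸ hμC)
        have h1 : (conj r * w).re = 0 := by
          have := congrArg Complex.re e11
          simp [mul_re] at this ⊢
          linarith
        have h2 : conj q * w = (conj q * r) * (conj r * w) / (normSq r : ℂ) := by
          have hr' : r ≠ 0 := by simpa using hr
          rw [eq_div_iff (by exact_mod_cast (normSq_pos.mpr hr').ne'), ← Complex.mul_conj]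
          ring
        have h3 : conj q * r = (μ : ℂ) := by
          have := congrArg conj e01
          simpa using this
        rw [mul_assoc, h2, h3]
        simp [h1]
    · refine ⟨conj p, by simpa using hp, ?_, ?_, ?_, by simp [mul_im]; ring⟩
      · have := congrArg Complex.re e00
        simp [mul_re] at this ⊢
        linarith
      · have h1 : (conj w * r).re = 0 := by
          have := congrArg Complex.re e11
          simp [mul_re] at this ⊢
          linarith
        have e : conj p * r * (μ : ℂ) =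
            (normSq p : ℂ) * (conj w * r) + (conj p * q) * (normSq r : ℂ) := by
          rw [← e01, ← Complex.mul_conj, ← Complex.mul_conj]; ring
        have h2 : (conj p * q).re = 0 := by
          have := congrArg Complex.re e00
          simp [mul_re] at this ⊢
          linarith
        have := congrArg Complex.re e
        simp only [mul_re, ofReal_re, ofReal_im, add_re, mul_zero, sub_zero, zero_mul, h1, h2,
          add_zero] at this
        simpa [mul_re, hμ] using this
      · have e : conj p * w * (μ : ℂ) =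
            (normSq p : ℂ) * (normSq w : ℂ) + (conj p * q) * (conj r * w) := by
          rw [← e01, ← Complex.mul_conj, ← Complex.mul_conj]; ring
        have h1 : (conj r * w).re = 0 := by
          have := congrArg Complex.re e11
          simp [mul_re] at this ⊢
          linarith
        have h2 : (conj p * q).re = 0 := by
          have := congrArg Complex.re e00
          simp [mul_re] at this ⊢
          linarith
        have := congrArg Complex.im e
        simp only [mul_im, ofReal_re, ofReal_im, add_im, h1, h2, mul_zero, zero_mul,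
            add_zero] at this
        simpa [mul_im, hμ] using this
  have hdet : ((u • ν.val)).det ≠ 0 := by
    rw [Matrix.det_smul]; exact mul_ne_zero (pow_ne_zero _ hu) ν.det_ne_zero
  set ν' := GeneralLinearGroup.mkOfDetNeZero (u • ν.val) hdet with hν'
  have hsC := sqrt_three_ne
  have hs2 : Real.sqrt 3 * Real.sqrt 3 = 3 := Real.mul_self_sqrt (by norm_num)
  have hval : ν'.val = planeEmb (u * p).re ((u * q).im / Real.sqrt 3)
      (-((u * r).im * Real.sqrt 3)) (u * w).re := by
    rw [hν', GeneralLinearGroup.val_mkOfDetNeZero, planeEmb]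
    ext i j
    fin_cases i <;> fin_cases j <;> simp only [Matrix.smul_apply, smul_eq_mul] <;>
      apply Complex.ext <;>
      simp [hp, hq, hr, hw, p, q, r, w] at * <;> first | linarith | field_simp
  have hne : (u * p).re * (u * w).re - (u * q).im / Real.sqrt 3 *
      -((u * r).im * Real.sqrt 3) ≠ 0 := by
    intro h0
    have := ν'.det_ne_zero
    rw [hval, det_planeEmb, h0] at this
    exact this Complex.ofReal_zero
  refine ⟨realMat _ _ _ _ hne, fun τ => ?_⟩
  rw [← smul_planePoint hval hne, smul_scalar_eq (g := ν) (g' := ν') (u := u)]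
  exact GeneralLinearGroup.val_mkOfDetNeZero _ _

/-- A chosen frame. -/
def planeFrame (X : HVec) : GL (Fin 2) ℂ := if h : 0 < Qf X then (exists_frame h).choose else 1

/-- The area measure on the plane of a positive vector. -/
def planeMeas (X : HVec) : Measure H3 :=
  Measure.map (fun τ => planeFrame X • planePoint τ) volume

instance (X : HVec) : SFinite (planeMeas X) := by unfold planeMeas; infer_instance

theorem continuous_frame (g : GL (Fin 2) ℂ) : Continuous fun τ => g • planePoint τ :=
  (continuous_const_smul g).comp continuous_planePoint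

theorem planeMeas_eq {X : HVec} (hX : 0 < Qf X) {g : GL (Fin 2) ℂ} {r : ℝ} (hr : r ≠ 0)
    (hg : act g.val planeVec = r • X) :
    planeMeas X = Measure.map (fun τ => g • planePoint τ) volume := by
  have hf : act (planeFrame X).val planeVec = X := by
    rw [planeFrame, dif_pos hX]; exact (exists_frame hX).choose_spec
  obtain ⟨γ, hγ⟩ := exists_realMat (ν := g⁻¹ * planeFrame X) (μ := r⁻¹) (inv_ne_zero hr) (by
    rw [Units.val_mul, act_mul, hf]
    conv_lhs => rw [show X = r⁻¹ • act g.val planeVec by
        rw [hg, smul_smul, inv_mul_cancel₀ hr, one_smul]]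
    rw [map_smul, ← act_mul, ← Units.val_mul, inv_mul_cancel, Units.val_one, act_one])
  have e : (fun τ => planeFrame X • planePoint τ) = (fun τ => g • planePoint τ) ∘ (γ • ·) := by
    funext τ
    simp only [Function.comp_apply]
    rw [← hγ, mul_smul, smul_inv_smul]
  rw [planeMeas, e, ← Measure.map_map (continuous_frame g).measurable (measurable_const_smul γ),
    (measurePreserving_smul γ (volume : Measure ℍ)).map_eq]

theorem planeMeas_smul {X : HVec} (hX : 0 < Qf X) {r : ℝ} (hr : r ≠ 0) :
    planeMeas (r • X) = planeMeas X := by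
  have hX' : 0 < Qf (r • X) := by rw [Qf_smul]; positivity
  obtain ⟨g, hg⟩ := exists_frame hX'
  rw [planeMeas_eq hX' one_ne_zero (g := g) (by rw [hg, one_smul]), planeMeas_eq hX hr hg]

theorem Qf_act_pos {X : HVec} (hX : 0 < Qf X) (g : GL (Fin 2) ℂ) : 0 < Qf (act g.val X) := by
  rw [Qf_act]; exact mul_pos (normSq_pos.mpr g.det_ne_zero) hX

theorem planeMeas_act {X : HVec} (hX : 0 < Qf X) (g : GL (Fin 2) ℂ) :
    planeMeas (act g.val X) = Measure.map (g • ·) (planeMeas X) := by
  obtain ⟨h, hh⟩ := exists_frame hX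
  rw [planeMeas_eq (Qf_act_pos hX g) one_ne_zero (g := g * h)
      (by rw [Units.val_mul, act_mul, hh, one_smul]),
    planeMeas_eq hX one_ne_zero (g := h) (by rw [hh, one_smul]),
    Measure.map_map (continuous_const_smul g).measurable (continuous_frame h).measurable]
  simp only [Function.comp_def, mul_smul]

theorem measurePreserving_planeMeas {X : HVec} (hX : 0 < Qf X) (g : GL (Fin 2) ℂ) :
    MeasurePreserving (g • ·) (planeMeas X) (planeMeas (act g.val X)) :=
  ⟨(continuous_const_smul g).measurable, (planeMeas_act hX g).symm⟩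

theorem integral_planeMeas {X : HVec} (hX : 0 < Qf X) {g : GL (Fin 2) ℂ}
    (hg : act g.val planeVec = X) {f : H3 → ℂ} (hf : Measurable f) :
    ∫ R, f R ∂planeMeas X = ∫ τ, f (g • planePoint τ) := by
  rw [planeMeas_eq hX one_ne_zero (g := g) (by rw [hg, one_smul]),
    integral_map (continuous_frame g).aemeasurable hf.aestronglyMeasurable]

/-! ### Point pair kernels on a plane -/

/-- `cosh` of the distance to the plane. -/
def coshPlane (P : H3) (X : HVec) : ℝ := Real.sqrt (1 + Tf P X ^ 2 / Qf X)

theorem integral_coshDist_plane {k : ℝ → ℂ} {K : ℝ → ℂ} (hkc : Continuous k)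
    (hK : ∀ x, HasDerivAt K (-k x) x) (hlim : Filter.Tendsto K Filter.atTop (nhds 0))
    (hint : ∀ C : ℝ, 1 ≤ C → IntegrableOn k (Ioi C)) {X : HVec} (hX : 0 < Qf X) (P : H3) :
    ∫ R, k (H3.coshDist P R) ∂planeMeas X
      = 2 * π * K (coshPlane P X) / (coshPlane P X : ℝ) := by
  obtain ⟨g, hg⟩ := exists_frame hX
  rw [integral_planeMeas hX hg (f := fun R => k (H3.coshDist P R))
    (hkc.measurable.comp ((continuous_coshDist P).measurable))]
  set P' := g⁻¹ • P with hP'
  have hn : ‖g.val.det‖ ^ 2 = Qf X := by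
    rw [← hg, Qf_act, Qf_planeVec, mul_one, Complex.normSq_eq_norm_sq]
  have hT : Tf P X = ‖g.val.det‖ * Tf P' planeVec := by
    rw [← hg, ← Tf_smul, hP', smul_inv_smul]
  set C := coshPlane P X with hC
  have hC2 : C = Real.sqrt (1 + (P'.z.re / P'.t) ^ 2) := by
    rw [hC, coshPlane, hT, Tf_planeVec, mul_pow, hn, mul_comm, mul_div_assoc, div_self hX.ne',
      mul_one]
    congr 2
    ring
  have hC1 : 1 ≤ C := by
    rw [hC2]; exact Real.one_le_sqrt.mpr (le_add_of_nonneg_right (sq_nonneg _))
  have ht := P'.t_pos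
  set S := P'.t * C with hS
  have hS0 : 0 < S := mul_pos ht (by linarith)
  let γ := realMat (Real.sqrt 3) (-P'.z.im) 0 S
    (by rw [mul_zero, sub_zero]; exact mul_ne_zero (by positivity) hS0.ne')
  have hd : ∀ τ : ℍ, H3.coshDist P (g • planePoint τ) = C * coshI (γ • τ) := by
    intro τ
    rw [show H3.coshDist P (g • planePoint τ) = H3.coshDist P' (planePoint τ) by
      rw [hP', ← H3.coshDist_smul g (g⁻¹ • P) (planePoint τ), smul_inv_smul]]
    have him : (γ • τ).im = Real.sqrt 3 * τ.im / S := by
      rw [UpperHalfPlane.im_smul_eq_div_normSq]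
      have hm : ∀ i j, γ i j = (!![Real.sqrt 3, -P'.z.im; 0, S] : Matrix (Fin 2) (Fin 2) ℝ) i j :=
        fun i j => rfl
      simp [UpperHalfPlane.denom, γ, realMat, Matrix.det_fin_two, abs_of_pos hS0,
        Complex.normSq_ofReal, abs_of_pos (show (0 : ℝ) < Real.sqrt 3 by positivity)]
      field_simp
    have hre : (γ • τ).re = (Real.sqrt 3 * τ.re - P'.z.im) / S := by
      rw [UpperHalfPlane.re_smul]
      have hm : ∀ i j, γ i j = (!![Real.sqrt 3, -P'.z.im; 0, S] : Matrix (Fin 2) (Fin 2) ℝ) i j :=
        fun i j => rfl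
      simp [UpperHalfPlane.num, UpperHalfPlane.denom, hm, Complex.div_ofReal_re, sub_eq_add_neg]
    have hCsq : C ^ 2 = 1 + (P'.z.re / P'.t) ^ 2 := by
      rw [hC2, Real.sq_sqrt (by positivity)]
    rw [coshI, him, hre, H3.coshDist_eq]
    have hτ := τ.im_pos
    have h3 : (0 : ℝ) < Real.sqrt 3 := by positivity
    simp only [planePoint, normSq_apply, Complex.sub_re, Complex.sub_im, mul_re, mul_im, ofReal_re,
      ofReal_im, I_re, I_im]
    have hCsq' : C ^ 2 * P'.t ^ 2 = P'.t ^ 2 + P'.z.re ^ 2 := by
      rw [hCsq]; field_simp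
    rw [hS]
    field_simp
    linear_combination (-1 : ℝ) * hCsq'
  simp only [hd]
  rw [(measurePreserving_smul γ (volume : Measure ℍ)).integral_comp
    (MeasurableEquiv.smul γ).measurableEmbedding fun σ => k (C * coshI σ)]
  have hCpos : 0 < C := by linarith
  have hCC : (C : ℂ) ≠ 0 := by exact_mod_cast hCpos.ne'
  rw [integral_radial_uhp (F := fun x => k (C * x)) (H := fun x => -(K (C * x) / (C : ℂ)))]
  · rw [mul_one]; ring
  · intro x
    have h1 := ((hK (C * x)).scomp x ((hasDerivAt_id x).const_mul C)).div_const (C : ℂ) |>.neg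
    refine h1.congr_deriv ?_
    simp [Complex.real_smul]
    field_simp
  · have := (integrableOn_Ioi_comp_mul_left_iff k 1 hCpos).mpr (by rw [mul_one]; exact hint C hC1)
    exact this
  · simpa using ((hlim.comp (Filter.tendsto_id.const_mul_atTop hCpos)).div_const (C : ℂ)).neg

end FLTAgent.LanglandsTunnell.Lift
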