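import Fermat.Agent.LanglandsTunnell.Lift.Kernels
import Fermat.Agent.LanglandsTunnell.Seed.Poisson

/-!
# The lattice, its dual, and summability of the theta series

The lattice vectors `latVec`, the dual vectors `dualVec` for the bilinear form `Bf` with their
integrality, and `IsKernel.summable_lat`: kernels are summable over translated lattices.
-/

set_option autoImplicit false

noncomputable section

namespace FLTAgent.LanglandsTunnell.Lift

open FLTAgent.LanglandsTunnell FLTAgent.LanglandsTunnell.Seed MeasureTheory Complex Matrix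
open scoped Real

/-- An integral vector. -/
def latVec (n : Fin 4 → ℤ) : HVec := intVec n

theorem latVec_apply (n : Fin 4 → ℤ) (i : Fin 4) : latVec n i = (n i : ℝ) := rfl

/-- Identifies functionals with vectors through `Bf`. -/
def dualLin : HVec →ₗ[ℝ] HVec where
  toFun m := ![-(m 1), -(m 0), (2 * m 2 + m 3) / 3, (m 2 + 2 * m 3) / 3]
  map_add' m m' := by ext i; fin_cases i <;> simp <;> ring
  map_smul' r m := by ext i; fin_cases i <;> simp <;> ring

/-- A vector of the dual lattice. -/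
def dualVec (n : Fin 4 → ℤ) : HVec := dualLin (latVec n)

theorem Bf_dualLin (X m : HVec) : Bf X (dualLin m) = ∑ i, m i * X i := by
  simp [Bf, dualLin, Fin.sum_univ_four]
  ring

theorem Bf_comm (X Y : HVec) : Bf X Y = Bf Y X := by simp only [Bf]; ring

theorem Bf_add_left (X X' Y : HVec) : Bf (X + X') Y = Bf X Y + Bf X' Y := by
  simp only [Bf, Pi.add_apply]; ring

theorem Bf_add_right (X Y Y' : HVec) : Bf X (Y + Y') = Bf X Y + Bf X Y' := by
  simp only [Bf, Pi.add_apply]; ring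

theorem Bf_smul_left (r : ℝ) (X Y : HVec) : Bf (r • X) Y = r * Bf X Y := by
  simp only [Bf, Pi.smul_apply, smul_eq_mul]; ring

theorem Bf_smul_right (r : ℝ) (X Y : HVec) : Bf X (r • Y) = r * Bf X Y := by
  simp only [Bf, Pi.smul_apply, smul_eq_mul]; ring

theorem Bf_self (X : HVec) : Bf X X = 2 * Qf X := by simp only [Bf, Qf]; ring

theorem Bf_neg_right (X Y : HVec) : Bf X (-Y) = -Bf X Y := by
  simp only [Bf, Pi.neg_apply]; ring

theorem Bf_neg_left (X Y : HVec) : Bf (-X) Y = -Bf X Y := by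
  simp only [Bf, Pi.neg_apply]; ring

theorem Qf_latVec (n : Fin 4 → ℤ) : ∃ k : ℤ, Qf (latVec n) = k :=
  ⟨n 2 * n 2 - n 2 * n 3 + n 3 * n 3 - n 0 * n 1, by simp [Qf, latVec_apply]⟩

theorem three_mul_Qf_dualVec (m : Fin 4 → ℤ) : ∃ k : ℤ, 3 * Qf (dualVec m) = k := by
  refine ⟨m 2 * m 2 + m 2 * m 3 + m 3 * m 3 - 3 * (m 0 * m 1), ?_⟩
  simp [Qf, dualVec, dualLin, latVec_apply]
  ring

theorem Bf_latVec (n m : Fin 4 → ℤ) : ∃ k : ℤ, Bf (latVec n) (latVec m) = k :=
  ⟨2 * (n 2 * m 2) - (n 2 * m 3 + n 3 * m 2) + 2 * (n 3 * m 3) - (n 0 * m 1 + n 1 * m 0),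
    by simp [Bf, latVec_apply]⟩

theorem Bf_latVec_dualVec (n m : Fin 4 → ℤ) : ∃ k : ℤ, Bf (latVec n) (dualVec m) = k :=
  ⟨∑ i, m i * n i, by rw [dualVec, Bf_dualLin]; simp [latVec_apply]⟩

theorem dualLin_injective : Function.Injective dualLin := by
  intro m m' h
  have h' := fun i => congrFun h i
  ext i
  have h0 := h' 0; have h1 := h' 1; have h2 := h' 2; have h3 := h' 3
  simp [dualLin] at h0 h1 h2 h3
  fin_cases i <;> simp <;> linarith

/-! ### Gaussian sums over lattices -/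

/-- Locally uniform summability of Gaussians along a lattice. -/
theorem exists_gauss_bound (P : H3) {L : HVec →ₗ[ℝ] HVec} (hL : Function.Injective L) {a : ℝ}
    (ha : 0 < a) (R : ℝ) :
    ∃ u : (Fin 4 → ℤ) → ℝ, Summable u ∧
      ∀ x : HVec, ‖x‖ ≤ R → ∀ n, Real.exp (-a * Mf P (L (latVec n) + x)) ≤ u n := by
  obtain ⟨c, hc, hcM⟩ := exists_Mf_lower P
  obtain ⟨K, hK, hKb⟩ := L.exists_antilipschitzWith (LinearMap.ker_eq_bot.mpr hL)
  have hK' : (0 : ℝ) < K := NNReal.coe_pos.mpr hK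
  set b : ℝ := a * c / (8 * (K : ℝ) ^ 2) with hb
  have hb0 : 0 < b := by positivity
  refine ⟨fun n => Real.exp (a * c * R ^ 2) * ∏ i, Real.exp (-b * (n i : ℝ) ^ 2),
    (summable_pi_prod (f := fun _ k => Real.exp (-b * (k : ℝ) ^ 2)) (fun _ _ => (Real.exp_pos _).le)
      fun _ => summable_exp_neg_int_sq hb0).mul_left _, fun x hx n => ?_⟩
  simp only [← Real.exp_sum, ← Real.exp_add]
  refine Real.exp_le_exp.mpr ?_
  set y := L (latVec n)
  have h1 : ‖latVec n‖ ≤ K * ‖y‖ := by simpa [dist_eq_norm] using hKb.le_mul_dist (latVec n) 0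
  have h3 : ‖y‖ ≤ ‖y + x‖ + R := by
    have := norm_le_norm_add_norm_sub' y (y + x)
    simp at this
    linarith
  have h4 : ‖y‖ ^ 2 ≤ 2 * ‖y + x‖ ^ 2 + 2 * R ^ 2 := by
    have := pow_le_pow_left₀ (norm_nonneg _) h3 2
    nlinarith [sq_nonneg (‖y + x‖ - R)]
  have h5 : ∑ i, (n i : ℝ) ^ 2 ≤ 4 * (K : ℝ) ^ 2 * ‖y‖ ^ 2 := by
    calc ∑ i, (n i : ℝ) ^ 2 ≤ ∑ _i : Fin 4, ‖latVec n‖ ^ 2 := by
          refine Finset.sum_le_sum fun i _ => ?_
          rw [← sq_abs]
          exact pow_le_pow_left₀ (abs_nonneg _) (norm_le_pi_norm (latVec n) i) 2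
      _ = 4 * ‖latVec n‖ ^ 2 := by simp
      _ ≤ 4 * ((K : ℝ) * ‖y‖) ^ 2 := by
          have := pow_le_pow_left₀ (norm_nonneg _) h1 2
          linarith
      _ = _ := by ring
  have h6 : ∑ i, -b * (n i : ℝ) ^ 2 = -(b * ∑ i, (n i : ℝ) ^ 2) := by
    rw [Finset.mul_sum, ← Finset.sum_neg_distrib]; simp
  have h7 : b * ∑ i, (n i : ℝ) ^ 2 ≤ a * c / 2 * ‖y‖ ^ 2 := by
    calc b * ∑ i, (n i : ℝ) ^ 2 ≤ b * (4 * (K : ℝ) ^ 2 * ‖y‖ ^ 2) :=
          mul_le_mul_of_nonneg_left h5 hb0.le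
      _ = _ := by rw [hb]; field_simp; ring
  have h8 := mul_le_mul_of_nonneg_left (hcM (y + x)) ha.le
  have h9 := mul_le_mul_of_nonneg_left h4 (by positivity : 0 ≤ a * c / 2)
  rw [h6]
  linarith

theorem summable_gauss (P : H3) {L : HVec →ₗ[ℝ] HVec} (hL : Function.Injective L) {a : ℝ}
    (ha : 0 < a) (x : HVec) : Summable fun n => Real.exp (-a * Mf P (L (latVec n) + x)) := by
  obtain ⟨u, hu, h⟩ := exists_gauss_bound P hL ha ‖x‖
  exact Summable.of_nonneg_of_le (fun n => (Real.exp_pos _).le) (h x le_rfl) hu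

variable {s : ℤ} {κ : ℂ} {Φ : UpperHalfPlane → H3 → HVec → ℂ}

theorem IsKernel.summable_lat (hΦ : IsKernel s κ Φ) (τ : UpperHalfPlane) (P : H3)
    {L : HVec →ₗ[ℝ] HVec} (hL : Function.Injective L) (x : HVec) :
    Summable fun n => ‖Φ τ P (L (latVec n) + x)‖ :=
  Summable.of_nonneg_of_le (fun _ => norm_nonneg _) (fun _ => hΦ.bound τ P _)
    ((summable_gauss P hL (mul_pos Real.pi_pos τ.im_pos) x).mul_left _)

end FLTAgent.LanglandsTunnell.Lift
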