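import Fermat.Agent.LanglandsTunnell.Lift.Weights
import Fermat.Agent.LanglandsTunnell.Lift.Lattice

/-!
# Growth of lattice Gaussians and integrability against weights

`gaussSum_le` bounds Gaussian sums over lattice vectors on `H³` by powers of the height, and
`IsWt.lintegral_gaussSum_lt_top` deduces that they are integrable against every weight.  This
justifies all exchanges of sums and integrals in `Expand`.
-/

set_option autoImplicit false

noncomputable section

namespace FLTAgent.LanglandsTunnell.Lift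

open FLTAgent.LanglandsTunnell MeasureTheory Complex Matrix
open scoped ENNReal Real

theorem sum_inv_one_add_sq_le {γ : ℝ} (hγ : 0 < γ) (n : ℕ) :
    ∑ j ∈ Finset.range n, (1 + γ * ((j : ℝ) + 1) ^ 2)⁻¹ ≤ 1 + 2 / Real.sqrt γ := by
  set m := ⌈1 / Real.sqrt γ⌉₊
  have hs : 0 < Real.sqrt γ := Real.sqrt_pos.mpr hγ
  have hm0 : m ≠ 0 := by
    have : 0 < m := Nat.ceil_pos.mpr (by positivity)
    omega
  have hm1 : 1 / Real.sqrt γ ≤ m := Nat.le_ceil _
  have hm2 : (m : ℝ) ≤ 1 / Real.sqrt γ + 1 := (Nat.ceil_lt_add_one (by positivity)).le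
  calc ∑ j ∈ Finset.range n, (1 + γ * ((j : ℝ) + 1) ^ 2)⁻¹
      ≤ ∑ j ∈ Finset.range (m + n), (1 + γ * ((j : ℝ) + 1) ^ 2)⁻¹ :=
        Finset.sum_le_sum_of_subset_of_nonneg
          (Finset.range_mono (by omega)) fun j _ _ => by positivity
    _ = (∑ j ∈ Finset.range m, (1 + γ * ((j : ℝ) + 1) ^ 2)⁻¹)
        + ∑ j ∈ Finset.range n, (1 + γ * (((m + j : ℕ) : ℝ) + 1) ^ 2)⁻¹ :=
        Finset.sum_range_add _ _ _
    _ ≤ (m : ℝ) + 1 / (γ * m) := by
        refine add_le_add ?_ ?_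
        · refine (Finset.sum_le_card_nsmul _ _ 1 fun j _ => ?_).trans (by simp)
          exact inv_le_one_of_one_le₀ (le_add_of_nonneg_right (by positivity))
        · calc ∑ j ∈ Finset.range n, (1 + γ * (((m + j : ℕ) : ℝ) + 1) ^ 2)⁻¹
              ≤ ∑ j ∈ Finset.range n, 1 / γ * ((((m + j + 1 : ℕ) : ℝ)) ^ 2)⁻¹ := by
                refine Finset.sum_le_sum fun j _ => ?_
                rw [one_div, ← mul_inv]
                push_cast
                exact inv_anti₀ (by positivity) (le_add_of_nonneg_left zero_le_one)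
            _ = 1 / γ * ∑ i ∈ Finset.Ioc m (m + n), (((i : ℕ) : ℝ) ^ 2)⁻¹ := by
                rw [Finset.mul_sum]
                refine Finset.sum_bij (fun j _ => m + j + 1) ?_ ?_ ?_ ?_
                · intro j hj; simp only [Finset.mem_range] at hj; simp only [Finset.mem_Ioc]; omega
                · intro a _ b _ h; omega
                · intro i hi
                  simp only [Finset.mem_Ioc] at hi
                  exact ⟨i - m - 1, by simp only [Finset.mem_range]; omega, by omega⟩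
                · intro j _; rfl
            _ ≤ 1 / γ * (m : ℝ)⁻¹ := by
                refine mul_le_mul_of_nonneg_left ((sum_Ioc_inv_sq_le_sub hm0 (by omega)).trans ?_)
                  (by positivity)
                exact sub_le_self _ (by positivity)
            _ = 1 / (γ * m) := by rw [one_div, one_div, mul_inv]
    _ ≤ 1 + 2 / Real.sqrt γ := by
        have h1 : 1 / (γ * m) ≤ 1 / Real.sqrt γ := by
          refine one_div_le_one_div_of_le hs ?_
          rw [div_le_iff₀ hs] at hm1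
          nlinarith [Real.mul_self_sqrt hγ.le]
        have h2 : 2 / Real.sqrt γ = 1 / Real.sqrt γ + 1 / Real.sqrt γ := by ring
        linarith

theorem tsum_exp_nat_le {γ : ℝ} (hγ : 0 < γ) :
    ∑' j : ℕ, ENNReal.ofReal (Real.exp (-γ * (((j : ℝ) + 1)) ^ 2)) ≤
      ENNReal.ofReal (1 + 2 / Real.sqrt γ) := by
  rw [ENNReal.tsum_eq_iSup_nat]
  refine iSup_le fun n => ?_
  rw [← ENNReal.ofReal_sum_of_nonneg fun j _ => (Real.exp_pos _).le]
  refine ENNReal.ofReal_le_ofReal ((Finset.sum_le_sum fun j _ => ?_).trans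
      (sum_inv_one_add_sq_le hγ n))
  rw [neg_mul, Real.exp_neg]
  exact inv_anti₀ (by positivity) (by have := Real.add_one_le_exp (γ * ((j : ℝ) + 1) ^ 2); linarith)

theorem tsum_exp_shift_le {γ : ℝ} (hγ : 0 < γ) (x : ℝ) :
    ∑' k : ℤ, ENNReal.ofReal (Real.exp (-γ * ((k : ℝ) + x) ^ 2)) ≤
      ENNReal.ofReal (6 + 4 / Real.sqrt γ) := by
  rw [← (Equiv.addRight (-⌊x⌋)).tsum_eq]
  have hf0 : (⌊x⌋ : ℝ) ≤ x := Int.floor_le x
  have hf1 : x < ⌊x⌋ + 1 := Int.lt_floor_add_one x
  rw [tsum_of_nat_of_neg_add_one ENNReal.summable ENNReal.summable]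
  have hA : ∑' n : ℕ, ENNReal.ofReal (Real.exp (-γ * ((((n : ℤ) + -⌊x⌋ : ℤ) : ℝ) + x) ^ 2))
      ≤ 1 + ENNReal.ofReal (1 + 2 / Real.sqrt γ) := by
    rw [tsum_eq_zero_add' ENNReal.summable]
    refine add_le_add ?_ (le_trans (ENNReal.tsum_le_tsum fun n => ?_) (tsum_exp_nat_le hγ))
    · exact ENNReal.ofReal_le_one.mpr (Real.exp_le_one_iff.mpr
        (mul_nonpos_of_nonpos_of_nonneg (by linarith) (sq_nonneg _)))
    · refine ENNReal.ofReal_le_ofReal (Real.exp_le_exp.mpr ?_)
      push_cast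
      have h : ((n : ℝ) + 1) ≤ (n : ℝ) + 1 + -⌊x⌋ + x := by linarith
      nlinarith [mul_le_mul_of_nonneg_left (pow_le_pow_left₀ (by positivity) h 2) hγ.le]
  have hB : ∑' n : ℕ, ENNReal.ofReal (Real.exp (-γ * (((-((n : ℤ) + 1) + -⌊x⌋ : ℤ) : ℝ) + x) ^ 2))
      ≤ 1 + ENNReal.ofReal (1 + 2 / Real.sqrt γ) := by
    rw [tsum_eq_zero_add' ENNReal.summable]
    refine add_le_add ?_ (le_trans (ENNReal.tsum_le_tsum fun n => ?_) (tsum_exp_nat_le hγ))
    · exact ENNReal.ofReal_le_one.mpr (Real.exp_le_one_iff.mpr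
        (mul_nonpos_of_nonpos_of_nonneg (by linarith) (sq_nonneg _)))
    · refine ENNReal.ofReal_le_ofReal (Real.exp_le_exp.mpr ?_)
      push_cast
      have h : ((n : ℝ) + 1) ≤ (n : ℝ) + 1 + 1 + ⌊x⌋ - x := by linarith
      nlinarith [mul_le_mul_of_nonneg_left (pow_le_pow_left₀ (by positivity) h 2) hγ.le]
  simp only [Equiv.coe_addRight]
  refine (add_le_add hA hB).trans ?_
  have h0 : 0 ≤ 2 / Real.sqrt γ := by positivity
  rw [← ENNReal.ofReal_one, ← ENNReal.ofReal_add zero_le_one (by linarith),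
    ← ENNReal.ofReal_add (by linarith) (by linarith)]
  exact ENNReal.ofReal_le_ofReal (by
    have h2 : 4 / Real.sqrt γ = 2 / Real.sqrt γ + 2 / Real.sqrt γ := by ring
    linarith)

/-- The majorant in triangular coordinates. -/
theorem Mf_triangular (P : H3) (X : HVec) :
    Mf P X = ((X 0 - 2 * (P.z * (starRingEnd ℂ) (offDiag X)).re + X 1 * normSq P.z) / P.t) ^ 2 / 2
      + (X 1 * P.t) ^ 2 / 2
      + ((X 2 - X 3 / 2 - X 1 * P.z.re) ^ 2
        + 3 / 4 * (X 3 - X 1 * (2 * P.z.im / Real.sqrt 3)) ^ 2) := by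
  have ht := P.t_ne_zero
  have h3 : Real.sqrt 3 ≠ 0 := by positivity
  have h3' := Real.sq_sqrt (show (0 : ℝ) ≤ 3 by norm_num)
  have hW : normSq (Wf P X) = (X 2 - X 3 / 2 - X 1 * P.z.re) ^ 2
      + 3 / 4 * (X 3 - X 1 * (2 * P.z.im / Real.sqrt 3)) ^ 2 := by
    simp only [Wf, offDiag, normSq_apply, sub_re, sub_im, re_ofReal_mul, im_ofReal_mul,
        eis_re, eis_im]
    field_simp
    ring_nf
    linear_combination (-16 * (X 3 * X 1 * P.z.im * Real.sqrt 3)
      + 4 * X 3 ^ 2 * (Real.sqrt 3 ^ 2 + 3) + 16 * X 1 ^ 2 * P.z.im ^ 2 - 12 * X 3 ^ 2) * h3'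
  rw [Mf_eq, hW, Sf, Tf]
  field_simp
  ring

/-- Gaussian sum over a scaled lattice. -/
def gaussSum (K : ℕ) (α : ℝ) (P : H3) : ℝ≥0∞ :=
  ∑' n : Fin 4 → ℤ, ENNReal.ofReal (Real.exp (-α * Mf P ((K : ℝ)⁻¹ • latVec n)))

theorem gaussSum_le {K : ℕ} (hK : 0 < K) {α : ℝ} (hα : 0 < α) :
    ∃ C : ℝ, 0 ≤ C ∧ ∀ P : H3, 1 / 2 ≤ P.t → gaussSum K α P ≤ ENNReal.ofReal (C * P.t) := by
  have hK' : (0 : ℝ) < K := by exact_mod_cast hK
  set a := α / (2 * (K : ℝ) ^ 2) with ha
  have ha0 : 0 < a := by positivity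
  have hsa : 0 < Real.sqrt a := Real.sqrt_pos.mpr ha0
  set Cc := 6 + 8 / Real.sqrt a with hCc
  set Cy := 6 + 4 / Real.sqrt (3 / 4 * (2 * a)) with hCy
  set Cx := 6 + 4 / Real.sqrt (2 * a) with hCx
  refine ⟨(12 + 4 / Real.sqrt a) * Cc * Cy * Cx, by positivity, fun P hP => ?_⟩
  let e : ℤ × ℤ × ℤ × ℤ ≃ (Fin 4 → ℤ) :=
    { toFun := fun p => ![p.2.2.2, p.1, p.2.2.1, p.2.1]
      invFun := fun n => (n 1, n 3, n 2, n 0)
      left_inv := fun p => by simp
      right_inv := fun n => by funext i; fin_cases i <;> simp }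
  rw [gaussSum, ← e.tsum_eq, ENNReal.tsum_prod']
  simp only [ENNReal.tsum_prod']
  have hrw : ∀ A C x y : ℤ, ENNReal.ofReal (Real.exp
      (-α * Mf P ((K : ℝ)⁻¹ • latVec (e (C, y, x, A)))))
      = ENNReal.ofReal (Real.exp (-(a / P.t ^ 2) *
          ((A : ℝ) + (-(2 * (P.z * (starRingEnd ℂ) (eis (x : ℝ) (y : ℝ))).re) + C *
            normSq P.z)) ^ 2))
        * ENNReal.ofReal (Real.exp (-(a * P.t ^ 2) * (C : ℝ) ^ 2))
        * ENNReal.ofReal (Real.exp (-(2 * a) * ((x : ℝ) + (-(y : ℝ) / 2 - C * P.z.re)) ^ 2))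
        * ENNReal.ofReal (Real.exp (-(3 / 4 * (2 * a)) *
            ((y : ℝ) + -(C * (2 * P.z.im / Real.sqrt 3))) ^ 2)) := by
    intro A C x y
    rw [← ENNReal.ofReal_mul (Real.exp_pos _).le, ← ENNReal.ofReal_mul (by positivity),
      ← ENNReal.ofReal_mul (by positivity), ← Real.exp_add, ← Real.exp_add, ← Real.exp_add]
    congr 2
    have ht := P.t_ne_zero
    rw [Mf_triangular, ha]
    simp only [e, Equiv.coe_fn_mk, Pi.smul_apply, latVec_apply, offDiag, smul_eq_mul,
      Matrix.cons_val_zero, Matrix.cons_val_one, Matrix.cons_val]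
    rw [show (P.z * (starRingEnd ℂ) (eis ((K : ℝ)⁻¹ * (x : ℝ)) ((K : ℝ)⁻¹ * (y : ℝ)))).re
        = (K : ℝ)⁻¹ * (P.z * (starRingEnd ℂ) (eis (x : ℝ) (y : ℝ))).re by
      simp [eis, Complex.mul_re, Complex.mul_im]; ring]
    field_simp
    ring
  simp only [hrw]
  have hA : ∀ z : ℝ, ∑' A : ℤ, ENNReal.ofReal (Real.exp (-(a / P.t ^ 2) * ((A : ℝ) + z) ^ 2))
      ≤ ENNReal.ofReal ((12 + 4 / Real.sqrt a) * P.t) := fun z => by
    refine (tsum_exp_shift_le (div_pos ha0 (pow_pos P.t_pos 2)) z).trans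
      (ENNReal.ofReal_le_ofReal ?_)
    rw [Real.sqrt_div ha0.le, Real.sqrt_sq P.t_pos.le, div_div_eq_mul_div, add_mul,
        div_mul_eq_mul_div]
    have : 6 ≤ 12 * P.t := by linarith
    linarith
  have hC : ∑' C : ℤ, ENNReal.ofReal (Real.exp (-(a * P.t ^ 2) * (C : ℝ) ^ 2))
      ≤ ENNReal.ofReal Cc := by
    have h := tsum_exp_shift_le (mul_pos ha0 (pow_pos P.t_pos 2)) 0
    simp only [add_zero] at h
    refine h.trans (ENNReal.ofReal_le_ofReal ?_)
    rw [Real.sqrt_mul ha0.le, Real.sqrt_sq P.t_pos.le, hCc]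
    have : 4 / (Real.sqrt a * P.t) ≤ 8 / Real.sqrt a := by
      rw [div_le_div_iff₀ (mul_pos hsa P.t_pos) hsa]; nlinarith
    linarith
  have hY : ∀ z : ℝ, ∑' y : ℤ, ENNReal.ofReal (Real.exp (-(3 / 4 * (2 * a)) * ((y : ℝ) + z) ^ 2))
      ≤ ENNReal.ofReal Cy := fun z => tsum_exp_shift_le (by positivity) z
  have hX : ∀ z : ℝ, ∑' x : ℤ, ENNReal.ofReal (Real.exp (-(2 * a) * ((x : ℝ) + z) ^ 2))
      ≤ ENNReal.ofReal Cx := fun z => tsum_exp_shift_le (by positivity) z
  calc _ ≤ ∑' C : ℤ, ∑' y : ℤ, ∑' x : ℤ, ENNReal.ofReal ((12 + 4 / Real.sqrt a) * P.t)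
        * ENNReal.ofReal (Real.exp (-(a * P.t ^ 2) * (C : ℝ) ^ 2))
        * ENNReal.ofReal (Real.exp (-(2 * a) * ((x : ℝ) + (-(y : ℝ) / 2 - C * P.z.re)) ^ 2))
        * ENNReal.ofReal (Real.exp (-(3 / 4 * (2 * a)) *
            ((y : ℝ) + -(C * (2 * P.z.im / Real.sqrt 3))) ^ 2)) := by
        refine ENNReal.tsum_le_tsum fun C => ENNReal.tsum_le_tsum fun y =>
          ENNReal.tsum_le_tsum fun x => ?_
        rw [ENNReal.tsum_mul_right, ENNReal.tsum_mul_right, ENNReal.tsum_mul_right]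
        gcongr
        exact hA _
    _ ≤ ∑' C : ℤ, ∑' y : ℤ, ENNReal.ofReal ((12 + 4 / Real.sqrt a) * P.t)
        * ENNReal.ofReal (Real.exp (-(a * P.t ^ 2) * (C : ℝ) ^ 2)) * ENNReal.ofReal Cx
        * ENNReal.ofReal (Real.exp (-(3 / 4 * (2 * a)) *
            ((y : ℝ) + -(C * (2 * P.z.im / Real.sqrt 3))) ^ 2)) := by
        refine ENNReal.tsum_le_tsum fun C => ENNReal.tsum_le_tsum fun y => ?_
        rw [ENNReal.tsum_mul_right, ENNReal.tsum_mul_left]
        gcongr
        exact hX _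
    _ ≤ ∑' C : ℤ, ENNReal.ofReal ((12 + 4 / Real.sqrt a) * P.t)
        * ENNReal.ofReal (Real.exp (-(a * P.t ^ 2) * (C : ℝ) ^ 2)) * ENNReal.ofReal Cx
        * ENNReal.ofReal Cy := by
        refine ENNReal.tsum_le_tsum fun C => ?_
        rw [ENNReal.tsum_mul_left]
        gcongr
        exact hY _
    _ ≤ ENNReal.ofReal ((12 + 4 / Real.sqrt a) * P.t) * ENNReal.ofReal Cc * ENNReal.ofReal Cx
        * ENNReal.ofReal Cy := by
        rw [ENNReal.tsum_mul_right, ENNReal.tsum_mul_right, ENNReal.tsum_mul_left]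
        gcongr
    _ = ENNReal.ofReal ((12 + 4 / Real.sqrt a) * Cc * Cy * Cx * P.t) := by
        have h1 : 0 ≤ (12 + 4 / Real.sqrt a) * P.t := mul_nonneg (by positivity) P.t_pos.le
        rw [← ENNReal.ofReal_mul h1, ← ENNReal.ofReal_mul (mul_nonneg h1 (by positivity)),
          ← ENNReal.ofReal_mul (mul_nonneg (mul_nonneg h1 (by positivity)) (by positivity))]
        congr 1
        ring

theorem exists_latVec_act {M : Matrix (Fin 2) (Fin 2) ℂ} (h : ∀ i j, M i j ∈ Eis)
    (n : Fin 4 → ℤ) : ∃ n', act M (latVec n) = latVec n' := by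
  have hX : ∀ i j, mat (latVec n) i j ∈ Eis := by
    intro i j
    have ho : offDiag (latVec n) ∈ Eis := ⟨n 2, n 3, rfl⟩
    fin_cases i <;> fin_cases j <;> simp [mat, latVec_apply, ho, conj_mem_Eis]
  have hY : ∀ i j, mat (act M (latVec n)) i j ∈ Eis := by
    intro i j
    rw [mat_act, Matrix.mul_apply]
    refine sum_mem fun l _ => mul_mem ?_ (by simpa using conj_mem_Eis (h j l))
    rw [Matrix.mul_apply]
    exact sum_mem fun k _ => mul_mem (h i k) (hX k l)
  set Y := act M (latVec n) with hYdef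
  have hd : ∀ r : ℝ, (r : ℂ) ∈ Eis → ∃ k : ℤ, r = k := by
    rintro r ⟨x, y, he⟩
    have h' : eis r 0 = eis x y := by rw [← he]; simp [eis]
    exact ⟨x, (eis_inj h').1⟩
  obtain ⟨a, ha⟩ := hd (Y 0) (by simpa [mat] using hY 0 0)
  obtain ⟨c, hc⟩ := hd (Y 1) (by simpa [mat] using hY 1 1)
  obtain ⟨x, y, hxy⟩ : offDiag Y ∈ Eis := by simpa [mat] using hY 0 1
  obtain ⟨hx, hy⟩ := eis_inj hxy
  refine ⟨![a, c, x, y], ?_⟩
  funext i
  fin_cases i <;> simp [latVec_apply, ha, hc, hx, hy]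

theorem gaussSum_smul (K : ℕ) (α : ℝ) {g : GL (Fin 2) ℂ} (hg : g ∈ congGroup 1) (P : H3) :
    gaussSum K α (g • P) = gaussSum K α P := by
  choose f hf using fun n => exists_latVec_act hg.1.1 n
  choose f' hf' using fun n => exists_latVec_act hg.2.1 n
  have hinj : Function.Injective latVec := fun n n' h => funext fun i => by
    simpa [latVec_apply] using congrFun h i
  let e : (Fin 4 → ℤ) ≃ (Fin 4 → ℤ) :=
    ⟨f, f', fun n => hinj (by rw [← hf', ← hf, ← act_mul, ← Units.val_mul, inv_mul_cancel,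
      Units.val_one, act_one]),
      fun n => hinj (by rw [← hf, ← hf', ← act_mul, ← Units.val_mul, mul_inv_cancel,
        Units.val_one, act_one])⟩
  rw [gaussSum, gaussSum, ← e.tsum_eq]
  refine tsum_congr fun n => ?_
  rw [show latVec (e n) = act g.val (latVec n) from (hf n).symm, ← map_smul, Mf_smul,
    normSq_det_congGroup hg, one_mul]

theorem lintegral_t_siegel : ∫⁻ P in siegelSet, ENNReal.ofReal P.t ∂H3.volH3 < ⊤ := by
  rw [← lintegral_indicator measurableSet_siegelSet,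
    H3.lintegral_vol ((H3.continuous_t.measurable.ennreal_ofReal).indicator
      measurableSet_siegelSet)]
  set box : Set (ℂ × ℝ) := ({z : ℂ | |z.re| ≤ 1 ∧ |z.im| ≤ 1}) ×ˢ Set.Ici (1 / 2 : ℝ)
  have hbox : MeasurableSet box := ((isClosed_le
      (continuous_abs.comp continuous_re) continuous_const).inter
      (isClosed_le (continuous_abs.comp continuous_im) continuous_const)).measurableSet.prod
    measurableSet_Ici
  calc ∫⁻ x in H3.halfSpace, ENNReal.ofReal (1 / x.2 ^ 3) *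
        siegelSet.indicator (fun P => ENNReal.ofReal P.t) (H3.mkPt x)
      ≤ ∫⁻ x in box, ENNReal.ofReal ((x.2 : ℝ) ^ (-2 : ℝ)) := by
        rw [← lintegral_indicator H3.isOpen_halfSpace.measurableSet, ← lintegral_indicator hbox]
        refine lintegral_mono fun x => ?_
        by_cases hx : x ∈ H3.halfSpace
        · have hx' : 0 < x.2 := hx
          rw [Set.indicator_of_mem hx]
          by_cases hS : H3.mkPt x ∈ siegelSet
          · have hc : (H3.mkPt x).coords = x := H3.coords_mkPt hx'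
            have hz : (H3.mkPt x).z = x.1 := congrArg Prod.fst hc
            have ht : (H3.mkPt x).t = x.2 := congrArg Prod.snd hc
            obtain ⟨h1, h2, h3⟩ := hS
            rw [hz] at h1 h2
            rw [ht] at h3
            rw [Set.indicator_of_mem (show H3.mkPt x ∈ siegelSet from
              ⟨by rwa [hz], by rwa [hz], by rwa [ht]⟩),
              Set.indicator_of_mem (show x ∈ box from ⟨⟨h1, h2⟩, h3⟩),
                ← ENNReal.ofReal_mul (by positivity),
              ht, Real.rpow_neg hx'.le, show (2 : ℝ) = ((2 : ℕ) : ℝ) by norm_num, Real.rpow_natCast]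
            refine le_of_eq (congrArg _ ?_)
            field_simp
          · rw [Set.indicator_of_notMem hS, mul_zero]
            exact zero_le
        · rw [Set.indicator_of_notMem hx]
          exact zero_le
    _ = (∫⁻ _z in {z : ℂ | |z.re| ≤ 1 ∧ |z.im| ≤ 1}, (1 : ℝ≥0∞)) *
        ∫⁻ t in Set.Ici (1 / 2 : ℝ), ENNReal.ofReal (t ^ (-2 : ℝ)) := by
        rw [Measure.volume_eq_prod, ← Measure.prod_restrict,
            ← lintegral_prod_mul (by fun_prop) (by fun_prop)]
        simp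
    _ < ⊤ := by
        refine ENNReal.mul_lt_top ?_ ?_
        · rw [setLIntegral_one]
          refine lt_of_le_of_lt (measure_mono (t := Metric.closedBall (0 : ℂ) 2) fun z hz => ?_)
            (isCompact_closedBall _ _).measure_lt_top
          rw [Metric.mem_closedBall, dist_zero_right]
          exact (Complex.norm_le_abs_re_add_abs_im z).trans (by linarith [hz.1, hz.2])
        · rw [setLIntegral_congr Ioi_ae_eq_Ici.symm]
          exact (integrableOn_Ioi_rpow_of_lt (by norm_num : (-2 : ℝ) < -1)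
            (by norm_num : (0 : ℝ) < 1 / 2)).setLIntegral_lt_top

theorem IsWt.lintegral_gaussSum_lt_top {H : Subgroup (GL (Fin 2) ℂ)} {w : H3 → ℝ≥0∞}
    (hw : IsWt H w) {K : ℕ} (hK : 0 < K) {α : ℝ} (hα : 0 < α) :
    ∫⁻ P, w P * gaussSum K α P ∂H3.volH3 < ⊤ := by
  obtain ⟨R, hR, hle⟩ := hw.support
  obtain ⟨C, hC, hb⟩ := gaussSum_le hK hα
  have hm : Measurable fun P : H3 => gaussSum K α P := Measurable.tsum fun n =>
    ((Real.continuous_exp.comp (continuous_const.mul (continuous_const.add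
      (continuous_const.mul ((continuous_Tf _).pow 2))))).measurable).ennreal_ofReal
  calc ∫⁻ P, w P * gaussSum K α P ∂H3.volH3
      ≤ ∫⁻ P, ∑ r ∈ R, siegelSet.indicator (gaussSum K α) (r⁻¹ • P) ∂H3.volH3 := by
        refine lintegral_mono fun P => (mul_le_mul_left (hle P) _).trans ?_
        by_cases hP : P ∈ coverSet R
        · obtain ⟨r, hr, hrP⟩ := hP
          rw [Set.indicator_of_mem (show P ∈ coverSet R from ⟨r, hr, hrP⟩), Pi.one_apply, one_mul]
          refine le_trans ?_ (Finset.single_le_sum (fun _ _ => zero_le) hr)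
          rw [Set.indicator_of_mem hrP, gaussSum_smul K α (inv_mem (hR hr))]
        · rw [Set.indicator_of_notMem hP, zero_mul]
          exact zero_le
    _ = ∑ _r ∈ R, ∫⁻ P in siegelSet, gaussSum K α P ∂H3.volH3 := by
        rw [lintegral_finsetSum (f := fun r P => siegelSet.indicator (gaussSum K α) (r⁻¹ • P)) R
          fun r _ => (hm.indicator measurableSet_siegelSet).comp
            (continuous_const_smul r⁻¹).measurable]
        refine Finset.sum_congr rfl fun r _ => ?_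
        rw [← lintegral_indicator measurableSet_siegelSet]
        exact H3.preserves r⁻¹ _ (hm.indicator measurableSet_siegelSet)
    _ < ⊤ := by
        refine ENNReal.sum_lt_top.mpr fun r _ => ?_
        refine lt_of_le_of_lt (setLIntegral_mono' measurableSet_siegelSet fun P hP =>
          (hb P hP.2.2).trans_eq (ENNReal.ofReal_mul hC)) ?_
        rw [lintegral_const_mul' _ _ ENNReal.ofReal_ne_top]
        exact ENNReal.mul_lt_top ENNReal.ofReal_lt_top lintegral_t_siegel

end FLTAgent.LanglandsTunnell.Lift
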