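import Fermat.Agent.LanglandsTunnell.Lift.Defs

/-!
# Arithmetic of the Eisenstein integers inside `ℂ`

Coordinates, conjugation and norms of `Eis`: euclidean division, units of norm one, finiteness
of elements of bounded norm, and the first properties of the congruence groups `congGroup N`.
-/

set_option autoImplicit false

noncomputable section

namespace FLTAgent.LanglandsTunnell.Lift

open Complex ComplexConjugate Matrix

theorem omega_re : omega.re = -(1 / 2) := by simp [omega]; norm_num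

theorem omega_im : omega.im = Real.sqrt 3 / 2 := by simp [omega]

theorem eis_re (x y : ℝ) : (eis x y).re = x - y / 2 := by simp [eis, omega_re]; ring

theorem eis_im (x y : ℝ) : (eis x y).im = Real.sqrt 3 / 2 * y := by simp [eis, omega_im]; ring

theorem eis_inj {x y x' y' : ℝ} (h : eis x y = eis x' y') : x = x' ∧ y = y' := by
  have hre := congrArg re h
  have him := congrArg im h
  rw [eis_re, eis_re] at hre
  rw [eis_im, eis_im] at him
  have hy : y = y' := mul_left_cancel₀ (by positivity) him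
  exact ⟨by linarith, hy⟩

theorem eis_eq (z : ℂ) :
    z = eis (z.re + z.im / Real.sqrt 3) (2 * z.im / Real.sqrt 3) := by
  have h3 : Real.sqrt 3 ≠ 0 := by positivity
  refine Complex.ext ?_ ?_
  · rw [eis_re]; ring
  · rw [eis_im]; field_simp

theorem normSq_eis (x y : ℝ) : normSq (eis x y) = x * x - x * y + y * y := by
  rw [normSq_apply, eis_re, eis_im]
  have h3 := Real.mul_self_sqrt (show (0 : ℝ) ≤ 3 by norm_num)
  linear_combination (y * y / 4) * h3

theorem conj_omega : conj omega = -1 - omega := by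
  refine Complex.ext ?_ ?_ <;> simp [omega_re, omega_im]
  norm_num

theorem conj_eis (x y : ℝ) : conj (eis x y) = eis (x - y) (-y) := by
  rw [eis, eis, map_add, map_mul, conj_ofReal, conj_ofReal, conj_omega]
  push_cast
  ring

theorem omega_mem : omega ∈ Eis := ⟨0, 1, by simp [eis]⟩

theorem intCast_mem_Eis (n : ℤ) : (n : ℂ) ∈ Eis := _root_.intCast_mem Eis n

theorem natCast_mem_Eis (n : ℕ) : (n : ℂ) ∈ Eis := _root_.natCast_mem Eis n

theorem conj_mem_Eis {z : ℂ} (h : z ∈ Eis) : conj z ∈ Eis := by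
  obtain ⟨x, y, rfl⟩ := h
  exact ⟨x - y, -y, by rw [conj_eis]; push_cast; rfl⟩

theorem normSq_Eis_int {z : ℂ} (h : z ∈ Eis) : ∃ n : ℕ, normSq z = n := by
  obtain ⟨x, y, rfl⟩ := h
  have hnn : 0 ≤ x * x - x * y + y * y := by nlinarith [sq_nonneg (x - y), sq_nonneg x, sq_nonneg y]
  obtain ⟨n, hn⟩ := Int.eq_ofNat_of_zero_le hnn
  refine ⟨n, ?_⟩
  rw [normSq_eis]
  exact_mod_cast hn

theorem one_le_normSq_Eis {z : ℂ} (h : z ∈ Eis) (h0 : z ≠ 0) : 1 ≤ normSq z := by
  obtain ⟨n, hn⟩ := normSq_Eis_int h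
  have hn0 : n ≠ 0 := by
    rintro rfl
    exact h0 (normSq_eq_zero.mp (by simpa using hn))
  rw [hn]
  exact_mod_cast Nat.pos_of_ne_zero hn0

theorem normSq_eq_one_of_isUnit {u u' : ℂ} (h : u ∈ Eis) (h' : u' ∈ Eis) (he : u * u' = 1) :
    normSq u = 1 := by
  have hu : u ≠ 0 := left_ne_zero_of_mul_eq_one he
  have hu' : u' ≠ 0 := right_ne_zero_of_mul_eq_one he
  have h1 := one_le_normSq_Eis h hu
  have h2 := one_le_normSq_Eis h' hu'
  have h3 : normSq u * normSq u' = 1 := by rw [← map_mul, he, map_one]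
  nlinarith

/-- Division with small remainder. -/
theorem exists_near (z : ℂ) : ∃ q ∈ Eis, normSq (z - q) < 1 := by
  set a := z.re + z.im / Real.sqrt 3
  set b := 2 * z.im / Real.sqrt 3
  refine ⟨eis (round a) (round b), ⟨round a, round b, rfl⟩, ?_⟩
  have hz : z - eis (round a) (round b) = eis (a - round a) (b - round b) := by
    nth_rewrite 1 [eis_eq z]
    simp only [eis, a, b]
    push_cast
    ring
  have ha := abs_le.mp (abs_sub_round a)
  have hb := abs_le.mp (abs_sub_round b)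
  rw [hz, normSq_eis]
  nlinarith

instance countable_Eis : Countable Eis := by
  refine Function.Surjective.countable (f := fun p : ℤ × ℤ =>
      (⟨eis p.1 p.2, p.1, p.2, rfl⟩ : Eis)) ?_
  rintro ⟨_, x, y, rfl⟩
  exact ⟨(x, y), rfl⟩

theorem finite_normSq_le (C : ℝ) : {z : ℂ | z ∈ Eis ∧ normSq z ≤ C}.Finite := by
  obtain ⟨M, hM⟩ := exists_nat_ge (4 * C)
  refine ((Set.finite_Icc (-(M : ℤ)) M).prod (Set.finite_Icc (-(M : ℤ)) M)).image
    (fun p => eis p.1 p.2) |>.subset ?_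
  rintro _ ⟨⟨x, y, rfl⟩, hz⟩
  rw [normSq_eis] at hz
  have hy : y ^ 2 ≤ (M : ℤ) := by
    have : ((y : ℝ)) ^ 2 ≤ M := by nlinarith [sq_nonneg ((x : ℝ) - y / 2)]
    exact_mod_cast this
  have hx : x ^ 2 ≤ (M : ℤ) := by
    have : ((x : ℝ)) ^ 2 ≤ M := by nlinarith [sq_nonneg ((y : ℝ) - x / 2)]
    exact_mod_cast this
  have hb : ∀ w : ℤ, w ^ 2 ≤ (M : ℤ) → w ∈ Set.Icc (-(M : ℤ)) M := fun w hw => by
    constructor <;> nlinarith [sq_nonneg w, sq_nonneg (w - 1), sq_nonneg (w + 1)]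
  exact ⟨(x, y), ⟨hb x hx, hb y hy⟩, rfl⟩

theorem eisCong_det_mem {N : ℕ} {M : Matrix (Fin 2) (Fin 2) ℂ} (h : EisCong N M) : M.det ∈ Eis := by
  rw [det_fin_two]
  exact sub_mem (mul_mem (h.1 0 0) (h.1 1 1)) (mul_mem (h.1 0 1) (h.1 1 0))

theorem normSq_det_congGroup {N : ℕ} {g : GL (Fin 2) ℂ} (h : g ∈ congGroup N) :
    normSq g.val.det = 1 := by
  refine normSq_eq_one_of_isUnit (eisCong_det_mem h.1) (eisCong_det_mem h.2) ?_
  rw [← det_mul, ← Units.val_mul, mul_inv_cancel, Units.val_one, det_one]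

theorem norm_det_congGroup {N : ℕ} {g : GL (Fin 2) ℂ} (h : g ∈ congGroup N) :
    ‖g.val.det‖ = 1 := by
  rw [Complex.norm_def, normSq_det_congGroup h, Real.sqrt_one]

instance countable_congGroup (N : ℕ) : Countable (congGroup N) := by
  refine Function.Injective.countable (β := Fin 2 → Fin 2 → Eis)
    (f := fun g i j => ⟨g.1.val i j, g.2.1.1 i j⟩) ?_
  intro g g' h
  refine Subtype.ext (Units.ext (Matrix.ext fun i j => ?_))
  exact congrArg Subtype.val (congrFun (congrFun h i) j)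

theorem congGroup_mono {N M : ℕ} (h : N ∣ M) : congGroup M ≤ congGroup N := by
  obtain ⟨k, rfl⟩ := h
  rintro g ⟨⟨h1, ⟨z, hz, e1⟩, ⟨z', hz', e2⟩⟩, ⟨h3, ⟨y, hy, e3⟩, ⟨y', hy', e4⟩⟩⟩
  exact ⟨⟨h1, ⟨k * z, mul_mem (natCast_mem_Eis k) hz, by rw [e1]; push_cast; ring⟩,
    ⟨k * z', mul_mem (natCast_mem_Eis k) hz', by rw [e2]; push_cast; ring⟩⟩,
    ⟨h3, ⟨k * y, mul_mem (natCast_mem_Eis k) hy, by rw [e3]; push_cast; ring⟩,
    ⟨k * y', mul_mem (natCast_mem_Eis k) hy', by rw [e4]; push_cast; ring⟩⟩⟩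

end FLTAgent.LanglandsTunnell.Lift
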