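import Fermat.Agent.LanglandsTunnell.Lift.Weights
import Fermat.Agent.LanglandsTunnell.Lift.Radial

/-!
# Exchange of weights for sums of integrals, and the pairing with point pair kernels

`tsum_integral_swap` trades one fundamental weight for another in a sum of integrals over an
orbit family of measures; `tsum_integral_pairing` applies it to pair a weighted function with
point pair kernels.  Used to evaluate the Fourier terms in `Expand`.
-/

set_option autoImplicit false

noncomputable section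

namespace FLTAgent.LanglandsTunnell.Lift

open FLTAgent.LanglandsTunnell MeasureTheory Complex Matrix
open scoped ENNReal Real

section General

variable {G : Type*} [Group G] [Countable G] {Y : Type*} [MeasurableSpace Y] [MulAction G Y]
  {S : Type*} [Countable S] (σ : G →* Equiv.Perm S) (ν : S → Measure Y)

omit [Countable S] in
theorem tsum_lintegral_swap (hν : ∀ g X, MeasurePreserving (g • ·) (ν X) (ν (σ g X)))
    {W W' : S → Y → ℝ≥0∞} (hWm : ∀ X, Measurable (W X)) (hW'm : ∀ X, Measurable (W' X))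
    (hW : ∀ X y, ∑' g : G, W (σ g X) (g • y) = 1) (hW' : ∀ X y, ∑' g : G, W' (σ g X) (g • y) = 1)
    {F : S → Y → ℝ≥0∞} (hFm : ∀ X, Measurable (F X))
    (hF : ∀ g X y, F (σ g X) (g • y) = F X y) :
    ∑' X, ∫⁻ y, W X y * F X y ∂ν X = ∑' X, ∫⁻ y, W' X y * F X y ∂ν X := by
  have hm : ∀ (g : G) X, Measurable fun y => W X y * F X y * W' (σ g X) (g • y) := fun g X =>
    ((hWm X).mul (hFm X)).mul ((hW'm _).comp (hν g X).measurable)
  have hm' : ∀ (g : G) X, Measurable fun y => W' X y * F X y * W (σ g X) (g • y) := fun g X =>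
    ((hW'm X).mul (hFm X)).mul ((hWm _).comp (hν g X).measurable)
  calc ∑' X, ∫⁻ y, W X y * F X y ∂ν X
      = ∑' X, ∑' g : G, ∫⁻ y, W X y * F X y * W' (σ g X) (g • y) ∂ν X := by
        refine tsum_congr fun X => ?_
        rw [← lintegral_tsum fun g => (hm g X).aemeasurable]
        exact lintegral_congr fun y => by rw [ENNReal.tsum_mul_left, hW', mul_one]
    _ = ∑' g : G, ∑' X, ∫⁻ y, W X y * F X y * W' (σ g X) (g • y) ∂ν X := ENNReal.tsum_comm
    _ = ∑' g : G, ∑' X, ∫⁻ y, W' X y * F X y * W (σ g X) (g • y) ∂ν X := by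
        rw [← (Equiv.inv G).tsum_eq]
        refine tsum_congr fun g => ?_
        rw [← (σ g).tsum_eq]
        refine tsum_congr fun X => ?_
        have e : σ (g⁻¹) (σ g X) = X := by
          rw [← Equiv.Perm.mul_apply, ← map_mul, inv_mul_cancel, map_one, Equiv.Perm.one_apply]
        rw [← (hν g X).lintegral_comp (hm _ _)]
        refine lintegral_congr fun y => ?_
        simp only [Equiv.inv_apply, inv_smul_smul, e, hF]
        ring
    _ = ∑' X, ∑' g : G, ∫⁻ y, W' X y * F X y * W (σ g X) (g • y) ∂ν X := ENNReal.tsum_comm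
    _ = ∑' X, ∫⁻ y, W' X y * F X y ∂ν X := by
        refine tsum_congr fun X => ?_
        rw [← lintegral_tsum fun g => (hm' g X).aemeasurable]
        exact lintegral_congr fun y => by rw [ENNReal.tsum_mul_left, hW, mul_one]

omit [Countable G] [Countable S] [MeasurableSpace Y] in
theorem weight_le_one {W : S → Y → ℝ≥0∞} (hW : ∀ X y, ∑' g : G, W (σ g X) (g • y) = 1) (X : S)
    (y : Y) : W X y ≤ 1 := by
  rw [← hW X y]
  simpa using ENNReal.le_tsum (f := fun g : G => W (σ g X) (g • y)) 1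

omit [Countable G] [Countable S] [MulAction G Y] in
theorem integrable_weight {W : S → Y → ℝ≥0∞} (hWm : ∀ X, Measurable (W X))
    (hW1 : ∀ X y, W X y ≤ 1) {F : S → Y → ℂ} (hFm : ∀ X, Measurable (F X))
    (hfin : ∑' X, ∫⁻ y, W X y * ‖F X y‖ₑ ∂ν X ≠ ⊤) (X : S) :
    Integrable (fun y => ((W X y).toReal : ℂ) * F X y) (ν X) := by
  refine ⟨((continuous_ofReal.measurable.comp (hWm X).ennreal_toReal).mul
    (hFm X)).aestronglyMeasurable, ?_⟩
  rw [HasFiniteIntegral]
  refine lt_of_le_of_lt (le_of_eq (lintegral_congr fun y => ?_))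
    ((ne_top_of_le_ne_top hfin (ENNReal.le_tsum X)).lt_top)
  rw [enorm_mul, ← ofReal_norm ((W X y).toReal : ℂ), Complex.norm_real,
    Real.norm_of_nonneg ENNReal.toReal_nonneg,
    ENNReal.ofReal_toReal (ne_top_of_le_ne_top ENNReal.one_ne_top (hW1 X y))]

omit [Countable S] in
/-- The exchange of two weights. -/
theorem tsum_integral_swap (hν : ∀ g X, MeasurePreserving (g • ·) (ν X) (ν (σ g X)))
    {W W' : S → Y → ℝ≥0∞} (hWm : ∀ X, Measurable (W X)) (hW'm : ∀ X, Measurable (W' X))
    (hW : ∀ X y, ∑' g : G, W (σ g X) (g • y) = 1) (hW' : ∀ X y, ∑' g : G, W' (σ g X) (g • y) = 1)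
    {F : S → Y → ℂ} (hFm : ∀ X, Measurable (F X))
    (hF : ∀ g X y, F (σ g X) (g • y) = F X y)
    (hfin : ∑' X, ∫⁻ y, W X y * ‖F X y‖ₑ ∂ν X ≠ ⊤) :
    ∑' X, ∫ y, ((W X y).toReal : ℂ) * F X y ∂ν X =
      ∑' X, ∫ y, ((W' X y).toReal : ℂ) * F X y ∂ν X := by
  have hfin' : ∑' X, ∫⁻ y, W' X y * ‖F X y‖ₑ ∂ν X ≠ ⊤ := by
    rwa [← tsum_lintegral_swap σ ν hν hWm hW'm hW hW' (fun X => (hFm X).enorm)
      fun g X y => by rw [hF]]
  have key : ∀ V : S → Y → ℝ≥0∞, (∀ X, Measurable (V X)) → (∀ X y, V X y ≤ 1) →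
      (∑' X, ∫⁻ y, V X y * ‖F X y‖ₑ ∂ν X ≠ ⊤) →
      ∀ L : ℂ →L[ℝ] ℝ, (∀ z, ‖L z‖ ≤ ‖z‖) →
      L (∑' X, ∫ y, ((V X y).toReal : ℂ) * F X y ∂ν X) =
        (∑' X, ∫⁻ y, V X y * ENNReal.ofReal (L (F X y)) ∂ν X).toReal
          - (∑' X, ∫⁻ y, V X y * ENNReal.ofReal (-L (F X y)) ∂ν X).toReal := by
    intro V hVm hV1 hV L hL
    have hint := integrable_weight ν hVm hV1 hFm hV
    have hVt : ∀ X y, V X y ≠ ⊤ := fun X y => ne_top_of_le_ne_top ENNReal.one_ne_top (hV1 X y)
    have hb : ∀ (L' : ℂ → ℝ), (∀ z, L' z ≤ ‖z‖) →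
        ∑' X, ∫⁻ y, V X y * ENNReal.ofReal (L' (F X y)) ∂ν X ≠ ⊤ := fun L' hL' =>
      ne_top_of_le_ne_top hV (ENNReal.tsum_le_tsum fun X => lintegral_mono fun y => by
        gcongr
        rw [← ofReal_norm]
        exact ENNReal.ofReal_le_ofReal (hL' _))
    have h1 := hb L fun z => (le_abs_self _).trans (hL z)
    have h2 := hb (fun z => -L z) fun z => (neg_le_abs _).trans (hL z)
    have hsum : Summable fun X => ∫ y, ((V X y).toReal : ℂ) * F X y ∂ν X := by
      refine Summable.of_norm_bounded (g := fun X => (∫⁻ y, V X y * ‖F X y‖ₑ ∂ν X).toReal)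
        (ENNReal.summable_toReal hV) fun X => ?_
      refine (norm_integral_le_lintegral_norm _).trans
        (ENNReal.toReal_mono (ne_top_of_le_ne_top hV (ENNReal.le_tsum X))
          (lintegral_mono fun y => ?_))
      rw [norm_mul, ENNReal.ofReal_mul (norm_nonneg _), Complex.norm_real,
        Real.norm_of_nonneg ENNReal.toReal_nonneg, ENNReal.ofReal_toReal (hVt X y),
        ofReal_norm]
    rw [L.map_tsum hsum, ENNReal.tsum_toReal_eq fun X => ne_top_of_le_ne_top h1 (ENNReal.le_tsum X),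
      ENNReal.tsum_toReal_eq fun X => ne_top_of_le_ne_top h2 (ENNReal.le_tsum X),
      ← Summable.tsum_sub (ENNReal.summable_toReal h1) (ENNReal.summable_toReal h2)]
    refine tsum_congr fun X => ?_
    rw [← L.integral_comp_comm (hint X),
      integral_eq_lintegral_pos_part_sub_lintegral_neg_part (L.integrable_comp (hint X))]
    congr 2 <;> refine lintegral_congr fun y => ?_ <;>
      rw [← Complex.real_smul, map_smul, smul_eq_mul]
    · rw [ENNReal.ofReal_mul ENNReal.toReal_nonneg, ENNReal.ofReal_toReal (hVt X y)]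
    · rw [← mul_neg, ENNReal.ofReal_mul ENNReal.toReal_nonneg, ENNReal.ofReal_toReal (hVt X y)]
  have swap : ∀ L : ℂ →L[ℝ] ℝ, (∀ z, ‖L z‖ ≤ ‖z‖) →
      L (∑' X, ∫ y, ((W X y).toReal : ℂ) * F X y ∂ν X) =
        L (∑' X, ∫ y, ((W' X y).toReal : ℂ) * F X y ∂ν X) := fun L hL => by
    rw [key W hWm (weight_le_one σ hW) hfin L hL, key W' hW'm (weight_le_one σ hW') hfin' L hL,
      tsum_lintegral_swap σ ν hν hWm hW'm hW hW'
        (F := fun X y => ENNReal.ofReal (L (F X y)))
        (fun X => (L.continuous.measurable.comp (hFm X)).ennreal_ofReal) (fun g X y => by rw [hF]),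
      tsum_lintegral_swap σ ν hν hWm hW'm hW hW'
        (F := fun X y => ENNReal.ofReal (-L (F X y)))
        (fun X => (L.continuous.measurable.comp (hFm X)).neg.ennreal_ofReal)
        (fun g X y => by rw [hF])]
  exact Complex.ext (swap reCLM fun z => abs_re_le_norm z) (swap imCLM fun z => abs_im_le_norm z)

end General

instance instSFiniteVolH3 : SFinite H3.volH3 := by
  have e : H3.volH3 = Measure.map H3.mkPt (Measure.map H3.coords H3.volH3) := by
    rw [Measure.map_map H3.measurable_mkPt H3.measurableEmbedding_coords.measurable,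
      show H3.mkPt ∘ H3.coords = id from funext H3.mkPt_coords, Measure.map_id]
  rw [e, show Measure.map H3.coords H3.volH3 =
      ((volume : Measure (ℂ × ℝ)).withDensity fun x => ENNReal.ofReal (1 / x.2 ^ 3)).restrict
        (Set.range H3.coords) from H3.measurableEmbedding_coords.map_comap _]
  infer_instance

/-- `w φ`. -/
def wmul (w : H3 → ℝ≥0∞) (φ : H3 → ℂ) (P : H3) : ℂ := ((w P).toReal : ℂ) * φ P

variable {H : Subgroup (GL (Fin 2) ℂ)} {w : H3 → ℝ≥0∞}

theorem countable_of_le_congGroup_one (hH : H ≤ congGroup 1) : Countable H :=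
  Function.Injective.countable (f := Subgroup.inclusion hH) (Subgroup.inclusion_injective hH)

theorem IsWt.le_one (hw : IsWt H w) (P : H3) : w P ≤ 1 := by
  rw [← hw.sum_eq P]
  simpa using ENNReal.le_tsum (f := fun h : H => w ((h : GL (Fin 2) ℂ) • P)) 1

theorem norm_wmul_le (hw : IsWt H w) (φ : H3 → ℂ) (P : H3) : ‖wmul w φ P‖ₑ = w P * ‖φ P‖ₑ := by
  rw [wmul, enorm_mul, ← ofReal_norm ((w P).toReal : ℂ), Complex.norm_real,
    Real.norm_of_nonneg ENNReal.toReal_nonneg,
    ENNReal.ofReal_toReal (ne_top_of_le_ne_top ENNReal.one_ne_top (hw.le_one P))]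

theorem measurable_wmul (hw : IsWt H w) {φ : H3 → ℂ} (hφ : Continuous φ) :
    Measurable (wmul w φ) :=
  (continuous_ofReal.measurable.comp hw.measurable.ennreal_toReal).mul hφ.measurable

theorem continuous_coshDist₂ : Continuous fun y : H3 × H3 => H3.coshDist y.1 y.2 := by
  unfold H3.coshDist
  have hz1 := H3.continuous_z.comp (continuous_fst (X := H3) (Y := H3))
  have hz2 := H3.continuous_z.comp (continuous_snd (X := H3) (Y := H3))
  have ht1 := H3.continuous_t.comp (continuous_fst (X := H3) (Y := H3))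
  have ht2 := H3.continuous_t.comp (continuous_snd (X := H3) (Y := H3))
  exact ((((hz1.sub hz2).norm.pow 2).add (ht1.pow 2)).add (ht2.pow 2)).div
    ((continuous_const.mul ht1).mul ht2) fun y =>
      mul_ne_zero (mul_ne_zero two_ne_zero y.1.t_ne_zero) y.2.t_ne_zero

section Pairing

variable [Countable H] {S : Type*} [Countable S] (σ : H →* Equiv.Perm S) (η : S → Measure H3)
  [∀ X, SFinite (η X)]

omit [Countable H] [Countable S] in
theorem measurePreserving_pair (hη : ∀ (h : H) X,
    MeasurePreserving ((h : GL (Fin 2) ℂ) • ·) (η X) (η (σ h X)))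
    (h : H) (X : S) :
    MeasurePreserving (h • · : H3 × H3 → H3 × H3) (H3.volH3.prod (η X))
      (H3.volH3.prod (η (σ h X))) :=
  (H3.measurePreserving_smul (h : GL (Fin 2) ℂ)).prod (hη h X)

omit [Countable S] in
/-- The weight moves from the point to the plane. -/
theorem tsum_lintegral_pairing
    (hη : ∀ (h : H) X, MeasurePreserving ((h : GL (Fin 2) ℂ) • ·) (η X) (η (σ h X)))
    (hw : IsWt H w) {k : ℝ → ℝ≥0∞} (hk : Measurable k) :
    ∑' X, ∫⁻ P, w P * ∫⁻ R, k (H3.coshDist P R) ∂η X ∂H3.volH3 =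
      (∫⁻ Q, k (H3.coshDist H3.base Q) ∂H3.volH3) * ∑' X, ∫⁻ R, w R ∂η X := by
  have hkm : Measurable fun y : H3 × H3 => k (H3.coshDist y.1 y.2) :=
    hk.comp continuous_coshDist₂.measurable
  have h := tsum_lintegral_swap σ (fun X => H3.volH3.prod (η X)) (measurePreserving_pair σ η hη)
    (W := fun _ y => w y.1) (W' := fun _ y => w y.2)
    (fun _ => hw.measurable.comp measurable_fst) (fun _ => hw.measurable.comp measurable_snd)
    (fun _ y => hw.sum_eq y.1) (fun _ y => hw.sum_eq y.2)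
    (F := fun _ y => k (H3.coshDist y.1 y.2)) (fun _ => hkm) fun g X y => by
      show k (H3.coshDist ((g : GL (Fin 2) ℂ) • y.1) ((g : GL (Fin 2) ℂ) • y.2)) = _
      rw [H3.coshDist_smul]
  rw [← ENNReal.tsum_mul_left]
  calc _ = ∑' X, ∫⁻ y, w y.1 * k (H3.coshDist y.1 y.2) ∂H3.volH3.prod (η X) := by
        refine tsum_congr fun X => ?_
        rw [lintegral_prod (fun y => w y.1 * k (H3.coshDist y.1 y.2))
          ((hw.measurable.comp measurable_fst).mul hkm).aemeasurable]
        exact lintegral_congr fun P =>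
          (lintegral_const_mul _ (hk.comp (continuous_coshDist P).measurable)).symm
    _ = ∑' X, ∫⁻ y, w y.2 * k (H3.coshDist y.1 y.2) ∂H3.volH3.prod (η X) := h
    _ = _ := by
        refine tsum_congr fun X => ?_
        rw [lintegral_prod_symm (fun y => w y.2 * k (H3.coshDist y.1 y.2))
            ((hw.measurable.comp measurable_snd).mul hkm).aemeasurable,
          ← lintegral_const_mul _ hw.measurable]
        refine lintegral_congr fun R => ?_
        show ∫⁻ P, w R * k (H3.coshDist P R) ∂H3.volH3 = _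
        rw [lintegral_const_mul (f := fun P => k (H3.coshDist P R)) (w R)
          (hk.comp (continuous_coshDist₂.comp (continuous_id.prodMk continuous_const)).measurable),
          mul_comm]
        congr 1
        simp only [fun P => H3.coshDist_comm P R]
        exact lintegral_coshDist R hk

omit [Countable S] in
/-- Pairing of `w φ` with a point pair kernel. -/
theorem tsum_integral_pairing
    (hη : ∀ (h : H) X, MeasurePreserving ((h : GL (Fin 2) ℂ) • ·) (η X) (η (σ h X)))
    (hw : IsWt H w) {φ : H3 → ℂ} (hφc : Continuous φ) {B : ℝ} (hφb : ∀ P, ‖φ P‖ ≤ B)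
    (hinv : ∀ g ∈ H, ∀ P, φ (g • P) = φ P)
    (hsph : ∀ k : ℝ → ℝ, Continuous k → HasCompactSupport k → ∀ P,
      ∫ Q, (k (H3.coshDist P Q) : ℂ) * φ Q ∂H3.volH3 = (sphValue k : ℂ) * φ P)
    {k : ℝ → ℝ} (hk : IsGaussKer k)
    (hfin : ∑' X, ∫⁻ P, w P * ∫⁻ R, ‖k (H3.coshDist P R)‖ₑ ∂η X ∂H3.volH3 ≠ ⊤) :
    ∑' X, ∫ P, wmul w φ P * ∫ R, (k (H3.coshDist P R) : ℂ) ∂η X ∂H3.volH3 =
      (sphValue k : ℂ) * ∑' X, ∫ R, wmul w φ R ∂η X := by
  have hkc : Continuous fun y : H3 × H3 => (k (H3.coshDist y.1 y.2) : ℂ) :=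
    continuous_ofReal.comp (hk.1.comp continuous_coshDist₂)
  set F : S → H3 × H3 → ℂ := fun _ y => φ y.1 * (k (H3.coshDist y.1 y.2) : ℂ) with hF
  have hFm : ∀ X, Measurable (F X) := fun _ => ((hφc.comp continuous_fst).mul hkc).measurable
  have hfin' : ∑' X, ∫⁻ y, w y.1 * ‖F X y‖ₑ ∂H3.volH3.prod (η X) ≠ ⊤ := by
    refine ne_top_of_le_ne_top (ENNReal.mul_ne_top ENNReal.ofReal_ne_top hfin)
      (le_of_le_of_eq ?_ ENNReal.tsum_mul_left (b := ∑' X, ENNReal.ofReal B *
        ∫⁻ P, w P * ∫⁻ R, ‖k (H3.coshDist P R)‖ₑ ∂η X ∂H3.volH3))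
    refine ENNReal.tsum_le_tsum fun X => ?_
    rw [lintegral_prod (fun y => w y.1 * ‖F X y‖ₑ)
        ((hw.measurable.comp measurable_fst).mul (hFm X).enorm).aemeasurable,
      ← lintegral_const_mul' _ _ ENNReal.ofReal_ne_top]
    refine lintegral_mono fun P => ?_
    rw [mul_left_comm, ← lintegral_const_mul' _ _ ENNReal.ofReal_ne_top,
      ← lintegral_const_mul' _ _ (ne_top_of_le_ne_top ENNReal.one_ne_top (hw.le_one P))]
    refine lintegral_mono fun R => mul_le_mul_right ?_ _
    rw [hF]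
    simp only [enorm_mul]
    refine mul_le_mul' ?_ (le_of_eq ?_)
    · rw [← ofReal_norm]; exact ENNReal.ofReal_le_ofReal (hφb P)
    · rw [← ofReal_norm, ← ofReal_norm, Complex.norm_real]
  have hW : ∀ (X : S) (y : H3 × H3), ∑' g : H, w ((g • y).1) = 1 := fun _ y => hw.sum_eq y.1
  have hW' : ∀ (X : S) (y : H3 × H3), ∑' g : H, w ((g • y).2) = 1 := fun _ y => hw.sum_eq y.2
  have hFi : ∀ (g : H) X y, F (σ g X) (g • y) = F X y := fun g X y => by
    show φ ((g : GL (Fin 2) ℂ) • y.1) *
      (k (H3.coshDist ((g : GL (Fin 2) ℂ) • y.1) ((g : GL (Fin 2) ℂ) • y.2)) : ℂ) = _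
    rw [hinv g g.2, H3.coshDist_smul]
  have h := tsum_integral_swap σ (fun X => H3.volH3.prod (η X)) (measurePreserving_pair σ η hη)
    (W := fun _ y => w y.1) (W' := fun _ y => w y.2)
    (fun _ => hw.measurable.comp measurable_fst) (fun _ => hw.measurable.comp measurable_snd)
    hW hW' hFm hFi hfin'
  have hfin'' : ∑' X, ∫⁻ y, w y.2 * ‖F X y‖ₑ ∂H3.volH3.prod (η X) ≠ ⊤ := by
    rwa [← tsum_lintegral_swap σ (fun X => H3.volH3.prod (η X)) (measurePreserving_pair σ η hη)
      (W := fun _ y => w y.1) (W' := fun _ y => w y.2)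
      (fun _ => hw.measurable.comp measurable_fst) (fun _ => hw.measurable.comp measurable_snd)
      hW hW' (F := fun X y => ‖F X y‖ₑ) (fun X => (hFm X).enorm) fun g X y =>
        congrArg (‖·‖ₑ) (hFi g X y)]
  have i1 := integrable_weight (fun X => H3.volH3.prod (η X))
    (fun _ => hw.measurable.comp measurable_fst) (fun _ y => hw.le_one y.1) hFm hfin'
  have i2 := integrable_weight (fun X => H3.volH3.prod (η X))
    (fun _ => hw.measurable.comp measurable_snd) (fun _ y => hw.le_one y.2) hFm hfin''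
  rw [← tsum_mul_left]
  calc _ = ∑' X, ∫ y, ((w y.1).toReal : ℂ) * F X y ∂H3.volH3.prod (η X) := by
        refine tsum_congr fun X => ?_
        refine Eq.trans ?_ (integral_prod _ (i1 X)).symm
        refine integral_congr_ae (Filter.Eventually.of_forall fun P => ?_)
        simp only [Function.comp_apply, hF, wmul, ← mul_assoc, integral_const_mul]
    _ = ∑' X, ∫ y, ((w y.2).toReal : ℂ) * F X y ∂H3.volH3.prod (η X) := h
    _ = _ := by
        refine tsum_congr fun X => ?_
        refine (integral_prod_symm _ (i2 X)).trans ?_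
        rw [← integral_const_mul]
        refine integral_congr_ae (Filter.Eventually.of_forall fun R => ?_)
        simp only [Function.comp_apply, hF, integral_const_mul, wmul]
        rw [show (fun P => φ P * (k (H3.coshDist P R) : ℂ)) =
            fun P => (k (H3.coshDist R P) : ℂ) * φ P by
          funext P; rw [H3.coshDist_comm, mul_comm],
          spherical_extend hφc hφb hsph hk R]
        ring

end Pairing

end FLTAgent.LanglandsTunnell.Lift
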