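import Fermat.Agent.LanglandsTunnell.Lift.Negative
import Fermat.Agent.LanglandsTunnell.Lift.Unfold
import Fermat.Agent.LanglandsTunnell.Lift.Bound

/-!
# Sums of pairings of `w φ` with the two kernels over vectors of one nonzero norm

For a spherical function (`SphFn`) and a stable lattice set of norm `q` (`LatSet`) the pairings
with `Phi1`, `Phi2` are evaluated as plane sums for `q > 0` and point sums for `q < 0`
(`tsum_Phi1_pos` and its variants): the Fourier coefficients of the lift.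
-/

set_option autoImplicit false

noncomputable section

namespace FLTAgent.LanglandsTunnell.Lift

open FLTAgent.LanglandsTunnell MeasureTheory Complex ComplexConjugate Matrix Set Filter
open scoped Real ENNReal UpperHalfPlane Topology

/-- A bounded continuous invariant spherical function. -/
structure SphFn (H : Subgroup (GL (Fin 2) ℂ)) (φ : H3 → ℂ) : Prop where
  continuous : Continuous φ
  bounded : ∃ C : ℝ, ∀ P, ‖φ P‖ ≤ C
  invariant : ∀ g ∈ H, ∀ P, φ (g • P) = φ P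
  spherical : ∀ k : ℝ → ℝ, Continuous k → HasCompactSupport k → ∀ P,
    ∫ Q, (k (H3.coshDist P Q) : ℂ) * φ Q ∂H3.volH3 = (sphValue k : ℂ) * φ P

theorem SphFn.mono {H K : Subgroup (GL (Fin 2) ℂ)} {φ : H3 → ℂ} (h : SphFn H φ) (hK : K ≤ H) :
    SphFn K φ :=
  ⟨h.continuous, h.bounded, fun g hg => h.invariant g (hK hg), h.spherical⟩

/-- A stable set of vectors of norm `q` inside a lattice. -/
structure LatSet (H : Subgroup (GL (Fin 2) ℂ)) (q : ℝ) (Λ : Set HVec) : Prop where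
  stable : Stable H Λ
  level : ∃ K : ℕ, 0 < K ∧ Λ ⊆ Set.range fun n : Fin 4 → ℤ => (K : ℝ)⁻¹ • latVec n
  norm_eq : ∀ X ∈ Λ, Qf X = q

theorem LatSet.countable {H : Subgroup (GL (Fin 2) ℂ)} {q : ℝ} {Λ : Set HVec}
    (h : LatSet H q Λ) : Countable Λ := by
  obtain ⟨K, _, hK⟩ := h.level
  exact ((Set.countable_range _).mono hK).to_subtype

/-- The sum of the plane integrals. -/
def planeSum (w : H3 → ℝ≥0∞) (φ : H3 → ℂ) (Λ : Set HVec) : ℂ :=
  ∑' X : Λ, ∫ R, wmul w φ R ∂planeMeas X.1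

/-- The sum of the point values. -/
def pointSum (w : H3 → ℝ≥0∞) (φ : H3 → ℂ) (Λ : Set HVec) : ℂ :=
  ∑' X : Λ, wmul w φ (negPt X.1)

variable {H : Subgroup (GL (Fin 2) ℂ)} {w : H3 → ℝ≥0∞} {φ : H3 → ℂ} {q : ℝ} {Λ : Set HVec}

theorem LatSet.tsum_gauss_le (hΛ : LatSet H q Λ) :
    ∃ K : ℕ, 0 < K ∧ ∀ (α : ℝ) P,
      ∑' X : Λ, ENNReal.ofReal (Real.exp (-α * Mf P X.1)) ≤ gaussSum K α P := by
  obtain ⟨K, hK, hsub⟩ := hΛ.level
  refine ⟨K, hK, fun α P => ?_⟩
  choose f hf using fun X : Λ => hsub X.2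
  have hinj : Function.Injective f := fun X Y h => Subtype.ext (by rw [← hf X, ← hf Y, h])
  calc ∑' X : Λ, ENNReal.ofReal (Real.exp (-α * Mf P X.1))
      = ∑' X : Λ, ENNReal.ofReal (Real.exp (-α * Mf P ((K : ℝ)⁻¹ • latVec (f X)))) :=
        tsum_congr fun X => by
          have := hf X
          simp only at this
          rw [this]
    _ ≤ _ := ENNReal.tsum_comp_le_tsum_of_injective hinj
          fun n => ENNReal.ofReal (Real.exp (-α * Mf P ((K : ℝ)⁻¹ • latVec n)))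

theorem LatSet.pairing_finite (hΛ : LatSet H q Λ) (hw : IsWt H w) (η : Λ → Measure H3)
    {k : ℝ → ℝ} {α B : ℝ} (hα : 0 < α) (hB : 0 ≤ B)
    (hb : ∀ (X : Λ) P, ∫⁻ R, ‖k (H3.coshDist P R)‖ₑ ∂η X ≤
      ENNReal.ofReal (B * Real.exp (-α * Mf P X.1))) :
    ∑' X : Λ, ∫⁻ P, w P * ∫⁻ R, ‖k (H3.coshDist P R)‖ₑ ∂η X ∂H3.volH3 ≠ ⊤ := by
  have := hΛ.countable
  obtain ⟨K, hK, hle⟩ := hΛ.tsum_gauss_le
  have hm : ∀ X : Λ, AEMeasurable
      (fun P => w P * ENNReal.ofReal (B * Real.exp (-α * Mf P X.1))) H3.volH3 := fun X =>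
    (hw.measurable.mul (continuous_const.mul (Real.continuous_exp.comp (continuous_const.mul
      ((continuous_const.add (continuous_const.mul
        ((continuous_Tf X.1).pow 2))))))).measurable.ennreal_ofReal
      ).aemeasurable
  refine ne_top_of_le_ne_top
    (ENNReal.mul_ne_top (ENNReal.ofReal_ne_top (r := B)) (hw.lintegral_gaussSum_lt_top hK hα).ne) ?_
  calc ∑' X : Λ, ∫⁻ P, w P * ∫⁻ R, ‖k (H3.coshDist P R)‖ₑ ∂η X ∂H3.volH3
      ≤ ∑' X : Λ, ∫⁻ P, w P * ENNReal.ofReal (B * Real.exp (-α * Mf P X.1)) ∂H3.volH3 :=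
        ENNReal.tsum_le_tsum fun X => lintegral_mono fun P => mul_le_mul_right (hb X P) _
    _ = ∫⁻ P, ∑' X : Λ, w P * ENNReal.ofReal (B * Real.exp (-α * Mf P X.1)) ∂H3.volH3 :=
        (lintegral_tsum hm).symm
    _ ≤ ∫⁻ P, ENNReal.ofReal B * (w P * gaussSum K α P) ∂H3.volH3 := by
        refine lintegral_mono fun P => ?_
        rw [ENNReal.tsum_mul_left, mul_left_comm]
        simp only [ENNReal.ofReal_mul hB, ENNReal.tsum_mul_left]
        gcongr
        exact hle α P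
    _ = _ := lintegral_const_mul' _ _ ENNReal.ofReal_ne_top

/-! ### The kernels on the line -/

theorem one_add_le_exp_half {y : ℝ} : 1 + 2 * y ≤ 4 * Real.exp (y / 2) := by
  have := Real.add_one_le_exp (y / 2)
  nlinarith [Real.exp_pos (y / 2)]

theorem abs_poly_gauss_le {a : ℝ} (ha : 0 < a) (x : ℝ) :
    |(1 - 2 * a * x ^ 2) * Real.exp (-a * x ^ 2)| ≤ 4 * Real.exp (-(a / 2) * x ^ 2) := by
  rw [abs_mul, Real.abs_exp]
  have hy : 0 ≤ a * x ^ 2 := by positivity
  have h1 : |1 - 2 * a * x ^ 2| ≤ 1 + 2 * (a * x ^ 2) := abs_le.mpr ⟨by linarith, by linarith⟩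
  calc |1 - 2 * a * x ^ 2| * Real.exp (-a * x ^ 2)
      ≤ 4 * Real.exp (a * x ^ 2 / 2) * Real.exp (-a * x ^ 2) :=
        mul_le_mul_of_nonneg_right (h1.trans one_add_le_exp_half) (Real.exp_pos _).le
    _ = _ := by rw [mul_assoc, ← Real.exp_add]; ring_nf

theorem isGaussKer_mul_exp {p : ℝ → ℝ} (hp : Continuous p) {a : ℝ} (ha : 0 < a) {C : ℝ}
    (hC : 0 ≤ C) (hb : ∀ x, |p x| ≤ C * Real.exp (a / 2 * x ^ 2)) :
    IsGaussKer fun x => p x * Real.exp (-a * x ^ 2) := by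
  refine ⟨hp.mul (by fun_prop), a / 2, C, by positivity, hC, fun x => ?_⟩
  rw [abs_mul, Real.abs_exp]
  refine (mul_le_mul_of_nonneg_right (hb x) (Real.exp_pos _).le).trans (le_of_eq ?_)
  rw [mul_assoc, ← Real.exp_add]
  ring_nf

theorem hasDerivAt_gauss (a x : ℝ) :
    HasDerivAt (fun x => Real.exp (-a * x ^ 2)) (-2 * a * x * Real.exp (-a * x ^ 2)) x := by
  have h := ((hasDerivAt_pow 2 x).const_mul (-a)).exp
  refine h.congr_deriv ?_
  ring

theorem hasDerivAt_xgauss (a x : ℝ) :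
    HasDerivAt (fun x => x * Real.exp (-a * x ^ 2))
      ((1 - 2 * a * x ^ 2) * Real.exp (-a * x ^ 2)) x := by
  refine ((hasDerivAt_id x).mul (hasDerivAt_gauss a x)).congr_deriv ?_
  simp
  ring

theorem isGaussKer_xgauss {a : ℝ} (ha : 0 < a) :
    IsGaussKer fun x => x * Real.exp (-a * x ^ 2) := by
  refine isGaussKer_mul_exp continuous_id ha (C := 1 + 2 / a) (by positivity) fun x => ?_
  have h := Real.add_one_le_exp (a / 2 * x ^ 2)
  have hE := Real.one_le_exp (by positivity : 0 ≤ a / 2 * x ^ 2)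
  have e : 2 / a * (a / 2 * x ^ 2) = x ^ 2 := by field_simp
  have : 2 / a * (a / 2 * x ^ 2) ≤ 2 / a * Real.exp (a / 2 * x ^ 2) :=
    mul_le_mul_of_nonneg_left (by linarith) (by positivity)
  have : |x| ≤ 1 + x ^ 2 := by nlinarith [abs_nonneg x, sq_abs x]
  show |x| ≤ _
  nlinarith

theorem isGaussKer_dxgauss {a : ℝ} (ha : 0 < a) :
    IsGaussKer fun x => (1 - 2 * a * x ^ 2) * Real.exp (-a * x ^ 2) :=
  ⟨by fun_prop, a / 2, 4, by positivity, by norm_num, abs_poly_gauss_le ha⟩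

theorem IsGaussKer.const_mul' {k : ℝ → ℝ} (h : IsGaussKer k) (c : ℝ) :
    IsGaussKer fun x => c * k x := by
  obtain ⟨hc, a, C, ha, hC, hb⟩ := h
  refine ⟨continuous_const.mul hc, a, |c| * C, ha, by positivity, fun x => ?_⟩
  rw [abs_mul, mul_assoc]
  exact mul_le_mul_of_nonneg_left (hb x) (abs_nonneg c)

theorem integral_gauss_shift {a : ℝ} :
    ∫ r in Ioi (0 : ℝ), Real.cosh r * Real.exp (-a * Real.cosh r ^ 2)
      = Real.exp (-a) * (Real.sqrt (π / a) / 2) := by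
  rw [← integral_gaussian_Ioi, ← integral_const_mul]
  conv_rhs => rw [← setIntegral_sinh]
  refine setIntegral_congr_fun measurableSet_Ioi fun r _ => ?_
  rw [← Real.exp_add]
  congr 2
  rw [Real.cosh_sq]
  ring

theorem sphValue_xgauss {a : ℝ} (ha : 0 < a) (c : ℝ) :
    sphValue (fun x => -(c * ((1 - 2 * a * x ^ 2) * Real.exp (-a * x ^ 2))))
      = 2 * π * c * (Real.exp (-a) * Real.sqrt (π / a)) := by
  rw [sphValue_of_deriv (K := fun x => c * (x * Real.exp (-a * x ^ 2)))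
    (fun x => (hasDerivAt_xgauss a x).const_mul c) ((isGaussKer_xgauss ha).const_mul' c)
    ((isGaussKer_dxgauss ha).const_mul' c)]
  rw [integral_const_mul, integral_gauss_shift (a := a)]
  ring

/-- The antiderivative for the second kernel. -/
def secondK (a : ℝ) (x : ℝ) : ℝ :=
  (2 * π)⁻¹ * (x * (1 - 2 * a * (x ^ 2 - 1)) * Real.exp (-a * x ^ 2))

/-- Its negated derivative. -/
def secondK' (a : ℝ) (x : ℝ) : ℝ :=
  (2 * π)⁻¹ * (((1 - 2 * a * (x ^ 2 - 1)) * (1 - 2 * a * x ^ 2) - 4 * a * x ^ 2) *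
    Real.exp (-a * x ^ 2))

theorem hasDerivAt_secondK (a x : ℝ) : HasDerivAt (secondK a) (secondK' a x) x := by
  have h1 := (hasDerivAt_id x).mul ((((hasDerivAt_pow 2 x).sub_const 1).const_mul
      (2 * a)).const_sub 1)
  refine ((h1.mul (hasDerivAt_gauss a x)).const_mul ((2 * π)⁻¹)).congr_deriv ?_
  simp [secondK']
  ring

theorem sq_le_exp {y : ℝ} (hy : 0 ≤ y) : (1 + y) ^ 2 ≤ 16 * Real.exp (y / 2) := by
  have h4 := Real.add_one_le_exp (y / 4)
  calc (1 + y) ^ 2 ≤ (4 * Real.exp (y / 4)) ^ 2 :=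
        pow_le_pow_left₀ (by linarith) (by linarith) 2
    _ = _ := by rw [mul_pow, ← Real.exp_nat_mul]; ring_nf

theorem isGaussKer_secondK {a : ℝ} (ha : 0 < a) :
    IsGaussKer (secondK a) ∧ IsGaussKer (secondK' a) := by
  have key : ∀ x : ℝ, (1 + a * x ^ 2) ^ 2 ≤ 16 * Real.exp (a / 2 * x ^ 2) := fun x => by
    have := sq_le_exp (mul_nonneg ha.le (sq_nonneg x))
    rwa [show a * x ^ 2 / 2 = a / 2 * x ^ 2 by ring] at this
  constructor
  · refine IsGaussKer.const_mul' (isGaussKer_mul_exp (by fun_prop) ha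
      (C := 16 * (3 + 2 * a) * (1 + 1 / a)) (by positivity) fun x => ?_) _
    have h := key x
    have hax : 0 ≤ a * x ^ 2 := by positivity
    have h1 : |1 - 2 * a * (x ^ 2 - 1)| ≤ (3 + 2 * a) * (1 + a * x ^ 2) :=
      abs_le.mpr ⟨by nlinarith, by nlinarith⟩
    have h2 : |x| ≤ (1 + 1 / a) * (1 + a * x ^ 2) := by
      have : |x| ≤ 1 + x ^ 2 := by nlinarith [abs_nonneg x, sq_abs x]
      have e : 1 / a * (a * x ^ 2) = x ^ 2 := by field_simp
      nlinarith [one_div_pos.mpr ha]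
    rw [abs_mul]
    calc |x| * |1 - 2 * a * (x ^ 2 - 1)|
        ≤ (1 + 1 / a) * (1 + a * x ^ 2) * ((3 + 2 * a) * (1 + a * x ^ 2)) :=
          mul_le_mul h2 h1 (abs_nonneg _) (by positivity)
      _ = (3 + 2 * a) * (1 + 1 / a) * (1 + a * x ^ 2) ^ 2 := by ring
      _ ≤ (3 + 2 * a) * (1 + 1 / a) * (16 * Real.exp (a / 2 * x ^ 2)) := by gcongr
      _ = _ := by ring
  · refine IsGaussKer.const_mul' (isGaussKer_mul_exp (by fun_prop) ha
      (C := 16 * (10 + 8 * a)) (by positivity) fun x => ?_) _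
    have h := key x
    have hax : 0 ≤ a * x ^ 2 := by positivity
    refine le_trans (abs_le.mpr ⟨?_, ?_⟩) (show (10 + 8 * a) * (1 + a * x ^ 2) ^ 2 ≤ _ by
      rw [show 16 * (10 + 8 * a) * Real.exp (a / 2 * x ^ 2)
        = (10 + 8 * a) * (16 * Real.exp (a / 2 * x ^ 2)) by ring]
      gcongr) <;> nlinarith [mul_nonneg hax hax, mul_nonneg ha.le hax]

theorem sphValue_secondK {a : ℝ} (ha : 0 < a) : sphValue (fun x => -secondK' a x) = 0 := by
  rw [sphValue_of_deriv (hasDerivAt_secondK a) (isGaussKer_secondK ha).1 (isGaussKer_secondK ha).2]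
  have hgi : IntegrableOn (fun s : ℝ => (1 - 2 * a * s ^ 2) * Real.exp (-a * s ^ 2)) (Ioi 0) := by
    refine (((integrable_exp_neg_mul_sq (half_pos ha)).const_mul 4).integrableOn).mono'
      (by fun_prop : Continuous _).aestronglyMeasurable
      (Eventually.of_forall fun x => abs_poly_gauss_le ha x)
  have hl : Tendsto (fun s : ℝ => s * Real.exp (-a * s ^ 2)) atTop (𝓝 0) := by
    have h0 : Tendsto (fun r : ℝ => r * Real.exp (-a * r)) atTop (𝓝 0) := by
      simpa using tendsto_rpow_mul_exp_neg_mul_atTop_nhds_zero 1 a ha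
    refine squeeze_zero_norm' ?_ h0
    filter_upwards [eventually_ge_atTop 1] with r hr
    rw [Real.norm_of_nonneg (by positivity)]
    exact mul_le_mul_of_nonneg_left (Real.exp_le_exp.mpr (by
      nlinarith [mul_le_mul_of_nonneg_left (le_self_pow₀ hr two_ne_zero) ha.le])) (by linarith)
  have h0 := integral_Ioi_of_hasDerivAt_of_tendsto' (a := 0) (fun s _ =>
      hasDerivAt_xgauss a s) hgi hl
  have e : ∫ r in Ioi (0 : ℝ), secondK a (Real.cosh r)
      = (2 * π)⁻¹ * Real.exp (-a) * ∫ s in Ioi (0 : ℝ),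
        (1 - 2 * a * s ^ 2) * Real.exp (-a * s ^ 2) := by
    rw [← integral_const_mul]
    conv_rhs => rw [← setIntegral_sinh]
    refine setIntegral_congr_fun measurableSet_Ioi fun r _ => ?_
    simp only [secondK, Real.cosh_sq]
    rw [show (-a * (Real.sinh r ^ 2 + 1)) = -a + -a * Real.sinh r ^ 2 by ring, Real.exp_add]
    ring
  rw [e, h0]
  simp

/-! ### Bounds on the planes -/

theorem tendsto_gauss_zero {a : ℝ} (ha : 0 < a) :
    Tendsto (fun x : ℝ => Real.exp (-a * x ^ 2)) atTop (𝓝 0) :=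
  Real.tendsto_exp_atBot.comp
    ((tendsto_pow_atTop (two_ne_zero (α := ℕ))).const_mul_atTop_of_neg (neg_lt_zero.mpr ha))

theorem IsGaussKer.tendsto {k : ℝ → ℝ} (h : IsGaussKer k) : Tendsto k atTop (𝓝 0) := by
  obtain ⟨-, a, C, ha, -, hb⟩ := h
  refine squeeze_zero_norm hb ?_
  simpa using (tendsto_gauss_zero ha).const_mul C

theorem IsGaussKer.integrableOn {k : ℝ → ℝ} (h : IsGaussKer k) (C : ℝ) :
    IntegrableOn k (Ioi C) := by
  obtain ⟨hc, a, B, ha, -, hb⟩ := h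
  exact (((integrable_exp_neg_mul_sq ha).const_mul B).mono' hc.aestronglyMeasurable
    (Eventually.of_forall hb)).integrableOn

theorem integral_plane_ker {k K : ℝ → ℝ} (hK : ∀ x, HasDerivAt K (-k x) x) (hk : IsGaussKer k)
    (hKg : IsGaussKer K) {X : HVec} (hX : 0 < Qf X) (P : H3) :
    ∫ R, (k (H3.coshDist P R) : ℂ) ∂planeMeas X
      = ((2 * π * K (coshPlane P X) / coshPlane P X : ℝ) : ℂ) := by
  rw [integral_coshDist_plane (k := fun x => (k x : ℂ)) (K := fun x => (K x : ℂ))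
    (continuous_ofReal.comp hk.1) (fun x => by simpa using (hK x).ofReal_comp)
    (by simpa [Function.comp_def] using (continuous_ofReal.tendsto _).comp hKg.tendsto)
    (fun C _ => (hk.integrableOn C).ofReal) hX P]
  push_cast
  rfl

theorem one_le_coshPlane {X : HVec} (hX : 0 < Qf X) (P : H3) : 1 ≤ coshPlane P X :=
  Real.one_le_sqrt.mpr (le_add_of_nonneg_right (div_nonneg (sq_nonneg _) hX.le))

theorem coshPlane_sq {X : HVec} (hX : 0 < Qf X) (P : H3) :
    coshPlane P X ^ 2 = 1 + Tf P X ^ 2 / Qf X :=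
  Real.sq_sqrt (add_nonneg zero_le_one (div_nonneg (sq_nonneg _) hX.le))

theorem lintegral_plane_le {k : ℝ → ℝ} {b B : ℝ} (hb : 0 < b) (hB : 0 ≤ B)
    (h : ∀ x, |k x| ≤ B * Real.exp (-b * x ^ 2)) {X : HVec} (hX : 0 < Qf X) (P : H3) :
    ∫⁻ R, ‖k (H3.coshDist P R)‖ₑ ∂planeMeas X ≤
      ENNReal.ofReal (B * π / b * Real.exp (-(b / (2 * Qf X)) * Mf P X)) := by
  set g : ℝ → ℝ := fun x => B * (x * Real.exp (-b * x ^ 2))
  have hK : ∀ x, HasDerivAt (fun x => B / (2 * b) * Real.exp (-b * x ^ 2)) (-g x) x := fun x => by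
    refine ((hasDerivAt_gauss b x).const_mul _).congr_deriv ?_
    simp only [g]
    field_simp
  have hgk : IsGaussKer fun x => B / (2 * b) * Real.exp (-b * x ^ 2) :=
    IsGaussKer.const_mul' ⟨by fun_prop, b, 1, hb, zero_le_one, fun x => by simp [Real.abs_exp]⟩ _
  have hg := integral_plane_ker hK ((isGaussKer_xgauss hb).const_mul' B) hgk hX P
  rw [integral_complex_ofReal, Complex.ofReal_inj] at hg
  set C := coshPlane P X
  have hC1 : 1 ≤ C := one_le_coshPlane hX P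
  have hR : ∀ R, 1 ≤ H3.coshDist P R := fun R => H3.one_le_coshDist P R
  have hle : ∫⁻ R, ENNReal.ofReal (g (H3.coshDist P R)) ∂planeMeas X ≤
      ENNReal.ofReal (B * π / b * Real.exp (-b * C ^ 2)) := by
    rcases hB.eq_or_lt with rfl | hB'
    · simp [g]
    have hne : ∫ R, g (H3.coshDist P R) ∂planeMeas X ≠ 0 := by
      rw [hg]
      have : 0 < C := by linarith
      positivity
    rw [← ofReal_integral_eq_lintegral_ofReal (Integrable.of_integral_ne_zero hne)
      (Eventually.of_forall fun R => by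
        have := hR R
        simp only [g, Pi.zero_apply]
        positivity), hg]
    refine ENNReal.ofReal_le_ofReal ?_
    rw [show 2 * π * (B / (2 * b) * Real.exp (-b * C ^ 2)) / C
      = B * π / b * Real.exp (-b * C ^ 2) / C by field_simp]
    exact div_le_self (by positivity) hC1
  refine (lintegral_mono fun R => ?_).trans (hle.trans (ENNReal.ofReal_le_ofReal ?_))
  · rw [← ofReal_norm, Real.norm_eq_abs]
    refine ENNReal.ofReal_le_ofReal ((h _).trans ?_)
    simp only [g]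
    exact mul_le_mul_of_nonneg_left (le_mul_of_one_le_left (Real.exp_pos _).le (hR R)) hB
  · refine mul_le_mul_of_nonneg_left (Real.exp_le_exp.mpr ?_) (by positivity)
    rw [coshPlane_sq hX, Mf]
    have : -(b / (2 * Qf X)) * (Qf X + 2 * Tf P X ^ 2)
        = -b * (1 / 2 + Tf P X ^ 2 / Qf X) := by field_simp
    rw [this]
    nlinarith

theorem lintegral_dirac_le {k : ℝ → ℝ} {b B : ℝ} (hb : 0 < b) (hB : 0 ≤ B)
    (h : ∀ x, |k x| ≤ B * Real.exp (-b * x ^ 2)) (hk : Continuous k) {X : HVec} (hX : Qf X < 0)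
    (P : H3) :
    ∫⁻ R, ‖k (H3.coshDist P R)‖ₑ ∂Measure.dirac (negPt X) ≤
      ENNReal.ofReal (B * Real.exp (-(b / (2 * -Qf X)) * Mf P X)) := by
  rw [lintegral_dirac' (f := fun R => ‖k (H3.coshDist P R)‖ₑ)
    _ (hk.comp (continuous_coshDist P)).measurable.enorm, ← ofReal_norm, Real.norm_eq_abs]
  refine ENNReal.ofReal_le_ofReal ((h _).trans (mul_le_mul_of_nonneg_left
    (Real.exp_le_exp.mpr ?_) hB))
  rw [Mf, Tf_sq_negPt hX]
  set m := -Qf X with hm
  have hm0 : 0 < m := neg_pos.mpr hX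
  have e : -(b / (2 * m)) * (Qf X + 2 * (m * H3.coshDist P (negPt X) ^ 2))
      = b / 2 - b * H3.coshDist P (negPt X) ^ 2 := by
    rw [show Qf X = -m by ring]
    field_simp
    ring
  rw [e]
  linarith

/-! ### The four evaluations -/

variable (hφ : SphFn H φ) (hw : IsWt H w) (hH : H ≤ congGroup 1) (hΛ : LatSet H q Λ)

include hφ hw hH hΛ

theorem plane_pairing (hq : 0 < q) {k : ℝ → ℝ} (hk : IsGaussKer k) :
    ∑' X : Λ, ∫ P, wmul w φ P * ∫ R, (k (H3.coshDist P R) : ℂ) ∂planeMeas X.1 ∂H3.volH3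
      = (sphValue k : ℂ) * planeSum w φ Λ := by
  have := countable_of_le_congGroup_one hH
  have := hΛ.countable
  obtain ⟨B, hB⟩ := hφ.bounded
  obtain ⟨hc, b, C, hb, hC, hkb⟩ := id hk
  refine tsum_integral_pairing (actPerm hΛ.stable) (fun X : Λ => planeMeas X.1)
    (fun h X => ?_) hw hφ.continuous hB hφ.invariant hφ.spherical hk
    (hΛ.pairing_finite hw _ (α := b / (2 * q)) (by positivity) (B := C * π / b) (by positivity)
      fun X P => by
        have := lintegral_plane_le hb hC hkb (by rw [hΛ.norm_eq _ X.2]; exact hq : 0 < Qf X.1) P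
        rwa [hΛ.norm_eq _ X.2] at this)
  exact measurePreserving_planeMeas (by rw [hΛ.norm_eq _ X.2]; exact hq) h.1

theorem point_pairing (hq : q < 0) {k : ℝ → ℝ} (hk : IsGaussKer k) :
    ∑' X : Λ, ∫ P, wmul w φ P * (k (H3.coshDist P (negPt X.1)) : ℂ) ∂H3.volH3
      = (sphValue k : ℂ) * pointSum w φ Λ := by
  have := countable_of_le_congGroup_one hH
  have := hΛ.countable
  obtain ⟨B, hB⟩ := hφ.bounded
  obtain ⟨hc, b, C, hb, hC, hkb⟩ := id hk
  have h := tsum_integral_pairing (actPerm hΛ.stable) (fun X : Λ => Measure.dirac (negPt X.1))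
    (fun h X => measurePreserving_dirac_negPt (by rw [hΛ.norm_eq _ X.2]; exact hq) h.1)
    hw hφ.continuous hB hφ.invariant hφ.spherical hk
    (hΛ.pairing_finite hw _ (α := b / (2 * -q)) (div_pos hb (by linarith)) (B := C) hC
      fun X P => by
        have := lintegral_dirac_le hb hC hkb hc (by rw [hΛ.norm_eq _ X.2]; exact hq : Qf X.1 < 0) P
        rwa [hΛ.norm_eq _ X.2] at this)
  simp only [integral_dirac] at h
  exact h

theorem tsum_Phi1_pos (hq : 0 < q) (τ : ℍ) :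
    ∑' X : Λ, ∫ P, wmul w φ P * Phi1 τ P X.1 ∂H3.volH3
      = ee (q * (τ : ℂ)) / (2 * Real.sqrt q : ℝ) * planeSum w φ Λ := by
  have hv := τ.im_pos
  set a := 4 * π * τ.im * q with ha'
  have ha : 0 < a := by positivity
  set K : ℝ → ℝ := fun x => (2 * π)⁻¹ * (x * Real.exp (-a * x ^ 2))
  set k : ℝ → ℝ := fun x => -((2 * π)⁻¹ * ((1 - 2 * a * x ^ 2) * Real.exp (-a * x ^ 2)))
  have hK : ∀ x, HasDerivAt K (-k x) x := fun x => by
    simpa [K, k] using (hasDerivAt_xgauss a x).const_mul (2 * π)⁻¹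
  have hk : IsGaussKer k := by
    simpa [k] using (isGaussKer_dxgauss ha).const_mul' (-(2 * π)⁻¹)
  have hKg : IsGaussKer K := (isGaussKer_xgauss ha).const_mul' _
  set c : ℂ := (Real.sqrt τ.im : ℂ) * (Real.exp a : ℂ) * ee (q * (τ : ℂ)) with hc
  have key : ∀ (X : Λ) P, Phi1 τ P X.1
      = c * ∫ R, (k (H3.coshDist P R) : ℂ) ∂planeMeas X.1 := by
    intro X P
    have hQ := hΛ.norm_eq _ X.2
    have hX : 0 < Qf X.1 := by rw [hQ]; exact hq
    have hC1 := one_le_coshPlane hX P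
    rw [integral_plane_ker hK hk hKg hX]
    have e : 2 * π * K (coshPlane P X.1) / coshPlane P X.1
        = Real.exp (-a * coshPlane P X.1 ^ 2) := by
      simp only [K]
      field_simp
    rw [e, coshPlane_sq hX, hQ, Phi1, hc, ee, ee, Complex.ofReal_exp, Complex.ofReal_exp]
    have hP : Pos P X.1 = q + Tf P X.1 ^ 2 := by rw [← hQ, Qf_eq_Pos P X.1]; ring
    simp only [mul_assoc, ← Complex.exp_add]
    congr 2
    rw [hP, ha']
    have hcj : conj (τ : ℂ) = (τ : ℂ) - 2 * I * (τ.im : ℂ) := by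
      apply Complex.ext <;> simp; ring
    rw [hcj]
    have hqC : (q : ℂ) ≠ 0 := by exact_mod_cast hq.ne'
    push_cast
    field_simp
    linear_combination (4 * (τ.im : ℂ) * (Tf P X.1 : ℂ) ^ 2) * I_sq
  simp only [key, mul_left_comm (wmul w φ _) c, integral_const_mul]
  rw [tsum_mul_left, plane_pairing hφ hw hH hΛ hq hk]
  rw [show sphValue k = 2 * π * (2 * π)⁻¹ * (Real.exp (-a) *
      Real.sqrt (π / a)) from sphValue_xgauss ha _]
  have hs : Real.sqrt τ.im * Real.sqrt (π / a) * (2 * Real.sqrt q) = 1 := by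
    rw [ha', show π / (4 * π * τ.im * q) = (2 : ℝ)⁻¹ ^ 2 / (τ.im * q) by field_simp; ring,
      Real.sqrt_div (by positivity), Real.sqrt_sq (by norm_num), Real.sqrt_mul hv.le]
    have := (Real.sqrt_pos.mpr hv).ne'
    have := (Real.sqrt_pos.mpr hq).ne'
    field_simp
  have he : Real.exp a * Real.exp (-a) = 1 := by rw [← Real.exp_add]; simp
  have hsC : ((Real.sqrt τ.im : ℂ) * (Real.sqrt (π / a) : ℂ)) * (2 * Real.sqrt q : ℝ) = 1 := by
    exact_mod_cast hs
  have heC : (Real.exp a : ℂ) * (Real.exp (-a) : ℂ) = 1 := by exact_mod_cast he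
  have hπ : ((2 * π * (2 * π)⁻¹ : ℝ) : ℂ) = 1 := by
    rw [mul_inv_cancel₀ (by positivity : (2 * π : ℝ) ≠ 0)]; simp
  have hne : ((2 * Real.sqrt q : ℝ) : ℂ) ≠ 0 := by
    exact_mod_cast (by positivity : (2 * Real.sqrt q : ℝ) ≠ 0)
  rw [Complex.ofReal_mul _ (Real.exp (-a) * Real.sqrt (π / a)), hπ, hc, one_mul, Complex.ofReal_mul]
  field_simp
  linear_combination (ee ((q : ℂ) * τ) * planeSum w φ Λ) *
    ((Real.sqrt τ.im : ℂ) * (Real.sqrt (π / a) : ℂ) * (2 * Real.sqrt q : ℝ) * heC + hsC)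

theorem tsum_Phi2_pos (hq : 0 < q) (τ : ℍ) :
    ∑' X : Λ, ∫ P, wmul w φ P * Phi2 τ P X.1 ∂H3.volH3 = 0 := by
  have hv := τ.im_pos
  set a := 4 * π * τ.im * q with ha'
  have ha : 0 < a := by positivity
  obtain ⟨hKg, hk'⟩ := isGaussKer_secondK ha
  have hk : IsGaussKer fun x => -secondK' a x := by simpa using hk'.const_mul' (-1)
  set c : ℂ := (Real.sqrt τ.im : ℂ) * (Real.exp a : ℂ) * ee (-conj (τ : ℂ) * q) with hc
  have key : ∀ (X : Λ) P, Phi2 τ P X.1
      = c * ∫ R, (((fun x => -secondK' a x) (H3.coshDist P R) : ℝ) : ℂ) ∂planeMeas X.1 := by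
    intro X P
    have hQ := hΛ.norm_eq _ X.2
    have hX : 0 < Qf X.1 := by rw [hQ]; exact hq
    have hC1 := one_le_coshPlane hX P
    rw [integral_plane_ker (K := secondK a) (fun x =>
        by simpa using hasDerivAt_secondK a x) hk hKg hX]
    have e : 2 * π * secondK a (coshPlane P X.1) / coshPlane P X.1
        = (1 - 8 * π * τ.im * Tf P X.1 ^ 2) * Real.exp (-a * coshPlane P X.1 ^ 2) := by
      simp only [secondK, coshPlane_sq hX, hQ, ha']
      field_simp
      ring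
    rw [e, coshPlane_sq hX, hQ, Phi2, hc, ee, ee]
    have hP : Pos P X.1 = q + Tf P X.1 ^ 2 := by rw [← hQ, Qf_eq_Pos P X.1]; ring
    rw [Complex.ofReal_mul (1 - 8 * π * τ.im * Tf P X.1 ^ 2)]
    rw [show ∀ s A B E R : ℂ, s * A * B * (R * E) = s * R * (A * B * E) from
      fun _ _ _ _ _ => by ring]
    congr 1
    rw [Complex.ofReal_exp, Complex.ofReal_exp, ← Complex.exp_add, ← Complex.exp_add]
    congr 1
    rw [hP, ha']
    have hcj : conj (τ : ℂ) = (τ : ℂ) - 2 * I * (τ.im : ℂ) := by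
      apply Complex.ext <;> simp; ring
    rw [hcj]
    have hqC : (q : ℂ) ≠ 0 := by exact_mod_cast hq.ne'
    push_cast
    field_simp
    linear_combination (4 * (τ.im : ℂ) * (Tf P X.1 : ℂ) ^ 2) * I_sq
  simp only [key, mul_left_comm (wmul w φ _) c, integral_const_mul]
  rw [tsum_mul_left, plane_pairing hφ hw hH hΛ hq hk, sphValue_secondK ha]
  simp

theorem tsum_Phi2_neg (hq : q < 0) (τ : ℍ) :
    ∑' X : Λ, ∫ P, wmul w φ P * Phi2 τ P X.1 ∂H3.volH3
      = -(ee ((-q : ℝ) * (τ : ℂ)) * π / (Real.sqrt (-q) : ℝ)) * pointSum w φ Λ := by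
  have hv := τ.im_pos
  set m := -q with hm'
  have hm : 0 < m := neg_pos.mpr hq
  set b := 4 * π * τ.im * m with hb'
  have hb : 0 < b := by positivity
  set k : ℝ → ℝ := fun x => -(-1 * ((1 - 2 * b * x ^ 2) * Real.exp (-b * x ^ 2)))
  have hk : IsGaussKer k := by simpa [k] using isGaussKer_dxgauss hb
  set c : ℂ := (Real.sqrt τ.im : ℂ) * (Real.exp b : ℂ) * ee ((m : ℝ) * (τ : ℂ)) with hc
  have key : ∀ (X : Λ) P, Phi2 τ P X.1 = c * (k (H3.coshDist P (negPt X.1)) : ℂ) := by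
    intro X P
    have hQ := hΛ.norm_eq _ X.2
    have hX : Qf X.1 < 0 := by rw [hQ]; exact hq
    have hT : Tf P X.1 ^ 2 = m * H3.coshDist P (negPt X.1) ^ 2 := by
      rw [Tf_sq_negPt hX, hQ]
    set C := H3.coshDist P (negPt X.1)
    have hP : Pos P X.1 = m * C ^ 2 - m := by
      rw [← hT, hm', ← hQ, Qf_eq_Pos P X.1]; ring
    rw [Phi2, hc, ee, ee, hP, hT]
    simp only [k, neg_mul, one_mul, neg_neg, hb']
    rw [Complex.ofReal_mul (1 - 2 * (4 * π * τ.im * m) * C ^ 2),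
      show (1 - 2 * (4 * π * τ.im * m) * C ^ 2 : ℝ) = 1 - 8 * π * τ.im * (m * C ^ 2) by ring,
      show ∀ s A B E R : ℂ, s * A * B * (R * E) = s * R * (A * B * E) from
      fun _ _ _ _ _ => by ring]
    congr 1
    rw [Complex.ofReal_exp, Complex.ofReal_exp, ← Complex.exp_add, ← Complex.exp_add]
    congr 1
    have hcj : conj (τ : ℂ) = (τ : ℂ) - 2 * I * (τ.im : ℂ) := by
      apply Complex.ext <;> simp; ring
    rw [hcj]
    push_cast
    linear_combination (4 * π * (τ.im : ℂ) * ((m : ℂ) * (C : ℂ) ^ 2 - m)) * I_sq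
  simp only [key, mul_left_comm (wmul w φ _) c, integral_const_mul]
  rw [tsum_mul_left, point_pairing hφ hw hH hΛ hq hk,
    show sphValue k = 2 * π * -1 * (Real.exp (-b) * Real.sqrt (π / b)) from sphValue_xgauss hb (-1)]
  have hs : Real.sqrt τ.im * Real.sqrt (π / b) * (2 * Real.sqrt m) = 1 := by
    rw [hb', show π / (4 * π * τ.im * m) = (2 : ℝ)⁻¹ ^ 2 / (τ.im * m) by field_simp; ring,
      Real.sqrt_div (by positivity), Real.sqrt_sq (by norm_num), Real.sqrt_mul hv.le]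
    have := (Real.sqrt_pos.mpr hv).ne'
    have := (Real.sqrt_pos.mpr hm).ne'
    field_simp
  have he : Real.exp b * Real.exp (-b) = 1 := by rw [← Real.exp_add]; simp
  have hsC : ((Real.sqrt τ.im : ℂ) * (Real.sqrt (π / b) : ℂ)) * (2 * Real.sqrt m : ℝ) = 1 := by
    exact_mod_cast hs
  have heC : (Real.exp b : ℂ) * (Real.exp (-b) : ℂ) = 1 := by exact_mod_cast he
  have hne : ((Real.sqrt m : ℝ) : ℂ) ≠ 0 := by
    exact_mod_cast (by positivity : (Real.sqrt m : ℝ) ≠ 0)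
  rw [hc]
  push_cast at hsC heC ⊢
  field_simp
  linear_combination (-(ee ((m : ℂ) * τ) * pointSum w φ Λ)) *
    ((Real.sqrt τ.im : ℂ) * (Real.sqrt (π / b) : ℂ) * (2 * (Real.sqrt m : ℂ)) * heC + hsC)

theorem tsum_Phi1_neg (hq : q < 0) (τ : ℍ) (h0 : pointSum w φ Λ = 0) :
    ∑' X : Λ, ∫ P, wmul w φ P * Phi1 τ P X.1 ∂H3.volH3 = 0 := by
  have hv := τ.im_pos
  set m := -q with hm'
  have hm : 0 < m := neg_pos.mpr hq
  set b := 4 * π * τ.im * m with hb'
  have hb : 0 < b := by positivity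
  have hk : IsGaussKer fun x => Real.exp (-b * x ^ 2) :=
    ⟨by fun_prop, b, 1, hb, zero_le_one, fun x => by simp [Real.abs_exp]⟩
  set c : ℂ := (Real.sqrt τ.im : ℂ) * ee (-(τ : ℂ) * m) with hc
  have key : ∀ (X : Λ) P, Phi1 τ P X.1
      = c * (Real.exp (-b * H3.coshDist P (negPt X.1) ^ 2) : ℂ) := by
    intro X P
    have hQ := hΛ.norm_eq _ X.2
    have hX : Qf X.1 < 0 := by rw [hQ]; exact hq
    have hT : Tf P X.1 ^ 2 = m * H3.coshDist P (negPt X.1) ^ 2 := by
      rw [Tf_sq_negPt hX, hQ]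
    set C := H3.coshDist P (negPt X.1)
    have hP : Pos P X.1 = m * C ^ 2 - m := by
      rw [← hT, hm', ← hQ, Qf_eq_Pos P X.1]; ring
    rw [Phi1, hc, ee, ee, hP, hT, hb', mul_assoc (Real.sqrt τ.im : ℂ), Complex.ofReal_exp,
      ← Complex.exp_add]
    congr 2
    have hcj : conj (τ : ℂ) = (τ : ℂ) - 2 * I * (τ.im : ℂ) := by
      apply Complex.ext <;> simp; ring
    rw [hcj]
    push_cast
    linear_combination (4 * π * (τ.im : ℂ) * ((m : ℂ) * (C : ℂ) ^ 2)) * I_sq
  simp only [key, mul_left_comm (wmul w φ _) c, integral_const_mul]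
  rw [tsum_mul_left, point_pairing hφ hw hH hΛ hq hk, h0]
  simp

end FLTAgent.LanglandsTunnell.Lift
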