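import Mathlib

/-!
# One dimensional Gaussian integrals and lattice sums

The character `ee`, the root `gaussRoot` in the Fourier transform of a Gaussian, the integrals of
shifted Gaussians with their first two moments, and summability of Gaussians on `ℤⁿ`.  Used for
the kernels in `Kernels`.
-/

set_option autoImplicit false

noncomputable section

namespace FLTAgent.LanglandsTunnell.Lift

open MeasureTheory Complex ComplexConjugate Filter
open scoped Real

/-- `e(z) = exp(2 π i z)`. -/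
def ee (z : ℂ) : ℂ := cexp (2 * π * I * z)

theorem ee_add (z w : ℂ) : ee (z + w) = ee z * ee w := by rw [ee, ee, ee, mul_add, Complex.exp_add]

theorem ee_zero : ee 0 = 1 := by simp [ee]

theorem ee_intCast (n : ℤ) : ee n = 1 := by
  rw [ee, mul_comm, Complex.exp_int_mul_two_pi_mul_I]

theorem ee_add_intCast (z : ℂ) (n : ℤ) : ee (z + n) = ee z := by rw [ee_add, ee_intCast, mul_one]

theorem norm_ee (z : ℂ) : ‖ee z‖ = Real.exp (-(2 * π * z.im)) := by
  rw [ee, Complex.norm_exp]; simp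

theorem norm_ee_real (x : ℝ) : ‖ee x‖ = 1 := by rw [norm_ee]; simp

theorem continuous_ee : Continuous ee := Complex.continuous_exp.comp (by fun_prop)

/-- The square root appearing in Gaussian integrals. -/
def gaussRoot (τ : ℂ) : ℂ := (1 / (-2 * I * τ)) ^ (1 / 2 : ℂ)

theorem gaussRoot_sq {τ : ℂ} (hτ : τ ≠ 0) : gaussRoot τ ^ 2 = I / (2 * τ) := by
  rw [gaussRoot, ← Complex.cpow_nat_mul]
  norm_num [hτ]
  field_simp

theorem norm_gaussRoot_sq {τ : ℂ} (hτ : τ ≠ 0) : ‖gaussRoot τ‖ ^ 2 = 1 / (2 * ‖τ‖) := by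
  rw [← norm_pow, gaussRoot_sq hτ]
  simp [mul_comm]

theorem conj_gaussRoot {τ : ℂ} (hτ : 0 < τ.im) :
    conj (gaussRoot τ) = gaussRoot (-conj τ) := by
  have harg : (1 / (-2 * I * τ)).arg ≠ π := by
    rw [ne_eq, Complex.arg_eq_pi_iff]
    rintro ⟨h, -⟩
    rw [one_div, Complex.inv_re, div_neg_iff] at h
    have hre : (-2 * I * τ).re = 2 * τ.im := by simp
    rcases h with ⟨-, h⟩ | ⟨h, -⟩
    · exact absurd h (not_lt.mpr (normSq_nonneg _))
    · linarith
  have hcc := Complex.conj_cpow (1 / (-2 * I * τ)) (1 / 2 : ℂ) harg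
  rw [show conj (1 / 2 : ℂ) = 1 / 2 by apply Complex.ext <;> simp] at hcc
  rw [gaussRoot, gaussRoot, ← hcc]
  simp only [map_div₀, map_mul, map_neg, map_ofNat, Complex.conj_I, map_one]
  congr 2
  ring

theorem norm_quad {τ : ℂ} (x ζ : ℝ) :
    ‖cexp ((2 * π * I * τ) * (x : ℂ) ^ 2 + (-4 * π * I * ζ) * x)‖ =
      Real.exp (-(2 * π * τ.im) * x ^ 2) := by
  rw [Complex.norm_exp]
  simp [sq]

theorem integrable_quad {τ : ℂ} (hτ : 0 < τ.im) (ζ : ℝ) :
    Integrable fun x : ℝ => cexp ((2 * π * I * τ) * (x : ℂ) ^ 2 + (-4 * π * I * ζ) * x) := by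
  simpa using integrable_cexp_quadratic' (b := 2 * π * I * τ)
    (by simp; positivity) (-4 * π * I * ζ) 0

theorem integral_quad {τ : ℂ} (hτ : 0 < τ.im) (ζ : ℝ) :
    ∫ x : ℝ, cexp ((2 * π * I * τ) * (x : ℂ) ^ 2 + (-4 * π * I * ζ) * x) =
      gaussRoot τ * ee (-1 / τ * (ζ : ℂ) ^ 2) := by
  have hb : (2 * π * I * τ : ℂ).re < 0 := by simp; positivity
  have h := integral_cexp_quadratic hb (-4 * π * I * ζ) 0
  simp only [add_zero] at h
  rw [h]
  have hτ0 : τ ≠ 0 := fun h0 => by simp [h0] at hτ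
  have hπ : (π : ℂ) ≠ 0 := by exact_mod_cast Real.pi_ne_zero
  congr 1
  · rw [gaussRoot]
    congr 1
    field_simp
  · rw [ee]
    congr 1
    field_simp
    ring

theorem integrable_sq_quad {τ : ℂ} (hτ : 0 < τ.im) (ζ : ℝ) :
    Integrable fun x : ℝ =>
      (x : ℂ) ^ 2 * cexp ((2 * π * I * τ) * (x : ℂ) ^ 2 + (-4 * π * I * ζ) * x) := by
  have ha : (0 : ℝ) < 2 * π * τ.im := by positivity
  refine (integrable_rpow_mul_exp_neg_mul_sq ha (s := (2 : ℕ)) (by norm_num)).norm.mono'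
    (by fun_prop) (Eventually.of_forall fun x => ?_)
  rw [norm_mul, norm_quad x ζ]
  simp

theorem integral_mul_sq_quad {τ : ℂ} (hτ : 0 < τ.im) (ζ : ℝ) :
    ∫ x : ℝ, (x : ℂ) ^ 2 * cexp ((2 * π * I * τ) * (x : ℂ) ^ 2 + (-4 * π * I * ζ) * x) =
      ((ζ : ℂ) ^ 2 / τ ^ 2 - 1 / (4 * π * I * τ)) *
        (gaussRoot τ * ee (-1 / τ * (ζ : ℂ) ^ 2)) := by
  set b : ℂ := 2 * π * I * τ with hb_def
  set c : ℂ := -4 * π * I * ζ with hc_def
  set E : ℝ → ℂ := fun x => cexp (b * (x : ℂ) ^ 2 + c * x) with hE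
  have hτ0 : τ ≠ 0 := fun h0 => by simp [h0] at hτ
  have hπ : (π : ℂ) ≠ 0 := by exact_mod_cast Real.pi_ne_zero
  have hb0 : b ≠ 0 := by simp [hb_def, hτ0, hπ]
  have ha : (0 : ℝ) < 2 * π * τ.im := by positivity
  have hnorm : ∀ x, ‖E x‖ = Real.exp (-(2 * π * τ.im) * x ^ 2) := fun x => norm_quad x ζ
  have hEc : Continuous E := by fun_prop
  have hEi : Integrable E := integrable_quad hτ ζ
  have hxi : Integrable fun x : ℝ => (x : ℂ) * E x := by
    refine (integrable_mul_exp_neg_mul_sq ha).norm.mono' (by fun_prop)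
        (Eventually.of_forall fun x => ?_)
    simp [hnorm]
  have hx2i : Integrable fun x : ℝ => (x : ℂ) ^ 2 * E x := by
    refine (integrable_rpow_mul_exp_neg_mul_sq ha (s := (2 : ℕ)) (by norm_num)).norm.mono'
      (by fun_prop) (Eventually.of_forall fun x => ?_)
    simp [hnorm]
  have hder : ∀ x : ℝ, HasDerivAt E ((2 * b * x + c) * E x) x := by
    intro x
    have h1 : HasDerivAt (fun y : ℂ => cexp (b * y ^ 2 + c * y))
        (cexp (b * (x : ℂ) ^ 2 + c * x) * (b * (2 * (x : ℂ)) + c * 1)) (x : ℂ) := by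
      have := (((hasDerivAt_pow 2 (x : ℂ)).const_mul b).add ((hasDerivAt_id (x : ℂ)).const_mul c))
      simpa using this.cexp
    convert h1.comp_ofReal using 1
    simp [hE]
    ring
  have h1 : 2 * b * (∫ x : ℝ, (x : ℂ) * E x) + c * (∫ x, E x) = 0 := by
    rw [← integral_const_mul, ← integral_const_mul,
      ← integral_add (hxi.const_mul _) (hEi.const_mul _)]
    refine integral_eq_zero_of_hasDerivAt_of_integrable (f := E) (fun x => ?_)
      ((hxi.const_mul _).add (hEi.const_mul _)) hEi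
    refine (hder x).congr_deriv ?_
    ring
  have h2 : (∫ x, E x) + 2 * b * (∫ x : ℝ, (x : ℂ) ^ 2 * E x) + c *
      (∫ x : ℝ, (x : ℂ) * E x) = 0 := by
    rw [← integral_const_mul, ← integral_const_mul, ← integral_add hEi (hx2i.const_mul _),
      ← integral_add (hEi.fun_add (hx2i.const_mul _)) (hxi.const_mul _)]
    refine integral_eq_zero_of_hasDerivAt_of_integrable (f := fun x : ℝ => (x : ℂ) * E x)
      (fun x => ?_) ((hEi.fun_add (hx2i.const_mul _)).add (hxi.const_mul _)) hxi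
    have := ((hasDerivAt_id x).ofReal_comp).fun_mul (hder x)
    refine this.congr_deriv ?_
    simp only [id, Complex.ofReal_one]
    ring
  have h0 : ∫ x, E x = gaussRoot τ * ee (-1 / τ * (ζ : ℂ) ^ 2) := integral_quad hτ ζ
  rw [show (fun x : ℝ => (x : ℂ) ^ 2 * cexp (b * (x : ℂ) ^ 2 + c * x))
      = fun x : ℝ => (x : ℂ) ^ 2 * E x from rfl]
  have h3 : ∫ x : ℝ, (x : ℂ) ^ 2 * E x = (c ^ 2 / (4 * b ^ 2) - 1 / (2 * b)) * ∫ x, E x := by
    clear_value b c E
    rw [show c ^ 2 / (4 * b ^ 2) - 1 / (2 * b) = (c ^ 2 - 2 * b) / (4 * b ^ 2) by field_simp; ring,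
      div_mul_eq_mul_div, eq_div_iff (mul_ne_zero (by norm_num) (pow_ne_zero _ hb0))]
    linear_combination (2 * b) * h2 - c * h1
  rw [h3, h0]
  congr 1
  rw [hb_def, hc_def]
  field_simp
  ring

/-- A product of summable nonnegative families over a finite index set is summable. -/
theorem summable_pi_prod {n : ℕ} {f : Fin n → ℤ → ℝ} (h0 : ∀ i k, 0 ≤ f i k)
    (hf : ∀ i, Summable (f i)) : Summable fun v : Fin n → ℤ => ∏ i, f i (v i) := by
  induction n with
  | zero => exact Summable.of_finite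
  | succ n ih =>
    rw [← (Fin.consEquiv fun _ : Fin (n + 1) => ℤ).summable_iff]
    have h := (hf 0).mul_of_nonneg (ih (f := fun i => f i.succ) (fun i => h0 _) fun i => hf _)
      (fun k => h0 0 k) fun v => Finset.prod_nonneg fun i _ => h0 _ _
    refine h.congr fun p => ?_
    simp [Fin.consEquiv, Fin.prod_univ_succ]

theorem summable_exp_neg_int_sq {c : ℝ} (hc : 0 < c) :
    Summable fun k : ℤ => Real.exp (-c * (k : ℝ) ^ 2) := by
  have h : Summable fun n : ℕ => Real.exp (-c * (n : ℝ) ^ 2) := by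
    refine Summable.of_nonneg_of_le (fun n => (Real.exp_pos _).le) (fun n => ?_)
      (summable_geometric_of_lt_one (Real.exp_pos (-c)).le
        (Real.exp_lt_one_iff.mpr (neg_lt_zero.mpr hc)))
    rw [← Real.exp_nat_mul]
    refine Real.exp_le_exp.mpr ?_
    have h1 : (n : ℝ) ≤ (n : ℝ) ^ 2 := by exact_mod_cast Nat.le_self_pow two_ne_zero n
    nlinarith
  exact Summable.of_nat_of_neg (by simpa using h) (by simpa using h)

end FLTAgent.LanglandsTunnell.Lift
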