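import Mathlib.FieldTheory.Finite.Basic
import Mathlib.Tactic.FieldSimp
import Mathlib.Tactic.LinearCombination

/-!
# Counting points on the projective line for a binary hermitian form over a finite field

The quadratic algebra is given by coordinates `(u, v) ↦ u + v ω`, `ω² + ω + 1 = 0`.
`card_split` and `card_inert` count the zeros of a hermitian form when this algebra is split,
respectively a field.  Used in `HeckeLattice`.
-/

set_option autoImplicit false

noncomputable section

namespace FLTAgent.LanglandsTunnell.Lift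

open Finset

variable {K : Type*} [Field K] [Fintype K] [DecidableEq K]

/-- The norm form of `K[ω]`. -/
def fNorm (z : K × K) : K := z.1 * z.1 - z.1 * z.2 + z.2 * z.2

/-- The product in `K[ω]`. -/
def fMul (w z : K × K) : K × K := (w.1 * z.1 - w.2 * z.2, w.1 * z.2 + w.2 * z.1 - w.2 * z.2)

omit [Fintype K] [DecidableEq K] in
theorem fNorm_fMul (w z : K × K) : fNorm (fMul w z) = fNorm w * fNorm z := by
  simp only [fNorm, fMul]; ring

/-- The split count. -/
theorem card_split {r a c x y t : K} (hr : r * r + r + 1 = 0) (h3 : (3 : K) ≠ 0) (ht : t ≠ 0)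
    (hQ : (x + r * y) * (x + (-1 - r) * y) = a * c) :
    (univ.filter fun u => x + r * y + t * u * c = 0 ∧
        a + t * u * (2 * x - y) + t * t * u * u * c = 0).card +
      (if c = 0 ∧ x + (-1 - r) * y = 0 then 1 else 0) =
      if a = 0 ∧ c = 0 ∧ x = 0 ∧ y = 0 then Fintype.card K + 1 else 1 := by
  set B := x + r * y with hB
  set B' := x + (-1 - r) * y with hB'
  have hT : 2 * x - y = B + B' := by rw [hB, hB']; ring
  rw [hT]
  by_cases hc : c = 0
  · subst hc
    simp only [mul_zero, add_zero, true_and]
    rw [mul_zero] at hQ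
    by_cases h' : B' = 0
    · by_cases h : B = 0
      · have hxy : x = 0 ∧ y = 0 := by
          have e : (2 * r + 1) * y = 0 := by linear_combination h - h'
          have hne : 2 * r + 1 ≠ 0 := fun h0 => h3 (by linear_combination 4 * hr - (2 * r + 1) * h0)
          have hy := (mul_eq_zero.mp e).resolve_left hne
          exact ⟨by simpa [hB, hy] using h, hy⟩
        by_cases ha : a = 0
        · simp [h, h', ha, hxy.1, hxy.2]
        · simp [h, h', ha]
      · have : ¬(a = 0 ∧ x = 0 ∧ y = 0) := fun ⟨_, hx, hy⟩ => h (by simp [hB, hx, hy])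
        simp [h, h', this]
    · have h : B = 0 := (mul_eq_zero.mp hQ).resolve_right h'
      have : ¬(a = 0 ∧ x = 0 ∧ y = 0) := fun ⟨_, hx, hy⟩ => h' (by simp [hB', hx, hy])
      rw [if_neg h', if_neg this, add_zero, card_eq_one]
      refine ⟨-a / (t * B'), ?_⟩
      ext u
      simp only [mem_filter, mem_univ, true_and, mem_singleton, h, zero_add]
      rw [eq_div_iff (mul_ne_zero ht h')]
      constructor <;> intro e <;> linear_combination e
  · have h1 : ¬(c = 0 ∧ B' = 0) := fun h => hc h.1
    have h2 : ¬(a = 0 ∧ c = 0 ∧ x = 0 ∧ y = 0) := fun h => hc h.2.1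
    rw [if_neg h1, if_neg h2, add_zero, card_eq_one]
    refine ⟨-B / (t * c), ?_⟩
    ext u
    simp only [mem_filter, mem_univ, true_and, mem_singleton]
    rw [eq_div_iff (mul_ne_zero ht hc)]
    constructor
    · intro h; linear_combination h.1
    · intro h
      refine ⟨by linear_combination h, mul_left_cancel₀ hc ?_⟩
      linear_combination (t * u * c + B') * h - hQ

variable (hK : ∀ z : K × K, fNorm z = 0 → z = 0)

include hK

omit [Fintype K] [DecidableEq K] in
theorem fMul_injective {w : K × K} (hw : fNorm w ≠ 0) : Function.Injective (fMul w) := by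
  intro z z' h
  have e : fMul w (z - z') = 0 := by
    have e1 := congrArg Prod.fst h
    have e2 := congrArg Prod.snd h
    simp only [fMul] at e1 e2
    refine Prod.ext ?_ ?_ <;> simp [fMul] <;> first | linear_combination e1 | linear_combination e2
  have := congrArg fNorm e
  rw [fNorm_fMul, show fNorm (0 : K × K) = 0 by simp [fNorm]] at this
  exact sub_eq_zero.mp (hK _ ((mul_eq_zero.mp this).resolve_left hw))

omit [Fintype K] [DecidableEq K] in
theorem three_ne_of_aniso : (3 : K) ≠ 0 := fun h => by
  have := hK (1, -1) (by simp only [fNorm]; linear_combination h)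
  exact one_ne_zero (congrArg Prod.fst this)

omit [DecidableEq K] in
theorem exists_fNorm_eq (n : K) : ∃ z : K × K, fNorm z = n := by
  by_cases h2 : ringChar K = 2
  · obtain ⟨s, hs⟩ := FiniteField.isSquare_of_char_two h2 n
    exact ⟨(s, 0), by simp [fNorm, hs]⟩
  · have h2' : (2 : K) ≠ 0 := Ring.two_ne_zero h2
    have h3 := three_ne_of_aniso hK
    have h34 : (3 / (2 * 2) : K) ≠ 0 := div_ne_zero h3 (mul_ne_zero h2' h2')
    obtain ⟨a, b, hab⟩ := FiniteField.exists_root_sum_quadratic
      (f := Polynomial.X ^ 2 - Polynomial.C n)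
      (g := Polynomial.C (3 / (2 * 2) : K) * Polynomial.X ^ 2)
      (Polynomial.degree_X_pow_sub_C two_pos n) (Polynomial.degree_C_mul_X_pow 2 h34)
      (FiniteField.odd_card_of_char_ne_two h2)
    refine ⟨(a + b / 2, b), ?_⟩
    simp only [Polynomial.eval_sub, Polynomial.eval_pow, Polynomial.eval_X, Polynomial.eval_C,
      Polynomial.eval_mul] at hab
    simp only [fNorm]
    field_simp at hab ⊢
    linear_combination hab

/-- The fibres of the norm. -/
theorem card_fNorm_eq {n : K} (hn : n ≠ 0) :
    (univ.filter fun z : K × K => fNorm z = n).card = Fintype.card K + 1 := by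
  classical
  set S : K → Finset (K × K) := fun m => univ.filter fun z : K × K => fNorm z = m with hS
  have hle : ∀ {m m' : K}, m ≠ 0 → m' ≠ 0 → (S m).card ≤ (S m').card := by
    intro m m' hm hm'
    obtain ⟨w, hw⟩ := exists_fNorm_eq hK (m' / m)
    refine card_le_card_of_injOn (fMul w) (fun z hz => ?_)
      (fMul_injective hK (by rw [hw]; exact div_ne_zero hm' hm)).injOn
    simp only [hS, coe_filter, mem_univ, true_and, Set.mem_ofPred_eq] at hz ⊢
    rw [fNorm_fMul, hw, hz, div_mul_cancel₀ _ hm]
  have hall : ∀ m : K, m ≠ 0 → (S m).card = (S n).card := fun m hm =>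
    le_antisymm (hle hm hn) (hle hn hm)
  have h0 : S 0 = {0} := by
    ext z
    simp only [hS, mem_filter, mem_univ, true_and, mem_singleton]
    exact ⟨hK z, fun h => by simp [h, fNorm]⟩
  have htot : (univ : Finset (K × K)).card = ∑ m : K, (S m).card :=
    card_eq_sum_card_fiberwise fun z _ => mem_univ (fNorm z)
  rw [← add_sum_erase _ _ (mem_univ (0 : K)), sum_congr rfl fun m hm => hall m (ne_of_mem_erase hm),
    h0, card_singleton, sum_const, card_erase_of_mem (mem_univ _), smul_eq_mul,
      card_univ, card_univ,
    Fintype.card_prod] at htot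
  have hq : 1 < Fintype.card K := Fintype.one_lt_card
  obtain ⟨q, hqe⟩ : ∃ q, Fintype.card K = q + 2 := ⟨Fintype.card K - 2, by omega⟩
  rw [hqe] at htot ⊢
  show (S n).card = _
  have : (q + 1) * (S n).card = (q + 1) * (q + 3) := by
    simp only [show q + 2 - 1 = q + 1 from rfl] at htot
    nlinarith
  exact Nat.eq_of_mul_eq_mul_left (Nat.succ_pos q) this

omit hK in
theorem card_linear_eq {α β γ : K} (h : ¬(α = 0 ∧ β = 0)) :
    (univ.filter fun z : K × K => α * z.1 + β * z.2 = γ).card = Fintype.card K := by
  rw [← card_univ (α := K)]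
  by_cases hα : α = 0
  · have hβ : β ≠ 0 := fun e => h ⟨hα, e⟩
    refine (card_nbij (fun u => (u, γ / β)) (fun u _ => ?_) (fun u _ v _ e =>
        congrArg Prod.fst e) ?_).symm
    · simp [hα, mul_div_cancel₀ _ hβ]
    · rintro ⟨u, v⟩ hz
      simp only [coe_filter, mem_univ, true_and, Set.mem_ofPred_eq, hα, zero_mul, zero_add] at hz
      exact ⟨u, by simp, by rw [Prod.mk.injEq, div_eq_iff hβ]; exact ⟨rfl, by rw [← hz, mul_comm]⟩⟩
  · refine (card_nbij (fun v => ((γ - β * v) / α, v)) (fun v _ => ?_)
      (fun u _ v _ e => congrArg Prod.snd e) ?_).symm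
    · simp [mul_div_cancel₀ _ hα]
    · rintro ⟨u, v⟩ hz
      simp only [coe_filter, mem_univ, true_and, Set.mem_ofPred_eq] at hz
      exact ⟨v, by simp, by
        rw [Prod.mk.injEq, div_eq_iff hα]
        exact ⟨by linear_combination -hz, rfl⟩⟩

/-- The inert count. -/
theorem card_inert {a c x y t : K} (ht : t ≠ 0) :
    (univ.filter fun j : K × K => a + t * (j.1 * (2 * x - y) + j.2 * (2 * y - x)) +
        t * t * fNorm j * c = 0).card + (if c = 0 then 1 else 0) =
      if a = 0 ∧ c = 0 ∧ x = 0 ∧ y = 0 then Fintype.card K * Fintype.card K + 1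
      else if fNorm (x, y) - a * c = 0 then 1 else Fintype.card K + 1 := by
  classical
  by_cases hc : c = 0
  · subst hc
    simp only [mul_zero, add_zero, sub_zero, true_and, if_true]
    by_cases hxy : x = 0 ∧ y = 0
    · obtain ⟨rfl, rfl⟩ := hxy
      by_cases ha : a = 0
      · simp [ha]
      · simp [ha, fNorm]
    · have hne : ¬(t * (2 * x - y) = 0 ∧ t * (2 * y - x) = 0) := by
        rintro ⟨h1, h2⟩
        have e1 := (mul_eq_zero.mp h1).resolve_left ht
        have e2 := (mul_eq_zero.mp h2).resolve_left ht
        have h3x : (3 : K) * x = 0 := by linear_combination 2 * e1 + e2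
        have hx := (mul_eq_zero.mp h3x).resolve_left (three_ne_of_aniso hK)
        exact hxy ⟨hx, by rw [hx] at e1; linear_combination -e1⟩
      have hn : fNorm (x, y) ≠ 0 := fun h => hxy (by
        have := hK _ h
        exact ⟨congrArg Prod.fst this, congrArg Prod.snd this⟩)
      rw [if_neg fun h => hxy h.2, if_neg hn, ← card_linear_eq (γ := -a) hne]
      congr 1
      refine congrArg Finset.card (filter_congr fun j _ => ?_)
      constructor <;> intro h <;> linear_combination h
  · rw [if_neg hc, if_neg fun h => hc h.2.1, add_zero]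
    have htc : t * c ≠ 0 := mul_ne_zero ht hc
    have hcard : (univ.filter fun j : K × K => a + t * (j.1 * (2 * x - y) + j.2 * (2 * y - x)) +
        t * t * fNorm j * c = 0).card =
        (univ.filter fun z : K × K => fNorm z = fNorm (x, y) - a * c).card := by
      refine card_nbij (fun j => (x + t * c * j.1, y + t * c * j.2)) (fun j hj => ?_)
        (fun i _ j _ e => ?_) ?_
      · simp only [coe_filter, mem_univ, true_and, Set.mem_ofPred_eq, fNorm] at hj ⊢
        linear_combination c * hj
      · simp only [Prod.mk.injEq, add_right_inj, mul_right_inj' htc] at e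
        exact Prod.ext e.1 e.2
      · rintro ⟨u, v⟩ hz
        simp only [coe_filter, mem_univ, true_and, Set.mem_ofPred_eq, fNorm] at hz
        refine ⟨((u - x) / (t * c), (v - y) / (t * c)), ?_, ?_⟩
        · simp only [coe_filter, mem_univ, true_and, Set.mem_ofPred_eq, fNorm]
          refine mul_left_cancel₀ hc ?_
          field_simp
          linear_combination hz
        · simp [mul_div_cancel₀ _ htc]
    rw [hcard]
    by_cases hn : fNorm (x, y) - a * c = 0
    · rw [if_pos hn, hn, card_eq_one]
      exact ⟨0, by ext z; simpa using ⟨hK z, fun h => by simp [h, fNorm]⟩⟩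
    · rw [if_neg hn, card_fNorm_eq hK hn]

end FLTAgent.LanglandsTunnell.Lift
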