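import Fermat.Agent.LanglandsTunnell.Lift.HeckeReps
import Fermat.Agent.LanglandsTunnell.Lift.HeckeCount

/-!
# The multiplicities in the Hecke unfolding

`exists_split_reps`, `exists_inert_reps`: Hecke representatives for split and inert primes
together with the number of them dividing a given lattice vector, from the point counts of
`HeckeCount`.  Used in `Hecke`.
-/

set_option autoImplicit false

noncomputable section

namespace FLTAgent.LanglandsTunnell.Lift

open FLTAgent.LanglandsTunnell Complex ComplexConjugate Matrix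

theorem cube_injective_of_two_mod_three {p : ℕ} [Fact p.Prime] (hp : p % 3 = 2) :
    Function.Injective fun x : ZMod p => x ^ 3 := by
  refine Function.LeftInverse.injective (g := fun y : ZMod p => y ^ (2 * (p / 3) + 1)) fun x => ?_
  show (x ^ 3) ^ (2 * (p / 3) + 1) = x
  have hp2 := (Fact.out : p.Prime).two_le
  rw [← pow_mul, show 3 * (2 * (p / 3) + 1) = p + (p - 1) by omega, pow_add, ZMod.pow_card]
  calc x * x ^ (p - 1) = x ^ p := by rw [← pow_succ', Nat.sub_add_cancel (by omega)]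
    _ = x := ZMod.pow_card x

theorem fNorm_aniso {p : ℕ} [Fact p.Prime] (hp : p % 3 = 2) :
    ∀ z : ZMod p × ZMod p, fNorm z = 0 → z = 0 := by
  rintro ⟨x, y⟩ h
  simp only [fNorm] at h
  have hx : x = -y := cube_injective_of_two_mod_three hp (by
    simp only; linear_combination (x + y) * h)
  subst hx
  have h3 : (3 : ZMod p) ≠ 0 := by
    intro e
    have : p ∣ 3 := (ZMod.natCast_eq_zero_iff 3 p).mp (by exact_mod_cast e)
    rcases (Nat.dvd_prime Nat.prime_three).mp this with h1 | h1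
    · exact (Fact.out : p.Prime).one_lt.ne' h1
    · omega
  have hy : y * y = 0 := (mul_eq_zero.mp (show (3 : ZMod p) * (y * y) = 0 by
    linear_combination h)).resolve_left h3
  simp [mul_self_eq_zero.mp hy]

theorem dvd_iff_cast_zero {p : ℕ} (m : ℤ) : (p : ℤ) ∣ m ↔ (m : ZMod p) = 0 :=
  (ZMod.intCast_zmod_eq_zero_iff_dvd m p).symm

theorem dv_natCast_iff {p : ℕ} [Fact p.Prime] (x y : ℤ) :
    Dv (p : ℂ) (eis (x : ℝ) y) ↔ (x : ZMod p) = 0 ∧ (y : ZMod p) = 0 := by
  rw [← dvd_iff_cast_zero, ← dvd_iff_cast_zero]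
  constructor
  · rintro ⟨_, ⟨a, b, rfl⟩, h⟩
    have h' : eis (x : ℝ) y = eis ((p : ℝ) * a) ((p : ℝ) * b) := by
      rw [h]; simp [eis]; ring
    obtain ⟨h1, h2⟩ := eis_inj h'
    exact ⟨⟨a, by exact_mod_cast h1⟩, ⟨b, by exact_mod_cast h2⟩⟩
  · rintro ⟨⟨a, rfl⟩, ⟨b, rfl⟩⟩
    exact ⟨eis (a : ℝ) b, ⟨a, b, rfl⟩, by simp [eis]; ring⟩

theorem conj_dv {π z : ℂ} (h : Dv π z) : Dv (conj π) (conj z) := by
  obtain ⟨q, hq, rfl⟩ := h
  exact ⟨conj q, conj_mem_Eis hq, map_mul _ _ _⟩

/-- The residue map at a split prime. -/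
theorem exists_split_root {p : ℕ} [Fact p.Prime] {π : ℂ} (hπ : π ∈ Eis) (hn : normSq π = p) :
    ∃ r : ZMod p, r * r + r + 1 = 0 ∧
      ∀ x y : ℤ, Dv π (eis (x : ℝ) y) ↔ (x : ZMod p) + r * y = 0 := by
  have hp := (Fact.out : p.Prime)
  obtain ⟨a, b, rfl⟩ := hπ
  have he : a * a - a * b + b * b = (p : ℤ) := by
    rw [normSq_eis] at hn
    exact_mod_cast hn
  have he' : ((a : ZMod p)) * a - a * b + b * b = 0 := by
    have := congrArg (fun t : ℤ => (t : ZMod p)) he
    push_cast at this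
    simpa using this
  have hb : (b : ZMod p) ≠ 0 := by
    intro hb
    rw [hb] at he'
    have ha : (a : ZMod p) = 0 := mul_self_eq_zero.mp (by linear_combination he')
    obtain ⟨a', rfl⟩ := (dvd_iff_cast_zero a).mpr ha
    obtain ⟨b', rfl⟩ := (dvd_iff_cast_zero b).mpr hb
    have hp2 : (p : ℤ) * ((p : ℤ) * (a' * a' - a' * b' + b' * b')) = p * 1 := by
      linear_combination he
    have h1 := mul_left_cancel₀ (Int.natCast_ne_zero.mpr hp.ne_zero) hp2
    have h2 : (p : ℤ) = 1 := (Int.mul_eq_one_iff_eq_one_or_neg_one.mp h1).elim (·.1)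
      fun h => by omega
    exact hp.one_lt.ne' (by exact_mod_cast h2)
  set r : ZMod p := -(a : ZMod p) / b with hr
  have hab : (a : ZMod p) = -r * b := by rw [hr, neg_div, neg_neg, div_mul_cancel₀ _ hb]
  have hr' : r * r + r + 1 = 0 := by
    refine (mul_eq_zero.mp (show (r * r + r + 1) * ((b : ZMod p) * b) = 0 from ?_)).resolve_right
      (mul_ne_zero hb hb)
    rw [hab] at he'; linear_combination he'
  refine ⟨r, hr', fun x y => ⟨?_, fun h => ?_⟩⟩
  · rintro ⟨_, ⟨u, v, rfl⟩, h⟩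
    have h' : eis (x : ℝ) y = eis ((a * u - b * v : ℤ) : ℝ) ((a * v + b * u - b * v : ℤ) : ℝ) := by
      rw [h]; simp only [eis]; push_cast
      linear_combination ((b : ℂ) * v) * omega_sq
    obtain ⟨h1, h2⟩ := eis_inj h'
    have e1 : x = a * u - b * v := by exact_mod_cast h1
    have e2 : y = a * v + b * u - b * v := by exact_mod_cast h2
    rw [e1, e2]
    push_cast
    rw [hab]
    linear_combination (-(b : ZMod p) * v) * hr'
  · have hx : ((x * (a - b) + y * b : ℤ) : ZMod p) = 0 := by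
      push_cast; rw [hab]
      linear_combination (-(r + 1) * b) * h + ((b : ZMod p) * y) * hr'
    have hy : ((-(x * b) + y * a : ℤ) : ZMod p) = 0 := by
      push_cast; rw [hab]
      linear_combination (-(b : ZMod p)) * h
    obtain ⟨k, hk⟩ := (dvd_iff_cast_zero _).mpr hx
    obtain ⟨l, hl⟩ := (dvd_iff_cast_zero _).mpr hy
    have hπ0 : conj (eis (a : ℝ) b) ≠ 0 := fun e => by
      have := congrArg normSq e
      rw [normSq_conj, hn, map_zero] at this
      exact hp.ne_zero (by exact_mod_cast this)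
    refine ⟨eis (k : ℝ) l, ⟨k, l, rfl⟩, mul_right_cancel₀ hπ0 ?_⟩
    have hmul : eis (a : ℝ) b * conj (eis (a : ℝ) b) = (p : ℂ) := by
      rw [Complex.mul_conj, hn]; norm_num
    have hk' : (x : ℂ) * (a - b) + y * b = p * k := by exact_mod_cast hk
    have hl' : -((x : ℂ) * b) + y * a = p * l := by exact_mod_cast hl
    rw [mul_assoc, mul_comm (eis (k : ℝ) l), ← mul_assoc, hmul, conj_eis]
    simp only [eis]
    push_cast
    linear_combination hk' + omega * hl' - ((y : ℂ) * b) * omega_sq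

theorem offNorm_cast (p : ℕ) [Fact p.Prime] (m : Fin 4 → ℤ) :
    (offNorm m : ZMod p) = fNorm ((m 2 : ZMod p), (m 3 : ZMod p)) := by
  simp [offNorm, fNorm]

/-- Multiplicities at a split prime. -/
theorem exists_split_reps {N p : ℕ} (hN : N ≠ 0) (hp : p.Prime) (hpN : ¬ p ∣ 3 * N) {π : ℂ}
    (hπ : π ∈ Eis) (hn : normSq π = p) :
    ∃ R, IsHeckeReps N π R ∧ ∀ m : Fin 4 → ℤ, (p : ℤ) ∣ offNorm m - m 0 * m 1 →
      (∑ δ ∈ R, open Classical in if DivBy p (act δ.val (latVec m)) then 1 else 0 : ℕ) =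
        open Classical in if DivBy p (latVec m) then p + 1 else 1 := by
  classical
  have : Fact p.Prime := ⟨hp⟩
  obtain ⟨r, hr, hd⟩ := exists_split_root hπ hn
  have hπ0 : π ≠ 0 := fun e => hp.ne_zero (by rw [e, map_zero] at hn; exact_mod_cast hn.symm)
  have h3 : (3 : ZMod p) ≠ 0 := fun e => hpN (dvd_mul_of_dvd_left
    ((ZMod.natCast_eq_zero_iff 3 p).mp (by exact_mod_cast e)) N)
  have hN0 : (N : ZMod p) ≠ 0 := fun e => hpN (dvd_mul_of_dvd_right
    ((ZMod.natCast_eq_zero_iff N p).mp e) 3)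
  let f : ZMod p → ℂ := fun u => eis ((u.val : ℤ) : ℝ) ((0 : ℤ) : ℝ)
  have hfinj : Function.Injective f := fun u v e => by
    have := (eis_inj e).1
    exact ZMod.val_injective p (by exact_mod_cast this)
  have hres : ResSys π (Finset.univ.image f) := by
    refine ⟨hπ, hπ0, ?_, fun j hj => ?_, ?_, ?_⟩
    · intro h1
      have := (hd 1 0).mp (by simpa [eis] using h1)
      simp at this
    · obtain ⟨u, -, rfl⟩ := Finset.mem_image.mp hj
      exact ⟨_, _, rfl⟩
    · rintro _ ⟨x, y, rfl⟩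
      have key : ∀ u : ZMod p, Dv π (eis (x : ℝ) y - f u) ↔ u = (x : ZMod p) + r * y := by
        intro u
        have e : eis (x : ℝ) y - f u = eis ((x - u.val : ℤ) : ℝ) ((y : ℤ) : ℝ) := by
          simp [f, eis]; ring
        rw [e, hd]
        push_cast
        rw [ZMod.natCast_zmod_val]
        constructor <;> intro h <;> linear_combination -h
      refine ⟨f ((x : ZMod p) + r * y), ⟨by simp, (key _).mpr rfl⟩, ?_⟩
      rintro j ⟨hj, hj'⟩
      obtain ⟨u, -, rfl⟩ := Finset.mem_image.mp hj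
      rw [(key u).mp hj']
    · rintro _ ⟨x, y, rfl⟩ _ ⟨u, v, rfl⟩ h
      have e : eis (x : ℝ) y * eis (u : ℝ) v
          = eis ((x * u - y * v : ℤ) : ℝ) ((x * v + y * u - y * v : ℤ) : ℝ) := by
        simp only [eis]; push_cast; linear_combination ((y : ℂ) * v) * omega_sq
      rw [e, hd] at h
      push_cast at h
      rw [hd, hd]
      exact mul_eq_zero.mp (show ((x : ZMod p) + r * y) * (u + r * v) = 0 by
        linear_combination h + ((y : ZMod p) * v) * hr)
  have hπN : ¬ Dv π (N : ℂ) := by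
    intro h
    have := (hd N 0).mp (by simpa [eis] using h)
    simp at this
    exact hN0 this
  refine ⟨_, isHeckeReps_heckeReps hN hres hπN, fun m hm => ?_⟩
  rw [sum_heckeReps hN hres, Finset.sum_image fun u _ v _ e => hfinj e,
      Finset.sum_boole, Nat.cast_id,
    add_comm]
  have hinf : DivBy p (act (deltaInf π).val (latVec m)) ↔
      (m 1 : ZMod p) = 0 ∧ (m 2 : ZMod p) + (-1 - r) * m 3 = 0 := by
    rw [divBy_act_deltaInf hπ0 hn, dvd_iff_cast_zero]
    refine and_congr_right fun _ => ?_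
    have e : Dv (conj π) (eis (m 2 : ℝ) (m 3)) ↔
        Dv π (eis ((m 2 - m 3 : ℤ) : ℝ) ((-m 3 : ℤ) : ℝ)) := by
      have e' : conj (eis (m 2 : ℝ) (m 3)) = eis ((m 2 - m 3 : ℤ) : ℝ) ((-m 3 : ℤ) : ℝ) := by
        rw [conj_eis]; push_cast; rfl
      rw [← e']
      exact ⟨fun h => by simpa using conj_dv h, fun h => by simpa using conj_dv h⟩
    rw [e, hd]
    push_cast
    constructor <;> intro h <;> linear_combination h
  have hfin : ∀ u : ZMod p, DivBy p (act (deltaFin N π (f u)).val (latVec m)) ↔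
      (m 2 : ZMod p) + r * m 3 + (N : ZMod p) * u * m 1 = 0 ∧
        (m 0 : ZMod p) + (N : ZMod p) * u * (2 * (m 2 : ZMod p) - m 3) +
          (N : ZMod p) * N * u * u * m 1 = 0 := by
    intro u
    show DivBy p (act (deltaFin N π (eis _ _)).val (latVec m)) ↔ _
    rw [divBy_act_deltaFin hπ0 hn, hd, dvd_iff_cast_zero, and_comm]
    push_cast
    rw [ZMod.natCast_zmod_val]
    constructor <;> rintro ⟨h1, h2⟩ <;>
      exact ⟨by linear_combination h1, by linear_combination h2⟩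
  have hall : DivBy p (latVec m) ↔ (m 0 : ZMod p) = 0 ∧ (m 1 : ZMod p) = 0 ∧
      (m 2 : ZMod p) = 0 ∧ (m 3 : ZMod p) = 0 := by
    rw [divBy_latVec_iff]
    simp [Fin.forall_fin_succ, dvd_iff_cast_zero]
  have hQ : ((m 2 : ZMod p) + r * m 3) * (m 2 + (-1 - r) * m 3) = (m 0 : ZMod p) * m 1 := by
    have h := (dvd_iff_cast_zero _).mp hm
    push_cast [offNorm_cast, fNorm] at h
    linear_combination h - ((m 3 : ZMod p) * m 3) * hr
  have hc := card_split hr h3 hN0 hQ
  rw [ZMod.card] at hc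
  simp only [hfin, hinf, hall]
  exact hc

/-- The residues at an inert prime. -/
private def inertRep {p : ℕ} (z : ZMod p × ZMod p) : ℂ :=
  eis ((z.1.val : ℤ) : ℝ) ((z.2.val : ℤ) : ℝ)

/-- Distinct residues have distinct representatives. -/
private theorem inertRep_injective {p : ℕ} [Fact p.Prime] :
    Function.Injective (inertRep (p := p)) := fun u v e => by
  obtain ⟨h1, h2⟩ := eis_inj e
  exact Prod.ext (ZMod.val_injective p (by exact_mod_cast h1))
    (ZMod.val_injective p (by exact_mod_cast h2))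

/-- The residues at an inert prime form a residue system. -/
private theorem resSys_inertRep {p : ℕ} [Fact p.Prime] (hp3 : p % 3 = 2) :
    ResSys (p : ℂ) (Finset.univ.image (inertRep (p := p))) := by
  classical
  have hK := fNorm_aniso hp3
  have hp0 : (p : ℂ) ≠ 0 := Nat.cast_ne_zero.mpr (Fact.out : p.Prime).ne_zero
  refine ⟨natCast_mem_Eis p, hp0, ?_, fun j hj => ?_, ?_, ?_⟩
  · intro h1
    have := (dv_natCast_iff 1 0).mp (by simpa [eis] using h1)
    simp at this
  · obtain ⟨u, -, rfl⟩ := Finset.mem_image.mp hj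
    exact ⟨_, _, rfl⟩
  · rintro _ ⟨x, y, rfl⟩
    have key : ∀ u : ZMod p × ZMod p, Dv (p : ℂ) (eis (x : ℝ) y - inertRep u) ↔
        u = ((x : ZMod p), (y : ZMod p)) := by
      intro u
      have e : eis (x : ℝ) y - inertRep u =
          eis ((x - u.1.val : ℤ) : ℝ) ((y - u.2.val : ℤ) : ℝ) := by
        simp [inertRep, eis]; ring
      rw [e, dv_natCast_iff, Prod.ext_iff]
      push_cast
      rw [ZMod.natCast_zmod_val, ZMod.natCast_zmod_val, sub_eq_zero, sub_eq_zero]
      exact and_congr eq_comm eq_comm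
    refine ⟨inertRep ((x : ZMod p), (y : ZMod p)), ⟨by simp, (key _).mpr rfl⟩, ?_⟩
    rintro j ⟨hj, hj'⟩
    obtain ⟨u, -, rfl⟩ := Finset.mem_image.mp hj
    rw [(key u).mp hj']
  · rintro _ ⟨x, y, rfl⟩ _ ⟨u, v, rfl⟩ h
    have e : eis (x : ℝ) y * eis (u : ℝ) v
        = eis ((x * u - y * v : ℤ) : ℝ) ((x * v + y * u - y * v : ℤ) : ℝ) := by
      simp only [eis]; push_cast; linear_combination ((y : ℂ) * v) * omega_sq
    rw [e, dv_natCast_iff] at h
    push_cast at h
    rw [dv_natCast_iff, dv_natCast_iff]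
    have h0 : fNorm ((x : ZMod p), (y : ZMod p)) * fNorm ((u : ZMod p), (v : ZMod p)) = 0 := by
      rw [← fNorm_fMul]
      simp [fMul, fNorm, h.1, h.2]
    exact (mul_eq_zero.mp h0).imp (fun e => Prod.ext_iff.mp (hK _ e))
      (fun e => Prod.ext_iff.mp (hK _ e))

/-- The integer deciding divisibility by `p * p` at a finite representative. -/
private def inertForm {p : ℕ} (N : ℕ) (m : Fin 4 → ℤ) (z : ZMod p × ZMod p) : ℤ :=
  m 0 + N * ((z.1.val : ℤ) * (2 * m 2 - m 3) + (z.2.val : ℤ) * (2 * m 3 - m 2)) +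
    N * N * ((z.1.val : ℤ) * z.1.val - (z.1.val : ℤ) * z.2.val + (z.2.val : ℤ) * z.2.val) * m 1

/-- Divisibility at a finite representative. -/
private theorem divBy_act_inertRep {N p : ℕ} [Fact p.Prime] (m : Fin 4 → ℤ)
    (z : ZMod p × ZMod p) :
    DivBy (p * p) (act (deltaFin N (p : ℂ) (inertRep z)).val (latVec m)) ↔
      ((p * p : ℕ) : ℤ) ∣ inertForm N m z ∧ ((m 2 : ZMod p) + (N : ZMod p) * z.1 * m 1 = 0 ∧
        (m 3 : ZMod p) + (N : ZMod p) * z.2 * m 1 = 0) := by
  have hn : normSq (p : ℂ) = ((p * p : ℕ) : ℝ) := by rw [normSq_natCast]; push_cast; rfl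
  show DivBy (p * p) (act (deltaFin N (p : ℂ) (eis _ _)).val (latVec m)) ↔ _
  rw [divBy_act_deltaFin (Nat.cast_ne_zero.mpr (Fact.out : p.Prime).ne_zero) hn, dv_natCast_iff]
  unfold inertForm
  push_cast
  rw [ZMod.natCast_zmod_val, ZMod.natCast_zmod_val]

open Classical in
/-- With a unit lower corner exactly one finite representative counts. -/
private theorem card_inert_of_unit_corner {N p : ℕ} [Fact p.Prime] (hN0 : (N : ZMod p) ≠ 0)
    {m : Fin 4 → ℤ} {n : ℤ} (hm : offNorm m - m 0 * m 1 = (p : ℤ) * p * n)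
    (hc : (m 1 : ZMod p) ≠ 0) :
    (Finset.univ.filter fun z : ZMod p × ZMod p => ((p * p : ℕ) : ℤ) ∣ inertForm N m z ∧
      ((m 2 : ZMod p) + (N : ZMod p) * z.1 * m 1 = 0 ∧
        (m 3 : ZMod p) + (N : ZMod p) * z.2 * m 1 = 0)).card = 1 := by
  have hp : p.Prime := Fact.out
  rw [Finset.card_eq_one]
  refine ⟨(-(m 2 : ZMod p) / (N * m 1), -(m 3 : ZMod p) / (N * m 1)), ?_⟩
  ext ⟨u, v⟩
  simp only [Finset.mem_filter, Finset.mem_univ, true_and, Finset.mem_singleton, Prod.mk.injEq]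
  rw [eq_div_iff (mul_ne_zero hN0 hc), eq_div_iff (mul_ne_zero hN0 hc)]
  constructor
  · rintro ⟨-, h1, h2⟩; exact ⟨by linear_combination h1, by linear_combination h2⟩
  · rintro ⟨h1, h2⟩
    have e1 : (m 2 : ZMod p) + N * u * m 1 = 0 := by linear_combination h1
    have e2 : (m 3 : ZMod p) + N * v * m 1 = 0 := by linear_combination h2
    refine ⟨?_, e1, e2⟩
    set U : ℤ := (u.val : ℤ)
    set V : ℤ := (v.val : ℤ)
    obtain ⟨q1, hq1⟩ : (p : ℤ) ∣ m 2 + N * U * m 1 := (dvd_iff_cast_zero _).mpr (by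
      simp [U]; linear_combination e1)
    obtain ⟨q2, hq2⟩ : (p : ℤ) ∣ m 3 + N * V * m 1 := (dvd_iff_cast_zero _).mpr (by
      simp [V]; linear_combination e2)
    have hd : ((p * p : ℕ) : ℤ) ∣ m 1 * inertForm N m (u, v) := by
      refine ⟨q1 * q1 - q1 * q2 + q2 * q2 - n, ?_⟩
      simp only [offNorm] at hm
      push_cast
      simp only [inertForm]
      linear_combination (norm := (simp only [U, V]; ring1))
        ((m 2 + N * U * m 1) + p * q1 - p * q2) * hq1
        + ((m 3 + N * V * m 1) + p * q2 - (m 2 + N * U * m 1)) * hq2 - hm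
    have hcop : IsCoprime ((p * p : ℕ) : ℤ) (m 1) := by
      push_cast
      have : IsCoprime (p : ℤ) (m 1) := (Nat.prime_iff_prime_int.mp hp).coprime_iff_not_dvd.mpr
        fun h => hc ((dvd_iff_cast_zero _).mp h)
      exact this.mul_left this
    exact hcop.dvd_of_dvd_mul_left hd

/-- With a unit upper corner only the infinite representative counts. -/
private theorem inert_of_unit_top {N p : ℕ} [Fact p.Prime] {m : Fin 4 → ℤ} {n : ℤ}
    (hm : offNorm m - m 0 * m 1 = (p : ℤ) * p * n) (hb : (m 2 : ZMod p) = 0 ∧ (m 3 : ZMod p) = 0)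
    (hc : (m 1 : ZMod p) = 0) (ha : (m 0 : ZMod p) ≠ 0) :
    (∀ z : ZMod p × ZMod p, ¬ ((p * p : ℕ) : ℤ) ∣ inertForm N m z) ∧
      ((p * p : ℕ) : ℤ) ∣ m 1 := by
  have hp : p.Prime := Fact.out
  obtain ⟨x', hx'⟩ := (dvd_iff_cast_zero _).mpr hb.1
  obtain ⟨y', hy'⟩ := (dvd_iff_cast_zero _).mpr hb.2
  have hno : ∀ z : ZMod p × ZMod p, ¬ ((p * p : ℕ) : ℤ) ∣ inertForm N m z := fun z hz =>
      ha (by
    have := (dvd_iff_cast_zero _).mp ((Int.natCast_dvd_natCast.mpr
        (dvd_mul_right p p)).trans hz)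
    simp only [inertForm] at this
    push_cast at this
    rw [hb.1, hb.2, hc] at this
    linear_combination this)
  have hc2 : ((p * p : ℕ) : ℤ) ∣ m 1 := by
    have hcop : IsCoprime ((p * p : ℕ) : ℤ) (m 0) := by
      push_cast
      have : IsCoprime (p : ℤ) (m 0) := (Nat.prime_iff_prime_int.mp hp).coprime_iff_not_dvd.mpr
        fun h => ha ((dvd_iff_cast_zero _).mp h)
      exact this.mul_left this
    refine hcop.dvd_of_dvd_mul_left ⟨x' * x' - x' * y' + y' * y' - n, ?_⟩
    simp only [offNorm, hx', hy'] at hm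
    push_cast
    linear_combination -hm
  exact ⟨hno, hc2⟩

open Classical in
/-- The count when all four coordinates are divisible by `p`. -/
private theorem card_inert_of_dvd {N p : ℕ} [Fact p.Prime] (hp3 : p % 3 = 2)
    (hN0 : (N : ZMod p) ≠ 0) {m : Fin 4 → ℤ} {n : ℤ}
    (hm : offNorm m - m 0 * m 1 = (p : ℤ) * p * n) (hb : (m 2 : ZMod p) = 0 ∧ (m 3 : ZMod p) = 0)
    (hc : (m 1 : ZMod p) = 0) (ha : (m 0 : ZMod p) = 0) :
    (Finset.univ.filter fun z : ZMod p × ZMod p =>
        ((p * p : ℕ) : ℤ) ∣ inertForm N m z).card +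
      (if ((p * p : ℕ) : ℤ) ∣ m 1 then 1 else 0) =
    if DivBy (p * p) (latVec m) then p * p + 1 else if (p : ℤ) ∣ n then 1 else p + 1 := by
  have hK := fNorm_aniso hp3
  have hpZ : (p : ℤ) ≠ 0 := Int.natCast_ne_zero.mpr (Fact.out : p.Prime).ne_zero
  obtain ⟨x', hx'⟩ := (dvd_iff_cast_zero _).mpr hb.1
  obtain ⟨y', hy'⟩ := (dvd_iff_cast_zero _).mpr hb.2
  obtain ⟨c', hc'⟩ := (dvd_iff_cast_zero _).mpr hc
  obtain ⟨a', ha'⟩ := (dvd_iff_cast_zero _).mpr ha
  have hA : ∀ z : ZMod p × ZMod p, ((p * p : ℕ) : ℤ) ∣ inertForm N m z ↔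
      (a' : ZMod p) + (N : ZMod p) * (z.1 * (2 * (x' : ZMod p) - y') + z.2 *
        (2 * (y' : ZMod p) - x'))
        + (N : ZMod p) * N * fNorm z * c' = 0 := by
    intro z
    have e : inertForm N m z = (p : ℤ) * (a' + N * ((z.1.val : ℤ) * (2 * x' - y') + (z.2.val : ℤ) *
        (2 * y' - x')) +
        N * N * ((z.1.val : ℤ) * z.1.val - (z.1.val : ℤ) * z.2.val + (z.2.val : ℤ) *
          z.2.val) * c') := by
      simp only [inertForm, hx', hy', hc', ha']; ring
    rw [e, Nat.cast_mul, mul_dvd_mul_iff_left hpZ, dvd_iff_cast_zero]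
    push_cast
    simp only [ZMod.natCast_zmod_val, fNorm]
  have hinf' : ((p * p : ℕ) : ℤ) ∣ m 1 ↔ (c' : ZMod p) = 0 := by
    rw [hc', Nat.cast_mul, mul_dvd_mul_iff_left hpZ, dvd_iff_cast_zero]
  have hall : DivBy (p * p) (latVec m) ↔ (a' : ZMod p) = 0 ∧ (c' : ZMod p) = 0 ∧
      (x' : ZMod p) = 0 ∧ (y' : ZMod p) = 0 := by
    rw [divBy_latVec_iff]
    simp [Fin.forall_fin_succ, hx', hy', hc', ha', mul_dvd_mul_iff_left hpZ, dvd_iff_cast_zero]
  have hn' : (p : ℤ) ∣ n ↔ fNorm ((x' : ZMod p), (y' : ZMod p)) - a' * c' = 0 := by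
    have : x' * x' - x' * y' + y' * y' - a' * c' = n := by
      simp only [offNorm, hx', hy', hc', ha'] at hm
      exact mul_left_cancel₀ (mul_ne_zero hpZ hpZ) (by linear_combination hm)
    rw [← this, dvd_iff_cast_zero]
    simp [fNorm]
  have hcnt := card_inert hK (a := (a' : ZMod p)) (c := (c' : ZMod p)) (x := (x' : ZMod p))
    (y := (y' : ZMod p)) hN0
  rw [ZMod.card] at hcnt
  simp only [hA, hinf', hall, hn']
  convert hcnt using 4

/-- Multiplicities at an inert prime. -/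
theorem exists_inert_reps {N p : ℕ} (hN : N ≠ 0) (hp : p.Prime) (hp3 : p % 3 = 2) (hpN : ¬ p ∣ N) :
    ∃ R, IsHeckeReps N (p : ℂ) R ∧ ∀ (m : Fin 4 → ℤ) (n : ℤ),
      offNorm m - m 0 * m 1 = (p : ℤ) * p * n →
      (∑ δ ∈ R, open Classical in if DivBy (p * p) (act δ.val (latVec m)) then 1 else 0 : ℕ) =
        open Classical in if DivBy p (latVec m) then
          (if DivBy (p * p) (latVec m) then p * p + 1 else if (p : ℤ) ∣ n then 1 else p + 1)
        else 1 := by
  classical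
  have : Fact p.Prime := ⟨hp⟩
  have hK := fNorm_aniso hp3
  have hp0 : (p : ℂ) ≠ 0 := Nat.cast_ne_zero.mpr hp.ne_zero
  have hn : normSq (p : ℂ) = ((p * p : ℕ) : ℝ) := by rw [normSq_natCast]; push_cast; rfl
  have hN0 : (N : ZMod p) ≠ 0 := fun e => hpN ((ZMod.natCast_eq_zero_iff N p).mp e)
  have hres := resSys_inertRep hp3
  have hπN : ¬ Dv (p : ℂ) (N : ℂ) := by
    intro h
    have := (dv_natCast_iff N 0).mp (by simpa [eis] using h)
    exact hN0 (by simpa using this.1)
  refine ⟨_, isHeckeReps_heckeReps hN hres hπN, fun m n hm => ?_⟩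
  rw [sum_heckeReps hN hres, Finset.sum_image fun u _ v _ e => inertRep_injective e,
      Finset.sum_boole, Nat.cast_id,
    add_comm]
  have hinf : DivBy (p * p) (act (deltaInf (p : ℂ)).val (latVec m)) ↔
      ((p * p : ℕ) : ℤ) ∣ m 1 ∧ (m 2 : ZMod p) = 0 ∧ (m 3 : ZMod p) = 0 := by
    rw [divBy_act_deltaInf hp0 hn, Complex.conj_natCast, dv_natCast_iff]
  simp only [divBy_act_inertRep, hinf]
  by_cases hc : (m 1 : ZMod p) = 0
  swap
  · -- a unit lower corner
    have hnd : ¬ DivBy p (latVec m) := fun h =>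
      hc ((dvd_iff_cast_zero _).mp (divBy_latVec_iff.mp h 1))
    have hni : ¬(((p * p : ℕ) : ℤ) ∣ m 1 ∧ (m 2 : ZMod p) = 0 ∧ (m 3 : ZMod p) = 0) := fun h =>
      hc ((dvd_iff_cast_zero _).mp ((Int.natCast_dvd_natCast.mpr (dvd_mul_right p p)).trans h.1))
    rw [if_neg hnd, if_neg hni, add_zero]
    convert card_inert_of_unit_corner hN0 hm hc
  · -- lower corner divisible
    have hb : (m 2 : ZMod p) = 0 ∧ (m 3 : ZMod p) = 0 := by
      have h := congrArg (fun t : ℤ => (t : ZMod p)) hm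
      push_cast [offNorm_cast] at h
      rw [hc, ZMod.natCast_self] at h
      exact Prod.ext_iff.mp (hK ((m 2 : ZMod p), (m 3 : ZMod p)) (by linear_combination h))
    simp only [hb.1, hb.2, hc, mul_zero, add_zero, and_true]
    by_cases ha : (m 0 : ZMod p) = 0
    · have hd : DivBy p (latVec m) := divBy_latVec_iff.mpr fun i => by
        fin_cases i <;> simp [dvd_iff_cast_zero, hb.1, hb.2, hc, ha]
      rw [if_pos hd]
      convert card_inert_of_dvd hp3 hN0 hm hb hc ha
    · have hnd : ¬ DivBy p (latVec m) := fun h =>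
        ha ((dvd_iff_cast_zero _).mp (divBy_latVec_iff.mp h 0))
      obtain ⟨hno, hc2⟩ := inert_of_unit_top hm hb hc ha
      rw [if_neg hnd, if_pos hc2, Finset.filter_false_of_mem fun z _ => hno z,
          Finset.card_empty, zero_add]

end FLTAgent.LanglandsTunnell.Lift
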