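import Fermat.Agent.LanglandsTunnell.Lift.Expand
import Fermat.Agent.LanglandsTunnell.Lift.HeckeLattice

/-!
# Hecke operators on the sums over the levels

`hecke_unfold` moves a Hecke operator from the function onto the lattice vectors; with the
multiplicities of `HeckeLattice` this gives the Eichler relations between the sums over levels
(`lvlSum_split`, `lvlSum_inert`).
-/

set_option autoImplicit false

noncomputable section

namespace FLTAgent.LanglandsTunnell.Lift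

open FLTAgent.LanglandsTunnell MeasureTheory Complex ComplexConjugate Matrix
open scoped ENNReal

variable {N : ℕ} {w : H3 → ℝ≥0∞} {φ : H3 → ℂ}

theorem IsHeckeReps.existsUnique_left {π : ℂ} {R : Finset (GL (Fin 2) ℂ)}
    (hR : IsHeckeReps N π R) {δ : GL (Fin 2) ℂ} (hδ : δ ∈ heckeSet N π) :
    ∃! h : congGroup N, (h : GL (Fin 2) ℂ) * δ ∈ R := by
  obtain ⟨r, ⟨hr, hg⟩, huniq⟩ := hR.2 δ hδ
  refine ⟨⟨_, inv_mem hg⟩, ?_, fun h hh => Subtype.ext ?_⟩
  · show (δ * r⁻¹)⁻¹ * δ ∈ R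
    rwa [_root_.mul_inv_rev, inv_inv, inv_mul_cancel_right]
  · have e : δ * ((h : GL (Fin 2) ℂ) * δ)⁻¹ = (h : GL (Fin 2) ℂ)⁻¹ := by
      rw [_root_.mul_inv_rev, mul_inv_cancel_left]
    have he := huniq _ ⟨hh, by rw [e]; exact inv_mem h.2⟩
    show (h : GL (Fin 2) ℂ) = (δ * r⁻¹)⁻¹
    rw [← he, e, inv_inv]

theorem adjU_injective : Function.Injective adjU := Function.LeftInverse.injective adjU_adjU

open Classical in
theorem IsHeckeReps.existsUnique_right {π : ℂ} {R : Finset (GL (Fin 2) ℂ)}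
    (hR : IsHeckeReps N π R) {δ : GL (Fin 2) ℂ} (hδ : δ ∈ heckeSet N π) :
    ∃! g : congGroup N, δ * (g : GL (Fin 2) ℂ)⁻¹ ∈ R.image adjU := by
  obtain ⟨h, hh, hu⟩ := hR.existsUnique_left (adjU_mem_heckeSet hδ)
  refine ⟨⟨_, adjU_mem_congGroup (inv_mem h.2)⟩, Finset.mem_image.mpr ⟨_, hh, ?_⟩, ?_⟩
  · show adjU ((h : GL (Fin 2) ℂ) * adjU δ) = δ * (adjU (h : GL (Fin 2) ℂ)⁻¹)⁻¹
    rw [adjU_mul, adjU_adjU, eq_mul_inv_iff_mul_eq, mul_assoc, ← adjU_mul, inv_mul_cancel,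
      show adjU 1 = 1 from Units.ext (by simp [adjU_val]), mul_one]
  · intro g hg
    obtain ⟨r, hr, e⟩ := Finset.mem_image.mp hg
    have he : adjU δ = adjU (g : GL (Fin 2) ℂ) * r := by
      rw [← adjU_adjU r, ← adjU_mul, e, inv_mul_cancel_right]
    have hk := hu (⟨_, adjU_mem_congGroup g.2⟩⁻¹) (by
      show (adjU (g : GL (Fin 2) ℂ))⁻¹ * adjU δ ∈ R
      rw [he, inv_mul_cancel_left]; exact hr)
    refine Subtype.ext ?_
    show (g : GL (Fin 2) ℂ) = adjU (h : GL (Fin 2) ℂ)⁻¹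
    rw [← hk]
    show (g : GL (Fin 2) ℂ) = adjU ((adjU (g : GL (Fin 2) ℂ))⁻¹)⁻¹
    rw [inv_inv, adjU_adjU]

/-- Two sided translations of a Hecke set. -/
def heckePerm (N : ℕ) (π : ℂ) :
    congGroup N × congGroup N →* Equiv.Perm (heckeSet N π) where
  toFun p :=
    { toFun := fun δ => ⟨p.1.1 * δ.1 * p.2.1⁻¹, heckeSet_mul p.1.2 (inv_mem p.2.2) δ.2⟩
      invFun := fun δ => ⟨p.1.1⁻¹ * δ.1 * p.2.1, heckeSet_mul (inv_mem p.1.2) p.2.2 δ.2⟩
      left_inv := fun δ => Subtype.ext (by simp [mul_assoc])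
      right_inv := fun δ => Subtype.ext (by simp [mul_assoc]) }
  map_one' := Equiv.ext fun δ => Subtype.ext (by simp)
  map_mul' p q := Equiv.ext fun δ => Subtype.ext (by simp [mul_assoc])

/-- The translations of pairs. -/
def pairPerm (π : ℂ) {Λ : Set HVec} (hst : Stable (congGroup N) Λ) :
    congGroup N × congGroup N →* Equiv.Perm (heckeSet N π × Λ) where
  toFun p := Equiv.prodCongr (heckePerm N π p) (actPerm hst p.2)
  map_one' := by ext x <;> simp
  map_mul' p q := by ext x <;> simp [map_mul]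

/-- The unfolding of a Hecke operator. -/
theorem hecke_unfold {π : ℂ} {R : Finset (GL (Fin 2) ℂ)} (hR : IsHeckeReps N π R)
    (hw : IsWt (congGroup N) w) (hφc : Continuous φ) (hφb : ∃ C : ℝ, ∀ P, ‖φ P‖ ≤ C)
    (hinv : ∀ g ∈ congGroup N, ∀ P, φ (g • P) = φ P) {κ : ℂ}
    (heig : ∀ P, ∑ δ ∈ R, φ (δ • P) = κ * φ P)
    {Λ : Set HVec} [Countable Λ] (hst : Stable (congGroup N) Λ) (η : HVec → Measure H3)
    (hη : ∀ X ∈ Λ, ∀ g : GL (Fin 2) ℂ, MeasurePreserving (g • ·) (η X) (η (act g.val X)))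
    (hfin : ∑' X : Λ, ∫⁻ P, w P ∂η X.1 ≠ ⊤) :
    κ * ∑' X : Λ, ∫ P, wmul w φ P ∂η X.1 =
      ∑ δ ∈ R, ∑' X : Λ, ∫ P, wmul w φ P ∂η (act (adjU δ).val X.1) := by
  classical
  have := countable_heckeSet N π
  obtain ⟨B, hB⟩ := hφb
  let : MulAction (congGroup N × congGroup N) H3 :=
    MulAction.compHom H3 (MonoidHom.snd (congGroup N) (congGroup N))
  set R' := R.image adjU with hR'
  have hR'sub : ∀ r ∈ R', r ∈ heckeSet N π := fun r hr => by
    obtain ⟨s, hs, rfl⟩ := Finset.mem_image.mp hr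
    exact adjU_mem_heckeSet (hR.1 hs)
  let σ := pairPerm π hst
  set W : heckeSet N π × Λ → H3 → ℝ≥0∞ := fun d P => if d.1.1 ∈ R then w P else 0 with hW
  set W' : heckeSet N π × Λ → H3 → ℝ≥0∞ := fun d P => if d.1.1 ∈ R' then w (d.1.1 • P) else 0
    with hW'
  set F : heckeSet N π × Λ → H3 → ℂ := fun d P => φ (d.1.1 • P) with hF
  have hWm : ∀ d, Measurable (W d) := fun d => by
    by_cases h : d.1.1 ∈ R <;> simp only [hW, h, if_true, if_false]
    exacts [hw.measurable, measurable_const]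
  have hW'm : ∀ d, Measurable (W' d) := fun d => by
    by_cases h : d.1.1 ∈ R' <;> simp only [hW', h, if_true, if_false]
    exacts [hw.measurable.comp (continuous_const_smul d.1.1).measurable, measurable_const]
  have hFm : ∀ d, Measurable (F d) := fun d =>
    (hφc.comp (continuous_const_smul d.1.1)).measurable
  have hν : ∀ (p : congGroup N × congGroup N) (d : heckeSet N π × Λ),
      MeasurePreserving (p • · : H3 → H3) (η d.2.1) (η (σ p d).2.1) := fun p d =>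
    hη _ d.2.2 (p.2 : GL (Fin 2) ℂ)
  have hWsum : ∀ d P, ∑' p : congGroup N × congGroup N, W (σ p d) (p • P) = 1 := by
    intro d P
    rw [ENNReal.tsum_prod', ENNReal.tsum_comm, ← hw.sum_eq P]
    refine tsum_congr fun g => ?_
    obtain ⟨h, hh, hu⟩ := hR.existsUnique_left
      (heckeSet_mul (one_mem (congGroup N)) (inv_mem g.2) d.1.2)
    rw [one_mul, ← mul_assoc] at hh
    rw [tsum_eq_single h fun h' hne => if_neg fun hm => hne (hu h' (by
      show _ ∈ R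
      rw [one_mul, ← mul_assoc]; exact hm))]
    exact if_pos hh
  have hW'sum : ∀ d P, ∑' p : congGroup N × congGroup N, W' (σ p d) (p • P) = 1 := by
    intro d P
    rw [ENNReal.tsum_prod', ← hw.sum_eq (d.1.1 • P)]
    refine tsum_congr fun h => ?_
    obtain ⟨g, hg, hu⟩ := hR.existsUnique_right
      (heckeSet_mul h.2 (one_mem (congGroup N)) d.1.2)
    rw [mul_one] at hg
    rw [tsum_eq_single g fun g' hne => if_neg fun hm => hne (hu g' (by
      show _ ∈ R'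
      rw [mul_one]; exact hm))]
    refine (if_pos hg).trans (congrArg w ?_)
    show ((h : GL (Fin 2) ℂ) * d.1.1 * (g : GL (Fin 2) ℂ)⁻¹) • (g : GL (Fin 2) ℂ) • P = _
    rw [← mul_smul, inv_mul_cancel_right, mul_smul]
  have hFi : ∀ p d P, F (σ p d) (p • P) = F d P := by
    intro p d P
    show φ (((p.1 : GL (Fin 2) ℂ) * d.1.1 * (p.2 : GL (Fin 2) ℂ)⁻¹) • (p.2 : GL (Fin 2) ℂ) • P) = _
    rw [← mul_smul, inv_mul_cancel_right, mul_smul, hinv _ p.1.2]
  have hBw : ∀ d, ∫⁻ P, W d P * ‖F d P‖ₑ ∂η d.2.1 ≤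
      if d.1.1 ∈ R then ENNReal.ofReal B * ∫⁻ P, w P ∂η d.2.1 else 0 := by
    intro d
    by_cases h : d.1.1 ∈ R
    · rw [if_pos h, ← lintegral_const_mul _ hw.measurable]
      refine lintegral_mono fun P => ?_
      simp only [hW, if_pos h]
      rw [mul_comm]
      refine mul_le_mul' ?_ le_rfl
      rw [← ofReal_norm]; exact ENNReal.ofReal_le_ofReal (hB _)
    · simp [hW, h]
  have hfinW : ∑' d, ∫⁻ P, W d P * ‖F d P‖ₑ ∂η d.2.1 ≠ ⊤ := by
    refine ne_top_of_le_ne_top ?_ (ENNReal.tsum_le_tsum hBw)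
    rw [ENNReal.tsum_prod' (f := fun d : heckeSet N π × Λ =>
      if d.1.1 ∈ R then ENNReal.ofReal B * ∫⁻ P, w P ∂η d.2.1 else 0),
      tsum_eq_sum (s := R.subtype (· ∈ heckeSet N π)) fun δ hδ => by
        simp only [Finset.mem_subtype] at hδ
        simp [hδ]]
    refine ENNReal.sum_ne_top.mpr fun δ _ => ne_top_of_le_ne_top
      (ENNReal.mul_ne_top (ENNReal.ofReal_ne_top (r := B)) hfin) ?_
    rw [← ENNReal.tsum_mul_left]
    exact ENNReal.tsum_le_tsum fun X => by split_ifs <;> simp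
  have hswap := tsum_integral_swap σ (fun d : heckeSet N π × Λ => η d.2.1) hν hWm hW'm hWsum hW'sum
    hFm hFi hfinW
  have hfinW' : ∑' d, ∫⁻ P, W' d P * ‖F d P‖ₑ ∂η d.2.1 ≠ ⊤ := by
    rwa [← tsum_lintegral_swap σ (fun d : heckeSet N π × Λ => η d.2.1) hν hWm hW'm hWsum hW'sum
      (F := fun d P => ‖F d P‖ₑ) (fun d => (hFm d).enorm) fun p d P => by rw [hFi]]
  have hle1 := weight_le_one σ hWsum
  have hle1' := weight_le_one σ hW'sum
  have hint := integrable_weight (fun d : heckeSet N π × Λ => η d.2.1) hWm hle1 hFm hfinW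
  -- a finite sum over the representatives
  have hred : ∀ (V : heckeSet N π × Λ → H3 → ℝ≥0∞) (S : Finset (GL (Fin 2) ℂ))
      (hS : ∀ r ∈ S, r ∈ heckeSet N π), (∀ d, d.1.1 ∉ S → V d = 0) → (∀ d P, V d P ≤ 1) →
      (∑' d, ∫⁻ P, V d P * ‖F d P‖ₑ ∂η d.2.1 ≠ ⊤) →
      (∀ r : S, Summable fun X : Λ => ∫ P, ((V (⟨r.1, hS r.1 r.2⟩, X) P).toReal : ℂ) *
          F (⟨r.1, hS r.1 r.2⟩, X) P ∂η X.1) ∧
      ∑' d, ∫ P, ((V d P).toReal : ℂ) * F d P ∂η d.2.1 =
        ∑ r : S, ∑' X : Λ, ∫ P, ((V (⟨r.1, hS r.1 r.2⟩, X) P).toReal : ℂ) *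
          F (⟨r.1, hS r.1 r.2⟩, X) P ∂η X.1 := by
    intro V S hS h0 hV1 hV
    have hsum : Summable fun d => ∫ P, ((V d P).toReal : ℂ) * F d P ∂η d.2.1 := by
      refine Summable.of_norm_bounded (g := fun d => (∫⁻ P, V d P * ‖F d P‖ₑ ∂η d.2.1).toReal)
        (ENNReal.summable_toReal hV) fun d => ?_
      refine (norm_integral_le_lintegral_norm _).trans
        (ENNReal.toReal_mono (ne_top_of_le_ne_top hV (ENNReal.le_tsum d))
          (lintegral_mono fun P => ?_))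
      rw [norm_mul, ENNReal.ofReal_mul (norm_nonneg _), Complex.norm_real,
        Real.norm_of_nonneg ENNReal.toReal_nonneg,
        ENNReal.ofReal_toReal (ne_top_of_le_ne_top ENNReal.one_ne_top (hV1 d P)), ofReal_norm]
    let i : S × Λ → heckeSet N π × Λ := fun q => (⟨q.1.1, hS q.1.1 q.1.2⟩, q.2)
    have hi : Function.Injective i := fun q q' e => by
      obtain ⟨e1, e2⟩ := Prod.ext_iff.mp e
      exact Prod.ext (Subtype.ext (congrArg (fun z : heckeSet N π => z.1) e1)) e2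
    have hc := hsum.comp_injective hi
    refine ⟨fun r => hc.prod_factor r, ?_⟩
    rw [← hi.tsum_eq fun d hd => ?_]
    · exact (Summable.tsum_prod hc).trans (tsum_fintype _)
    · by_contra hr
      refine hd ?_
      have hm : d.1.1 ∉ S := fun hm => hr ⟨(⟨d.1.1, hm⟩, d.2), rfl⟩
      show ∫ P, ((V d P).toReal : ℂ) * F d P ∂η d.2.1 = 0
      rw [h0 d hm]
      simp
  obtain ⟨hsR, hL⟩ := hred W R hR.1 (fun d hd => by funext P; simp [hW, hd]) hle1 hfinW
  obtain ⟨-, hR2⟩ := hred W' R' hR'sub (fun d hd => by funext P; simp [hW', hd]) hle1' hfinW'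
  rw [hL, hR2] at hswap
  calc κ * ∑' X : Λ, ∫ P, wmul w φ P ∂η X.1
      = ∑ r : R, ∑' X : Λ, ∫ P, ((W (⟨r.1, hR.1 r.2⟩, X) P).toReal : ℂ) *
          F (⟨r.1, hR.1 r.2⟩, X) P ∂η X.1 := by
        rw [← Summable.tsum_finsetSum fun r _ => hsR r, ← tsum_mul_left]
        refine tsum_congr fun X => ?_
        rw [← integral_finsetSum _ fun r _ => hint (⟨r.1, hR.1 r.2⟩, X), ← integral_const_mul]
        refine integral_congr_ae (Filter.Eventually.of_forall fun P => ?_)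
        simp only [hW, hF, wmul, Finset.coe_mem, if_true]
        rw [← Finset.mul_sum, Finset.sum_coe_sort R (fun δ => φ (δ • P)), heig]
        ring
    _ = ∑ r : R', ∑' X : Λ, ∫ P, ((W' (⟨r.1, hR'sub r.1 r.2⟩, X) P).toReal : ℂ) *
          F (⟨r.1, hR'sub r.1 r.2⟩, X) P ∂η X.1 := hswap
    _ = ∑ r ∈ R', ∑' X : Λ, ∫ P, wmul w φ P ∂η (act r.val X.1) := by
        rw [← Finset.sum_coe_sort R' (fun r => ∑' X : Λ, ∫ P, wmul w φ P ∂η (act r.val X.1))]
        refine Finset.sum_congr rfl fun r _ => tsum_congr fun X => ?_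
        rw [← (hη X.1 X.2 r.1).integral_comp (Homeomorph.smul r.1).measurableEmbedding (wmul w φ)]
        refine integral_congr_ae (Filter.Eventually.of_forall fun P => ?_)
        simp only [hW', hF, wmul, r.2, if_true]
    _ = _ := Finset.sum_image adjU_injective.injOn

/-- Measures attached to the vectors of one sign. -/
structure PairFam (N : ℕ) (w : H3 → ℝ≥0∞) (η : HVec → Measure H3) (s : ℤ) : Prop where
  sign : s * s = 1
  mp : ∀ X, 0 < (s : ℝ) * Qf X → ∀ g : GL (Fin 2) ℂ,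
    MeasurePreserving (g • ·) (η X) (η (act g.val X))
  scale : ∀ X, 0 < (s : ℝ) * Qf X → ∀ r : ℝ, r ≠ 0 → η (r • X) = η X
  fin : ∀ n : ℕ, 0 < n → ∑' X : Lvl N (s * n), ∫⁻ P, w P ∂η X.1 ≠ ⊤

/-- The sum over a level. -/
def lvlSum (N : ℕ) (w : H3 → ℝ≥0∞) (φ : H3 → ℂ) (η : HVec → Measure H3) (k : ℤ) : ℂ :=
  ∑' X : Lvl N k, ∫ P, wmul w φ P ∂η X.1

theorem Qf_latVec_eq (l : Fin 4 → ℤ) : Qf (latVec l) = ((offNorm l - l 0 * l 1 : ℤ) : ℝ) := by
  simp [Qf, offNorm, latVec_apply]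

theorem latVec_mem_Lvl_iff {l : Fin 4 → ℤ} {k : ℤ} :
    latVec l ∈ Lvl N k ↔
      (N : ℤ) ∣ l 0 ∧ (N : ℤ) ∣ l 1 ∧ offNorm l - l 0 * l 1 = k ∧ IsCoprime k (N : ℤ) := by
  constructor
  · intro h
    have hk := Lvl_coprime h
    obtain ⟨n, ⟨⟨h0, h1, -⟩, hq⟩, e⟩ := h
    obtain rfl := latVec_injective e
    rw [Qf_latVec_eq] at hq
    exact ⟨h0, h1, by exact_mod_cast hq, hk⟩
  · rintro ⟨h0, h1, hk, hc⟩
    refine ⟨l, ⟨⟨h0, h1, ?_⟩, by rw [Qf_latVec_eq, hk]⟩, rfl⟩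
    obtain ⟨a, ha⟩ := h0
    rw [show offNorm l = k + (N : ℤ) * (a * l 1) by rw [← hk, ha]; ring]
    exact hc.add_mul_left_left _

theorem pos_of_mem_Lvl {s : ℤ} (hs : s * s = 1) {n : ℕ} (hn : 0 < n) {X : HVec}
    (hX : X ∈ Lvl N (s * n)) : 0 < (s : ℝ) * Qf X := by
  obtain ⟨m, ⟨-, hq⟩, rfl⟩ := hX
  rw [hq]
  push_cast
  rw [← mul_assoc, show (s : ℝ) * s = 1 by exact_mod_cast hs, one_mul]
  exact_mod_cast hn

theorem dvd_diag_act {M : Matrix (Fin 2) (Fin 2) ℂ} (hN : N ≠ 0) (hM : EisCong N M)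
    {n n' : Fin 4 → ℤ} (h0 : (N : ℤ) ∣ n 0) (h1 : (N : ℤ) ∣ n 1)
      (he : act M (latVec n) = latVec n') :
    (N : ℤ) ∣ n' 0 ∧ (N : ℤ) ∣ n' 1 := by
  obtain ⟨hE, ⟨q, hq, eq01⟩, ⟨r, hr, eq10⟩⟩ := hM
  obtain ⟨a, ha⟩ := h0
  obtain ⟨c, hc⟩ := h1
  set b := offDiag (latVec n) with hb
  have hbE : b ∈ Eis := ⟨n 2, n 3, rfl⟩
  have hm : mat (latVec n') = M * mat (latVec n) * Mᴴ := by rw [← mat_act, he]
  have hp := hE 0 0
  have hw' := hE 1 1
  set p := M 0 0 with hp0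
  set v := M 1 1 with hv0
  constructor
  · refine eis_dvd_int hN (z := p * a * conj p + q * conj b * conj p + p * b * conj q
      + (N : ℂ) * N * c * q * conj q) ?_ ?_
    · exact add_mem (add_mem (add_mem (mul_mem (mul_mem hp (intCast_mem_Eis a)) (conj_mem_Eis hp))
        (mul_mem (mul_mem hq (conj_mem_Eis hbE)) (conj_mem_Eis hp)))
        (mul_mem (mul_mem hp hbE) (conj_mem_Eis hq)))
        (mul_mem (mul_mem (mul_mem (mul_mem (natCast_mem_Eis N) (natCast_mem_Eis N))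
          (intCast_mem_Eis c))
          hq) (conj_mem_Eis hq))
    · have := congrFun (congrFun hm 0) 0
      simp [mat, latVec_apply, Matrix.mul_apply, Fin.sum_univ_two, ← hb, eq01, ← hp0,
          ha, hc] at this
      rw [this]; ring
  · refine eis_dvd_int hN (z := v * c * conj v + r * b * conj v + v * conj b * conj r
      + (N : ℂ) * N * a * r * conj r) ?_ ?_
    · exact add_mem (add_mem (add_mem (mul_mem (mul_mem hw' (intCast_mem_Eis c)) (conj_mem_Eis hw'))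
        (mul_mem (mul_mem hr hbE) (conj_mem_Eis hw')))
        (mul_mem (mul_mem hw' (conj_mem_Eis hbE)) (conj_mem_Eis hr)))
        (mul_mem (mul_mem (mul_mem (mul_mem (natCast_mem_Eis N) (natCast_mem_Eis N))
          (intCast_mem_Eis a))
          hr) (conj_mem_Eis hr))
    · have := congrFun (congrFun hm 1) 1
      simp [mat, latVec_apply, Matrix.mul_apply, Fin.sum_univ_two, ← hb, eq10, ← hv0,
          ha, hc] at this
      rw [this]; ring

theorem act_mem_Lvl (hN : N ≠ 0) {M : Matrix (Fin 2) (Fin 2) ℂ} (hM : EisCong N M) {P : ℕ}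
    (hP : normSq M.det = P) (hPN : IsCoprime (P : ℤ) (N : ℤ)) {k : ℤ} {X : HVec}
    (hX : X ∈ Lvl N k) : act M X ∈ Lvl N (P * k) := by
  have hk := Lvl_coprime hX
  obtain ⟨n, ⟨⟨h0, h1, -⟩, hq⟩, rfl⟩ := hX
  obtain ⟨n', hn'⟩ := exists_latVec_act hM.1 n
  obtain ⟨g0, g1⟩ := dvd_diag_act hN hM h0 h1 hn'
  rw [hn']
  refine latVec_mem_Lvl_iff.mpr ⟨g0, g1, ?_, hPN.mul_left hk⟩
  have : ((offNorm n' - n' 0 * n' 1 : ℤ) : ℝ) = ((P * k : ℤ) : ℝ) := by
    rw [← Qf_latVec_eq, ← hn', Qf_act, hP, hq]; push_cast; rfl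
  exact_mod_cast this

variable {η : HVec → Measure H3} {s : ℤ}

theorem PairFam.norm_le (hF : PairFam N w η s) (hw : IsWt (congGroup N) w) {B : ℝ}
    (hB : ∀ P, ‖φ P‖ ≤ B) {n : ℕ} (hn : 0 < n) :
    Summable fun X : Lvl N (s * n) => ∫ P, wmul w φ P ∂η X.1 := by
  have hf : ∑' X : Lvl N (s * n), ENNReal.ofReal B * ∫⁻ P, w P ∂η X.1 ≠ ⊤ := by
    rw [ENNReal.tsum_mul_left]; exact ENNReal.mul_ne_top ENNReal.ofReal_ne_top (hF.fin n hn)
  refine Summable.of_norm_bounded (g := fun X => (ENNReal.ofReal B * ∫⁻ P, w P ∂η X.1).toReal)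
    (ENNReal.summable_toReal hf) fun X => ?_
  refine (norm_integral_le_lintegral_norm _).trans
    (ENNReal.toReal_mono (ne_top_of_le_ne_top hf (ENNReal.le_tsum X)) ?_)
  rw [← lintegral_const_mul _ hw.measurable]
  refine lintegral_mono fun P => ?_
  rw [ofReal_norm, norm_wmul_le hw, mul_comm]
  refine mul_le_mul' ?_ le_rfl
  rw [← ofReal_norm]; exact ENNReal.ofReal_le_ofReal (hB _)

open Classical in
/-- The unfolded sum as a weighted sum over a level. -/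
theorem sum_adj_eq (hN : N ≠ 0) (hF : PairFam N w η s) (hw : IsWt (congGroup N) w) {B : ℝ}
    (hB : ∀ P, ‖φ P‖ ≤ B) {π : ℂ} {R : Finset (GL (Fin 2) ℂ)} (hR : IsHeckeReps N π R) {P : ℕ}
    (hP : normSq π = P) (hP0 : 0 < P) (hPN : IsCoprime (P : ℤ) (N : ℤ)) {n : ℕ} (hn : 0 < n) :
    ∑ δ ∈ R, ∑' X : Lvl N (s * n), ∫ Q, wmul w φ Q ∂η (act (adjU δ).val X.1) =
      ∑' Y : Lvl N (s * (P * n : ℕ)),
        ((∑ δ ∈ R, if DivBy P (act δ.val Y.1) then 1 else 0 : ℕ) : ℂ) *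
          ∫ Q, wmul w φ Q ∂η Y.1 := by
  classical
  set I : Lvl N (s * (P * n : ℕ)) → ℂ := fun Y => ∫ Q, wmul w φ Q ∂η Y.1 with hI
  have hsum : Summable I := hF.norm_le hw hB (Nat.mul_pos hP0 hn)
  have hind : ∀ δ : GL (Fin 2) ℂ, Summable fun Y : Lvl N (s * (P * n : ℕ)) =>
      (if DivBy P (act δ.val Y.1) then I Y else 0) := fun δ => by
    refine (hsum.indicator {Y | DivBy P (act δ.val Y.1)}).congr fun Y => ?_
    simp [Set.indicator_apply]
  have hPr : (P : ℝ) ≠ 0 := by exact_mod_cast hP0.ne'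
  have hdet : ∀ δ ∈ R, normSq δ.val.det = P := fun δ hδ => by
    obtain ⟨-, u, hu, ⟨u', hu', huu⟩, hd⟩ := hR.1 hδ
    rw [hd, map_mul, normSq_eq_one_of_isUnit hu hu' huu, one_mul, hP]
  have key : ∀ δ ∈ R, ∑' X : Lvl N (s * n), ∫ Q, wmul w φ Q ∂η (act (adjU δ).val X.1) =
      ∑' Y : Lvl N (s * (P * n : ℕ)), (if DivBy P (act δ.val Y.1) then I Y else 0) := by
    intro δ hδ
    have hadj := hR.1 hδ
    have hdadj : normSq (adjU δ).val.det = P := by
      rw [adjU_val, Matrix.det_adjugate, Fintype.card_fin]; simpa using hdet δ hδ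
    let i : Lvl N (s * n) → Lvl N (s * (P * n : ℕ)) := fun X => ⟨act (adjU δ).val X.1, by
      rw [show s * ((P * n : ℕ) : ℤ) = P * (s * n) by push_cast; ring]
      exact act_mem_Lvl hN (eisCong_adjugate hadj.1) hdadj hPN X.2⟩
    have hi : Function.Injective i := fun X X' e => by
      have e' := congrArg (fun Y : Lvl N (s * (P * n : ℕ)) => act δ.val Y.1) e
      simp only [i] at e'
      rw [act_adjU, act_adjU, hdet δ hδ] at e'
      exact Subtype.ext (smul_right_injective _ hPr e')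
    rw [← hi.tsum_eq]
    · refine tsum_congr fun X => ?_
      obtain ⟨m, -, hm⟩ := X.2
      rw [if_pos (show DivBy P (act δ.val (i X).1) from ⟨m, by rw [act_adjU, hdet δ hδ, hm]⟩)]
    · intro Y hY
      by_contra hr
      refine hY (if_neg fun hd => hr ?_)
      obtain ⟨l, hl⟩ := hd
      have hmem : act δ.val Y.1 ∈ Lvl N (P * (s * (P * n : ℕ))) :=
        act_mem_Lvl hN hadj.1 (hdet δ hδ) hPN Y.2
      have e : (P : ℝ) • latVec l = latVec ((P : ℤ) • l) := by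
        rw [latVec_smul]; push_cast; rfl
      rw [hl, e] at hmem
      obtain ⟨h0, h1, hk, hc⟩ := latVec_mem_Lvl_iff.mp hmem
      have hcn : IsCoprime (s * (n : ℤ)) (N : ℤ) := by
        push_cast at hc
        have := hc.of_mul_left_right
        rw [show s * ((P : ℤ) * n) = P * (s * n) by ring] at this
        exact this.of_mul_left_right
      refine ⟨⟨latVec l, latVec_mem_Lvl_iff.mpr ⟨?_, ?_, ?_, hcn⟩⟩, Subtype.ext ?_⟩
      · exact hPN.symm.dvd_of_dvd_mul_left (by simpa using h0)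
      · exact hPN.symm.dvd_of_dvd_mul_left (by simpa using h1)
      · refine mul_left_cancel₀ (pow_ne_zero 2 (Int.natCast_ne_zero.mpr hP0.ne')) ?_
        simp only [offNorm, Pi.smul_apply, smul_eq_mul] at hk ⊢
        push_cast at hk
        linear_combination hk
      · show act (adjU δ).val (latVec l) = Y.1
        refine smul_right_injective _ hPr ?_
        show (P : ℝ) • act (adjU δ).val (latVec l) = (P : ℝ) • Y.1
        rw [← map_smul, ← hl, ← act_mul, adjU_val, Matrix.adjugate_mul, act_smul_scalar, act_one,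
          hdet δ hδ]
  rw [Finset.sum_congr rfl key, ← Summable.tsum_finsetSum fun δ _ => hind δ]
  refine tsum_congr fun Y => ?_
  push_cast
  rw [Finset.sum_mul]
  exact Finset.sum_congr rfl fun δ _ => by split_ifs <;> simp [hI]

open Classical in
theorem divBy_mul_self_dvd {P : ℕ} {k : ℤ} {Y : HVec} (hY : Y ∈ Lvl N k) (h : DivBy P Y) :
    ((P : ℤ) * P) ∣ k := by
  obtain ⟨l, rfl⟩ := h
  have e : (P : ℝ) • latVec l = latVec ((P : ℤ) • l) := by rw [latVec_smul]; push_cast; rfl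
  rw [e] at hY
  obtain ⟨-, -, hk, -⟩ := latVec_mem_Lvl_iff.mp hY
  refine ⟨offNorm l - l 0 * l 1, ?_⟩
  rw [← hk]
  simp [offNorm]; ring

open Classical in
theorem tsum_divBy (hF : PairFam N w η s) {P : ℕ} (hP0 : 0 < P)
    (hPN : IsCoprime (P : ℤ) (N : ℤ)) {n : ℕ} (hn : 0 < n) :
    ∑' Y : Lvl N (s * (P * P * n : ℕ)), (if DivBy P Y.1 then ∫ Q, wmul w φ Q ∂η Y.1 else 0) =
      lvlSum N w φ η (s * n) := by
  have hPr : (P : ℝ) ≠ 0 := by exact_mod_cast hP0.ne'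
  have e : ∀ l, (P : ℝ) • latVec l = latVec ((P : ℤ) • l) := fun l => by
    rw [latVec_smul]; push_cast; rfl
  let i : Lvl N (s * n) → Lvl N (s * (P * P * n : ℕ)) := fun X => ⟨(P : ℝ) • X.1, by
    obtain ⟨l, -, hl⟩ := X.2
    obtain ⟨h0, h1, hk, hc⟩ := latVec_mem_Lvl_iff.mp (hl.symm ▸ X.2)
    rw [← hl, e]
    refine latVec_mem_Lvl_iff.mpr ⟨?_, ?_, ?_, ?_⟩
    · simpa using h0.mul_left (P : ℤ)
    · simpa using h1.mul_left (P : ℤ)
    · simp only [offNorm, Pi.smul_apply, smul_eq_mul] at hk ⊢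
      push_cast; linear_combination ((P : ℤ) * P) * hk
    · rw [show s * ((P * P * n : ℕ) : ℤ) = (P : ℤ) * P * (s * n) by push_cast; ring]
      exact (hPN.mul_left hPN).mul_left hc⟩
  have hi : Function.Injective i := fun X X' h =>
    Subtype.ext (smul_right_injective _ hPr (congrArg Subtype.val h))
  rw [← hi.tsum_eq]
  · refine tsum_congr fun X => ?_
    obtain ⟨l, -, hl⟩ := X.2
    rw [if_pos (show DivBy P (i X).1 from ⟨l, by rw [hl]⟩)]
    show ∫ Q, wmul w φ Q ∂η ((P : ℝ) • X.1) = _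
    rw [hF.scale _ (pos_of_mem_Lvl hF.sign hn X.2) _ hPr]
  · intro Y hY
    by_contra hr
    refine hY (if_neg fun hd => hr ?_)
    obtain ⟨l, hl⟩ := hd
    have hmem := Y.2
    rw [hl, e] at hmem
    obtain ⟨h0, h1, hk, hc⟩ := latVec_mem_Lvl_iff.mp hmem
    refine ⟨⟨latVec l, latVec_mem_Lvl_iff.mpr ⟨?_, ?_, ?_, ?_⟩⟩, Subtype.ext hl.symm⟩
    · exact hPN.symm.dvd_of_dvd_mul_left (by simpa using h0)
    · exact hPN.symm.dvd_of_dvd_mul_left (by simpa using h1)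
    · refine mul_left_cancel₀ (pow_ne_zero 2 (Int.natCast_ne_zero.mpr hP0.ne')) ?_
      simp only [offNorm, Pi.smul_apply, smul_eq_mul] at hk ⊢
      push_cast at hk
      linear_combination hk
    · refine (show IsCoprime ((P : ℤ) * P * (s * n)) (N : ℤ) from ?_).of_mul_left_right
      rw [show (P : ℤ) * P * (s * n) = s * ((P * P * n : ℕ) : ℤ) by push_cast; ring]
      exact hc

open Classical in
theorem tsum_divBy' (hF : PairFam N w η s) {P : ℕ} (hP0 : 0 < P)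
    (hPN : IsCoprime (P : ℤ) (N : ℤ)) {K : ℕ} (hK : 0 < K) :
    ∑' Y : Lvl N (s * (K : ℕ)), (if DivBy P Y.1 then ∫ Q, wmul w φ Q ∂η Y.1 else 0) =
      if P * P ∣ K then lvlSum N w φ η (s * (K / (P * P) : ℕ)) else 0 := by
  split_ifs with h
  · obtain ⟨n, rfl⟩ := h
    rw [Nat.mul_div_cancel_left _ (Nat.mul_pos hP0 hP0)]
    exact tsum_divBy hF hP0 hPN (Nat.pos_of_mul_pos_left hK)
  · refine (tsum_congr fun Y => if_neg fun hd => h ?_).trans tsum_zero
    have := divBy_mul_self_dvd Y.2 hd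
    have h2 : ((P : ℤ) * P) ∣ s * (s * (K : ℤ)) := dvd_mul_of_dvd_right this s
    rw [← mul_assoc, hF.sign, one_mul] at h2
    exact_mod_cast h2

theorem isCoprime_of_prime {p N : ℕ} (hp : p.Prime) (h : ¬ p ∣ N) : IsCoprime (p : ℤ) (N : ℤ) :=
  Int.isCoprime_iff_gcd_eq_one.mpr (hp.coprime_iff_not_dvd.mpr h)

/-- The relation at a split prime. -/
theorem lvlSum_split (hN : N ≠ 0) (hF : PairFam N w η s) (hw : IsWt (congGroup N) w)
    (I : LiftInput N) {p : ℕ} (hp : p.Prime) (hpN : ¬ p ∣ 3 * N) {π : ℂ} (hπ : π ∈ Eis)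
    (hn : normSq π = p) {n : ℕ} (hn0 : 0 < n) :
    (‖π‖ : ℂ) * I.A π * lvlSum N w I.φ η (s * n) =
      lvlSum N w I.φ η (s * (p * n : ℕ)) +
        (p : ℂ) * (if p ∣ n then lvlSum N w I.φ η (s * (n / p : ℕ)) else 0) := by
  classical
  obtain ⟨R, hR, hcnt⟩ := exists_split_reps hN hp hpN hπ hn
  obtain ⟨B, hB⟩ := I.bounded
  have hpN' : IsCoprime (p : ℤ) (N : ℤ) := isCoprime_of_prime hp fun h => hpN (h.mul_left 3)
  have hls := latSet_Lvl hN (s * (n : ℤ))
  have := hls.countable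
  rw [show lvlSum N w I.φ η (s * n) = _ from rfl]
  unfold lvlSum
  rw [hecke_unfold hR hw I.continuous I.bounded I.invariant
      (I.eigen π ⟨hπ, p, hp, hpN, Or.inl hn⟩ R hR) hls.stable η
      (fun X hX g => hF.mp X (pos_of_mem_Lvl hF.sign hn0 hX) g) (hF.fin n hn0),
    sum_adj_eq hN hF hw hB hR hn hp.pos hpN' hn0]
  have hs := hF.norm_le hw hB (Nat.mul_pos hp.pos hn0)
  have hind : Summable fun Y : Lvl N (s * (p * n : ℕ)) =>
      if DivBy p Y.1 then ∫ Q, wmul w I.φ Q ∂η Y.1 else 0 :=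
    (hs.indicator {Y | DivBy p Y.1}).congr fun Y => by simp [Set.indicator_apply]
  have e : ∀ Y : Lvl N (s * (p * n : ℕ)),
      ((∑ δ ∈ R, if DivBy p (act δ.val Y.1) then 1 else 0 : ℕ) : ℂ) * ∫ Q, wmul w I.φ Q ∂η Y.1 =
      ∫ Q, wmul w I.φ Q ∂η Y.1 +
        (p : ℂ) * (if DivBy p Y.1 then ∫ Q, wmul w I.φ Q ∂η Y.1 else 0) := by
    rintro ⟨_, m, hm, rfl⟩
    obtain ⟨-, -, hk, -⟩ := latVec_mem_Lvl_iff.mp (⟨m, hm, rfl⟩ : latVec m ∈
        Lvl N (s * (p * n : ℕ)))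
    rw [hcnt m ⟨s * n, by rw [hk]; push_cast; ring⟩]
    split_ifs <;> push_cast <;> ring
  rw [tsum_congr e, hs.tsum_add (hind.mul_left _), tsum_mul_left,
    tsum_divBy' hF hp.pos hpN' (Nat.mul_pos hp.pos hn0)]
  congr 2
  simp only [Nat.mul_dvd_mul_iff_left hp.pos, Nat.mul_div_mul_left _ _ hp.pos]
  rfl

/-- The relation at an inert prime. -/
theorem lvlSum_inert (hN : N ≠ 0) (hF : PairFam N w η s) (hw : IsWt (congGroup N) w)
    (I : LiftInput N) {p : ℕ} (hp : p.Prime) (hp3 : p % 3 = 2) (hpN : ¬ p ∣ N) {n : ℕ}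
    (hn0 : 0 < n) :
    (p : ℂ) * I.A p * lvlSum N w I.φ η (s * n) =
      lvlSum N w I.φ η (s * (p ^ 2 * n : ℕ)) +
        if p ∣ n then (p : ℂ) ^ 2 * (if p ^ 2 ∣ n
          then lvlSum N w I.φ η (s * (n / p ^ 2 : ℕ)) else 0)
        else (p : ℂ) * lvlSum N w I.φ η (s * n) := by
  classical
  obtain ⟨R, hR, hcnt⟩ := exists_inert_reps hN hp hp3 hpN
  obtain ⟨B, hB⟩ := I.bounded
  have hgood : GoodPi N (p : ℂ) := by
    refine ⟨natCast_mem_Eis p, p, hp, fun h => ?_, Or.inr ⟨hp3, rfl⟩⟩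
    rcases hp.dvd_mul.mp h with h | h
    · rcases (Nat.dvd_prime Nat.prime_three).mp h with h' | h'
      · exact hp.one_lt.ne' h'
      · omega
    · exact hpN h
  have hpN' : IsCoprime (p : ℤ) (N : ℤ) := isCoprime_of_prime hp hpN
  have hppN : IsCoprime ((p * p : ℕ) : ℤ) (N : ℤ) := by push_cast; exact hpN'.mul_left hpN'
  have hnorm : normSq (p : ℂ) = ((p * p : ℕ) : ℝ) := by rw [normSq_natCast]; push_cast; rfl
  have hls := latSet_Lvl hN (s * (n : ℤ))
  have := hls.countable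
  have h0 := hecke_unfold hR hw I.continuous I.bounded I.invariant
      (I.eigen _ hgood R hR) hls.stable η
      (fun X hX g => hF.mp X (pos_of_mem_Lvl hF.sign hn0 hX) g) (hF.fin n hn0)
  rw [sum_adj_eq hN hF hw hB hR hnorm (Nat.mul_pos hp.pos hp.pos) hppN hn0, Complex.norm_natCast,
    Complex.ofReal_natCast] at h0
  rw [show p ^ 2 * n = p * p * n by ring, show lvlSum N w I.φ η (s * n) =
    ∑' X : Lvl N (s * n), ∫ P, wmul w I.φ P ∂η X.1 from rfl]
  rw [h0]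
  have hs := hF.norm_le hw hB (Nat.mul_pos (Nat.mul_pos hp.pos hp.pos) hn0)
  have hind : ∀ P : ℕ, Summable fun Y : Lvl N (s * (p * p * n : ℕ)) =>
      if DivBy P Y.1 then ∫ Q, wmul w I.φ Q ∂η Y.1 else 0 := fun P =>
    (hs.indicator {Y | DivBy P Y.1}).congr fun Y => by simp [Set.indicator_apply]
  have e : ∀ Y : Lvl N (s * (p * p * n : ℕ)),
      ((∑ δ ∈ R, if DivBy (p * p) (act δ.val Y.1) then 1 else 0 : ℕ) : ℂ) *
        ∫ Q, wmul w I.φ Q ∂η Y.1 =
      ∫ Q, wmul w I.φ Q ∂η Y.1 +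
        if p ∣ n then (p : ℂ) ^ 2 * (if DivBy (p * p) Y.1 then ∫ Q, wmul w I.φ Q ∂η Y.1 else 0)
        else (p : ℂ) * (if DivBy p Y.1 then ∫ Q, wmul w I.φ Q ∂η Y.1 else 0) := by
    rintro ⟨_, m, hm, rfl⟩
    have hY : latVec m ∈ Lvl N (s * (p * p * n : ℕ)) := ⟨m, hm, rfl⟩
    obtain ⟨-, -, hk, -⟩ := latVec_mem_Lvl_iff.mp hY
    rw [hcnt m (s * n) (by rw [hk]; push_cast; ring)]
    have hdd : DivBy (p * p) (latVec m) → DivBy p (latVec m) := fun h =>
      divBy_latVec_iff.mpr fun i =>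
        (Int.natCast_dvd_natCast.mpr (dvd_mul_right p p)).trans (divBy_latVec_iff.mp h i)
    have hsn : (p : ℤ) ∣ s * (n : ℤ) ↔ p ∣ n := by
      refine ⟨fun h => ?_, fun h => dvd_mul_of_dvd_right (Int.natCast_dvd_natCast.mpr h) s⟩
      have := dvd_mul_of_dvd_right h s
      rw [← mul_assoc, hF.sign, one_mul] at this
      exact_mod_cast this
    have hnn : DivBy (p * p) (latVec m) → p ∣ n := fun h => by
      have h1 := divBy_mul_self_dvd hY h
      have h2 := dvd_mul_of_dvd_right h1 s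
      rw [← mul_assoc s, hF.sign, one_mul] at h2
      have h3 : p * p * (p * p) ∣ p * p * n := by exact_mod_cast h2
      exact (dvd_mul_right p p).trans (Nat.dvd_of_mul_dvd_mul_left (Nat.mul_pos hp.pos hp.pos) h3)
    simp only [hsn]
    split_ifs <;> first | (push_cast; ring1) | (exfalso; tauto)
  rw [tsum_congr e]
  by_cases hpn : p ∣ n
  · simp only [if_pos hpn]
    rw [hs.tsum_add ((hind _).mul_left _), tsum_mul_left,
      tsum_divBy' hF (Nat.mul_pos hp.pos hp.pos) hppN (Nat.mul_pos (Nat.mul_pos hp.pos hp.pos) hn0)]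
    congr 2
    simp only [Nat.mul_dvd_mul_iff_left (Nat.mul_pos hp.pos hp.pos),
      Nat.mul_div_mul_left _ _ (Nat.mul_pos hp.pos hp.pos), sq p]
  · simp only [if_neg hpn]
    rw [hs.tsum_add ((hind _).mul_left _), tsum_mul_left, tsum_divBy hF hp.pos hpN' hn0]
    rfl

end FLTAgent.LanglandsTunnell.Lift
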