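import Fermat.Agent.LanglandsTunnell.Lift.Levels

/-!
# Representatives of the Hecke sets and their action on the lattice

`heckeReps` built from a residue system (`ResSys`) represent a Hecke set
(`isHeckeReps_heckeReps`), and divisibility of their images of a lattice vector is made
explicit, ready for counting in `HeckeLattice`.
-/

set_option autoImplicit false

noncomputable section

namespace FLTAgent.LanglandsTunnell.Lift

open FLTAgent.LanglandsTunnell Complex ComplexConjugate Matrix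

/-- Divisibility in the Eisenstein integers. -/
def Dv (π z : ℂ) : Prop := ∃ q ∈ Eis, z = π * q

/-- Divisibility of a lattice vector. -/
def DivBy (P : ℕ) (Y : HVec) : Prop := ∃ l : Fin 4 → ℤ, Y = (P : ℝ) • latVec l

theorem mem_congGroup_of_det {N : ℕ} {g : GL (Fin 2) ℂ} (h : EisCong N g.val) {u u' : ℂ}
    (hu' : u' ∈ Eis) (hdet : g.val.det = u) (huu : u * u' = 1) : g ∈ congGroup N := by
  refine ⟨h, ?_⟩
  have he : (g⁻¹).val = u' • g.val.adjugate := by
    rw [Matrix.coe_units_inv, Matrix.inv_def, hdet, Ring.inverse_eq_inv,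
      eq_inv_of_mul_eq_one_right huu]
  obtain ⟨hE, ⟨b, hb, e01⟩, ⟨c, hc, e10⟩⟩ := h
  rw [he, Matrix.adjugate_fin_two]
  refine ⟨fun i j => ?_, ⟨-(u' * b), neg_mem (mul_mem hu' hb), by simp [e01]; ring⟩,
    ⟨-(u' * c), neg_mem (mul_mem hu' hc), by simp [e10]; ring⟩⟩
  fin_cases i <;> fin_cases j <;>
    simp [mul_mem hu' (hE 1 1), mul_mem hu' (hE 0 0), mul_mem hu' (hE 0 1), mul_mem hu' (hE 1 0)]

theorem det_unit_of_congGroup {N : ℕ} {g : GL (Fin 2) ℂ} (hg : g ∈ congGroup N) :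
    g.val.det ∈ Eis ∧ ∃ u' ∈ Eis, g.val.det * u' = 1 :=
  ⟨eisCong_det_mem hg.1, _, eisCong_det_mem hg.2, by
    rw [← det_mul, ← Units.val_mul, mul_inv_cancel, Units.val_one, det_one]⟩

theorem heckeSet_mul {N : ℕ} {π : ℂ} {g h δ : GL (Fin 2) ℂ} (hg : g ∈ congGroup N)
    (hh : h ∈ congGroup N) (hδ : δ ∈ heckeSet N π) : g * δ * h ∈ heckeSet N π := by
  obtain ⟨hδ, u, hu, ⟨u', hu', huu⟩, hdet⟩ := hδ
  obtain ⟨ha, a', ha', haa⟩ := det_unit_of_congGroup hg
  obtain ⟨hb, b', hb', hbb⟩ := det_unit_of_congGroup hh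
  refine ⟨by simpa only [Units.val_mul] using (hg.1.mul hδ).mul hh.1,
    g.val.det * u * h.val.det, mul_mem (mul_mem ha hu) hb,
    ⟨a' * u' * b', mul_mem (mul_mem ha' hu') hb', ?_⟩, ?_⟩
  · linear_combination (u * u' * (h.val.det * b')) * haa + (h.val.det * b') * huu + hbb
  · rw [Units.val_mul, Units.val_mul, det_mul, det_mul, hdet]; ring

theorem countable_heckeSet (N : ℕ) (π : ℂ) : Countable (heckeSet N π) := by
  have : Countable Eis := by
    refine Function.Surjective.countable (f := fun p : ℤ × ℤ =>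
        (⟨eis p.1 p.2, p.1, p.2, rfl⟩ : Eis)) ?_
    rintro ⟨_, x, y, rfl⟩
    exact ⟨(x, y), rfl⟩
  refine Function.Injective.countable (β := Fin 2 → Fin 2 → Eis)
    (f := fun g i j => ⟨g.1.val i j, g.2.1.1 i j⟩) ?_
  intro g g' h
  refine Subtype.ext (Units.ext (Matrix.ext fun i j => ?_))
  exact congrArg Subtype.val (congrFun (congrFun h i) j)

/-- The adjugate as an element of the group. -/
def adjU (δ : GL (Fin 2) ℂ) : GL (Fin 2) ℂ :=
  GeneralLinearGroup.mkOfDetNeZero δ.val.adjugate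
    (by rw [Matrix.det_adjugate, Fintype.card_fin]; simpa using δ.det_ne_zero)

theorem adjU_val (δ : GL (Fin 2) ℂ) : (adjU δ).val = δ.val.adjugate := rfl

theorem adjU_mul (g h : GL (Fin 2) ℂ) : adjU (g * h) = adjU h * adjU g :=
  Units.ext (by simp only [adjU_val, Units.val_mul, Matrix.adjugate_mul_distrib])

theorem adjU_adjU (g : GL (Fin 2) ℂ) : adjU (adjU g) = g :=
  Units.ext (by
    rw [adjU_val, adjU_val, Matrix.adjugate_fin_two, Matrix.adjugate_fin_two]
    ext i j; fin_cases i <;> fin_cases j <;> simp)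

theorem eisCong_adjugate {N : ℕ} {M : Matrix (Fin 2) (Fin 2) ℂ} (h : EisCong N M) :
    EisCong N M.adjugate := by
  obtain ⟨hE, ⟨b, hb, e01⟩, ⟨c, hc, e10⟩⟩ := h
  rw [Matrix.adjugate_fin_two]
  refine ⟨fun i j => ?_, ⟨-b, neg_mem hb, by simp [e01]⟩, ⟨-c, neg_mem hc, by simp [e10]⟩⟩
  fin_cases i <;> fin_cases j <;> simp [hE 0 0, hE 0 1, hE 1 0, hE 1 1]

theorem adjU_mem_heckeSet {N : ℕ} {π : ℂ} {δ : GL (Fin 2) ℂ} (h : δ ∈ heckeSet N π) :
    adjU δ ∈ heckeSet N π := by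
  obtain ⟨hδ, u, hu, hu', hdet⟩ := h
  refine ⟨eisCong_adjugate hδ, u, hu, hu', ?_⟩
  rw [adjU_val, Matrix.det_adjugate, Fintype.card_fin, hdet]
  simp

theorem adjU_mem_congGroup {N : ℕ} {g : GL (Fin 2) ℂ} (h : g ∈ congGroup N) :
    adjU g ∈ congGroup N := by
  obtain ⟨hu, u', hu', huu⟩ := det_unit_of_congGroup h
  refine mem_congGroup_of_det (eisCong_adjugate h.1) hu' ?_ huu
  rw [adjU_val, Matrix.det_adjugate, Fintype.card_fin]
  simp

theorem act_adjU (δ : GL (Fin 2) ℂ) (X : HVec) :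
    act δ.val (act (adjU δ).val X) = normSq δ.val.det • X := by
  rw [← act_mul, adjU_val, Matrix.mul_adjugate, act_smul_scalar, act_one]

/-! ### Residue systems -/

/-- A prime element with a system of residues. -/
structure ResSys (π : ℂ) (J : Finset ℂ) : Prop where
  mem : π ∈ Eis
  ne_zero : π ≠ 0
  ne_one : ¬ Dv π 1
  sub : ∀ j ∈ J, j ∈ Eis
  res : ∀ z ∈ Eis, ∃! j, j ∈ J ∧ Dv π (z - j)
  prime : ∀ x ∈ Eis, ∀ y ∈ Eis, Dv π (x * y) → Dv π x ∨ Dv π y

theorem ResSys.exists_res_mul {π : ℂ} {J : Finset ℂ} (h : ResSys π J) {x y : ℂ} (hx : x ∈ Eis)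
    (hy : y ∈ Eis) (hxn : ¬ Dv π x) : ∃! j, j ∈ J ∧ Dv π (x * j - y) := by
  choose g hg using fun j : J => (h.res (x * j.1 - y)
      (sub_mem (mul_mem hx (h.sub _ j.2)) hy)).exists
  have huniq : ∀ i j : J, Dv π (x * (i.1 - j.1)) → i = j := by
    intro i j hd
    rcases h.prime x hx _ (sub_mem (h.sub _ i.2) (h.sub _ j.2)) hd with h1 | h1
    · exact absurd h1 hxn
    · refine Subtype.ext ((h.res i.1 (h.sub _ i.2)).unique ⟨i.2, 0, zero_mem _, by simp⟩ ⟨j.2, h1⟩)
  let f : J → J := fun j => ⟨g j, (hg j).1⟩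
  have hinj : Function.Injective f := by
    intro i j e
    obtain ⟨q, hq, e1⟩ := (hg i).2
    obtain ⟨q', hq', e2⟩ := (hg j).2
    have e' : g i = g j := congrArg Subtype.val e
    refine huniq i j ⟨q - q', sub_mem hq hq', ?_⟩
    rw [e'] at e1
    linear_combination e1 - e2
  obtain ⟨j0, ⟨hj0, q0, hq0, e0⟩, -⟩ := h.res 0 (zero_mem _)
  obtain ⟨j, hj⟩ := (Finite.injective_iff_surjective.mp hinj) ⟨j0, hj0⟩
  obtain ⟨q, hq, e1⟩ := (hg j).2
  have e' : g j = j0 := congrArg Subtype.val hj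
  refine ⟨j.1, ⟨j.2, q - q0, sub_mem hq hq0, ?_⟩, fun k ⟨hk, q', hq', ek⟩ => ?_⟩
  · rw [e'] at e1
    linear_combination e1 - e0
  · refine congrArg Subtype.val (huniq ⟨k, hk⟩ j ⟨q' - (q - q0), sub_mem hq' (sub_mem hq hq0), ?_⟩)
    rw [e'] at e1
    linear_combination ek - e1 + e0

/-- The representative at infinity. -/
def deltaInf (π : ℂ) : GL (Fin 2) ℂ :=
  if h : π = 0 then 1 else GeneralLinearGroup.mkOfDetNeZero !![π, 0; 0, 1]
    (by simpa [Matrix.det_fin_two_of] using h)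

/-- The finite representatives. -/
def deltaFin (N : ℕ) (π j : ℂ) : GL (Fin 2) ℂ :=
  if h : π = 0 then 1 else GeneralLinearGroup.mkOfDetNeZero !![1, (N : ℂ) * j; 0, π]
    (by simpa [Matrix.det_fin_two_of] using h)

theorem deltaInf_val {π : ℂ} (h : π ≠ 0) : (deltaInf π).val = !![π, 0; 0, 1] := by
  rw [deltaInf, dif_neg h, GeneralLinearGroup.val_mkOfDetNeZero]

theorem deltaFin_val {N : ℕ} {π j : ℂ} (h : π ≠ 0) :
    (deltaFin N π j).val = !![1, (N : ℂ) * j; 0, π] := by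
  rw [deltaFin, dif_neg h, GeneralLinearGroup.val_mkOfDetNeZero]

open Classical in
/-- The representatives. -/
def heckeReps (N : ℕ) (π : ℂ) (J : Finset ℂ) : Finset (GL (Fin 2) ℂ) :=
  insert (deltaInf π) (J.image (deltaFin N π))

theorem sum_heckeReps {N : ℕ} (hN : N ≠ 0) {π : ℂ} {J : Finset ℂ} (h : ResSys π J) {α : Type*}
    [AddCommMonoid α] (f : GL (Fin 2) ℂ → α) :
    ∑ δ ∈ heckeReps N π J, f δ = f (deltaInf π) + ∑ j ∈ J, f (deltaFin N π j) := by
  classical
  have hinj : ∀ j ∈ J, ∀ k ∈ J, deltaFin N π j = deltaFin N π k → j = k := by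
    intro j _ k _ e
    have := congrArg (fun g : GL (Fin 2) ℂ => g.val 0 1) e
    rw [deltaFin_val h.ne_zero, deltaFin_val h.ne_zero] at this
    simpa [hN] using this
  have hne : deltaInf π ∉ J.image (deltaFin N π) := by
    simp only [Finset.mem_image, not_exists, not_and]
    intro j _ e
    have := congrArg (fun g : GL (Fin 2) ℂ => g.val 0 0) e
    rw [deltaFin_val h.ne_zero, deltaInf_val h.ne_zero] at this
    exact h.ne_one ⟨1, one_mem _, by simpa using this⟩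
  rw [heckeReps, Finset.sum_insert hne, Finset.sum_image hinj]

variable {N : ℕ} {π : ℂ} {J : Finset ℂ}

theorem isHeckeReps_heckeReps (hN : N ≠ 0) (h : ResSys π J) (hπN : ¬ Dv π (N : ℂ)) :
    IsHeckeReps N π (heckeReps N π J) := by
  classical
  have hNC : (N : ℂ) ≠ 0 := by exact_mod_cast hN
  have hπ0 := h.ne_zero
  have hmem : ∀ r ∈ heckeReps N π J, r ∈ heckeSet N π := by
    intro r hr
    simp only [heckeReps, Finset.mem_insert, Finset.mem_image] at hr
    rcases hr with rfl | ⟨j, hj, rfl⟩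
    · refine ⟨⟨fun i j => ?_, ⟨0, zero_mem _, by simp [deltaInf_val hπ0]⟩,
        ⟨0, zero_mem _, by simp [deltaInf_val hπ0]⟩⟩, 1, one_mem _, ⟨1, one_mem _, one_mul _⟩,
        by simp [deltaInf_val hπ0, Matrix.det_fin_two_of]⟩
      fin_cases i <;> fin_cases j <;> simp [deltaInf_val hπ0, h.mem, zero_mem, one_mem]
    · refine ⟨⟨fun i k => ?_, ⟨j, h.sub j hj, by simp [deltaFin_val hπ0]⟩,
        ⟨0, zero_mem _, by simp [deltaFin_val hπ0]⟩⟩, 1, one_mem _, ⟨1, one_mem _, one_mul _⟩,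
        by simp [deltaFin_val hπ0, Matrix.det_fin_two_of]⟩
      fin_cases i <;> fin_cases k <;>
        simp [deltaFin_val hπ0, h.mem, zero_mem, one_mem, mul_mem (natCast_mem_Eis N) (h.sub j hj)]
  refine ⟨hmem, fun δ hδ => ?_⟩
  obtain ⟨⟨hE, ⟨b, hb, e01⟩, ⟨c, hc, e10⟩⟩, u, hu, ⟨u', hu', huu⟩, hdet⟩ := hδ
  set a := δ.val 0 0 with ha0
  set d := δ.val 1 1 with hd0
  have ha : a ∈ Eis := hE 0 0
  have hd : d ∈ Eis := hE 1 1
  have hdet' : a * d - (N : ℂ) * N * b * c = u * π := by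
    rw [← hdet, Matrix.det_fin_two, e01, e10, ha0, hd0]; ring
  have hval : ∀ r g : GL (Fin 2) ℂ, g.val * r.val = δ.val → δ * r⁻¹ = g := fun r g e => by
    rw [mul_inv_eq_iff_eq_mul]; exact Units.ext e.symm
  have hfin : ∀ j ∈ J, δ * (deltaFin N π j)⁻¹ ∈ congGroup N ↔
      Dv π (a * j - b) ∧ Dv π ((N : ℂ) * N * c * j - d) := by
    intro j hj
    constructor
    · intro hg
      set g := δ * (deltaFin N π j)⁻¹ with hgdef
      obtain ⟨hgE, ⟨z, hz, g01⟩, -⟩ := hg.1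
      have e : g.val * (deltaFin N π j).val = δ.val := by
        rw [← Units.val_mul, hgdef, inv_mul_cancel_right]
      rw [deltaFin_val hπ0] at e
      have f00 := congrFun (congrFun e 0) 0
      have f01 := congrFun (congrFun e 0) 1
      have f10 := congrFun (congrFun e 1) 0
      have f11 := congrFun (congrFun e 1) 1
      simp [Matrix.mul_apply, Fin.sum_univ_two, e01, e10, ← ha0, ← hd0, g01] at f00 f01 f10 f11
      refine ⟨⟨-z, neg_mem hz, mul_left_cancel₀ hNC ?_⟩, ⟨-g.val 1 1, neg_mem (hgE 1 1), ?_⟩⟩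
      · rw [f00] at f01; linear_combination f01
      · rw [f10] at f11; linear_combination f11
    · rintro ⟨⟨q, hq, eq⟩, ⟨q', hq', eq'⟩⟩
      have hM : (!![a, (N : ℂ) * (-q); (N : ℂ) * c, -q'] : Matrix (Fin 2) (Fin 2) ℂ).det = u := by
        rw [Matrix.det_fin_two_of]
        refine mul_left_cancel₀ hπ0 ?_
        linear_combination hdet' + a * eq' - (N : ℂ) * N * c * eq
      have hu0 : u ≠ 0 := fun e => by simp [e] at huu
      set g := GeneralLinearGroup.mkOfDetNeZero _ (by rw [hM]; exact hu0 :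
        (!![a, (N : ℂ) * (-q); (N : ℂ) * c, -q'] : Matrix (Fin 2) (Fin 2) ℂ).det ≠ 0) with hgdef
      rw [hval (deltaFin N π j) g (by
        rw [hgdef, GeneralLinearGroup.val_mkOfDetNeZero, deltaFin_val hπ0]
        ext i k
        fin_cases i <;> fin_cases k <;> simp [Matrix.mul_apply, Fin.sum_univ_two, e01,
          e10, ← ha0, ← hd0]
        · linear_combination (N : ℂ) * eq
        · linear_combination eq')]
      refine mem_congGroup_of_det ⟨fun i k => ?_, ⟨-q, neg_mem hq, by simp [hgdef]⟩,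
        ⟨c, hc, by simp [hgdef]⟩⟩ hu'
          (by rw [hgdef, GeneralLinearGroup.val_mkOfDetNeZero]; exact hM) huu
      fin_cases i <;> fin_cases k <;>
        simp [hgdef, ha, hq', mul_mem (natCast_mem_Eis N) hq, mul_mem (natCast_mem_Eis N) hc]
  have hinf : δ * (deltaInf π)⁻¹ ∈ congGroup N ↔ Dv π a ∧ Dv π c := by
    constructor
    · intro hg
      set g := δ * (deltaInf π)⁻¹ with hgdef
      obtain ⟨hgE, -, ⟨z, hz, g10⟩⟩ := hg.1
      have e : g.val * (deltaInf π).val = δ.val := by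
        rw [← Units.val_mul, hgdef, inv_mul_cancel_right]
      rw [deltaInf_val hπ0] at e
      have f00 := congrFun (congrFun e 0) 0
      have f10 := congrFun (congrFun e 1) 0
      simp [Matrix.mul_apply, Fin.sum_univ_two, e10, ← ha0, g10] at f00 f10
      exact ⟨⟨_, hgE 0 0, by rw [← f00]; ring⟩,
          ⟨z, hz, mul_left_cancel₀ hNC (by linear_combination -f10)⟩⟩
    · rintro ⟨⟨q, hq, eq⟩, ⟨q', hq', eq'⟩⟩
      have hM : (!![q, (N : ℂ) * b; (N : ℂ) * q', d] : Matrix (Fin 2) (Fin 2) ℂ).det = u := by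
        rw [Matrix.det_fin_two_of]
        refine mul_left_cancel₀ hπ0 ?_
        linear_combination hdet' - d * eq + (N : ℂ) * N * b * eq'
      have hu0 : u ≠ 0 := fun e => by simp [e] at huu
      set g := GeneralLinearGroup.mkOfDetNeZero _ (by rw [hM]; exact hu0 :
        (!![q, (N : ℂ) * b; (N : ℂ) * q', d] : Matrix (Fin 2) (Fin 2) ℂ).det ≠ 0) with hgdef
      rw [hval (deltaInf π) g (by
        rw [hgdef, GeneralLinearGroup.val_mkOfDetNeZero, deltaInf_val hπ0]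
        ext i k
        fin_cases i <;> fin_cases k <;> simp [Matrix.mul_apply, Fin.sum_univ_two, e01,
          e10, ← ha0, ← hd0]
        · linear_combination -eq
        · linear_combination -(N : ℂ) * eq')]
      refine mem_congGroup_of_det ⟨fun i k => ?_, ⟨b, hb, by simp [hgdef]⟩,
        ⟨q', hq', by simp [hgdef]⟩⟩ hu'
          (by rw [hgdef, GeneralLinearGroup.val_mkOfDetNeZero]; exact hM) huu
      fin_cases i <;> fin_cases k <;>
        simp [hgdef, hd, hq, mul_mem (natCast_mem_Eis N) hb, mul_mem (natCast_mem_Eis N) hq']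
  have hNE := natCast_mem_Eis N
  have key : ∀ x ∈ Eis, Dv π (x * ((N : ℂ) * N)) → Dv π x := fun x hx hx' =>
    (h.prime _ hx _ (mul_mem hNE hNE) hx').resolve_right fun h2 =>
      hπN ((h.prime _ hNE _ hNE h2).elim id id)
  -- the four entries are not all divisible by `π`
  have notall : Dv π a → Dv π b → Dv π c → Dv π d → False := by
    rintro ⟨a', ha', rfl'⟩ ⟨b', hb', eb⟩ ⟨c', hc', ec⟩ ⟨d', hd', ed⟩
    refine h.ne_one ⟨(a' * d' - (N : ℂ) * N * b' * c') * u', mul_mem (sub_mem (mul_mem ha' hd')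
      (mul_mem (mul_mem (mul_mem hNE hNE) hb') hc')) hu', mul_left_cancel₀ hπ0 ?_⟩
    rw [rfl', ed, eb, ec] at hdet'
    linear_combination (-u') * hdet' - π * huu
  have hsplit : ∀ r, (r ∈ heckeReps N π J ∧ δ * r⁻¹ ∈ congGroup N) ↔
      (r = deltaInf π ∧ Dv π a ∧ Dv π c) ∨ ∃ j ∈ J, r = deltaFin N π j ∧
        Dv π (a * j - b) ∧ Dv π ((N : ℂ) * N * c * j - d) := by
    intro r
    simp only [heckeReps, Finset.mem_insert, Finset.mem_image]
    constructor
    · rintro ⟨rfl | ⟨j, hj, rfl⟩, hm⟩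
      · exact Or.inl ⟨rfl, hinf.mp hm⟩
      · exact Or.inr ⟨j, hj, rfl, (hfin j hj).mp hm⟩
    · rintro (⟨rfl, hm⟩ | ⟨j, hj, rfl, hm⟩)
      · exact ⟨Or.inl rfl, hinf.mpr hm⟩
      · exact ⟨Or.inr ⟨j, hj, rfl⟩, (hfin j hj).mpr hm⟩
  simp only [hsplit]
  by_cases hA : Dv π a
  · have hbc : Dv π b ∨ Dv π c := by
      obtain ⟨a', ha', ea⟩ := hA
      have : Dv π (b * c) := key _ (mul_mem hb hc)
        ⟨a' * d - u, sub_mem (mul_mem ha' hd) hu, by rw [ea] at hdet'; linear_combination -hdet'⟩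
      exact h.prime _ hb _ hc this
    by_cases hC : Dv π c
    · refine ⟨deltaInf π, Or.inl ⟨rfl, hA, hC⟩, ?_⟩
      rintro r (⟨rfl, -⟩ | ⟨j, hj, rfl, ⟨q, hq, eq⟩, ⟨q', hq', eq'⟩⟩)
      · rfl
      · obtain ⟨a', ha', ea⟩ := hA
        obtain ⟨c', hc', ec⟩ := hC
        refine (notall ⟨a', ha', ea⟩ ⟨a' * j - q, sub_mem (mul_mem ha' (h.sub j hj)) hq, ?_⟩
          ⟨c', hc', ec⟩ ⟨(N : ℂ) * N * c' * j - q',
            sub_mem (mul_mem (mul_mem (mul_mem hNE hNE) hc') (h.sub j hj)) hq', ?_⟩).elim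
        · rw [ea] at eq; linear_combination -eq
        · rw [ec] at eq'; linear_combination -eq'
    · obtain ⟨b', hb', eb⟩ := hbc.resolve_right hC
      obtain ⟨a', ha', ea⟩ := hA
      have hcn : ¬ Dv π ((N : ℂ) * N * c) := fun h' => hC (key _ hc (by rwa [mul_comm]))
      obtain ⟨j, ⟨hj, hjd⟩, hu2⟩ :=
        h.exists_res_mul (mul_mem (mul_mem hNE hNE) hc) hd hcn
      refine ⟨deltaFin N π j, Or.inr ⟨j, hj, rfl,
        ⟨a' * j - b', sub_mem (mul_mem ha' (h.sub j hj)) hb', by rw [ea, eb]; ring⟩, hjd⟩, ?_⟩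
      rintro r (⟨rfl, -, hC'⟩ | ⟨k, hk, rfl, -, hkd⟩)
      · exact absurd hC' hC
      · rw [hu2 k ⟨hk, hkd⟩]
  · obtain ⟨j, ⟨hj, hjb⟩, hu2⟩ := h.exists_res_mul ha hb hA
    have hjd : Dv π ((N : ℂ) * N * c * j - d) := by
      obtain ⟨q, hq, eq⟩ := hjb
      refine (h.prime _ ha _ (sub_mem (mul_mem (mul_mem (mul_mem hNE hNE) hc) (h.sub j hj)) hd)
        ⟨(N : ℂ) * N * c * q - u, sub_mem (mul_mem (mul_mem (mul_mem hNE hNE) hc) hq) hu, ?_⟩
        ).resolve_left hA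
      linear_combination ((N : ℂ) * N * c) * eq - hdet'
    refine ⟨deltaFin N π j, Or.inr ⟨j, hj, rfl, hjb, hjd⟩, ?_⟩
    rintro r (⟨rfl, hA', -⟩ | ⟨k, hk, rfl, hkb, -⟩)
    · exact absurd hA' hA
    · rw [hu2 k ⟨hk, hkb⟩]

/-! ### Lattice vectors -/

theorem divBy_latVec_iff {P : ℕ} {m : Fin 4 → ℤ} : DivBy P (latVec m) ↔ ∀ i, (P : ℤ) ∣ m i := by
  constructor
  · rintro ⟨l, hl⟩ i
    refine ⟨l i, ?_⟩
    have := congrFun hl i
    simp only [latVec_apply, Pi.smul_apply, smul_eq_mul] at this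
    exact_mod_cast this
  · intro h
    choose l hl using h
    exact ⟨l, funext fun i => by simp [latVec_apply, hl i]⟩

theorem mat_latVec (m : Fin 4 → ℤ) :
    mat (latVec m) = !![(m 0 : ℂ), eis (m 2) (m 3); conj (eis (m 2 : ℝ) (m 3)), (m 1 : ℂ)] := by
  ext i j
  fin_cases i <;> fin_cases j <;> simp [mat, offDiag, latVec_apply]

theorem divBy_act_deltaInf (hπ : π ≠ 0) {P : ℕ} (hP : normSq π = P) (m : Fin 4 → ℤ) :
    DivBy P (act (deltaInf π).val (latVec m)) ↔
      (P : ℤ) ∣ m 1 ∧ Dv (conj π) (eis (m 2 : ℝ) (m 3)) := by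
  have hPC : π * conj π = (P : ℂ) := by rw [Complex.mul_conj, hP]; norm_num
  constructor
  · rintro ⟨l, hl⟩
    have e := congrArg mat hl
    rw [mat_act, mat_smul, mat_latVec, mat_latVec, deltaInf_val hπ] at e
    have e11 := congrFun (congrFun e 1) 1
    have e01 := congrFun (congrFun e 0) 1
    simp [Matrix.mul_apply, Fin.sum_univ_two] at e11 e01
    refine ⟨⟨l 1, by exact_mod_cast e11⟩, _, ⟨l 2, l 3, rfl⟩, mul_left_cancel₀ hπ ?_⟩
    linear_combination e01 - eis (l 2 : ℝ) (l 3) * hPC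
  · rintro ⟨⟨k, hk⟩, q, ⟨x, y, rfl⟩, hq⟩
    refine ⟨![m 0, k, x, y], mat_injective ?_⟩
    rw [mat_act, mat_smul, mat_latVec, mat_latVec, deltaInf_val hπ]
    have hq' := congrArg conj hq
    simp only [map_mul, Complex.conj_conj] at hq'
    ext i j
    fin_cases i <;> fin_cases j <;> simp [Matrix.mul_apply, Fin.sum_univ_two, hk]
    · linear_combination (m 0 : ℂ) * hPC
    · linear_combination π * hq + eis (x : ℝ) y * hPC
    · linear_combination (conj π) * hq' + conj (eis (x : ℝ) y) * hPC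

theorem divBy_act_deltaFin (hπ : π ≠ 0) {P : ℕ} (hP : normSq π = P) (m : Fin 4 → ℤ) (u v : ℤ) :
    DivBy P (act (deltaFin N π (eis u v)).val (latVec m)) ↔
      (P : ℤ) ∣ m 0 + N * (u * (2 * m 2 - m 3) + v * (2 * m 3 - m 2)) +
          N * N * (u * u - u * v + v * v) * m 1 ∧
        Dv π (eis (m 2 + N * u * m 1 : ℤ) (m 3 + N * v * m 1 : ℤ)) := by
  have hPC : π * conj π = (P : ℂ) := by rw [Complex.mul_conj, hP]; norm_num
  have hb : eis ((m 2 + N * u * m 1 : ℤ) : ℝ) ((m 3 + N * v * m 1 : ℤ) : ℝ)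
      = eis (m 2 : ℝ) (m 3) + N * eis (u : ℝ) v * m 1 := by simp [eis]; ring
  have hA : ((m 0 + N * (u * (2 * m 2 - m 3) + v * (2 * m 3 - m 2)) +
      N * N * (u * u - u * v + v * v) * m 1 : ℤ) : ℂ) = m 0 + N * eis (u : ℝ) v *
        conj (eis (m 2 : ℝ) (m 3))
        + (eis (m 2 : ℝ) (m 3) + N * eis (u : ℝ) v * m 1) * (N * conj (eis (u : ℝ) v)) := by
    rw [conj_eis, conj_eis]
    simp only [eis]
    push_cast
    linear_combination ((N : ℂ) * v * m 3 + (N : ℂ) * v * m 3 + (N : ℂ) * N * v * v * m 1) *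
        omega_sq
  rw [hb]
  constructor
  · rintro ⟨l, hl⟩
    have e := congrArg mat hl
    rw [mat_act, mat_smul, mat_latVec, mat_latVec, deltaFin_val hπ] at e
    have e00 := congrFun (congrFun e 0) 0
    have e01 := congrFun (congrFun e 0) 1
    simp [Matrix.mul_apply, Fin.sum_univ_two] at e00 e01
    refine ⟨⟨l 0, Int.cast_injective (α := ℂ) ?_⟩, _, ⟨l 2, l 3, rfl⟩,
      mul_right_cancel₀ ((map_ne_zero (starRingEnd ℂ)).mpr hπ) ?_⟩
    · rw [hA]; push_cast; linear_combination e00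
    · linear_combination e01 - eis (l 2 : ℝ) (l 3) * hPC
  · rintro ⟨⟨k, hk⟩, q, ⟨x, y, rfl⟩, hq⟩
    refine ⟨![k, m 1, x, y], mat_injective ?_⟩
    rw [mat_act, mat_smul, mat_latVec, mat_latVec, deltaFin_val hπ]
    rw [hk] at hA
    push_cast at hA
    have hq' := congrArg conj hq
    simp only [map_add, map_mul, map_natCast, map_intCast] at hq'
    ext i j
    fin_cases i <;> fin_cases j <;> simp [Matrix.mul_apply, Fin.sum_univ_two]
    · linear_combination -hA
    · linear_combination conj π * hq + eis (x : ℝ) y * hPC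
    · linear_combination π * hq' + conj (eis (x : ℝ) y) * hPC
    · linear_combination (m 1 : ℂ) * hPC

end FLTAgent.LanglandsTunnell.Lift
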