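import Fermat.Agent.LanglandsTunnell.Lift.Eisenstein

/-!
# Hermitian `2 × 2` matrices in real coordinates, and the coordinates attached to a point of `H³`

`HVec` with the action `act` of matrices, the quadratic form `Qf`, and at a point `P` the
coordinates `Tf`, `Sf`, `Wf` and the majorant `Mf`, with their equivariance.  The standard
vectors `ptVec P` and `planeVec` have norms `-1` and `1`.
-/

set_option autoImplicit false

noncomputable section

namespace FLTAgent.LanglandsTunnell.Lift

open FLTAgent.LanglandsTunnell Complex ComplexConjugate Matrix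

/-- Coordinates `(a, c, x, y)` of a hermitian matrix. -/
abbrev HVec : Type := Fin 4 → ℝ

/-- The off diagonal entry. -/
def offDiag (X : HVec) : ℂ := eis (X 2) (X 3)

/-- The matrix. -/
def mat (X : HVec) : Matrix (Fin 2) (Fin 2) ℂ :=
  !![(X 0 : ℂ), offDiag X; conj (offDiag X), (X 1 : ℂ)]

/-- The coordinates of a matrix. -/
def ofMat : Matrix (Fin 2) (Fin 2) ℂ →ₗ[ℝ] HVec where
  toFun M := ![(M 0 0).re, (M 1 1).re, (M 0 1).re + (M 0 1).im / Real.sqrt 3,
    2 * (M 0 1).im / Real.sqrt 3]
  map_add' M M' := by ext i; fin_cases i <;> simp <;> ring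
  map_smul' r M := by ext i; fin_cases i <;> simp <;> ring

theorem offDiag_ofMat (M : Matrix (Fin 2) (Fin 2) ℂ) : offDiag (ofMat M) = M 0 1 := by
  conv_rhs => rw [eis_eq (M 0 1)]
  rfl

theorem ofMat_mat (X : HVec) : ofMat (mat X) = X := by
  have h3 : Real.sqrt 3 ≠ 0 := by positivity
  ext i
  fin_cases i <;> simp [ofMat, mat, offDiag, eis_re, eis_im] <;> field_simp
  all_goals ring

theorem mat_ofMat {M : Matrix (Fin 2) (Fin 2) ℂ} (h : M.IsHermitian) : mat (ofMat M) = M := by
  have h01 : conj (M 0 1) = M 1 0 := by simpa using congrFun (congrFun h 1) 0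
  have h00 : conj (M 0 0) = M 0 0 := by simpa using congrFun (congrFun h 0) 0
  have h11 : conj (M 1 1) = M 1 1 := by simpa using congrFun (congrFun h 1) 1
  ext i j
  fin_cases i <;> fin_cases j
  · exact conj_eq_iff_re.mp h00
  · exact offDiag_ofMat M
  · exact (congrArg conj (offDiag_ofMat M)).trans h01
  · exact conj_eq_iff_re.mp h11

theorem isHermitian_mat (X : HVec) : (mat X).IsHermitian := by
  ext i j
  fin_cases i <;> fin_cases j <;> simp [mat]

theorem mat_injective : Function.Injective mat := Function.LeftInverse.injective ofMat_mat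

theorem mat_add (X Y : HVec) : mat (X + Y) = mat X + mat Y := by
  ext i j
  fin_cases i <;> fin_cases j <;> simp [mat, offDiag, eis] <;> ring

theorem mat_smul (r : ℝ) (X : HVec) : mat (r • X) = (r : ℂ) • mat X := by
  ext i j
  fin_cases i <;> fin_cases j <;> simp [mat, offDiag, eis] <;> ring

/-- `X ↦ g X g^*`. -/
def act (g : Matrix (Fin 2) (Fin 2) ℂ) : HVec →ₗ[ℝ] HVec where
  toFun X := ofMat (g * mat X * gᴴ)
  map_add' X Y := by rw [mat_add, Matrix.mul_add, Matrix.add_mul, map_add]
  map_smul' r X := by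
    rw [mat_smul, Matrix.mul_smul, Matrix.smul_mul, RingHom.id_apply,
      show ((r : ℂ) • (g * mat X * gᴴ)) = r • (g * mat X * gᴴ) from
        (algebraMap_smul ℂ r (g * mat X * gᴴ)), map_smul]

theorem mat_act (g : Matrix (Fin 2) (Fin 2) ℂ) (X : HVec) : mat (act g X) = g * mat X * gᴴ :=
  mat_ofMat ((isHermitian_mat X).eq ▸ by
    rw [Matrix.IsHermitian]; simp [Matrix.mul_assoc, (isHermitian_mat X).eq])

theorem act_mul (g h : Matrix (Fin 2) (Fin 2) ℂ) (X : HVec) :
    act (g * h) X = act g (act h X) :=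
  mat_injective (by simp only [mat_act, Matrix.conjTranspose_mul, Matrix.mul_assoc])

theorem act_one (X : HVec) : act 1 X = X :=
  mat_injective (by simp only [mat_act, Matrix.conjTranspose_one, Matrix.one_mul, Matrix.mul_one])

theorem act_smul_scalar (c : ℂ) (g : Matrix (Fin 2) (Fin 2) ℂ) (X : HVec) :
    act (c • g) X = normSq c • act g X :=
  mat_injective (by
    simp only [mat_act, mat_smul, Matrix.conjTranspose_smul, Matrix.smul_mul, Matrix.mul_smul,
      smul_smul, Complex.normSq_eq_conj_mul_self, Complex.star_def])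

/-- The quadratic form `- det`. -/
def Qf (X : HVec) : ℝ := X 2 * X 2 - X 2 * X 3 + X 3 * X 3 - X 0 * X 1

/-- Its bilinear form. -/
def Bf (X Y : HVec) : ℝ :=
  2 * (X 2 * Y 2) - (X 2 * Y 3 + X 3 * Y 2) + 2 * (X 3 * Y 3) - (X 0 * Y 1 + X 1 * Y 0)

theorem Qf_add (X Y : HVec) : Qf (X + Y) = Qf X + Bf X Y + Qf Y := by
  simp only [Qf, Bf, Pi.add_apply]; ring

theorem Qf_smul (r : ℝ) (X : HVec) : Qf (r • X) = r ^ 2 * Qf X := by
  simp only [Qf, Pi.smul_apply, smul_eq_mul]; ring

theorem det_mat (X : HVec) : (mat X).det = -(Qf X : ℂ) := by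
  rw [mat, det_fin_two_of, Complex.mul_conj, offDiag, normSq_eis, Qf]
  push_cast
  ring

theorem Qf_act (g : Matrix (Fin 2) (Fin 2) ℂ) (X : HVec) :
    Qf (act g X) = normSq g.det * Qf X := by
  have h : (mat (act g X)).det = (normSq g.det : ℂ) * (mat X).det := by
    rw [mat_act, det_mul, det_mul, det_conjTranspose, Complex.normSq_eq_conj_mul_self,
      Complex.star_def]
    ring
  rw [det_mat, det_mat] at h
  have : ((Qf (act g X) : ℝ) : ℂ) = ((normSq g.det * Qf X : ℝ) : ℂ) := by
    push_cast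
    linear_combination -h
  exact_mod_cast this

/-! ### Coordinates at a point -/

/-- The negative coordinate at a point. -/
def Tf (P : H3) (X : HVec) : ℝ :=
  (X 0 - 2 * (P.z * conj (offDiag X)).re + X 1 * (normSq P.z + P.t ^ 2)) / (2 * P.t)

/-- The first positive coordinate at a point. -/
def Sf (P : H3) (X : HVec) : ℝ :=
  (X 0 - 2 * (P.z * conj (offDiag X)).re + X 1 * (normSq P.z - P.t ^ 2)) / (2 * P.t)

/-- The other two positive coordinates at a point. -/
def Wf (P : H3) (X : HVec) : ℂ := offDiag X - (X 1 : ℂ) * P.z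

theorem Qf_eq_coords (P : H3) (X : HVec) :
    Qf X = Sf P X ^ 2 + normSq (Wf P X) - Tf P X ^ 2 := by
  have ht := P.t_ne_zero
  have hw : normSq (Wf P X) = normSq (offDiag X) - 2 * X 1 * (P.z * conj (offDiag X)).re
      + X 1 ^ 2 * normSq P.z := by
    simp only [Wf, normSq_apply, mul_re, sub_re, sub_im, mul_im, ofReal_re, ofReal_im, conj_re,
      conj_im]
    ring
  rw [hw, offDiag, normSq_eis, Qf, Sf, Tf, offDiag]
  field_simp
  ring

/-- The majorant. -/
def Mf (P : H3) (X : HVec) : ℝ := Qf X + 2 * Tf P X ^ 2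

theorem Mf_eq (P : H3) (X : HVec) :
    Mf P X = Sf P X ^ 2 + normSq (Wf P X) + Tf P X ^ 2 := by
  rw [Mf, Qf_eq_coords P X]; ring

theorem abs_Qf_le_Mf (P : H3) (X : HVec) : |Qf X| ≤ Mf P X := by
  rw [Mf_eq, Qf_eq_coords P X]
  have := sq_nonneg (Sf P X)
  have := normSq_nonneg (Wf P X)
  have := sq_nonneg (Tf P X)
  exact abs_le.mpr ⟨by linarith, by linarith⟩

theorem Mf_nonneg (P : H3) (X : HVec) : 0 ≤ Mf P X := (abs_nonneg _).trans (abs_Qf_le_Mf P X)

theorem Tf_sq_le_Mf (P : H3) (X : HVec) : Tf P X ^ 2 ≤ Mf P X := by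
  rw [Mf_eq]
  have := sq_nonneg (Sf P X)
  have := normSq_nonneg (Wf P X)
  linarith

theorem two_mul_Tf (P : H3) (X : HVec) :
    ((2 * Tf P X : ℝ) : ℂ) = (P.form.adjugate * mat X).trace := by
  have ht : (P.t : ℂ) ≠ 0 := by exact_mod_cast P.t_ne_zero
  simp only [Tf, H3.form, mat, Matrix.adjugate_fin_two, Matrix.trace_fin_two, Matrix.mul_apply,
    Fin.sum_univ_two, Matrix.of_apply, Matrix.cons_val', Matrix.cons_val_zero, Matrix.cons_val_one,
    Matrix.cons_val_fin_one, Fin.isValue]
  push_cast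
  rw [show (((P.z * conj (offDiag X)).re : ℝ) : ℂ)
      = (P.z * conj (offDiag X) + conj P.z * offDiag X) / 2 by
    rw [Complex.re_eq_add_conj, map_mul, Complex.conj_conj]]
  field_simp
  ring

theorem Tf_smul (g : GL (Fin 2) ℂ) (P : H3) (X : HVec) :
    Tf (g • P) (act g.val X) = ‖g.val.det‖ * Tf P X := by
  have hn : (‖g.val.det‖ : ℂ) ≠ 0 := by exact_mod_cast (norm_pos_iff.mpr g.det_ne_zero).ne'
  have hn2 : (‖g.val.det‖ : ℂ) ^ 2 = conj g.val.det * g.val.det := by
    rw [← Complex.normSq_eq_conj_mul_self, Complex.normSq_eq_norm_sq]; push_cast; rfl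
  have key : ((2 * Tf (g • P) (act g.val X) : ℝ) : ℂ)
      = ((‖g.val.det‖ * (2 * Tf P X) : ℝ) : ℂ) := by
    rw [two_mul_Tf, ofReal_mul, two_mul_Tf, mat_act, H3.form_smul, Matrix.adjugate_smul,
      Fintype.card_fin, Nat.add_one_sub_one, pow_one, Matrix.smul_mul, Matrix.trace_smul,
      Matrix.adjugate_mul_distrib, Matrix.adjugate_mul_distrib,
      show g.val.conjTranspose.adjugate * (P.form.adjugate * g.val.adjugate)
          * (g.val * mat X * g.val.conjTranspose)
        = g.val.conjTranspose.adjugate * (P.form.adjugate * (g.val.adjugate * g.val) * mat X)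
            * g.val.conjTranspose by simp only [Matrix.mul_assoc],
      Matrix.adjugate_mul, Matrix.mul_smul, Matrix.mul_one, Matrix.smul_mul, Matrix.mul_smul,
      Matrix.smul_mul, Matrix.trace_smul, Matrix.trace_mul_comm, ← Matrix.mul_assoc,
      Matrix.mul_adjugate, Matrix.smul_mul, Matrix.one_mul, Matrix.trace_smul,
      Matrix.det_conjTranspose, smul_eq_mul, smul_eq_mul, smul_eq_mul, Complex.star_def]
    field_simp
    rw [hn2]
    ring
  rw [Complex.ofReal_inj] at key
  linarith

theorem Mf_smul (g : GL (Fin 2) ℂ) (P : H3) (X : HVec) :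
    Mf (g • P) (act g.val X) = normSq g.val.det * Mf P X := by
  rw [Mf, Mf, Qf_act, Tf_smul, Complex.normSq_eq_norm_sq]
  ring

/-- A point as a negative vector. -/
def ptVec (P : H3) : HVec := ofMat P.form

theorem mat_ptVec (P : H3) : mat (ptVec P) = P.form := mat_ofMat P.conjTranspose_form

theorem Qf_ptVec (P : H3) : Qf (ptVec P) = -1 := by
  have h := det_mat (ptVec P)
  rw [mat_ptVec, H3.det_form] at h
  have : ((Qf (ptVec P) : ℝ) : ℂ) = ((-1 : ℝ) : ℂ) := by push_cast; linear_combination h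
  exact_mod_cast this

theorem Tf_ptVec (P Q : H3) : Tf P (ptVec Q) = H3.coshDist P Q := by
  have h := two_mul_Tf P (ptVec Q)
  rw [mat_ptVec, ← H3.two_mul_coshDist, Complex.ofReal_inj] at h
  linarith

/-- The standard positive vector, vanishing on the plane `re z = 0`. -/
def planeVec : HVec := ![0, 0, 1, 0]

theorem Qf_planeVec : Qf planeVec = 1 := by simp [Qf, planeVec]

theorem Tf_planeVec (P : H3) : Tf P planeVec = -P.z.re / P.t := by
  have := P.t_ne_zero
  simp [Tf, planeVec, offDiag, eis]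
  field_simp

end FLTAgent.LanglandsTunnell.Lift
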