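import Fermat.Agent.LanglandsTunnell.Lift.Expand

/-!
# Vanishing of the isotropic terms by cuspidality

Primitive isotropic lattice vectors are moved to a standard null vector by `SL(2, 𝒪)`
(`exists_cusp_frame`); unfolding along the unipotent translations and cuspidality make their
total pairing with a kernel vanish (`tsum_kernel_isotropic`).
-/

set_option autoImplicit false

noncomputable section

namespace FLTAgent.LanglandsTunnell.Lift

open FLTAgent.LanglandsTunnell MeasureTheory Complex ComplexConjugate Matrix Set Filter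
open scoped Real ENNReal UpperHalfPlane Topology

theorem exists_unimodular {x y : ℂ} (hx : x ∈ Eis) (hy : y ∈ Eis) :
    ∃ d p r q s : ℂ, d ∈ Eis ∧ p ∈ Eis ∧ r ∈ Eis ∧ q ∈ Eis ∧ s ∈ Eis ∧
      x = d * p ∧ y = d * r ∧ p * s - q * r = 1 := by
  suffices H : ∀ n : ℕ, ∀ x y : ℂ, x ∈ Eis → y ∈ Eis → normSq y = n →
      ∃ d p r q s : ℂ, d ∈ Eis ∧ p ∈ Eis ∧ r ∈ Eis ∧ q ∈ Eis ∧ s ∈ Eis ∧
        x = d * p ∧ y = d * r ∧ p * s - q * r = 1 by
    obtain ⟨n, hn⟩ := normSq_Eis_int hy
    exact H n x y hx hy hn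
  intro n
  induction n using Nat.strong_induction_on with
  | _ n IH =>
    intro x y hx hy hn
    rcases eq_or_ne y 0 with rfl | hy0
    · exact ⟨x, 1, 0, 0, 1, hx, one_mem _, zero_mem _, zero_mem _, one_mem _,
        by ring, by ring, by ring⟩
    · obtain ⟨q₀, hq₀, hlt⟩ := exists_near (x / y)
      have hx' : x - q₀ * y ∈ Eis := sub_mem hx (mul_mem hq₀ hy)
      obtain ⟨m, hm⟩ := normSq_Eis_int hx'
      have hmn : m < n := by
        have h : normSq (x - q₀ * y) < normSq y := by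
          rw [show x - q₀ * y = (x / y - q₀) * y by field_simp, map_mul]
          exact mul_lt_of_lt_one_left (normSq_pos.mpr hy0) hlt
        rw [hm, hn] at h
        exact_mod_cast h
      obtain ⟨d, p, r, q, s, hd, hp, hr, hq, hs, e1, e2, e3⟩ := IH m hmn y _ hy hx' hm
      exact ⟨d, q₀ * p + r, p, -s - q₀ * q, -q, hd, add_mem (mul_mem hq₀ hp) hr, hp,
        sub_mem (neg_mem hs) (mul_mem hq₀ hq), neg_mem hq,
        by linear_combination e2 + q₀ * e1, e1, by linear_combination e3⟩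

/-- The vector `e₁₁`. -/
def nullVec : HVec := ![1, 0, 0, 0]

theorem mat_nullVec : mat nullVec = !![1, 0; 0, 0] := by
  ext i j
  fin_cases i <;> fin_cases j <;> simp [mat, nullVec, offDiag, eis]

theorem exists_cusp_frame {n : Fin 4 → ℤ} (h : Qf (latVec n) = 0) :
    ∃ g : GL (Fin 2) ℂ, (∀ i j, g.val i j ∈ Eis) ∧ g.val.det = 1 ∧
      ∃ lam : ℝ, latVec n = lam • act g.val nullVec := by
  set X := latVec n
  set b := offDiag X with hb
  have hbE : b ∈ Eis := ⟨n 2, n 3, rfl⟩
  have hQ : Qf X = normSq b - X 0 * X 1 := by rw [hb, offDiag, normSq_eis]; rfl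
  rcases eq_or_ne (X 1) 0 with hc | hc
  · have hb0 : b = 0 := normSq_eq_zero.mp (by rw [h, hc] at hQ; linarith)
    refine ⟨1, fun i j => ?_, by simp, X 0, mat_injective ?_⟩
    · fin_cases i <;> fin_cases j <;> simp [zero_mem, one_mem]
    · rw [Units.val_one, act_one, mat_smul, mat_nullVec, mat]
      ext i j
      fin_cases i <;> fin_cases j <;> simp [← hb, hb0, hc]
  · have hcE : (X 1 : ℂ) ∈ Eis := by
      show ((latVec n 1 : ℝ) : ℂ) ∈ Eis
      rw [latVec_apply, Complex.ofReal_intCast]; exact intCast_mem_Eis _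
    obtain ⟨d, p, r, q, s, -, hp, hr, hq, hs, e1, e2, e3⟩ := exists_unimodular hbE hcE
    have hcC : (X 1 : ℂ) ≠ 0 := by exact_mod_cast hc
    have hd0 : d ≠ 0 := fun hd => hcC (by rw [e2, hd, zero_mul])
    have hr0 : r ≠ 0 := fun hr0 => hcC (by rw [e2, hr0, mul_zero])
    set g := GeneralLinearGroup.mkOfDetNeZero !![p, q; r, s]
      (by rw [Matrix.det_fin_two_of, e3]; exact one_ne_zero)
    refine ⟨g, fun i j => ?_, by simp [g, Matrix.det_fin_two, e3],
      X 1 / normSq r, mat_injective ?_⟩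
    · fin_cases i <;> fin_cases j <;> simp [g, hp, hq, hr, hs]
    · have hN : ∀ z : ℂ, (normSq z : ℂ) = z * conj z := fun z => (Complex.mul_conj z).symm
      have hcc : conj (X 1 : ℂ) = X 1 := conj_ofReal _
      have e2' : conj d * conj r = (X 1 : ℂ) := by rw [← map_mul, ← e2, hcc]
      have hrc : conj r ≠ 0 := by simpa using hr0
      have hQC : (b * conj b : ℂ) = (X 0 : ℂ) * X 1 := by
        rw [← hN]
        exact_mod_cast (by linarith [hQ] : normSq b = X 0 * X 1)
      rw [mat_smul, mat_act, mat_nullVec, mat]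
      ext i j
      fin_cases i <;> fin_cases j <;>
        simp [g, Matrix.vecMul, dotProduct, Fin.sum_univ_two, ← hb, hN, e1]
      · field_simp
        refine mul_left_cancel₀ hcC ?_
        have hQC' : d * p * (conj d * conj p) = (X 0 : ℂ) * X 1 := by rw [← hQC, e1, map_mul]
        linear_combination (-(r * conj r)) * hQC' + p * conj p * conj d * conj r * (e2.symm)
          + (X 1 : ℂ) * (p * conj p) * e2'
      · field_simp
        linear_combination (-p) * e2
      · field_simp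
        linear_combination conj p * e2'
      · field_simp

/-- A translation. -/
def transl (x : ℂ) : GL (Fin 2) ℂ :=
  GeneralLinearGroup.mkOfDetNeZero !![1, x; 0, 1] (by simp [Matrix.det_fin_two_of])

theorem transl_val (x : ℂ) : (transl x).val = !![1, x; 0, 1] := rfl

theorem transl_smul (x : ℂ) (P : H3) : transl x • P = H3.shift x P := by
  refine H3.ext ?_ ?_
  · simp [H3.smul_z, H3.denom, transl, H3.shift]
  · simp [H3.smul_t, H3.denom, transl, H3.shift, Matrix.det_fin_two]

theorem transl_mul (x y : ℂ) : transl x * transl y = transl (x + y) :=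
  Units.ext (by
    rw [Units.val_mul, transl_val, transl_val, transl_val]
    ext i j
    fin_cases i <;> fin_cases j <;> simp [Matrix.mul_apply, Fin.sum_univ_two, add_comm])

theorem transl_zero : transl 0 = 1 :=
  Units.ext (by
    rw [transl_val, Units.val_one]
    ext i j; fin_cases i <;> fin_cases j <;> simp)

theorem act_transl_nullVec (x : ℂ) : act (transl x).val nullVec = nullVec :=
  mat_injective (by
    rw [mat_act, mat_nullVec, transl_val]
    ext i j
    fin_cases i <;> fin_cases j <;> simp [Matrix.mul_apply, Fin.sum_univ_two])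

theorem principal_conj {K : ℕ} {g h : GL (Fin 2) ℂ} (hg : g ∈ congGroup 1)
    (hh : h ∈ principalGroup K) : g * h * g⁻¹ ∈ principalGroup K := by
  have key : ∀ M : GL (Fin 2) ℂ, EisOne K M.val → EisOne K (g * M * g⁻¹).val := by
    intro M hM i j
    choose z hz hze using hM
    refine ⟨∑ l, ∑ k, g.val i k * z k l * (g⁻¹).val l j, sum_mem fun l _ => sum_mem fun k _ =>
      mul_mem (mul_mem (hg.1.1 i k) (hz k l)) (hg.2.1 l j), ?_⟩
    have e : (g * M * g⁻¹).val - 1 = g.val * (M.val - 1) * (g⁻¹).val := by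
      rw [Matrix.mul_sub, Matrix.sub_mul, Units.val_mul, Units.val_mul, Matrix.mul_one,
        ← Units.val_mul g g⁻¹, mul_inv_cancel, Units.val_one]
    rw [e, Matrix.mul_apply, Finset.mul_sum]
    refine Finset.sum_congr rfl fun l _ => ?_
    rw [Matrix.mul_apply, Finset.sum_mul, Finset.mul_sum]
    exact Finset.sum_congr rfl fun k _ => by rw [hze]; ring
  refine ⟨key h hh.1, ?_⟩
  rw [_root_.mul_inv_rev, _root_.mul_inv_rev, inv_inv, ← mul_assoc]
  exact key h⁻¹ hh.2

theorem transl_mem_principal {K : ℕ} {z : ℂ} (hz : z ∈ Eis) :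
    transl ((K : ℂ) * z) ∈ principalGroup K := by
  have key : ∀ w ∈ Eis, EisOne K (transl ((K : ℂ) * w)).val := by
    intro w hw i j
    rw [transl_val]
    fin_cases i <;> fin_cases j
    · exact ⟨0, zero_mem _, by simp⟩
    · exact ⟨w, hw, by simp⟩
    · exact ⟨0, zero_mem _, by simp⟩
    · exact ⟨0, zero_mem _, by simp⟩
  refine ⟨key z hz, ?_⟩
  rw [show (transl ((K : ℂ) * z))⁻¹ = transl ((K : ℂ) * -z) from
    inv_eq_of_mul_eq_one_right (by
      rw [transl_mul, show (K : ℂ) * z + (K : ℂ) * -z = 0 by ring, transl_zero])]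
  exact key _ (neg_mem hz)

theorem eq_one_of_normSq_le {K : ℕ} (hK : 3 ≤ K) {e z : ℂ} (hz : z ∈ Eis) (he : e - 1 = K * z)
    (h1 : normSq e = 1) : e = 1 := by
  by_contra hne
  have hz0 : z ≠ 0 := fun h0 => hne (sub_eq_zero.mp (by rw [he, h0, mul_zero]))
  have h2 := one_le_normSq_Eis hz hz0
  have h3 : normSq (e - 1) ≤ 4 := by
    rw [normSq_apply] at h1 ⊢
    simp only [sub_re, sub_im, one_re, one_im, sub_zero]
    nlinarith [sq_nonneg (e.re + 1), sq_nonneg e.im]
  rw [he, map_mul, normSq_natCast] at h3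
  have : (9 : ℝ) ≤ (K : ℝ) * K := by
    have : (3 : ℝ) ≤ K := by exact_mod_cast hK
    nlinarith
  nlinarith

theorem eq_transl_of_fix {K : ℕ} (hK : 3 ≤ K) {h : GL (Fin 2) ℂ} (hh : h ∈ principalGroup K)
    (hfix : act h.val nullVec = nullVec) :
    ∃ z ∈ Eis, h = transl ((K : ℂ) * z) := by
  have hm : h.val * mat nullVec * h.valᴴ = mat nullVec := by rw [← mat_act, hfix]
  rw [mat_nullVec] at hm
  have h00 : normSq (h.val 0 0) = 1 := by
    have := congrFun (congrFun hm 0) 0
    simp [Matrix.mul_apply, Fin.sum_univ_two] at this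
    rw [Complex.mul_conj] at this
    exact_mod_cast this
  have h10 : h.val 1 0 = 0 := by
    have := congrFun (congrFun hm 1) 1
    simp [Matrix.mul_apply, Fin.sum_univ_two] at this
    exact this
  obtain ⟨a, ha, ea⟩ := hh.1 0 0
  obtain ⟨x, hx, ex⟩ := hh.1 0 1
  obtain ⟨y, hy, ey⟩ := hh.1 1 1
  simp only [Matrix.sub_apply, Matrix.one_apply_eq,
      Matrix.one_apply_ne (by decide : (0 : Fin 2) ≠ 1),
    sub_zero] at ea ex ey
  have e00 : h.val 0 0 = 1 := eq_one_of_normSq_le hK ha ea h00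
  have hdet : normSq (h.val.det) = 1 :=
    normSq_det_congGroup (principal_le_congGroup (one_dvd K) hh)
  rw [Matrix.det_fin_two, e00, h10, mul_zero, one_mul, sub_zero] at hdet
  have e11 : h.val 1 1 = 1 := eq_one_of_normSq_le hK hy ey hdet
  refine ⟨x, hx, Units.ext ?_⟩
  rw [transl_val]
  ext i j
  fin_cases i <;> fin_cases j <;> simp [e00, e11, h10, ex]

/-- Vanishing of all horospherical averages for the lattice `K 𝒪`. -/
def CuspAt (K : ℕ) (b : Fin 2 → ℂ) (φ : H3 → ℂ) : Prop :=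
  ∀ g : GL (Fin 2) ℂ, (∀ i j, g.val i j ∈ Eis) → g.val.det = 1 → ∀ P : H3,
    ∫ s in Set.univ.pi (fun _ : Fin 2 => Set.Icc (0 : ℝ) 1),
      φ (g • H3.shift (∑ j, (s j : ℂ) * ((K : ℂ) * b j)) P) = 0

variable {H : Subgroup (GL (Fin 2) ℂ)} {w : H3 → ℝ≥0∞} {φ : H3 → ℂ} {q : ℝ} {Λ : Set HVec}
  {s : ℤ} {κ : ℂ} {Φ : ℍ → H3 → HVec → ℂ}

theorem LatSet.kernel_finite (hΛ : LatSet H q Λ) (hw : IsWt H w) (hΦ : IsKernel s κ Φ) (τ : ℍ) :
    ∑' X : Λ, ∫⁻ P, w P * ‖Φ τ P X.1‖ₑ ∂H3.volH3 ≠ ⊤ := by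
  have := hΛ.countable
  obtain ⟨K, hK, hle⟩ := hΛ.tsum_gauss_le
  have hv := τ.im_pos
  have hm : ∀ X : Λ, AEMeasurable (fun P => w P * ‖Φ τ P X.1‖ₑ) H3.volH3 := fun X =>
    (hw.measurable.mul (hΦ.continuous_pt τ X.1).measurable.enorm).aemeasurable
  rw [← lintegral_tsum hm]
  refine ne_top_of_le_ne_top (ENNReal.mul_ne_top (ENNReal.ofReal_ne_top (r := 8 * Real.sqrt τ.im))
    (hw.lintegral_gaussSum_lt_top hK (mul_pos Real.pi_pos hv)).ne) ?_
  rw [← lintegral_const_mul' _ _ ENNReal.ofReal_ne_top]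
  refine lintegral_mono fun P => ?_
  dsimp only
  rw [ENNReal.tsum_mul_left, mul_left_comm]
  refine mul_le_mul_right ((ENNReal.tsum_le_tsum fun X => ?_).trans
    ((le_of_eq ENNReal.tsum_mul_left).trans (mul_le_mul_right (hle (π * τ.im) P) _))) _
  rw [← ENNReal.ofReal_mul (by positivity), ← ofReal_norm]
  exact ENNReal.ofReal_le_ofReal (hΦ.bound τ P X.1)

theorem LatSet.summable_kernel (hΛ : LatSet H q Λ) (hw : IsWt H w) (hφ : SphFn H φ)
    (hΦ : IsKernel s κ Φ) (τ : ℍ) :
    (∀ X : Λ, Integrable (fun P => wmul w φ P * Φ τ P X.1) H3.volH3) ∧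
      Summable fun X : Λ => ∫ P, wmul w φ P * Φ τ P X.1 ∂H3.volH3 := by
  obtain ⟨B, hB⟩ := hφ.bounded
  have hfin := hΛ.kernel_finite hw hΦ τ
  have hb : ∀ X : Λ, ∫⁻ P, ‖wmul w φ P * Φ τ P X.1‖ₑ ∂H3.volH3 ≤
      ENNReal.ofReal B * ∫⁻ P, w P * ‖Φ τ P X.1‖ₑ ∂H3.volH3 := fun X => by
    rw [← lintegral_const_mul' _ _ ENNReal.ofReal_ne_top]
    refine lintegral_mono fun P => ?_
    rw [enorm_mul, norm_wmul_le hw, mul_comm (w P), mul_assoc]
    gcongr
    rw [← ofReal_norm]
    exact ENNReal.ofReal_le_ofReal (hB P)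
  have hfin2 : ∀ X : Λ, ENNReal.ofReal B * ∫⁻ P, w P * ‖Φ τ P X.1‖ₑ ∂H3.volH3 ≠ ⊤ := fun X =>
    ENNReal.mul_ne_top ENNReal.ofReal_ne_top (ne_top_of_le_ne_top hfin (ENNReal.le_tsum X))
  refine ⟨fun X => ⟨((measurable_wmul hw hφ.continuous).mul
    (hΦ.continuous_pt τ X.1).measurable).aestronglyMeasurable,
    lt_of_le_of_lt (hb X) (hfin2 X).lt_top⟩, ?_⟩
  refine Summable.of_norm_bounded (g := fun X : Λ =>
    (ENNReal.ofReal B * ∫⁻ P, w P * ‖Φ τ P X.1‖ₑ ∂H3.volH3).toReal)
    (ENNReal.summable_toReal (by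
      rw [ENNReal.tsum_mul_left]; exact ENNReal.mul_ne_top ENNReal.ofReal_ne_top hfin)) fun X => ?_
  refine (norm_integral_le_lintegral_norm _).trans (ENNReal.toReal_mono (hfin2 X) ?_)
  simp only [ofReal_norm]
  exact hb X

theorem integral_wmul_eq_zero (hH : H ≤ congGroup 1)
    (hw : IsWt H w) (hφ : SphFn H φ) : ∫ P, wmul w φ P ∂H3.volH3 = 0 := by
  have := countable_of_le_congGroup_one hH
  obtain ⟨B, hB⟩ := hφ.bounded
  obtain ⟨k, hk, hne⟩ := exists_sphValue_ne_mass
  have hfinw : ∫⁻ P, w P ∂H3.volH3 ≠ ⊤ := by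
    refine ne_top_of_le_ne_top (hw.lintegral_gaussSum_lt_top one_pos one_pos).ne
      (lintegral_mono fun P => le_mul_of_one_le_right' ?_)
    refine le_trans (le_of_eq ?_) (ENNReal.le_tsum (0 : Fin 4 → ℤ))
    simp [Mf, Qf, Tf, latVec_apply, offDiag, eis]
  have hkfin : ∫⁻ Q, ‖k (H3.coshDist H3.base Q)‖ₑ ∂H3.volH3 ≠ ⊤ := (hk.integrable H3.base).2.ne
  have hmass : ∀ P, ∫ R, (k (H3.coshDist P R) : ℂ) ∂H3.volH3
      = ∫ Q, (k (H3.coshDist H3.base Q) : ℂ) ∂H3.volH3 := fun P =>
    integral_coshDist P fun x => (k x : ℂ)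
  have h := tsum_integral_pairing (S := Unit) 1 (fun _ => H3.volH3)
    (fun h _ => H3.measurePreserving_smul (h : GL (Fin 2) ℂ)) hw hφ.continuous hB hφ.invariant
    hφ.spherical hk (by
      rw [tsum_eq_single (() : Unit) (fun b hb => absurd rfl hb)]
      have : ∀ P, ∫⁻ R, ‖k (H3.coshDist P R)‖ₑ ∂H3.volH3
          = ∫⁻ Q, ‖k (H3.coshDist H3.base Q)‖ₑ ∂H3.volH3 := fun P =>
        lintegral_coshDist P (f := fun x => ‖k x‖ₑ) hk.1.measurable.enorm
      simp only [this]
      rw [lintegral_mul_const' _ _ hkfin]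
      exact ENNReal.mul_ne_top hfinw hkfin)
  rw [tsum_eq_single (() : Unit) (fun b hb => absurd rfl hb),
    tsum_eq_single (() : Unit) (fun b hb => absurd rfl hb)] at h
  simp only [hmass, integral_mul_const] at h
  by_contra h0
  exact hne (mul_left_cancel₀ h0 (h.trans (mul_comm _ _)))

theorem kernel_zero_vec (hΦ : IsKernel s κ Φ) (τ : ℍ) (P : H3) :
    Φ τ P 0 = Φ τ H3.base 0 := by
  have ht : (Real.sqrt P.t : ℂ) ≠ 0 := by exact_mod_cast (Real.sqrt_pos.mpr P.t_pos).ne'
  have hdet : ((Real.sqrt P.t : ℂ)⁻¹ • (toPt P).val).det ≠ 0 := by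
    rw [Matrix.det_smul]; exact mul_ne_zero (pow_ne_zero _ (inv_ne_zero ht)) (toPt P).det_ne_zero
  set g := GeneralLinearGroup.mkOfDetNeZero ((Real.sqrt P.t : ℂ)⁻¹ • (toPt P).val) hdet
  have hg : g • H3.base = P := by
    rw [smul_scalar_eq (g := toPt P) (g' := g) (u := (Real.sqrt P.t : ℂ)⁻¹) rfl, toPt_smul]
  have hn : ‖g.val.det‖ = 1 := by
    simp [g, toPt, Matrix.det_fin_two, abs_of_pos P.t_pos]
    rw [abs_of_nonneg (Real.sqrt_nonneg _)]
    field_simp
    rw [Real.sq_sqrt P.t_pos.le]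
    exact div_self P.t_pos.ne'
  have := hΦ.invariant g hn τ H3.base 0
  rwa [map_zero, hg] at this

/-- The lattice coordinates of a translation. -/
def stripMap (K : ℕ) (b : Fin 2 → ℂ) : (Fin 2 → ℝ) →ₗ[ℝ] ℂ where
  toFun s := ∑ j, (s j : ℂ) * ((K : ℂ) * b j)
  map_add' s t := by simp [Fin.sum_univ_two]; ring
  map_smul' r s := by simp [Fin.sum_univ_two]; ring

theorem stripMap_bijective {K : ℕ} (hK : K ≠ 0) {b : Fin 2 → ℂ}
    (hb : ∀ z : ℂ, z ∈ Eis ↔ ∃ k : Fin 2 → ℤ, z = ∑ j, (k j : ℂ) * b j) :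
    Function.Bijective (stripMap K b) := by
  have hKC : (K : ℂ) ≠ 0 := by exact_mod_cast hK
  have hmem : ∀ z ∈ Eis, z ∈ LinearMap.range (stripMap K b) := fun z hz => by
    obtain ⟨k, rfl⟩ := (hb z).mp hz
    refine ⟨fun j => (k j : ℝ) / K, ?_⟩
    simp only [stripMap, LinearMap.coe_mk, AddHom.coe_mk]
    refine Finset.sum_congr rfl fun j _ => ?_
    push_cast
    field_simp
  have hs : Function.Surjective (stripMap K b) := fun z => by
    rw [← LinearMap.mem_range, eis_eq z, eis]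
    have h1 := hmem 1 (one_mem _)
    have h2 := hmem omega omega_mem
    refine Submodule.add_mem _ ?_ ?_
    · simpa using Submodule.smul_mem _ (z.re + z.im / Real.sqrt 3) h1
    · simpa using Submodule.smul_mem _ (2 * z.im / Real.sqrt 3) h2
  refine ⟨(LinearMap.injective_iff_surjective_of_finrank_eq_finrank ?_).mpr hs, hs⟩
  rw [Complex.finrank_real_complex]; simp

section Orbit

/-! ### One orbit -/

variable {K : ℕ} {b : Fin 2 → ℂ}

/-- The orbit of the zero vector contributes nothing. -/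
private theorem tsum_kernel_orbit_zero (hw : IsWt (principalGroup K) w)
    (hφ : SphFn (principalGroup K) φ) (hΦ : IsKernel s κ Φ) (τ : ℍ) {O : Set HVec}
    (htr : ∀ Y ∈ O, ∃ h ∈ principalGroup K, act h.val Y = 0) :
    ∑' Y : O, ∫ P, wmul w φ P * Φ τ P Y.1 ∂H3.volH3 = 0 := by
  have hY : ∀ Y : O, Y.1 = 0 := fun Y => by
    obtain ⟨h, -, he⟩ := htr Y.1 Y.2
    have := congrArg (act (h⁻¹).val) he
    rwa [map_zero, ← act_mul, ← Units.val_mul, inv_mul_cancel, Units.val_one, act_one] at this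
  refine (tsum_congr fun Y => ?_).trans tsum_zero
  simp only [hY Y, fun P => kernel_zero_vec hΦ τ P, integral_mul_const,
    integral_wmul_eq_zero (principal_le_congGroup (one_dvd K)) hw hφ,
    zero_mul]

/-- A nonzero isotropic vector of a lattice set is a multiple of a translate of `nullVec`. -/
private theorem exists_frame_isotropic {O : Set HVec} (hO : LatSet (principalGroup K) 0 O)
    {X : HVec} (hX : X ∈ O) (hX0 : X ≠ 0) :
    ∃ g ∈ congGroup 1, g.val.det = 1 ∧ ∃ r : ℝ, r ≠ 0 ∧ X = act g.val (r • nullVec) := by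
  obtain ⟨K₀, hK₀, hsub⟩ := hO.level
  obtain ⟨n, hn⟩ := hsub hX
  simp only at hn
  have hK₀' : (K₀ : ℝ) ≠ 0 := by exact_mod_cast hK₀.ne'
  obtain ⟨g, hgE, hgd, lam, hlam⟩ := exists_cusp_frame (n := n) (by
    have := hO.norm_eq X hX
    rw [← hn, Qf_smul] at this
    simpa [hK₀'] using this)
  have hg1 : g ∈ congGroup 1 := by
    obtain ⟨g', hg', e⟩ := exists_congGroup_one hgE (one_mem Eis) (by rw [hgd, mul_one])
    rwa [← Units.ext e]
  have hXg : X = act g.val (((K₀ : ℝ)⁻¹ * lam) • nullVec) := by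
    rw [map_smul, mul_smul, ← hlam, hn]
  exact ⟨g, hg1, hgd, _, fun h0 => hX0 (by rw [hXg, h0, zero_smul, map_zero]), hXg⟩

/-- The lattice coordinates of a translation, as an equivalence. -/
private def stripEquiv (hK : 3 ≤ K)
    (hb : ∀ z : ℂ, z ∈ Eis ↔ ∃ k : Fin 2 → ℤ, z = ∑ j, (k j : ℂ) * b j) :
    (Fin 2 → ℝ) ≃ₗ[ℝ] ℂ :=
  LinearEquiv.ofBijective (stripMap K b) (stripMap_bijective (by omega) hb)

/-- The indicator of the half-open strip. -/
private def stripWeight (hK : 3 ≤ K)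
    (hb : ∀ z : ℂ, z ∈ Eis ↔ ∃ k : Fin 2 → ℤ, z = ∑ j, (k j : ℂ) * b j) (P : H3) : ℝ≥0∞ :=
  (Set.univ.pi fun _ : Fin 2 => Set.Ico (0 : ℝ) 1).indicator 1 ((stripEquiv hK hb).symm P.z)

variable (hK : 3 ≤ K) (hb : ∀ z : ℂ, z ∈ Eis ↔ ∃ k : Fin 2 → ℤ, z = ∑ j, (k j : ℂ) * b j)

/-- `stripEquiv` at an integer point. -/
private theorem stripEquiv_intCast (k : Fin 2 → ℤ) :
    stripEquiv hK hb (fun j => (k j : ℝ)) = (K : ℂ) * ∑ j, (k j : ℂ) * b j := by
  show ∑ j, (((k j : ℝ) : ℂ)) * ((K : ℂ) * b j) = _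
  rw [Finset.mul_sum]
  exact Finset.sum_congr rfl fun j _ => by push_cast; ring

/-- `stripWeight` is measurable. -/
private theorem measurable_stripWeight : Measurable (stripWeight hK hb) :=
  (measurable_one.indicator (MeasurableSet.univ_pi fun _ => measurableSet_Ico)).comp
    ((LinearMap.continuous_of_finiteDimensional (stripEquiv hK hb).symm.toLinearMap).comp
      H3.continuous_z).measurable

/-- The lattice translates of the strip cover once. -/
private theorem tsum_stripWeight (Q : H3) :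
    ∑' k : Fin 2 → ℤ,
      stripWeight hK hb (transl (stripEquiv hK hb fun j => (k j : ℝ)) • Q) = 1 := by
  set L := stripEquiv hK hb
  set u := L.symm Q.z
  have e : ∀ k : Fin 2 → ℤ, L.symm ((transl (L fun j => (k j : ℝ)) • Q).z) = fun j => u j + k j :=
    fun k => by
      rw [transl_smul, H3.shift, map_add, L.symm_apply_apply]
      rfl
  simp only [stripWeight]
  simp only [show stripEquiv hK hb = L from rfl, e]
  rw [tsum_eq_single (fun j => -⌊u j⌋) fun k hk => Set.indicator_of_notMem ?_ _,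
    Set.indicator_of_mem, Pi.one_apply]
  · exact Set.mem_univ_pi.mpr fun j => by
      push_cast
      exact ⟨by linarith [Int.floor_le (u j)], by linarith [Int.lt_floor_add_one (u j)]⟩
  · intro hm
    refine hk (funext fun j => ?_)
    have hj := Set.mem_univ_pi.mp hm j
    have : ⌊u j + (k j : ℝ)⌋ = 0 := Int.floor_eq_zero_iff.mpr hj
    rw [Int.floor_add_intCast] at this
    linarith

variable {g : GL (Fin 2) ℂ} (hg : g ∈ congGroup 1) {r : ℝ} (hr : r ≠ 0) {X : HVec}
  (hX : X = act g.val (r • nullVec))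

/-- The translations parametrising the stabiliser of `X`. -/
private def stabTransl (k : Fin 2 → ℤ) : principalGroup K :=
  ⟨g * transl (stripEquiv hK hb fun j => (k j : ℝ)) * g⁻¹, by
    rw [stripEquiv_intCast]
    exact principal_conj hg (transl_mem_principal ((hb _).mpr ⟨k, rfl⟩))⟩

/-- `stabTransl` is injective. -/
private theorem stabTransl_injective : Function.Injective (stabTransl hK hb hg) := by
  intro k k' h
  have h'' := mul_left_cancel (mul_right_cancel (congrArg Subtype.val h :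
    g * transl (stripEquiv hK hb fun j => (k j : ℝ)) * g⁻¹ =
      g * transl (stripEquiv hK hb fun j => (k' j : ℝ)) * g⁻¹))
  have := congrArg (fun M : GL (Fin 2) ℂ => M.val 0 1) h''
  simp [transl_val] at this
  exact funext fun j => by exact_mod_cast congrFun this j

include hX in
/-- The translations fix `X`. -/
private theorem act_stabTransl (k : Fin 2 → ℤ) : act (stabTransl hK hb hg k).1.val X = X := by
  show act (g * transl _ * g⁻¹).val X = X
  rw [Units.val_mul, Units.val_mul, act_mul, act_mul, hX, ← act_mul (g⁻¹).val, ← Units.val_mul,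
    inv_mul_cancel, Units.val_one, act_one, map_smul (act (transl _).val), act_transl_nullVec]

include hr hX in
/-- Only the translations fix `X`. -/
private theorem exists_stabTransl_eq {h : principalGroup K} (he : act h.1.val X = X) :
    ∃ k, stabTransl hK hb hg k = h := by
  have hmem : g⁻¹ * h.1 * g ∈ principalGroup K := by
    simpa using principal_conj (inv_mem hg) h.2
  have : act (g⁻¹ * h.1 * g).val nullVec = nullVec := by
    refine smul_right_injective _ hr ?_
    show _ • _ = _ • nullVec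
    rw [← map_smul, Units.val_mul, Units.val_mul, act_mul, act_mul, ← hX, he, hX,
      ← act_mul, ← Units.val_mul, inv_mul_cancel, Units.val_one, act_one]
  obtain ⟨z, hz, e⟩ := eq_transl_of_fix hK hmem this
  obtain ⟨k, rfl⟩ := (hb z).mp hz
  refine ⟨k, Subtype.ext ?_⟩
  show g * transl _ * g⁻¹ = h.1
  rw [stripEquiv_intCast, ← e]; group

variable (g X) in
/-- The strip moved to `g` and shifted by `v`, as a weight at the vector `X` of an orbit. -/
private def orbitWeight (O : Set HVec) (v : Fin 2 → ℝ) (Y : O) (P : H3) : ℝ≥0∞ :=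
  ({X} : Set HVec).indicator
    (fun _ => stripWeight hK hb (transl (-stripEquiv hK hb v) • g⁻¹ • P)) Y.1

/-- `orbitWeight` is measurable. -/
private theorem measurable_orbitWeight {O : Set HVec} (v : Fin 2 → ℝ) (Y : O) :
    Measurable (orbitWeight hK hb g X O v Y) := by
  unfold orbitWeight
  by_cases hY : Y.1 ∈ ({X} : Set HVec)
  · simp only [Set.indicator_of_mem hY]
    exact (measurable_stripWeight hK hb).comp
      ((continuous_const_smul _).comp (continuous_const_smul _)).measurable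
  · simp only [Set.indicator_of_notMem hY]; exact measurable_const

include hg hr hX in
/-- The translates of `orbitWeight` sum to one. -/
private theorem tsum_orbitWeight {O : Set HVec} (hO : Stable (principalGroup K) O)
    (htr : ∀ Y ∈ O, ∃ h ∈ principalGroup K, act h.val Y = X) (v : Fin 2 → ℝ) (Y : O) (P : H3) :
    ∑' h : principalGroup K, orbitWeight hK hb g X O v (actPerm hO h Y) (h • P) = 1 := by
  obtain ⟨h₀, hh₀, he₀⟩ := htr Y.1 Y.2
  set L := stripEquiv hK hb with hL
  let m₀ : principalGroup K := ⟨h₀, hh₀⟩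
  have hinj : Function.Injective fun k => stabTransl hK hb hg k * m₀ := fun k k' h =>
    stabTransl_injective hK hb hg (mul_right_cancel h)
  rw [← hinj.tsum_eq]
  · rw [← tsum_stripWeight hK hb (transl (-L v) • g⁻¹ • h₀ • P)]
    refine tsum_congr fun k => ?_
    have he : act ((stabTransl hK hb hg k * m₀ : principalGroup K) : GL (Fin 2) ℂ).val Y.1 = X := by
      rw [Subgroup.coe_mul, Units.val_mul, act_mul,
          show (m₀ : GL (Fin 2) ℂ) = h₀ from rfl, he₀, act_stabTransl hK hb hg hX]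
    simp only [orbitWeight, actPerm_apply, he, Set.indicator_of_mem (Set.mem_singleton X), ← hL]
    congr 1
    show transl (-L v) • g⁻¹ • ((g * transl _ * g⁻¹) * h₀) • P = _
    simp only [← hL, ← mul_smul]
    congr 1
    have hcomm : transl (-L v) * transl (L fun j => (k j : ℝ))
        = transl (L fun j => (k j : ℝ)) * transl (-L v) := by
      rw [transl_mul, transl_mul, add_comm]
    simp only [mul_assoc, inv_mul_cancel_left]
    rw [← mul_assoc, hcomm, mul_assoc]
  · intro h hh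
    have he : act h.1.val Y.1 = X := by
      by_contra hne
      exact hh (by simp [orbitWeight, actPerm_apply, hne])
    obtain ⟨k, hk⟩ := exists_stabTransl_eq hK hb hg hr hX (h := h * m₀⁻¹) (by
      rw [Subgroup.coe_mul, Units.val_mul, act_mul]
      have := congrArg (act ((m₀⁻¹ : principalGroup K) : GL (Fin 2) ℂ).val) he₀
      rw [← act_mul, show ((m₀⁻¹ : principalGroup K) : GL (Fin 2) ℂ) = h₀⁻¹ from rfl,
        ← Units.val_mul, inv_mul_cancel, Units.val_one, act_one] at this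
      rw [show ((m₀⁻¹ : principalGroup K) : GL (Fin 2) ℂ) = h₀⁻¹ from rfl, ← this, he])
    exact ⟨k, by simp only [hk, inv_mul_cancel_right]⟩

include hg hX in
/-- The kernel at `X` on the moved strip. -/
private theorem kernel_smul_frame (hΦ : IsKernel s κ Φ) (τ : ℍ) (x : ℂ) (R : H3) :
    Φ τ (g • transl x • R) X = Φ τ R (r • nullVec) := by
  rw [hX, hΦ.invariant g (norm_det_congGroup hg)]
  conv_lhs => rw [show r • nullVec = act (transl x).val (r • nullVec) by
    rw [map_smul, act_transl_nullVec]]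
  exact hΦ.invariant _ (by simp [transl_val, Matrix.det_fin_two]) τ R _

variable (r) in
/-- The kernel at the standard null vector, cut to the strip. -/
private def stripKernel (Φ : ℍ → H3 → HVec → ℂ) (τ : ℍ) (R : H3) : ℂ :=
  ((stripWeight hK hb R).toReal : ℂ) * Φ τ R (r • nullVec)

/-- `stripKernel` is measurable. -/
private theorem measurable_stripKernel (hΦ : IsKernel s κ Φ) (τ : ℍ) :
    Measurable (stripKernel hK hb r Φ τ) :=
  (continuous_ofReal.measurable.comp (measurable_stripWeight hK hb).ennreal_toReal).mul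
    (hΦ.continuous_pt τ _).measurable

variable {O : Set HVec} (hO : LatSet (principalGroup K) 0 O) (hXO : X ∈ O)
  (htr : ∀ Y ∈ O, ∃ h ∈ principalGroup K, act h.val Y = X)

include hg hr hX hO hXO htr in
/-- `stripKernel` is integrable. -/
private theorem integrable_stripKernel (hw : IsWt (principalGroup K) w) (hΦ : IsKernel s κ Φ)
    (τ : ℍ) : Integrable (stripKernel hK hb r Φ τ) H3.volH3 := by
  have := countable_of_le_congGroup_one (principal_le_congGroup (one_dvd K))
  have := hO.countable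
  refine ⟨(measurable_stripKernel hK hb hΦ τ).aestronglyMeasurable, ?_⟩
  have h1 := tsum_lintegral_swap (actPerm hO.stable) (fun _ : O => H3.volH3)
    (fun h _ => H3.measurePreserving_smul (h : GL (Fin 2) ℂ))
    (W := fun _ P => w P) (W' := orbitWeight hK hb g X O 0) (fun _ => hw.measurable)
    (measurable_orbitWeight hK hb 0) (fun _ P => hw.sum_eq P)
    (tsum_orbitWeight hK hb hg hr hX hO.stable htr 0)
    (F := fun Y P => ‖Φ τ P Y.1‖ₑ) (fun Y => (hΦ.continuous_pt τ Y.1).measurable.enorm)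
    fun h Y P => congrArg _
      (hΦ.invariant _ (norm_det_congGroup (principal_le_congGroup (one_dvd K) h.2)) τ P Y.1)
  have h2 : ∫⁻ P, orbitWeight hK hb g X O 0 ⟨X, hXO⟩ P * ‖Φ τ P X‖ₑ ∂H3.volH3 ≠ ⊤ :=
    ne_top_of_le_ne_top (h1 ▸ hO.kernel_finite hw hΦ τ) (ENNReal.le_tsum (f := fun Y : O =>
      ∫⁻ P, orbitWeight hK hb g X O 0 Y P * ‖Φ τ P Y.1‖ₑ ∂H3.volH3) ⟨X, hXO⟩)
  rw [HasFiniteIntegral]
  refine lt_of_le_of_lt (le_of_eq ?_) h2.lt_top
  rw [← (H3.measurePreserving_smul (g * transl (stripEquiv hK hb 0))).lintegral_comp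
    ((measurable_orbitWeight hK hb _ _).fun_mul (hΦ.continuous_pt τ X).measurable.enorm)]
  refine lintegral_congr fun R => ?_
  simp only [orbitWeight, Set.indicator_of_mem (Set.mem_singleton X), mul_smul, inv_smul_smul,
    kernel_smul_frame hg hX hΦ, stripKernel, enorm_mul]
  rw [← mul_smul, transl_mul, neg_add_cancel, transl_zero, one_smul]
  congr 1
  rw [← ofReal_norm, Complex.norm_real, Real.norm_of_nonneg ENNReal.toReal_nonneg,
    ENNReal.ofReal_toReal]
  exact ne_top_of_le_ne_top ENNReal.one_ne_top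
    (Set.indicator_le_self' (fun _ _ => zero_le_one) _)

include hg hr hX hO hXO htr in
/-- Unfolding along the translations, at any shift of the strip. -/
private theorem tsum_eq_integral_shift (hw : IsWt (principalGroup K) w)
    (hφ : SphFn (principalGroup K) φ) (hΦ : IsKernel s κ Φ) (τ : ℍ) (v : Fin 2 → ℝ) :
    ∑' Y : O, ∫ P, wmul w φ P * Φ τ P Y.1 ∂H3.volH3 = ∫ R, stripKernel hK hb r Φ τ R *
      φ (g • H3.shift (∑ j, (v j : ℂ) * ((K : ℂ) * b j)) R) ∂H3.volH3 := by
  have := countable_of_le_congGroup_one (principal_le_congGroup (one_dvd K))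
  have := hO.countable
  obtain ⟨B, hB⟩ := hφ.bounded
  have h := tsum_integral_swap (actPerm hO.stable) (fun _ : O => H3.volH3)
    (fun h _ => H3.measurePreserving_smul (h : GL (Fin 2) ℂ))
    (W := fun _ P => w P) (W' := orbitWeight hK hb g X O v) (fun _ => hw.measurable)
    (measurable_orbitWeight hK hb v) (fun _ P => hw.sum_eq P)
    (tsum_orbitWeight hK hb hg hr hX hO.stable htr v) (F := fun Y P => φ P * Φ τ P Y.1)
    (fun Y => hφ.continuous.measurable.mul (hΦ.continuous_pt τ Y.1).measurable)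
    (fun h Y P => congrArg₂ _ (hφ.invariant _ h.2 P)
      (hΦ.invariant _ (norm_det_congGroup (principal_le_congGroup (one_dvd K) h.2)) τ P Y.1))
    (ne_top_of_le_ne_top (ENNReal.mul_ne_top (ENNReal.ofReal_ne_top (r := B))
      (hO.kernel_finite hw hΦ τ)) (by
        rw [← ENNReal.tsum_mul_left]
        refine ENNReal.tsum_le_tsum fun Y => ?_
        rw [← lintegral_const_mul' _ _ ENNReal.ofReal_ne_top]
        refine lintegral_mono fun P => ?_
        rw [enorm_mul, mul_left_comm]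
        gcongr
        rw [← ofReal_norm]
        exact ENNReal.ofReal_le_ofReal (hB P)))
  simp only [wmul, mul_assoc] at h ⊢
  rw [h, tsum_eq_single (⟨X, hXO⟩ : O) fun Y hY => by
    simp [orbitWeight, show Y.1 ≠ X from fun e => hY (Subtype.ext e)]]
  rw [← (H3.measurePreserving_smul (g * transl (stripEquiv hK hb v))).integral_comp
    (Homeomorph.smul (g * transl (stripEquiv hK hb v))).measurableEmbedding]
  refine integral_congr_ae (Filter.Eventually.of_forall fun R => ?_)
  simp only [orbitWeight, Set.indicator_of_mem (Set.mem_singleton X), mul_smul, inv_smul_smul,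
    kernel_smul_frame hg hX hΦ, stripKernel]
  rw [← mul_smul (transl (-stripEquiv hK hb v)), transl_mul, neg_add_cancel, transl_zero, one_smul,
    show ∑ j, (v j : ℂ) * ((K : ℂ) * b j) = stripEquiv hK hb v from rfl, ← transl_smul]
  ring

omit hK hb in
/-- By cuspidality the average over all shifts of the strip vanishes. -/
private theorem integral_shift_average_eq_zero (hc : CuspAt K b φ) (hφc : Continuous φ) {B : ℝ}
    (hB : ∀ P, ‖φ P‖ ≤ B) (hgE : ∀ i j, g.val i j ∈ Eis) (hgd : g.val.det = 1)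
    {ψ : H3 → ℂ} (hψm : Measurable ψ) (hψ : Integrable ψ H3.volH3) :
    ∫ v in Set.univ.pi (fun _ : Fin 2 => Set.Icc (0 : ℝ) 1),
      ∫ R, ψ R * φ (g • H3.shift (∑ j, (v j : ℂ) * ((K : ℂ) * b j)) R) ∂H3.volH3 = 0 := by
  set sq : Set (Fin 2 → ℝ) := Set.univ.pi fun _ => Set.Icc (0 : ℝ) 1 with hsq
  have : IsFiniteMeasure ((volume : Measure (Fin 2 → ℝ)).restrict sq) := by
    refine ⟨?_⟩
    rw [Measure.restrict_apply_univ, hsq, volume_pi_pi]; simp
  have hfun : Continuous fun y : (Fin 2 → ℝ) × H3 =>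
      g • H3.shift (∑ j, (y.1 j : ℂ) * ((K : ℂ) * b j)) y.2 := by
    refine (continuous_const_smul g).comp (H3.continuous_mk_iff.mpr ⟨?_, ?_⟩)
    exact (H3.continuous_z.comp continuous_snd).add (continuous_finsetSum _ fun j _ =>
      (continuous_ofReal.comp ((continuous_apply j).comp continuous_fst)).mul continuous_const)
    show Continuous fun x : (Fin 2 → ℝ) × H3 => x.2.t
    exact H3.continuous_t.comp continuous_snd
  have hint : Integrable (Function.uncurry fun (v : Fin 2 → ℝ) R =>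
      ψ R * φ (g • H3.shift (∑ j, (v j : ℂ) * ((K : ℂ) * b j)) R))
      (((volume : Measure (Fin 2 → ℝ)).restrict sq).prod H3.volH3) := by
    refine Integrable.mono' ((integrable_const B).mul_prod hψ.norm)
      ((hψm.comp measurable_snd).mul (hφc.comp hfun).measurable).aestronglyMeasurable
      (Filter.Eventually.of_forall fun y => ?_)
    rw [Function.uncurry, norm_mul, mul_comm B]
    exact mul_le_mul_of_nonneg_left (hB _) (norm_nonneg _)
  rw [integral_integral_swap hint]
  simp only [integral_const_mul]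
  refine (integral_congr_ae (Filter.Eventually.of_forall fun R => ?_)).trans (integral_zero H3 ℂ)
  show ψ R * _ = 0
  rw [hsq, hc g hgE hgd R, mul_zero]

end Orbit

theorem orbit_sum_eq_zero {K : ℕ} (hK : 3 ≤ K) {b : Fin 2 → ℂ}
    (hb : ∀ z : ℂ, z ∈ Eis ↔ ∃ k : Fin 2 → ℤ, z = ∑ j, (k j : ℂ) * b j) (hc : CuspAt K b φ)
    (hw : IsWt (principalGroup K) w) (hφ : SphFn (principalGroup K) φ) (hΦ : IsKernel s κ Φ)
    (τ : ℍ) {O : Set HVec} (hO : LatSet (principalGroup K) 0 O) {X : HVec} (hX : X ∈ O)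
    (htr : ∀ Y ∈ O, ∃ h ∈ principalGroup K, act h.val Y = X) :
    ∑' Y : O, ∫ P, wmul w φ P * Φ τ P Y.1 ∂H3.volH3 = 0 := by
  rcases eq_or_ne X 0 with rfl | hX0
  · exact tsum_kernel_orbit_zero hw hφ hΦ τ htr
  obtain ⟨g, hg, hgd, r, hr, hXg⟩ := exists_frame_isotropic hO hX hX0
  obtain ⟨B, hB⟩ := hφ.bounded
  have hvol : (volume : Measure (Fin 2 → ℝ)).real
      (Set.univ.pi fun _ => Set.Icc (0 : ℝ) 1) = 1 := by
    rw [Measure.real, volume_pi_pi]; simp
  -- the orbit sum is its own average over the shifts of the strip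
  rw [← one_smul ℝ (∑' Y : O, ∫ P, wmul w φ P * Φ τ P Y.1 ∂H3.volH3), ← hvol,
    ← setIntegral_const]
  refine (integral_congr_ae (Filter.Eventually.of_forall
    (tsum_eq_integral_shift hK hb hg hr hXg hO hX htr hw hφ hΦ τ))).trans ?_
  exact integral_shift_average_eq_zero hc hφ.continuous hB hg.1.1 hgd
    (measurable_stripKernel hK hb hΦ τ) (integrable_stripKernel hK hb hg hr hXg hO hX htr hw hΦ τ)

/-- The isotropic terms vanish. -/
theorem tsum_kernel_isotropic {K : ℕ} (hK : 3 ≤ K) {b : Fin 2 → ℂ}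
    (hb : ∀ z : ℂ, z ∈ Eis ↔ ∃ k : Fin 2 → ℤ, z = ∑ j, (k j : ℂ) * b j) (hc : CuspAt K b φ)
    (hw : IsWt (principalGroup K) w) (hφ : SphFn (principalGroup K) φ) (hΦ : IsKernel s κ Φ)
    (τ : ℍ) (hΛ : LatSet (principalGroup K) 0 Λ) :
    ∑' Y : Λ, ∫ P, wmul w φ P * Φ τ P Y.1 ∂H3.volH3 = 0 := by
  let r : Setoid Λ :=
    { r := fun Y Z => ∃ h ∈ principalGroup K, act h.val Y.1 = Z.1
      iseqv := ⟨fun Y => ⟨1, one_mem _, by rw [Units.val_one, act_one]⟩,
        fun ⟨h, hh, e⟩ => ⟨h⁻¹, inv_mem hh, by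
          rw [← e, ← act_mul, ← Units.val_mul, inv_mul_cancel, Units.val_one, act_one]⟩,
        fun ⟨h, hh, e⟩ ⟨h', hh', e'⟩ => ⟨h' * h, mul_mem hh' hh, by
          rw [Units.val_mul, act_mul, e, e']⟩⟩ }
  let π' : Λ → Quotient r := Quotient.mk r
  have hsum := (hΛ.summable_kernel hw hφ hΦ τ).2
  let e : (Σ c : Quotient r, {Y : Λ // π' Y = c}) ≃ Λ := Equiv.sigmaFiberEquiv π'
  have hcomp := e.summable_iff.mpr hsum
  simp only [Function.comp_def] at hcomp
  rw [← e.tsum_eq, hcomp.tsum_sigma]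
  refine (tsum_congr fun c => ?_).trans tsum_zero
  obtain ⟨X, rfl⟩ := Quotient.exists_rep c
  set O : Set HVec := Subtype.val '' {Y : Λ | π' Y = π' X}
  have hO : LatSet (principalGroup K) 0 O := by
    refine ⟨fun h hh Z hZ => ?_, ?_, fun Z hZ => ?_⟩
    · obtain ⟨Y, hY, rfl⟩ := hZ
      exact ⟨⟨act h.val Y.1, hΛ.stable h hh Y.1 Y.2⟩,
        (Quotient.sound (⟨h⁻¹, inv_mem hh, by
          rw [← act_mul, ← Units.val_mul, inv_mul_cancel, Units.val_one, act_one]⟩ :
          r.r ⟨act h.val Y.1, hΛ.stable h hh Y.1 Y.2⟩ Y)).trans hY, rfl⟩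
    · obtain ⟨K₀, hK₀, hs⟩ := hΛ.level
      exact ⟨K₀, hK₀, fun Z hZ => hs (by obtain ⟨Y, -, rfl⟩ := hZ; exact Y.2)⟩
    · obtain ⟨Y, -, rfl⟩ := hZ
      exact hΛ.norm_eq _ Y.2
  have hfin := orbit_sum_eq_zero hK hb hc hw hφ hΦ τ hO (X := X.1) ⟨X, rfl, rfl⟩ fun Z hZ => by
    obtain ⟨Y, hY, rfl⟩ := hZ
    exact Quotient.exact hY
  rw [← hfin]
  exact (Equiv.Set.image Subtype.val {Y : Λ | π' Y = π' X} Subtype.val_injective).tsum_eq
    fun Z : O => ∫ P, wmul w φ P * Φ τ P Z.1 ∂H3.volH3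

end FLTAgent.LanglandsTunnell.Lift
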