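import Fermat.Agent.LanglandsTunnell.Lift.Herm
import Fermat.Agent.LanglandsTunnell.Lift.Gaussian

/-!
# The two kernels of weight one and their Fourier transforms

`Phi1`, `Phi2` are the two Schwartz functions of a hermitian vector; `isKernel_Phi1` and
`isKernel_Phi2` show that they are kernels in the sense of `IsKernel` (decay, invariance, Fourier
transform), which is all the theta series need.
-/

set_option autoImplicit false

noncomputable section

namespace FLTAgent.LanglandsTunnell.Lift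

open FLTAgent.LanglandsTunnell MeasureTheory Complex ComplexConjugate Matrix
open UpperHalfPlane hiding I
open scoped Real MatrixGroups

/-- The four coordinates at a point. -/
def coordLin (P : H3) : HVec →ₗ[ℝ] HVec where
  toFun X := ![Sf P X, (Wf P X).re, (Wf P X).im, Tf P X]
  map_add' X Y := by
    ext i; fin_cases i <;> simp [Sf, Wf, Tf, offDiag, eis_re, eis_im] <;> ring
  map_smul' r X := by
    ext i; fin_cases i <;> simp [Sf, Wf, Tf, offDiag, eis_re, eis_im] <;> ring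

theorem abs_det_coordLin (P : H3) : |LinearMap.det (coordLin P)| = Real.sqrt 3 / 4 := by
  have ht := P.t_ne_zero
  have h : LinearMap.det (coordLin P) = Real.sqrt 3 / 4 := by
    rw [← LinearMap.det_toMatrix', Matrix.det_succ_row_zero]
    simp [Fin.sum_univ_succ, Matrix.det_fin_three, LinearMap.toMatrix'_apply, coordLin, Sf, Wf, Tf,
      offDiag, eis_re, eis_im, Fin.succAbove]
    field_simp
    ring
  rw [h, abs_of_pos (by positivity)]

theorem coordLin_injective (P : H3) : Function.Injective (coordLin P) := by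
  refine (LinearMap.equivOfDetNeZero (coordLin P) fun h => ?_).injective
  have h1 := abs_det_coordLin P
  rw [h, abs_zero] at h1
  have h2 : 0 < Real.sqrt 3 / 4 := by positivity
  linarith

theorem Bf_coord (P : H3) (X Y : HVec) :
    Bf X Y = 2 * (coordLin P X 0 * coordLin P Y 0 + coordLin P X 1 * coordLin P Y 1
      + coordLin P X 2 * coordLin P Y 2 - coordLin P X 3 * coordLin P Y 3) := by
  have h := Qf_add X Y
  rw [Qf_eq_coords P (X + Y), Qf_eq_coords P X, Qf_eq_coords P Y] at h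
  have hS : Sf P (X + Y) = Sf P X + Sf P Y := congrFun ((coordLin P).map_add X Y) 0
  have h1 : (Wf P (X + Y)).re = (Wf P X).re + (Wf P Y).re := congrFun ((coordLin P).map_add X Y) 1
  have h2 : (Wf P (X + Y)).im = (Wf P X).im + (Wf P Y).im := congrFun ((coordLin P).map_add X Y) 2
  have hT : Tf P (X + Y) = Tf P X + Tf P Y := congrFun ((coordLin P).map_add X Y) 3
  simp only [normSq_apply, hS, h1, h2, hT] at h
  show Bf X Y = 2 * (Sf P X * Sf P Y + (Wf P X).re * (Wf P Y).re + (Wf P X).im * (Wf P Y).im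
    - Tf P X * Tf P Y)
  linear_combination -h

theorem exists_Mf_lower (P : H3) : ∃ c : ℝ, 0 < c ∧ ∀ X, c * ‖X‖ ^ 2 ≤ Mf P X := by
  obtain ⟨K, hK, hKb⟩ := (coordLin P).exists_antilipschitzWith
    (LinearMap.ker_eq_bot.mpr (coordLin_injective P))
  refine ⟨1 / (K : ℝ) ^ 2, div_pos one_pos (pow_pos (NNReal.coe_pos.mpr hK) 2), fun X => ?_⟩
  have h : ‖X‖ ≤ K * ‖coordLin P X‖ := by
    simpa [dist_eq_norm] using hKb.le_mul_dist X 0
  have h2 : ‖coordLin P X‖ ^ 2 ≤ Mf P X := by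
    have hr : ‖coordLin P X‖ ≤ Real.sqrt (Mf P X) := by
      refine (pi_norm_le_iff_of_nonneg (Real.sqrt_nonneg _)).mpr fun i => ?_
      rw [Real.norm_eq_abs, ← Real.sqrt_sq_eq_abs]
      refine Real.sqrt_le_sqrt ?_
      rw [Mf_eq, normSq_apply]
      fin_cases i <;> simp [coordLin] <;> nlinarith [sq_nonneg (Sf P X), sq_nonneg (Tf P X),
        mul_self_nonneg (Wf P X).re, mul_self_nonneg (Wf P X).im]
    calc ‖coordLin P X‖ ^ 2 ≤ Real.sqrt (Mf P X) ^ 2 := by
          exact pow_le_pow_left₀ (norm_nonneg _) hr 2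
      _ = Mf P X := Real.sq_sqrt (Mf_nonneg P X)
  rw [div_mul_eq_mul_div, one_mul, div_le_iff₀ (pow_pos (NNReal.coe_pos.mpr hK) 2)]
  calc ‖X‖ ^ 2 ≤ ((K : ℝ) * ‖coordLin P X‖) ^ 2 := pow_le_pow_left₀ (norm_nonneg _) h 2
    _ = ‖coordLin P X‖ ^ 2 * (K : ℝ) ^ 2 := by ring
    _ ≤ _ := mul_le_mul_of_nonneg_right h2 (sq_nonneg _)

/-! ### The kernels -/

/-- The positive part of the majorant. -/
def Pos (P : H3) (X : HVec) : ℝ := Sf P X ^ 2 + normSq (Wf P X)

/-- The first kernel. -/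
def Phi1 (τ : ℍ) (P : H3) (X : HVec) : ℂ :=
  (Real.sqrt τ.im : ℂ) * ee ((τ : ℂ) * Pos P X - conj (τ : ℂ) * (Tf P X ^ 2 : ℝ))

/-- The second kernel. -/
def Phi2 (τ : ℍ) (P : H3) (X : HVec) : ℂ :=
  (Real.sqrt τ.im : ℂ) * (1 - 8 * π * τ.im * Tf P X ^ 2 : ℝ) *
    ee (-conj (τ : ℂ) * Pos P X + (τ : ℂ) * (Tf P X ^ 2 : ℝ))

/-- `r τ`. -/
def dilate (r : ℝ) (hr : 0 < r) (τ : ℍ) : ℍ :=
  ⟨(r : ℂ) * τ, by simpa using mul_pos hr τ.im_pos⟩

theorem im_dilate (r : ℝ) (hr : 0 < r) (τ : ℍ) : (dilate r hr τ).im = r * τ.im := by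
  show ((r : ℂ) * (τ : ℂ)).im = _
  simp

/-- `-1 / τ`. -/
def negInv (τ : ℍ) : ℍ :=
  ⟨-1 / (τ : ℂ), by
    rw [neg_div, one_div, neg_im, Complex.inv_im, neg_div, neg_neg]
    exact div_pos τ.im_pos (normSq_pos.mpr τ.ne_zero)⟩

theorem coe_negInv (τ : ℍ) : (negInv τ : ℂ) = -1 / (τ : ℂ) := rfl

theorem im_negInv (τ : ℍ) : (negInv τ).im = τ.im / normSq (τ : ℂ) := by
  show (-1 / (τ : ℂ)).im = _
  rw [neg_div, one_div, neg_im, Complex.inv_im]
  simp [neg_div]

/-- What is used about a kernel. -/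
structure IsKernel (s : ℤ) (κ : ℂ) (Φ : ℍ → H3 → HVec → ℂ) : Prop where
  scale : ∀ r : ℝ, ∀ hr : 0 < r, ∀ τ P X,
    Φ τ P (r • X) = (r : ℂ)⁻¹ * Φ (dilate (r ^ 2) (pow_pos hr 2) τ) P X
  vadd : ∀ τ P X, Φ ((1 : ℝ) +ᵥ τ) P X = ee (s * Qf X) * Φ τ P X
  invariant : ∀ g : GL (Fin 2) ℂ, ‖g.val.det‖ = 1 → ∀ τ P X,
    Φ τ (g • P) (act g.val X) = Φ τ P X
  bound : ∀ τ P X, ‖Φ τ P X‖ ≤ 8 * Real.sqrt τ.im * Real.exp (-(π * τ.im) * Mf P X)
  continuous_pt : ∀ τ X, Continuous fun P => Φ τ P X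
  continuous_vec : ∀ τ P, Continuous (Φ τ P)
  even : ∀ τ P X, Φ τ P (-X) = Φ τ P X
  fourier : ∀ τ P Z, ∫ X : HVec, ee (-(Bf X Z : ℂ)) * Φ τ P X = κ / τ * Φ (negInv τ) P Z

theorem Pos_smul (r : ℝ) (P : H3) (X : HVec) : Pos P (r • X) = r ^ 2 * Pos P X := by
  have h := (coordLin P).map_smul r X
  have hS : Sf P (r • X) = r * Sf P X := congrFun h 0
  have h1 : (Wf P (r • X)).re = r * (Wf P X).re := congrFun h 1
  have h2 : (Wf P (r • X)).im = r * (Wf P X).im := congrFun h 2
  rw [Pos, Pos, normSq_apply, normSq_apply, hS, h1, h2]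
  ring

theorem Tf_smul_vec (r : ℝ) (P : H3) (X : HVec) : Tf P (r • X) = r * Tf P X :=
  congrFun ((coordLin P).map_smul r X) 3

theorem Qf_eq_Pos (P : H3) (X : HVec) : Qf X = Pos P X - Tf P X ^ 2 := Qf_eq_coords P X

theorem Mf_eq_Pos (P : H3) (X : HVec) : Mf P X = Pos P X + Tf P X ^ 2 := Mf_eq P X

theorem parts_neg (P : H3) (X : HVec) :
    Pos P (-X) = Pos P X ∧ Tf P (-X) ^ 2 = Tf P X ^ 2 := by
  rw [← neg_one_smul ℝ X, Pos_smul, Tf_smul_vec]
  constructor <;> ring

theorem sqrt_im_dilate {r : ℝ} (hr : 0 < r) (τ : ℍ) :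
    Real.sqrt τ.im = r⁻¹ * Real.sqrt (dilate (r ^ 2) (pow_pos hr 2) τ).im := by
  rw [im_dilate, Real.sqrt_mul (sq_nonneg r), Real.sqrt_sq hr.le, inv_mul_cancel_left₀ hr.ne']

theorem continuous_Sf (X : HVec) : Continuous fun P => Sf P X := by
  unfold Sf
  exact Continuous.div (((continuous_const.sub (continuous_const.mul (continuous_re.comp
    (H3.continuous_z.mul continuous_const)))).add (continuous_const.mul
      ((continuous_normSq.comp H3.continuous_z).sub (H3.continuous_t.pow 2)))))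
    (continuous_const.mul H3.continuous_t) fun P => mul_ne_zero two_ne_zero P.t_ne_zero

theorem continuous_Tf (X : HVec) : Continuous fun P => Tf P X := by
  unfold Tf
  exact Continuous.div (((continuous_const.sub (continuous_const.mul (continuous_re.comp
    (H3.continuous_z.mul continuous_const)))).add (continuous_const.mul
      ((continuous_normSq.comp H3.continuous_z).add (H3.continuous_t.pow 2)))))
    (continuous_const.mul H3.continuous_t) fun P => mul_ne_zero two_ne_zero P.t_ne_zero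

theorem continuous_Pos (X : HVec) : Continuous fun P => Pos P X :=
  ((continuous_Sf X).pow 2).add (continuous_normSq.comp
    (continuous_const.sub (continuous_const.mul H3.continuous_z)))

theorem continuous_coord (P : H3) : Continuous (coordLin P) :=
  (coordLin P).continuous_of_finiteDimensional

theorem continuous_Pos_vec (P : H3) : Continuous fun X => Pos P X := by
  have h := continuous_pi_iff.mp (continuous_coord P)
  show Continuous fun X => (coordLin P X) 0 ^ 2 + normSq (Wf P X)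
  simp only [normSq_apply]
  exact ((h 0).pow 2).add (((h 1).mul (h 1)).add ((h 2).mul (h 2)))

theorem continuous_Tf_vec (P : H3) : Continuous fun X => Tf P X :=
  continuous_pi_iff.mp (continuous_coord P) 3

theorem invariant_parts {g : GL (Fin 2) ℂ} (hg : ‖g.val.det‖ = 1) (P : H3) (X : HVec) :
    Pos (g • P) (act g.val X) = Pos P X ∧ Tf (g • P) (act g.val X) = Tf P X := by
  have hT : Tf (g • P) (act g.val X) = Tf P X := by rw [Tf_smul, hg, one_mul]
  have hM := Mf_smul g P X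
  rw [Complex.normSq_eq_norm_sq, hg, one_pow, one_mul, Mf_eq_Pos, Mf_eq_Pos, hT] at hM
  exact ⟨by linarith, hT⟩

/-- Fourier transform in the coordinates at `P`. -/
theorem integral_coord (P : H3) (f : Fin 4 → ℝ → ℂ) :
    ∫ X : HVec, ∏ i, f i (coordLin P X i) =
      ((4 / Real.sqrt 3 : ℝ) : ℂ) * ∏ i, ∫ x : ℝ, f i x := by
  have hdet : LinearMap.det (coordLin P) ≠ 0 := fun h => by
    have h1 := abs_det_coordLin P
    rw [h, abs_zero] at h1
    have h2 : 0 < Real.sqrt 3 / 4 := by positivity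
    linarith
  have hemb : MeasurableEmbedding (coordLin P) :=
    ((LinearMap.equivOfDetNeZero (coordLin P) hdet).toContinuousLinearEquiv.toHomeomorph
      ).measurableEmbedding
  have h := hemb.integral_map (μ := volume) fun Y : HVec => ∏ i, f i (Y i)
  rw [Real.map_linearMap_volume_pi_eq_smul_volume_pi hdet, integral_smul_measure,
    ENNReal.toReal_ofReal (abs_nonneg _), abs_inv, abs_det_coordLin,
    integral_fintype_prod_volume_eq_prod] at h
  rw [← h, Complex.real_smul, inv_div]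

theorem gaussRoot_prod (τ : ℍ) :
    gaussRoot τ ^ 3 * conj (gaussRoot τ) = I / (4 * (τ : ℂ) * (‖(τ : ℂ)‖ : ℂ)) := by
  have hn : ((‖(τ : ℂ)‖ : ℝ) : ℂ) ≠ 0 := by exact_mod_cast norm_ne_zero_iff.mpr τ.ne_zero
  have hτ := τ.ne_zero
  rw [show gaussRoot τ ^ 3 * conj (gaussRoot τ)
      = gaussRoot τ ^ 2 * (gaussRoot τ * conj (gaussRoot τ)) by ring,
    Complex.mul_conj, Complex.normSq_eq_norm_sq, norm_gaussRoot_sq hτ, gaussRoot_sq hτ]
  push_cast
  field_simp
  ring

theorem sqrt_im_eq (τ : ℍ) :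
    Real.sqrt τ.im = ‖(τ : ℂ)‖ * Real.sqrt (negInv τ).im := by
  rw [im_negInv, Complex.normSq_eq_norm_sq, Real.sqrt_div τ.im_pos.le,
    Real.sqrt_sq (norm_nonneg _), mul_div_cancel₀]
  exact norm_ne_zero_iff.mpr τ.ne_zero

theorem isKernel_Phi1 : IsKernel 1 (I / (Real.sqrt 3 : ℂ)) Phi1 where
  even τ P X := by
    obtain ⟨h1, h2⟩ := parts_neg P X
    rw [Phi1, Phi1, h1, h2]
  scale r hr τ P X := by
    rw [Phi1, Phi1, sqrt_im_dilate hr τ, Pos_smul, Tf_smul_vec]
    push_cast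
    rw [mul_assoc]
    congr 3
    simp [dilate]
    ring
  vadd τ P X := by
    rw [Phi1, Phi1, vadd_im, mul_left_comm, ← ee_add, Qf_eq_Pos P X]
    congr 2
    simp [coe_vadd]
    ring
  invariant g hg τ P X := by
    obtain ⟨h1, h2⟩ := invariant_parts hg P X
    rw [Phi1, Phi1, h1, h2]
  bound τ P X := by
    rw [Phi1, norm_mul, norm_ee, Complex.norm_real, Real.norm_of_nonneg (Real.sqrt_nonneg _)]
    have h := Mf_nonneg P X
    have hv := τ.im_pos
    have he : ((τ : ℂ) * Pos P X - conj (τ : ℂ) * (Tf P X ^ 2 : ℝ)).im = τ.im * Mf P X := by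
      rw [Mf_eq_Pos]; simp [UpperHalfPlane.coe_im, pow_two]; ring
    rw [he]
    have h1 : Real.exp (-(2 * π * (τ.im * Mf P X))) ≤ Real.exp (-(π * τ.im) * Mf P X) :=
      Real.exp_le_exp.mpr (by nlinarith [Real.pi_pos, mul_nonneg hv.le h])
    nlinarith [Real.sqrt_nonneg τ.im, Real.exp_pos (-(2 * π * (τ.im * Mf P X))),
      Real.exp_pos (-(π * τ.im) * Mf P X)]
  continuous_pt τ X := continuous_const.mul (continuous_ee.comp
    ((continuous_const.mul (continuous_ofReal.comp (continuous_Pos X))).sub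
      (continuous_const.mul (continuous_ofReal.comp ((continuous_Tf X).pow 2)))))
  continuous_vec τ P := continuous_const.mul (continuous_ee.comp
    ((continuous_const.mul (continuous_ofReal.comp (continuous_Pos_vec P))).sub
      (continuous_const.mul (continuous_ofReal.comp ((continuous_Tf_vec P).pow 2)))))
  fourier τ P Z := by
    set ζ := coordLin P Z with hζ
    have hτ := τ.im_pos
    have hτ' : 0 < (-conj (τ : ℂ)).im := by simpa using hτ
    let f : Fin 4 → ℝ → ℂ := ![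
      fun x => cexp ((2 * π * I * τ) * (x : ℂ) ^ 2 + (-4 * π * I * ζ 0) * x),
      fun x => cexp ((2 * π * I * τ) * (x : ℂ) ^ 2 + (-4 * π * I * ζ 1) * x),
      fun x => cexp ((2 * π * I * τ) * (x : ℂ) ^ 2 + (-4 * π * I * ζ 2) * x),
      fun x => cexp ((2 * π * I * (-conj (τ : ℂ))) * (x : ℂ) ^ 2
        + (-4 * π * I * ((-ζ 3 : ℝ) : ℂ)) * x)]
    have hint : ∀ X, ee (-(Bf X Z : ℂ)) * Phi1 τ P X
        = (Real.sqrt τ.im : ℂ) * ∏ i, f i (coordLin P X i) := by
      intro X
      rw [Phi1, mul_left_comm, ← ee_add, Bf_coord P X Z, ← hζ, Fin.prod_univ_four]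
      simp only [f, Matrix.cons_val_zero, Matrix.cons_val_one, Matrix.cons_val_two,
        Matrix.cons_val_three, Matrix.head_cons, Matrix.tail_cons]
      rw [← Complex.exp_add, ← Complex.exp_add, ← Complex.exp_add, ee]
      congr 2
      simp only [coordLin, Pos, normSq_apply, LinearMap.coe_mk, AddHom.coe_mk,
        Matrix.cons_val_zero, Matrix.cons_val_one, Matrix.cons_val]
      push_cast
      ring
    simp only [hint]
    rw [integral_const_mul, integral_coord, Fin.prod_univ_four]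
    simp only [f, Matrix.cons_val_zero, Matrix.cons_val_one, Matrix.cons_val_two,
      Matrix.cons_val_three, Matrix.head_cons, Matrix.tail_cons]
    rw [integral_quad hτ, integral_quad hτ, integral_quad hτ, integral_quad hτ',
      ← conj_gaussRoot hτ, Phi1, sqrt_im_eq τ]
    rw [show ee ((negInv τ : ℂ) * Pos P Z - conj (negInv τ : ℂ) * (Tf P Z ^ 2 : ℝ))
        = ee (-1 / (τ : ℂ) * (ζ 0 : ℂ) ^ 2) * ee (-1 / (τ : ℂ) * (ζ 1 : ℂ) ^ 2)
          * ee (-1 / (τ : ℂ) * (ζ 2 : ℂ) ^ 2)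
          * ee (-1 / (-conj (τ : ℂ)) * ((-ζ 3 : ℝ) : ℂ) ^ 2) by
      rw [← ee_add, ← ee_add, ← ee_add, coe_negInv]
      congr 1
      simp only [hζ, coordLin, Pos, normSq_apply, LinearMap.coe_mk, AddHom.coe_mk,
        Matrix.cons_val_zero, Matrix.cons_val_one, Matrix.cons_val, map_div₀, map_neg, map_one]
      push_cast
      ring]
    have hg := gaussRoot_prod τ
    have h3 : ((Real.sqrt 3 : ℝ) : ℂ) ≠ 0 := by
      exact_mod_cast (by positivity : Real.sqrt 3 ≠ 0)
    have hn : ((‖(τ : ℂ)‖ : ℝ) : ℂ) ≠ 0 := by exact_mod_cast norm_ne_zero_iff.mpr τ.ne_zero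
    have hτ0 := τ.ne_zero
    generalize ee (-1 / (τ : ℂ) * (ζ 0 : ℂ) ^ 2) = e0
    generalize ee (-1 / (τ : ℂ) * (ζ 1 : ℂ) ^ 2) = e1
    generalize ee (-1 / (τ : ℂ) * (ζ 2 : ℂ) ^ 2) = e2
    generalize ee (-1 / (-conj (τ : ℂ)) * ((-ζ 3 : ℝ) : ℂ) ^ 2) = e3
    generalize conj (gaussRoot τ) = g' at hg ⊢
    generalize gaussRoot τ = g at hg ⊢
    push_cast
    field_simp at hg ⊢
    linear_combination (norm := ring1)
      (e0 * e1 * e2 * e3 * ((Real.sqrt (negInv τ).im : ℝ) : ℂ)) * hg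

theorem isKernel_Phi2 : IsKernel (-1) (-(I / (Real.sqrt 3 : ℂ))) Phi2 where
  even τ P X := by
    obtain ⟨h1, h2⟩ := parts_neg P X
    rw [Phi2, Phi2, h1, h2]
  scale r hr τ P X := by
    rw [Phi2, Phi2, Pos_smul, Tf_smul_vec, im_dilate, Real.sqrt_mul (sq_nonneg r),
      Real.sqrt_sq hr.le]
    have : (r : ℂ) ≠ 0 := by exact_mod_cast hr.ne'
    push_cast
    rw [show ((dilate (r ^ 2) (pow_pos hr 2) τ : ℍ) : ℂ) = (r : ℂ) ^ 2 * τ by simp [dilate]]
    simp only [map_mul, map_pow, conj_ofReal]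
    field_simp
  vadd τ P X := by
    rw [Phi2, Phi2, vadd_im, mul_left_comm, ← ee_add, Qf_eq_Pos P X]
    congr 2
    simp [coe_vadd]
    ring
  invariant g hg τ P X := by
    obtain ⟨h1, h2⟩ := invariant_parts hg P X
    rw [Phi2, Phi2, h1, h2]
  bound τ P X := by
    rw [Phi2, norm_mul, norm_mul, norm_ee, Complex.norm_real, Complex.norm_real,
      Real.norm_of_nonneg (Real.sqrt_nonneg _), Real.norm_eq_abs]
    have hT := Tf_sq_le_Mf P X
    have hv := τ.im_pos
    have he : (-conj (τ : ℂ) * Pos P X + (τ : ℂ) * (Tf P X ^ 2 : ℝ)).im = τ.im * Mf P X := by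
      rw [Mf_eq_Pos]; simp [UpperHalfPlane.coe_im, pow_two]; ring
    rw [he]
    set y := π * τ.im * Mf P X with hy
    have hy0 : 0 ≤ y := by have := Mf_nonneg P X; positivity
    have hb : π * τ.im * Tf P X ^ 2 ≤ y := mul_le_mul_of_nonneg_left hT (by positivity)
    have hnn : 0 ≤ π * τ.im * Tf P X ^ 2 := by positivity
    have habs : |1 - 8 * π * τ.im * Tf P X ^ 2| ≤ 8 * Real.exp y := by
      have := Real.add_one_le_exp y
      rw [abs_le]
      constructor <;> nlinarith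
    have h2 : Real.exp (-(2 * π * (τ.im * Mf P X))) = Real.exp (-y) * Real.exp (-y) := by
      rw [← Real.exp_add, hy]; ring_nf
    rw [h2, show -(π * τ.im) * Mf P X = -y by rw [hy]; ring]
    calc Real.sqrt τ.im * |1 - 8 * π * τ.im * Tf P X ^ 2| * (Real.exp (-y) * Real.exp (-y))
        ≤ Real.sqrt τ.im * (8 * Real.exp y) * (Real.exp (-y) * Real.exp (-y)) := by
          gcongr
      _ = 8 * Real.sqrt τ.im * Real.exp (-y) := by
          have : Real.exp y * Real.exp (-y) = 1 := by rw [← Real.exp_add]; simp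
          linear_combination (8 * Real.sqrt τ.im * Real.exp (-y)) * this
  continuous_pt τ X := (continuous_const.mul (continuous_ofReal.comp
    (continuous_const.sub (continuous_const.mul ((continuous_Tf X).pow 2))))).mul
      (continuous_ee.comp
    ((continuous_const.mul (continuous_ofReal.comp (continuous_Pos X))).add
      (continuous_const.mul (continuous_ofReal.comp ((continuous_Tf X).pow 2)))))
  continuous_vec τ P := (continuous_const.mul (continuous_ofReal.comp
    (continuous_const.sub (continuous_const.mul ((continuous_Tf_vec P).pow 2))))).mul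
    (continuous_ee.comp
    ((continuous_const.mul (continuous_ofReal.comp (continuous_Pos_vec P))).add
      (continuous_const.mul (continuous_ofReal.comp ((continuous_Tf_vec P).pow 2)))))
  fourier τ P Z := by
    set ζ := coordLin P Z with hζ
    have hτ := τ.im_pos
    have hτ' : 0 < (-conj (τ : ℂ)).im := by simpa using hτ
    set k : ℂ := ((8 * π * τ.im : ℝ) : ℂ) with hk
    let E : ℝ → ℂ := fun x => cexp ((2 * π * I * τ) * (x : ℂ) ^ 2
      + (-4 * π * I * ((-ζ 3 : ℝ) : ℂ)) * x)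
    let f : Fin 4 → ℝ → ℂ := ![
      fun x => cexp ((2 * π * I * (-conj (τ : ℂ))) * (x : ℂ) ^ 2 + (-4 * π * I * ζ 0) * x),
      fun x => cexp ((2 * π * I * (-conj (τ : ℂ))) * (x : ℂ) ^ 2 + (-4 * π * I * ζ 1) * x),
      fun x => cexp ((2 * π * I * (-conj (τ : ℂ))) * (x : ℂ) ^ 2 + (-4 * π * I * ζ 2) * x),
      fun x => E x - k * ((x : ℂ) ^ 2 * E x)]
    have hint : ∀ X, ee (-(Bf X Z : ℂ)) * Phi2 τ P X
        = (Real.sqrt τ.im : ℂ) * ∏ i, f i (coordLin P X i) := by
      intro X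
      rw [Phi2, Bf_coord P X Z, ← hζ, Fin.prod_univ_four]
      simp only [f, E, hk, Matrix.cons_val_zero, Matrix.cons_val_one, Matrix.cons_val_two,
        Matrix.cons_val_three, Matrix.head_cons, Matrix.tail_cons]
      have hsplit : ∀ t e : ℂ, e - k * (t * e) = (1 - k * t) * e := fun t e => by ring
      rw [← hk, hsplit, ← mul_assoc]
      simp only [coordLin, LinearMap.coe_mk, AddHom.coe_mk,
        Matrix.cons_val_zero, Matrix.cons_val_one, Matrix.cons_val]
      rw [show ((1 - 8 * π * τ.im * Tf P X ^ 2 : ℝ) : ℂ) = 1 - k * (Tf P X : ℂ) ^ 2 by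
        rw [hk]; push_cast; ring]
      generalize hq : (1 - k * (Tf P X : ℂ) ^ 2) = q
      have hr : ∀ x y z w u : ℂ, u * (x * y * z * (q * w)) = u * q * (x * y * z * w) :=
        fun _ _ _ _ _ => by ring
      have hl : ∀ a b u : ℂ, a * (u * q) * b = u * q * (a * b) := fun _ _ _ => by ring
      rw [hr, hl, ← ee_add, ← Complex.exp_add, ← Complex.exp_add, ← Complex.exp_add, ee]
      congr 2
      simp only [Pos, normSq_apply]
      push_cast
      ring
    simp only [hint]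
    rw [integral_const_mul, integral_coord, Fin.prod_univ_four]
    simp only [f, E, Matrix.cons_val_zero, Matrix.cons_val_one, Matrix.cons_val_two,
      Matrix.cons_val_three, Matrix.head_cons, Matrix.tail_cons]
    rw [integral_quad hτ', integral_quad hτ', integral_quad hτ',
      integral_sub (integrable_quad hτ _) ((integrable_sq_quad hτ _).const_mul k),
      integral_const_mul, integral_quad hτ, integral_mul_sq_quad hτ,
      ← conj_gaussRoot hτ, Phi2, sqrt_im_eq τ]
    rw [show ee (-conj (negInv τ : ℂ) * Pos P Z + (negInv τ : ℂ) * (Tf P Z ^ 2 : ℝ))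
        = ee (-1 / (-conj (τ : ℂ)) * (ζ 0 : ℂ) ^ 2) * ee (-1 / (-conj (τ : ℂ)) * (ζ 1 : ℂ) ^ 2)
          * ee (-1 / (-conj (τ : ℂ)) * (ζ 2 : ℂ) ^ 2)
          * ee (-1 / (τ : ℂ) * ((-ζ 3 : ℝ) : ℂ) ^ 2) by
      rw [← ee_add, ← ee_add, ← ee_add, coe_negInv]
      congr 1
      simp only [hζ, coordLin, Pos, normSq_apply, LinearMap.coe_mk, AddHom.coe_mk,
        Matrix.cons_val_zero, Matrix.cons_val_one, Matrix.cons_val, map_div₀, map_neg, map_one]
      push_cast
      ring]
    have hg := congrArg (starRingEnd ℂ) (gaussRoot_prod τ)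
    simp only [map_mul, map_pow, Complex.conj_conj, map_div₀, Complex.conj_I, map_ofNat,
      Complex.conj_ofReal] at hg
    have h3 : ((Real.sqrt 3 : ℝ) : ℂ) ≠ 0 := by
      exact_mod_cast (by positivity : Real.sqrt 3 ≠ 0)
    have hn : ((‖(τ : ℂ)‖ : ℝ) : ℂ) ≠ 0 := by exact_mod_cast norm_ne_zero_iff.mpr τ.ne_zero
    have hτ0 := τ.ne_zero
    have hc0 : conj (τ : ℂ) ≠ 0 := by simpa using hτ0
    have hπ : (π : ℂ) ≠ 0 := by exact_mod_cast Real.pi_ne_zero
    have hv : ((τ.im : ℝ) : ℂ) * (2 * I) = (τ : ℂ) - conj (τ : ℂ) := by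
      rw [Complex.sub_conj, UpperHalfPlane.coe_im]; push_cast; ring
    have hP : Tf P Z = ζ 3 := rfl
    rw [hP, im_negInv]
    generalize Real.sqrt (τ.im / normSq (τ : ℂ)) = w
    generalize ee (-1 / (-conj (τ : ℂ)) * (ζ 0 : ℂ) ^ 2) = e0
    generalize ee (-1 / (-conj (τ : ℂ)) * (ζ 1 : ℂ) ^ 2) = e1
    generalize ee (-1 / (-conj (τ : ℂ)) * (ζ 2 : ℂ) ^ 2) = e2
    generalize ee (-1 / (τ : ℂ) * ((-ζ 3 : ℝ) : ℂ) ^ 2) = e3
    rw [hk]
    push_cast
    rw [← Complex.mul_conj (τ : ℂ)]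
    generalize conj (gaussRoot τ) = g' at hg ⊢
    generalize gaussRoot τ = g at hg ⊢
    generalize ((τ.im : ℝ) : ℂ) = v at hv ⊢
    generalize ((‖(τ : ℂ)‖ : ℝ) : ℂ) = n at hn hg ⊢
    generalize conj (τ : ℂ) = t' at hc0 hg hv ⊢
    generalize (τ : ℂ) = t at hτ0 hg hv ⊢
    generalize ((w : ℝ) : ℂ) = w'
    generalize ((ζ 3 : ℝ) : ℂ) = z
    rw [show v = (t - t') / (2 * I) by rw [eq_div_iff (by simp)]; exact hv]
    rw [show g' * e0 * (g' * e1) * (g' * e2) * (g * e3 - 8 * π * ((t - t') / (2 * I))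
        * (((-z) ^ 2 / t ^ 2 - 1 / (4 * π * I * t)) * (g * e3)))
        = (g' ^ 3 * g) * (e0 * e1 * e2 * e3) * (1 - 8 * π * ((t - t') / (2 * I))
          * ((-z) ^ 2 / t ^ 2 - 1 / (4 * π * I * t))) by ring, hg]
    have hI : I ^ 2 = -1 := I_sq
    field_simp
    ring_nf
    simp [hI]
    ring

end FLTAgent.LanglandsTunnell.Lift
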