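import Fermat.Agent.LanglandsTunnell.Lift.Poisson

/-!
# The level `3 N²` law of the theta series of the lift, and the family closed under `SL(2, ℤ)`

`IsKernel.thetaH_slash` is the weight one law of `thetaH` under `Γ₀(3 N²)`;
`IsKernel.famSum_slash` is the law of the finite family `famSum` under all of `SL(2, ℤ)`, used
for the growth at every cusp.  Both follow from `Poisson`.
-/

set_option autoImplicit false

noncomputable section

namespace FLTAgent.LanglandsTunnell.Lift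

open FLTAgent.LanglandsTunnell MeasureTheory Complex Matrix
open UpperHalfPlane hiding I
open scoped Real MatrixGroups Classical

variable {s : ℤ} {κ : ℂ} {Φ : ℍ → H3 → HVec → ℂ}

/-- The norm of the off diagonal entry. -/
def offNorm (n : Fin 4 → ℤ) : ℤ := n 2 * n 2 - n 2 * n 3 + n 3 * n 3

/-- The support of the weight of the lift. -/
def Supp (N : ℕ) : Set (Fin 4 → ℤ) :=
  {n | (N : ℤ) ∣ n 0 ∧ (N : ℤ) ∣ n 1 ∧ IsCoprime (offNorm n) (N : ℤ)}

theorem mem_Supp_congr {N : ℕ} {n n' : Fin 4 → ℤ} (h : ∀ i, (N : ℤ) ∣ n' i - n i) :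
    n ∈ Supp N → n' ∈ Supp N := by
  rintro ⟨h0, h1, h2⟩
  refine ⟨?_, ?_, ?_⟩
  · simpa using (h 0).add h0
  · simpa using (h 1).add h1
  · have hd : (N : ℤ) ∣ offNorm n' - offNorm n := by
      have e : offNorm n' - offNorm n = (n' 2 - n 2) * (n' 2 + n 2 - n' 3)
          + (n' 3 - n 3) * (n' 3 + n 3 - n 2) := by simp only [offNorm]; ring
      rw [e]
      exact ((h 2).mul_right _).add ((h 3).mul_right _)
    obtain ⟨k, hk⟩ := hd
    rw [show offNorm n' = offNorm n + (N : ℤ) * k by linear_combination hk]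
    exact h2.add_mul_left_left k

/-- The theta series of the lift. -/
def thetaH (Φ : ℍ → H3 → HVec → ℂ) (N : ℕ) (τ : ℍ) (P : H3) : ℂ :=
  ∑' n : Fin 4 → ℤ, (Supp N).indicator (fun n => Φ τ P (latVec n)) n

theorem IsKernel.summable_indicator (hΦ : IsKernel s κ Φ) (S : Set (Fin 4 → ℤ)) (τ : ℍ) (P : H3) :
    Summable fun n => S.indicator (fun n => Φ τ P (latVec n)) n := by
  refine Summable.indicator (Summable.of_norm ?_) S
  simpa using hΦ.summable_lat τ P (L := LinearMap.id) Function.injective_id 0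

theorem latVec_add (n m : Fin 4 → ℤ) : latVec (n + m) = latVec n + latVec m := by
  ext i; simp [latVec_apply]

theorem latVec_smul (k : ℤ) (n : Fin 4 → ℤ) : latVec (k • n) = (k : ℝ) • latVec n := by
  ext i; simp [latVec_apply]

/-- The residue of an integral vector. -/
def resVec (N : ℕ) (n : Fin 4 → ℤ) : Fin 4 → ZMod N := fun i => (n i : ZMod N)

/-- The sum over one residue class. -/
def cosetSum (Φ : ℍ → H3 → HVec → ℂ) (N : ℕ) (r : Fin 4 → ZMod N) (τ : ℍ) (P : H3) : ℂ :=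
  ∑' n : Fin 4 → ℤ, (resVec N ⁻¹' {r}).indicator (fun n => Φ τ P (latVec n)) n

theorem cosetSum_eq (hΦ : IsKernel s κ Φ) {N : ℕ} (hN : 0 < N) (r : Fin 4 → ℤ) (τ : ℍ) (P : H3) :
    cosetSum Φ N (resVec N r) τ P = (N : ℂ)⁻¹ *
      thetaSum Φ (dilate ((N : ℝ) ^ 2) (by positivity) τ) P ((N : ℝ)⁻¹ • latVec r) 0 := by
  have hN' : (N : ℤ) ≠ 0 := by exact_mod_cast hN.ne'
  have hNr : (N : ℝ) ≠ 0 := by exact_mod_cast hN.ne'
  let e : (Fin 4 → ℤ) → (Fin 4 → ℤ) := fun m => r + (N : ℤ) • m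
  have he : Function.Injective e := fun m m' h => by
    have := add_left_cancel h
    exact smul_right_injective _ hN' this
  rw [cosetSum, ← he.tsum_eq (f := fun n =>
    (resVec N ⁻¹' {resVec N r}).indicator (fun n => Φ τ P (latVec n)) n), thetaSum, ← tsum_mul_left]
  · refine tsum_congr fun m => ?_
    have hm : e m ∈ resVec N ⁻¹' {resVec N r} := by
      funext i; simp [resVec, e]
    rw [Set.indicator_of_mem hm]
    rw [show latVec (e m) = (N : ℝ) • (latVec m + (N : ℝ)⁻¹ • latVec r) by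
        rw [latVec_add, latVec_smul, smul_add, smul_smul, mul_inv_cancel₀ hNr, one_smul, add_comm]
        simp,
      hΦ.scale _ (by exact_mod_cast hN)]
    simp [Bf, ee_zero]
  · intro n hn
    have hmem : n ∈ resVec N ⁻¹' {resVec N r} := by
      by_contra h
      exact hn (Set.indicator_of_notMem h _)
    have hdvd : ∀ i, (N : ℤ) ∣ n i - r i := fun i =>
      (ZMod.intCast_eq_intCast_iff_dvd_sub _ _ _).mp (congrFun hmem i).symm
    choose m hm using hdvd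
    exact ⟨m, by
      funext i; simp only [e, Pi.add_apply, Pi.smul_apply, smul_eq_mul]
      linear_combination -hm i⟩

theorem IsKernel.cosetSum_slash (hΦ : IsKernel s κ Φ) (hs : s * s = 1) (hκ : κ ≠ 0) {N : ℕ}
    (hN : 0 < N) {γ : SL(2, ℤ)} (hγ : ((3 * N ^ 2 : ℕ) : ℤ) ∣ γ 1 0) (r : Fin 4 → ZMod N) (τ : ℍ)
    (P : H3) :
    cosetSum Φ N r (γ • τ) P = (WeightOneWiring.chiInt (γ 1 1) : ℂ) *
      ((γ 1 0 : ℂ) * τ + γ 1 1) * cosetSum Φ N (((γ 0 0 : ℤ) : ZMod N) • r) τ P := by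
  obtain ⟨r₀, rfl⟩ : ∃ r₀, resVec N r₀ = r :=
    ⟨fun i => (r i : ZMod N).cast, funext fun i => ZMod.intCast_zmod_cast (r i)⟩
  have hres : ((γ 0 0 : ℤ) : ZMod N) • resVec N r₀ = resVec N ((γ 0 0 : ℤ) • r₀) := by
    funext i; simp [resVec]
  obtain ⟨c, hc⟩ := hγ
  push_cast at hc
  set γ' : SL(2, ℤ) := ⟨!![γ 0 0, γ 0 1 * (N : ℤ) ^ 2; 3 * c, γ 1 1], by
    have := (Matrix.det_fin_two γ.1).symm.trans γ.2
    rw [Matrix.det_fin_two_of]
    linear_combination this + γ 0 1 * hc⟩ with hγ'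
  have hN' : (0 : ℝ) < (N : ℝ) ^ 2 := by positivity
  have hmove : dilate ((N : ℝ) ^ 2) hN' (γ • τ) = γ' • dilate ((N : ℝ) ^ 2) hN' τ := by
    refine UpperHalfPlane.ext ?_
    show (((N : ℝ) ^ 2 : ℝ) : ℂ) * ((γ • τ : ℍ) : ℂ) = _
    rw [coe_smul_SL, coe_smul_SL, show ((dilate ((N : ℝ) ^ 2) hN' τ : ℍ) : ℂ)
      = (((N : ℝ) ^ 2 : ℝ) : ℂ) * (τ : ℂ) from rfl, mul_div_assoc']
    simp [hγ', hc]
    congr 1 <;> ring
  have hlaw := law_Gamma0 hΦ hs hκ γ' (by simp [hγ'])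
  rw [hres, cosetSum_eq hΦ hN, cosetSum_eq hΦ hN, hmove]
  set σ := dilate ((N : ℝ) ^ 2) hN' τ with hσ
  have h0 : ∀ x : ℍ, thetaT s Φ x P ((N : ℝ)⁻¹ • latVec r₀) 0 =
      thetaSum Φ x P ((N : ℝ)⁻¹ • latVec r₀) 0 := fun x => by simp [thetaT, Bf, ee_zero]
  rw [← h0, hlaw]
  have e11 : γ' 1 1 = γ 1 1 := rfl
  have e10 : ((γ' 1 0 : ℤ) : ℂ) * σ = (γ 1 0 : ℂ) * τ := by
    rw [hσ, show ((dilate ((N : ℝ) ^ 2) hN' τ : ℍ) : ℂ)
      = (((N : ℝ) ^ 2 : ℝ) : ℂ) * (τ : ℂ) from rfl, hc, show γ' 1 0 = 3 * c from rfl]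
    push_cast
    ring
  have hv : thetaT s Φ σ P (((γ' 0 0 : ℤ) : ℝ) • ((N : ℝ)⁻¹ • latVec r₀) + ((γ' 1 0 : ℤ) : ℝ) • 0)
      (((γ' 0 1 : ℤ) : ℝ) • ((N : ℝ)⁻¹ • latVec r₀) + ((γ' 1 1 : ℤ) : ℝ) • 0)
      = thetaSum Φ σ P ((N : ℝ)⁻¹ • latVec ((γ 0 0 : ℤ) • r₀)) 0 := by
    have hNr : (N : ℝ) ≠ 0 := by exact_mod_cast hN.ne'
    simp only [smul_zero, add_zero]
    rw [show ((γ' 0 0 : ℤ) : ℝ) • ((N : ℝ)⁻¹ • latVec r₀)
        = (N : ℝ)⁻¹ • latVec ((γ 0 0 : ℤ) • r₀) by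
      rw [latVec_smul, smul_smul, smul_smul, mul_comm, show γ' 0 0 = γ 0 0 from rfl],
      show ((γ' 0 1 : ℤ) : ℝ) • ((N : ℝ)⁻¹ • latVec r₀) = latVec ((γ 0 1 * N : ℤ) • r₀) by
      rw [latVec_smul, smul_smul, show γ' 0 1 = γ 0 1 * (N : ℤ) ^ 2 from rfl]
      push_cast
      congr 1
      field_simp]
    obtain ⟨k, hk⟩ := Qf_latVec r₀
    rw [thetaT, thetaSum, thetaSum]
    have h1 : ee ((s : ℂ) * (Bf ((N : ℝ)⁻¹ • latVec ((γ 0 0 : ℤ) • r₀))
        (latVec ((γ 0 1 * N : ℤ) • r₀)) : ℂ) / 2) = 1 := by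
      rw [latVec_smul, latVec_smul, Bf_smul_left, Bf_smul_left, Bf_smul_right, Bf_self, hk]
      have : (s : ℂ) * (((N : ℝ)⁻¹ * (((γ 0 0 : ℤ) : ℝ) * (((γ 0 1 * N : ℤ) : ℝ) * (2 * (k : ℝ))))
          : ℝ) : ℂ) / 2 = ((s * γ 0 0 * γ 0 1 * k : ℤ) : ℂ) := by
        have : (N : ℂ) ≠ 0 := by exact_mod_cast hN.ne'
        push_cast
        field_simp
      rw [this, ee_intCast]
    rw [h1, one_mul]
    refine tsum_congr fun m => ?_
    obtain ⟨j, hj⟩ := Bf_latVec m ((s * (γ 0 1 * N) : ℤ) • r₀)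
    rw [show (s : ℝ) • latVec ((γ 0 1 * N : ℤ) • r₀) = latVec ((s * (γ 0 1 * N) : ℤ) • r₀) by
      rw [← latVec_smul, smul_smul], hj, Complex.ofReal_intCast, ee_intCast,
      show Bf (latVec m) 0 = 0 by simp [Bf], Complex.ofReal_zero, ee_zero]
  rw [hv, e11, e10]
  ring

theorem thetaH_eq_sum (hΦ : IsKernel s κ Φ) {N : ℕ} [NeZero N] (τ : ℍ) (P : H3) :
    thetaH Φ N τ P = ∑ r : Fin 4 → ZMod N,
      (if (fun i => ((r i).val : ℤ)) ∈ Supp N then 1 else 0 : ℂ) * cosetSum Φ N r τ P := by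
  classical
  simp only [cosetSum, ← tsum_mul_left]
  rw [← Summable.tsum_finsetSum fun r _ => (hΦ.summable_indicator _ τ P).mul_left _]
  refine tsum_congr fun n => ?_
  have hmem : (fun i => (((resVec N n) i).val : ℤ)) ∈ Supp N ↔ n ∈ Supp N := by
    have hd : ∀ i, (N : ℤ) ∣ n i - ((resVec N n i).val : ℤ) := fun i =>
      (ZMod.intCast_eq_intCast_iff_dvd_sub _ _ _).mp (by simp [resVec])
    exact ⟨mem_Supp_congr hd, mem_Supp_congr fun i => by simpa [dvd_sub_comm] using hd i⟩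
  rw [Finset.sum_eq_single (resVec N n) (fun r _ hr => by
    rw [Set.indicator_of_notMem (fun h => hr h.symm), mul_zero]) (by simp)]
  rw [Set.indicator_of_mem (show n ∈ resVec N ⁻¹' {resVec N n} from rfl)]
  by_cases h : n ∈ Supp N
  · rw [Set.indicator_of_mem h, if_pos (hmem.mpr h), one_mul]
  · rw [Set.indicator_of_notMem h, if_neg (fun h' => h (hmem.mp h')), zero_mul]

theorem IsKernel.thetaH_slash (hΦ : IsKernel s κ Φ) (hs : s * s = 1) (hκ : κ ≠ 0) {N : ℕ}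
    (hN : 0 < N) {γ : SL(2, ℤ)} (hγ : ((3 * N ^ 2 : ℕ) : ℤ) ∣ γ 1 0) (τ : ℍ) (P : H3) :
    thetaH Φ N (γ • τ) P =
      (WeightOneWiring.chiInt (γ 1 1) : ℂ) * ((γ 1 0 : ℂ) * τ + γ 1 1) * thetaH Φ N τ P := by
  classical
  have : NeZero N := ⟨hN.ne'⟩
  set a : ZMod N := ((γ 0 0 : ℤ) : ZMod N)
  have hu : IsUnit a := by
    have hdet := congrArg (Int.cast : ℤ → ZMod N) ((Matrix.det_fin_two γ.1).symm.trans γ.2)
    have h10 : ((γ 1 0 : ℤ) : ZMod N) = 0 := by
      rw [ZMod.intCast_zmod_eq_zero_iff_dvd]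
      exact dvd_trans (Int.natCast_dvd_natCast.mpr ⟨3 * N, by ring⟩) hγ
    push_cast at hdet
    rw [h10, mul_zero, sub_zero] at hdet
    exact isUnit_iff_exists_inv.mpr ⟨_, hdet⟩
  rw [thetaH_eq_sum hΦ, thetaH_eq_sum hΦ, Finset.mul_sum,
    ← (MulAction.bijective (hu.unit)).sum_comp (fun r : Fin 4 → ZMod N =>
      (WeightOneWiring.chiInt (γ 1 1) : ℂ) * ((γ 1 0 : ℂ) * τ + γ 1 1) *
        ((if (fun i => ((r i).val : ℤ)) ∈ Supp N then 1 else 0 : ℂ) * cosetSum Φ N r τ P))]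
  refine Finset.sum_congr rfl fun r _ => ?_
  rw [hΦ.cosetSum_slash hs hκ hN hγ, Units.smul_def, IsUnit.unit_spec]
  have hiff : (fun i => ((r i).val : ℤ)) ∈ Supp N ↔ (fun i => (((a • r) i).val : ℤ)) ∈ Supp N := by
    have hval : ∀ i, (N : ℤ) ∣ ((a • r) i).val - γ 0 0 * ((r i).val : ℤ) := fun i =>
      (ZMod.intCast_eq_intCast_iff_dvd_sub _ _ _).mp (by simp [a])
    have hoff : offNorm (fun i => γ 0 0 * ((r i).val : ℤ))
        = γ 0 0 ^ 2 * offNorm (fun i => ((r i).val : ℤ)) := by simp only [offNorm]; ring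
    have hcop : IsCoprime (γ 0 0) (N : ℤ) := by
      obtain ⟨x, hx⟩ : (N : ℤ) ∣ γ 1 0 :=
        dvd_trans (Int.natCast_dvd_natCast.mpr ⟨3 * N, by ring⟩) hγ
      have hdet := (Matrix.det_fin_two γ.1).symm.trans γ.2
      exact ⟨γ 1 1, -(γ 0 1 * x), by linear_combination hdet + γ 0 1 * hx⟩
    constructor
    · rintro ⟨h0, h1, h2⟩
      refine mem_Supp_congr hval ⟨h0.mul_left _, h1.mul_left _, ?_⟩
      rw [hoff]
      exact (hcop.pow_left).mul_left h2
    · intro h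
      obtain ⟨h0, h1, h2⟩ := mem_Supp_congr (n' := fun i => γ 0 0 * ((r i).val : ℤ))
        (fun i => by simpa [dvd_sub_comm] using hval i) h
      rw [hoff] at h2
      exact ⟨hcop.symm.dvd_of_dvd_mul_left h0, hcop.symm.dvd_of_dvd_mul_left h1,
        h2.of_mul_left_right⟩
  simp only [hiff]
  ring

/-! ### The family closed under `SL(2, ℤ)` -/

/-- Translations by `M` times the lattice, in dual coordinates. -/
def perHom (M : ℕ) : (Fin 4 → ℤ) →+ (Fin 4 → ℤ) where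
  toFun l := ![-((M : ℤ) ^ 2 * l 1), -((M : ℤ) ^ 2 * l 0), (M : ℤ) ^ 2 * (2 * l 2 - l 3),
    (M : ℤ) ^ 2 * (2 * l 3 - l 2)]
  map_zero' := by ext i; fin_cases i <;> simp
  map_add' l l' := by ext i; fin_cases i <;> simp <;> ring

/-- The finite index set of the family. -/
abbrev FamIdx (M : ℕ) : Type := (Fin 4 → ℤ) ⧸ (perHom M).range

/-- A member of the family. -/
def famSum (Φ : ℍ → H3 → HVec → ℂ) (M : ℕ) (h : FamIdx M → ℂ) (τ : ℍ) (P : H3) : ℂ :=
  ∑' m : Fin 4 → ℤ, h (m : FamIdx M) * Φ τ P ((M : ℝ)⁻¹ • dualVec m)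

theorem dualVec_add (m m' : Fin 4 → ℤ) : dualVec (m + m') = dualVec m + dualVec m' := by
  rw [dualVec, latVec_add, map_add]
  rfl

theorem dualVec_perHom (M : ℕ) (l : Fin 4 → ℤ) :
    dualVec (perHom M l) = ((M : ℝ) ^ 2) • latVec l := by
  ext i
  fin_cases i <;> simp [dualVec, dualLin, latVec_apply, perHom] <;> ring

theorem perHom_injective {M : ℕ} (hM : 0 < M) : Function.Injective (perHom M) := fun l l' h => by
  have := congrArg dualVec h
  rw [dualVec_perHom, dualVec_perHom] at this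
  have h1 := smul_right_injective _ (pow_ne_zero 2 (by exact_mod_cast hM.ne' : (M : ℝ) ≠ 0)) this
  funext i
  have := congrFun h1 i
  simpa [latVec_apply] using this

theorem finite_famIdx {M : ℕ} (hM : 0 < M) : Finite (FamIdx M) := by
  have : NeZero (3 * M ^ 2) := ⟨by positivity⟩
  refine Finite.of_surjective (fun r : Fin 4 → ZMod (3 * M ^ 2) =>
    ((fun i => (r i).cast : Fin 4 → ℤ) : FamIdx M)) fun q => ?_
  obtain ⟨m, rfl⟩ := QuotientAddGroup.mk_surjective q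
  refine ⟨fun i => (m i : ZMod (3 * M ^ 2)), (QuotientAddGroup.eq).mpr ?_⟩
  have hd : ∀ i, ((3 * M ^ 2 : ℕ) : ℤ) ∣ -((m i : ZMod (3 * M ^ 2)).cast : ℤ) + m i := fun i => by
    rw [← ZMod.intCast_zmod_eq_zero_iff_dvd]
    simp
  choose k hk using hd
  refine ⟨![-(3 * k 1), -(3 * k 0), 2 * k 2 + k 3, k 2 + 2 * k 3], ?_⟩
  funext i
  fin_cases i <;> simp [perHom, hk] <;> ring

theorem ee_ofReal_eq_of_eq_add {x y : ℝ} {k : ℤ} (h : x = y + k) : ee x = ee y := by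
  rw [h]; push_cast; rw [ee_add_intCast]

/-- The Fourier transform on the family. -/
def famFourier (M : ℕ) (a : Fin 4 → ℤ) : FamIdx M → ℂ :=
  Quotient.lift (fun m => ee (Bf ((M : ℝ)⁻¹ • dualVec a) ((M : ℝ)⁻¹ • dualVec m))) (by
    intro m m' hmm
    obtain ⟨l, hl⟩ := QuotientAddGroup.leftRel_apply.mp hmm
    obtain ⟨k, hk⟩ := Bf_latVec_dualVec l a
    rcases Nat.eq_zero_or_pos M with rfl | hM
    · simp [Bf]
    refine (ee_ofReal_eq_of_eq_add (k := k) ?_).symm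
    rw [show m' = m + perHom M l by rw [hl]; abel, dualVec_add, dualVec_perHom, smul_add,
      Bf_add_right, Bf_smul_left _ _ ((M : ℝ)⁻¹ • (M : ℝ) ^ 2 • latVec l), Bf_smul_right,
      Bf_smul_right, Bf_smul_right, Bf_comm (dualVec a) (latVec l), hk]
    field_simp)

/-- The phase of `τ ↦ τ + 1` on the family. -/
def famPhase (s : ℤ) (M : ℕ) (n : ℤ) : FamIdx M → ℂ :=
  Quotient.lift (fun m => ee (s * n * (Qf ((M : ℝ)⁻¹ • dualVec m) : ℂ))) (by
    intro m m' hmm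
    obtain ⟨l, hl⟩ := QuotientAddGroup.leftRel_apply.mp hmm
    obtain ⟨k, hk⟩ := Bf_latVec_dualVec l m
    obtain ⟨q, hq⟩ := Qf_latVec l
    rcases Nat.eq_zero_or_pos M with rfl | hM
    · simp [Qf]
    have hM' : (M : ℝ) ≠ 0 := by exact_mod_cast hM.ne'
    have e : Qf ((M : ℝ)⁻¹ • dualVec m') = Qf ((M : ℝ)⁻¹ • dualVec m) + (k + M ^ 2 * q : ℤ) := by
      rw [show m' = m + perHom M l by rw [hl]; abel, dualVec_add, dualVec_perHom, smul_add,
        Qf_add, Bf_smul_left, Bf_smul_right, Bf_smul_right, Qf_smul, Qf_smul, Qf_smul,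
          Bf_comm (dualVec m),
        hk, hq]
      push_cast
      field_simp
      ring
    rw [e]
    push_cast
    rw [mul_add, show (s : ℂ) * n * ((k : ℂ) + (M : ℂ) ^ 2 * q)
      = ((s * n * (k + M ^ 2 * q) : ℤ) : ℂ) by push_cast; ring, ee_add_intCast])

theorem IsKernel.summable_fam (hΦ : IsKernel s κ Φ) {M : ℕ} (hM : 0 < M) (h : FamIdx M → ℂ)
    (τ : ℍ) (P : H3) :
    Summable fun m : Fin 4 → ℤ => h (m : FamIdx M) * Φ τ P ((M : ℝ)⁻¹ • dualVec m) := by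
  have := finite_famIdx hM
  obtain ⟨C, hC⟩ := Finite.exists_le fun a => ‖h a‖
  have hinj : Function.Injective ((M : ℝ)⁻¹ • dualLin : HVec →ₗ[ℝ] HVec) :=
    fun x y hxy => dualLin_injective (smul_right_injective _
      (inv_ne_zero (by exact_mod_cast hM.ne' : (M : ℝ) ≠ 0)) hxy)
  refine Summable.of_norm_bounded (g := fun m => C * ‖Φ τ P ((M : ℝ)⁻¹ • dualVec m)‖)
    (Summable.mul_left C ?_) fun m => ?_
  · simpa [dualVec] using hΦ.summable_lat τ P hinj 0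
  · rw [norm_mul]
    exact mul_le_mul_of_nonneg_right (hC _) (norm_nonneg _)

theorem IsKernel.famSum_vadd (hΦ : IsKernel s κ Φ) (M : ℕ) (h : FamIdx M → ℂ) (n : ℤ) (τ : ℍ)
    (P : H3) :
    famSum Φ M h ((n : ℝ) +ᵥ τ) P = famSum Φ M (fun a => h a * famPhase s M n a) τ P := by
  refine tsum_congr fun m => ?_
  rw [hΦ.vadd_int, ← mul_assoc]
  rfl

theorem IsKernel.famSum_negInv (hΦ : IsKernel s κ Φ) {M : ℕ} (hM : 0 < M) (h : FamIdx M → ℂ) :
    ∃ h' : FamIdx M → ℂ, ∀ τ P,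
      famSum Φ M h (negInv τ) P = (τ : ℂ) * famSum Φ M h' τ P := by
  classical
  have := finite_famIdx hM
  let := Fintype.ofFinite (FamIdx M)
  have hM' : (M : ℝ) ≠ 0 := by exact_mod_cast hM.ne'
  have hMC : (M : ℂ) ≠ 0 := by exact_mod_cast hM.ne'
  have hMp : (0 : ℝ) < M := by exact_mod_cast hM
  refine ⟨fun b => ∑ a : FamIdx M, -(κ / (M : ℂ) ^ 4) * h a * famFourier M a.out b, fun τ P => ?_⟩
  have hnn : negInv (negInv τ) = τ := by
    refine UpperHalfPlane.ext ?_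
    rw [coe_negInv, coe_negInv]
    have := τ.ne_zero
    field_simp
  set σ := negInv τ with hσ
  have hco : ∀ a : FamIdx M,
      ∑' l : Fin 4 → ℤ, Φ σ P ((M : ℝ)⁻¹ • dualVec (a.out + perHom M l)) =
        κ / ((M : ℂ) ^ 4 * σ) * famSum Φ M (famFourier M a.out) τ P := by
    intro a
    set u : HVec := ((M : ℝ)⁻¹) ^ 2 • dualVec a.out with hu
    set σM := dilate ((M : ℝ) ^ 2) (pow_pos hMp 2) σ with hσM
    have h1 : ∑' l : Fin 4 → ℤ, Φ σ P ((M : ℝ)⁻¹ • dualVec (a.out + perHom M l)) =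
        (M : ℂ)⁻¹ * thetaSum Φ σM P u 0 := by
      rw [thetaSum, ← tsum_mul_left]
      refine tsum_congr fun l => ?_
      rw [show (M : ℝ)⁻¹ • dualVec (a.out + perHom M l) = (M : ℝ) • (latVec l + u) by
          rw [dualVec_add, dualVec_perHom, hu, smul_add, smul_add, smul_smul, smul_smul, add_comm]
          congr 2 <;> field_simp,
        hΦ.scale _ hMp]
      simp [Bf, ee_zero, hσM]
    have h2 : ∀ X, Φ (negInv σM) P X = (M : ℂ)⁻¹ * Φ τ P ((M : ℝ)⁻¹ • X) := by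
      intro X
      rw [hΦ.scale _ (inv_pos.mpr hMp)]
      have hd : dilate ((M : ℝ)⁻¹ ^ 2) (pow_pos (inv_pos.mpr hMp) 2) τ = negInv σM := by
        refine UpperHalfPlane.ext ?_
        have hτ := τ.ne_zero
        show (((M : ℝ)⁻¹ ^ 2 : ℝ) : ℂ) * (τ : ℂ)
          = -1 / ((((M : ℝ) ^ 2 : ℝ) : ℂ) * (-1 / (τ : ℂ)))
        push_cast
        field_simp
      rw [hd]
      push_cast
      field_simp
    rw [h1, hΦ.theta_poisson σM, show (Bf u 0 : ℝ) = 0 by simp [Bf], Complex.ofReal_zero, neg_zero,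
      ee_zero, show (σM : ℂ) = (M : ℂ) ^ 2 * σ by simp [hσM, dilate]]
    simp only [dualSum, sub_zero, h2, famSum, ← tsum_mul_left, ← mul_assoc]
    refine tsum_congr fun m => ?_
    show _ = _ * ee (Bf ((M : ℝ)⁻¹ • dualVec a.out) ((M : ℝ)⁻¹ • dualVec m)) * _
    rw [hu, Bf_smul_left, Bf_smul_left, Bf_smul_right]
    have hσ0 : (σ : ℂ) ≠ 0 := σ.ne_zero
    field_simp
  have hq : ∀ (a : FamIdx M) l, ((a.out + perHom M l : Fin 4 → ℤ) : FamIdx M) = a := fun a l => by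
    rw [QuotientAddGroup.mk_add, QuotientAddGroup.out_eq',
        (QuotientAddGroup.eq_zero_iff (N := (perHom M).range) _).mpr
          (AddMonoidHom.mem_range.mpr ⟨l, rfl⟩),
      add_zero]
  have hbij : Function.Bijective fun p : FamIdx M × (Fin 4 → ℤ) => p.1.out + perHom M p.2 := by
    refine ⟨fun p p' he => ?_, fun m => ?_⟩
    · have h1 : p.1 = p'.1 := by
        have := congrArg (fun m : Fin 4 → ℤ => (m : FamIdx M)) he
        simpa [hq] using this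
      refine Prod.ext h1 (perHom_injective hM ?_)
      simpa [h1] using he
    · obtain ⟨l, hl⟩ := (QuotientAddGroup.eq).mp (QuotientAddGroup.out_eq' (m : FamIdx M))
      exact ⟨((m : FamIdx M), l), by simp only [hl]; abel⟩
  let e : (Fin 4 → ℤ) ≃ FamIdx M × (Fin 4 → ℤ) := (Equiv.ofBijective _ hbij).symm
  have hsum := hΦ.summable_fam hM h σ P
  have he : ∀ a l, e.symm (a, l) = a.out + perHom M l := fun a l => by
    simp only [e, Equiv.symm_symm]; rfl
  have hs2 : Summable fun c : FamIdx M × (Fin 4 → ℤ) =>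
      h ((e.symm c : Fin 4 → ℤ) : FamIdx M) * Φ σ P ((M : ℝ)⁻¹ • dualVec (e.symm c)) :=
    e.symm.summable_iff.mpr hsum
  rw [famSum, ← e.symm.tsum_eq, hs2.tsum_prod, tsum_fintype]
  simp only [he, hq, tsum_mul_left, hco]
  have hfam : famSum Φ M (fun b => ∑ a : FamIdx M, -(κ / (M : ℂ) ^ 4) * h a * famFourier M a.out b)
      τ P = ∑ a : FamIdx M, -(κ / (M : ℂ) ^ 4) * h a * famSum Φ M (famFourier M a.out) τ P := by
    simp only [famSum, ← tsum_mul_left]
    rw [← Summable.tsum_finsetSum fun a _ => (hΦ.summable_fam hM _ τ P).mul_left _]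
    exact tsum_congr fun m => by rw [Finset.sum_mul]; exact Finset.sum_congr rfl fun a _ => by ring
  rw [hfam, Finset.mul_sum]
  refine Finset.sum_congr rfl fun a _ => ?_
  rw [hσ, coe_negInv]
  have hτ := τ.ne_zero
  field_simp

theorem IsKernel.famSum_slash (hΦ : IsKernel s κ Φ) {M : ℕ} (hM : 0 < M) (γ : SL(2, ℤ))
    (h : FamIdx M → ℂ) :
    ∃ h' : FamIdx M → ℂ, ∀ τ P, famSum Φ M h (γ • τ) P =
      ((γ 1 0 : ℂ) * τ + γ 1 1) * famSum Φ M h' τ P := by
  let Pr : SL(2, ℤ) → Prop := fun γ => ∀ h : FamIdx M → ℂ, ∃ h' : FamIdx M → ℂ, ∀ τ P,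
    famSum Φ M h (γ • τ) P = ((γ 1 0 : ℂ) * τ + γ 1 1) * famSum Φ M h' τ P
  have hmul : ∀ γ δ, Pr γ → Pr δ → Pr (γ * δ) := by
    intro γ δ hγ hδ h
    obtain ⟨h', he⟩ := hγ h
    obtain ⟨h'', he'⟩ := hδ h'
    refine ⟨h'', fun τ P => ?_⟩
    rw [mul_smul, he, he', ← denom_SL_mul, mul_assoc]
  have hT : ∀ n : ℤ, Pr (upper n) := fun n h => by
    refine ⟨fun a => h a * famPhase s M n a, fun τ P => ?_⟩
    have hτ : upper n • τ = ((n : ℝ) +ᵥ τ) := by
      refine UpperHalfPlane.ext ?_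
      rw [coe_smul_SL, UpperHalfPlane.coe_vadd]
      simp [upper, add_comm]
    rw [hτ, hΦ.famSum_vadd]
    simp [upper]
  have hS : ∀ τ : ℍ, ModularGroup.S • τ = negInv τ := fun τ => by
    refine UpperHalfPlane.ext ?_
    rw [coe_smul_SL, coe_negInv]
    simp [ModularGroup.coe_S]
  have hS1 : Pr ModularGroup.S := fun h => by
    obtain ⟨h', he⟩ := hΦ.famSum_negInv hM h
    exact ⟨h', fun τ P => by rw [hS, he]; simp [ModularGroup.coe_S]⟩
  have hneg : Pr (-1) := fun h => ⟨fun a => -h a, fun τ P => by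
    simp [famSum, tsum_neg]⟩
  suffices Pr γ from this h
  have hmem : γ ∈ Subgroup.closure ({ModularGroup.S, ModularGroup.T} : Set SL(2, ℤ)) := by
    rw [SpecialLinearGroup.SL2Z_generators]; exact Subgroup.mem_top γ
  have hT' : ModularGroup.T = upper 1 := by
    ext i j; fin_cases i <;> fin_cases j <;> simp [upper, ModularGroup.coe_T]
  induction hmem using Subgroup.closure_induction_left with
  | one => exact fun h => ⟨h, fun τ P => by simp⟩
  | mul_left x hx y _ hy =>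
    rcases hx with rfl | rfl
    · exact hmul _ _ hS1 hy
    · exact hmul _ _ (hT' ▸ hT 1) hy
  | inv_mul_cancel x hx y _ hy =>
    rcases hx with rfl | rfl
    · have : ModularGroup.S⁻¹ = -1 * ModularGroup.S := by
        ext i j; fin_cases i <;> fin_cases j <;>
          simp [Matrix.adjugate_fin_two, ModularGroup.coe_S]
      rw [this]
      exact hmul _ _ (hmul _ _ hneg hS1) hy
    · have : ModularGroup.T⁻¹ = upper (-1) := by
        ext i j; fin_cases i <;> fin_cases j <;>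
          simp [Matrix.adjugate_fin_two, ModularGroup.coe_T, upper]
      rw [this]
      exact hmul _ _ (hT _) hy

theorem thetaH_eq_famSum {N : ℕ} (hN : 0 < N) :
    ∃ h : FamIdx N → ℂ, ∀ τ P, thetaH Φ N τ P = famSum Φ N h τ P := by
  classical
  let g : (Fin 4 → ℤ) → (Fin 4 → ℤ) := fun n => (N : ℤ) • perHom 1 n
  have hgd : ∀ n, (N : ℝ)⁻¹ • dualVec (g n) = latVec n := fun n => by
    have hN' : (N : ℝ) ≠ 0 := by exact_mod_cast hN.ne'
    simp only [g, dualVec, latVec_smul, map_smul]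
    rw [show dualLin (latVec (perHom 1 n)) = dualVec (perHom 1 n) from rfl, dualVec_perHom,
      smul_smul, smul_smul]
    simp [hN']
  have hg : Function.Injective g := fun n n' h => by
    have := congrArg (fun m => (N : ℝ)⁻¹ • dualVec m) h
    simp only [hgd] at this
    funext i
    simpa [latVec_apply] using congrFun this i
  have hgl : ∀ n l, g n + perHom N l = g (n + (N : ℤ) • l) := fun n l => by
    funext i; fin_cases i <;> simp [g, perHom] <;> ring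
  let hh : FamIdx N → ℂ := fun q => if ∃ n ∈ Supp N,
      ((g n : Fin 4 → ℤ) : FamIdx N) = q then 1 else 0
  refine ⟨hh, fun τ P => ?_⟩
  rw [thetaH, famSum, ← hg.tsum_eq (f := fun m => hh m * Φ τ P ((N : ℝ)⁻¹ • dualVec m))]
  · refine tsum_congr fun n => ?_
    rw [hgd]
    by_cases hn : n ∈ Supp N
    · rw [Set.indicator_of_mem hn, show hh (g n : FamIdx N) = 1 from if_pos ⟨n, hn, rfl⟩, one_mul]
    · rw [Set.indicator_of_notMem hn, show hh (g n : FamIdx N) = 0 from if_neg ?_, zero_mul]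
      rintro ⟨n', hn', he⟩
      obtain ⟨l, hl⟩ := (QuotientAddGroup.eq).mp he
      refine hn ((hg (a₁ := n' + (N : ℤ) • l) (a₂ := n) ?_) ▸ mem_Supp_congr (fun i => by simp) hn')
      rw [← hgl, hl]; abel
  · intro m hm
    have hm' : hh (m : FamIdx N) ≠ 0 := fun h0 => hm (by simp [h0])
    by_cases hex : ∃ n ∈ Supp N, ((g n : Fin 4 → ℤ) : FamIdx N) = (m : FamIdx N)
    · obtain ⟨n, _, he⟩ := hex
      obtain ⟨l, hl⟩ := (QuotientAddGroup.eq).mp he
      exact ⟨n + (N : ℤ) • l, by rw [← hgl, hl]; abel⟩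
    · exact absurd (if_neg hex) hm'

end FLTAgent.LanglandsTunnell.Lift
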