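import Fermat.Agent.LanglandsTunnell.Lift.Series
import Fermat.Agent.LanglandsTunnell.Lift.Modular

/-!
# The Fourier terms of the lift and the behaviour at all cusps

`Lvl N k` is the set of support vectors of norm `k`.  `hasSum_liftFn` expands the lift into the
terms of these sets, `liftTerm_zero` kills the isotropic term and `tendsto_famSum` gives the
decay at every cusp.  Used in `Form`.
-/

set_option autoImplicit false

noncomputable section

namespace FLTAgent.LanglandsTunnell.Lift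

open FLTAgent.LanglandsTunnell MeasureTheory Complex ComplexConjugate Matrix
open UpperHalfPlane hiding I
open scoped Real ENNReal MatrixGroups ModularForm Topology

theorem latVec_injective : Function.Injective latVec := fun n n' h => funext fun i => by
  simpa [latVec_apply] using congrFun h i

theorem exists_latVec_of_entries {Y : HVec} (hY : ∀ i j, mat Y i j ∈ Eis) :
    ∃ n : Fin 4 → ℤ, Y = latVec n := by
  have hd : ∀ r : ℝ, (r : ℂ) ∈ Eis → ∃ k : ℤ, r = k := by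
    rintro r ⟨x, y, he⟩
    have h' : eis r 0 = eis x y := by rw [← he]; simp [eis]
    exact ⟨x, (eis_inj h').1⟩
  obtain ⟨a, ha⟩ := hd (Y 0) (by simpa [mat] using hY 0 0)
  obtain ⟨c, hc⟩ := hd (Y 1) (by simpa [mat] using hY 1 1)
  obtain ⟨x, y, hxy⟩ : offDiag Y ∈ Eis := by simpa [mat] using hY 0 1
  obtain ⟨hx, hy⟩ := eis_inj hxy
  refine ⟨![a, c, x, y], ?_⟩
  funext i
  fin_cases i <;> simp [latVec_apply, ha, hc, hx, hy]

theorem mat_latVec_mem (n : Fin 4 → ℤ) (i j : Fin 2) : mat (latVec n) i j ∈ Eis := by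
  have ho : offDiag (latVec n) ∈ Eis := ⟨n 2, n 3, rfl⟩
  fin_cases i <;> fin_cases j <;> simp [mat, latVec_apply, ho, conj_mem_Eis]

theorem exists_act_principal {K : ℕ} {h : GL (Fin 2) ℂ} (hh : h ∈ principalGroup K)
    (hK : K ≠ 0) (n : Fin 4 → ℤ) :
    ∃ l, act h.val (latVec n) = latVec n + (K : ℝ) • latVec l := by
  choose z hz hze using hh.1
  have hKC : (K : ℂ) ≠ 0 := by exact_mod_cast hK
  set D := h.val - 1 with hD
  set X := mat (latVec n) with hX
  have hXm := mat_latVec_mem n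
  set Y : HVec := (K : ℝ)⁻¹ • (act h.val (latVec n) - latVec n) with hY
  have hmat : mat Y = (K : ℂ)⁻¹ • (D * X * h.valᴴ + X * Dᴴ) := by
    have e : mat (act h.val (latVec n) - latVec n) = h.val * X * h.valᴴ - X := by
      rw [sub_eq_add_neg, mat_add, ← neg_one_smul ℝ (latVec n), mat_smul, mat_act]
      simp [hX, sub_eq_add_neg]
    rw [hY, mat_smul, e, hD, Complex.ofReal_inv, Complex.ofReal_natCast]
    congr 1
    rw [Matrix.conjTranspose_sub, Matrix.conjTranspose_one, Matrix.mul_sub, Matrix.sub_mul,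
      Matrix.sub_mul, Matrix.mul_one, Matrix.one_mul]
    abel
  have hent : ∀ i j, ∃ u ∈ Eis, (D * X * h.valᴴ + X * Dᴴ) i j = K * u := by
    intro i j
    refine ⟨(∑ l, ∑ m, z i m * X m l * conj (h.val j l)) + ∑ l, X i l * conj (z j l),
      add_mem (sum_mem fun l _ => sum_mem fun m _ => mul_mem (mul_mem (hz i m) (hXm m l))
        (conj_mem_Eis ((hh.1.eisCong (one_dvd K)).1 j l)))
        (sum_mem fun l _ => mul_mem (hXm i l) (conj_mem_Eis (hz j l))), ?_⟩
    simp only [Matrix.add_apply, Matrix.mul_apply, Matrix.conjTranspose_apply, Finset.sum_mul,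
      Finset.mul_sum, mul_add, hze, Complex.star_def, map_mul, map_natCast]
    congr 1 <;> refine Finset.sum_congr rfl fun l _ => ?_
    · exact Finset.sum_congr rfl fun m _ => by ring
    · ring
  obtain ⟨l, hl⟩ := exists_latVec_of_entries (Y := Y) fun i j => by
    obtain ⟨u, hu, he⟩ := hent i j
    rw [hmat, Matrix.smul_apply, he, smul_eq_mul, inv_mul_cancel_left₀ hKC]
    exact hu
  refine ⟨l, ?_⟩
  rw [← hl, hY, smul_smul, mul_inv_cancel₀ (by exact_mod_cast hK), one_smul]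
  abel

/-- The vectors of the support of norm `k`. -/
def Lvl (N : ℕ) (k : ℤ) : Set HVec :=
  latVec '' {n | n ∈ Supp N ∧ Qf (latVec n) = (k : ℝ)}

theorem eis_dvd_int {N : ℕ} (_hN : N ≠ 0) {m : ℤ} {z : ℂ} (hz : z ∈ Eis) (h : (m : ℂ) = N * z) :
    (N : ℤ) ∣ m := by
  obtain ⟨x, y, rfl⟩ := hz
  have h' : eis (m : ℝ) 0 = eis ((N : ℝ) * x) ((N : ℝ) * y) := by
    simp only [eis] at h ⊢
    push_cast
    linear_combination h
  exact ⟨x, by exact_mod_cast (eis_inj h').1⟩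

theorem supp_act {N : ℕ} (hN : N ≠ 0) {g : GL (Fin 2) ℂ} (hg : g ∈ congGroup N) {n n' : Fin 4 → ℤ}
    (hn : n ∈ Supp N) (he : act g.val (latVec n) = latVec n') : n' ∈ Supp N := by
  obtain ⟨hn0, hn1, hn2⟩ := hn
  obtain ⟨a, ha⟩ := hn0
  obtain ⟨c, hc⟩ := hn1
  obtain ⟨hE, ⟨q, hq, eq01⟩, ⟨r, hr, eq10⟩⟩ := hg.1
  set b := offDiag (latVec n) with hb
  have hbE : b ∈ Eis := ⟨n 2, n 3, rfl⟩
  set p := g.val 0 0
  set w := g.val 1 1
  have hp := hE 0 0
  have hw := hE 1 1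
  have cE : ∀ {u : ℂ}, u ∈ Eis → conj u ∈ Eis := fun h => conj_mem_Eis h
  have hm : mat (latVec n') = g.val * mat (latVec n) * g.valᴴ := by rw [← mat_act, he]
  have h00 : ((n' 0 : ℤ) : ℂ) = N * (p * a * conj p + q * conj b * conj p + p * b * conj q
      + N * N * c * q * conj q) := by
    have := congrFun (congrFun hm 0) 0
    simp [mat, latVec_apply, Matrix.mul_apply, Fin.sum_univ_two, ← hb, eq01, ha, hc] at this
    rw [this]; ring
  have h11 : ((n' 1 : ℤ) : ℂ) = N * (w * c * conj w + r * b * conj w + w * conj b * conj r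
      + N * N * a * r * conj r) := by
    have := congrFun (congrFun hm 1) 1
    simp [mat, latVec_apply, Matrix.mul_apply, Fin.sum_univ_two, ← hb, eq10, ha, hc] at this
    rw [this]; ring
  set T := N * (p * a * conj r) + q * conj b * N * conj r + N * (q * c) * conj w with hT
  have hTE : T ∈ Eis := by
    refine add_mem (add_mem ?_ ?_) ?_
    · exact mul_mem (natCast_mem_Eis N) (mul_mem (mul_mem hp (intCast_mem_Eis a)) (cE hr))
    · exact mul_mem (mul_mem (mul_mem hq (cE hbE)) (natCast_mem_Eis N)) (cE hr)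
    · exact mul_mem (mul_mem (natCast_mem_Eis N) (mul_mem hq (intCast_mem_Eis c))) (cE hw)
  have h01 : offDiag (latVec n') = p * b * conj w + N * T := by
    have := congrFun (congrFun hm 0) 1
    simp [mat, Matrix.mul_apply, Fin.sum_univ_two, ← hb, eq01, eq10, latVec_apply, ha, hc] at this
    rw [this, hT]; ring
  have hpw : p * w = g.val.det + (N : ℂ) * N * (q * r) := by
    rw [Matrix.det_fin_two, eq01, eq10]; ring
  set D := g.val.det with hDdef
  have hD1 : D * conj D = 1 := by rw [Complex.mul_conj, normSq_det_congGroup hg, Complex.ofReal_one]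
  have hN0 : ∀ m : Fin 4 → ℤ, ((offNorm m : ℤ) : ℂ) = offDiag (latVec m) *
      conj (offDiag (latVec m)) := by
    intro m
    rw [Complex.mul_conj, offDiag, normSq_eis]
    simp only [offNorm, latVec_apply]
    push_cast
    ring
  have hdiv : (N : ℤ) ∣ offNorm n' - offNorm n := by
    refine eis_dvd_int hN (z := b * conj b * ((N : ℂ) * (q * r) * conj D + D * (N * conj (q * r))
        + (N : ℂ) * (q * r) * ((N : ℂ) * N * conj (q * r)))
      + (p * b * conj w * conj T + conj p * conj b * w * T + N * (T * conj T))) ?_ ?_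
    · have hDE : D ∈ Eis := eisCong_det_mem hg.1
      have hqr : q * r ∈ Eis := mul_mem hq hr
      have hNE := natCast_mem_Eis N
      refine add_mem (mul_mem (mul_mem hbE (cE hbE)) (add_mem (add_mem ?_ ?_) ?_))
        (add_mem (add_mem ?_ ?_) ?_)
      · exact mul_mem (mul_mem hNE hqr) (cE hDE)
      · exact mul_mem hDE (mul_mem hNE (cE hqr))
      · exact mul_mem (mul_mem hNE hqr) (mul_mem (mul_mem hNE hNE) (cE hqr))
      · exact mul_mem (mul_mem (mul_mem hp hbE) (cE hw)) (cE hTE)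
      · exact mul_mem (mul_mem (mul_mem (cE hp) (cE hbE)) hw) hTE
      · exact mul_mem hNE (mul_mem hTE (cE hTE))
    · have hpw' : conj p * conj w = conj D + (N : ℂ) * N * conj (q * r) := by
        rw [← map_mul, hpw]; simp
      push_cast
      rw [hN0, hN0, h01, ← hb]
      simp only [map_add, map_mul, map_natCast, Complex.conj_conj]
      simp only [map_mul] at hpw'
      linear_combination (b * conj b * (conj p * conj w)) * hpw
        + (b * conj b * (D + (N : ℂ) * N * (q * r))) * hpw' + b * conj b * hD1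
  refine ⟨eis_dvd_int hN ?_ h00, eis_dvd_int hN ?_ h11, ?_⟩
  · exact add_mem (add_mem (add_mem (mul_mem (mul_mem hp (intCast_mem_Eis a)) (cE hp))
      (mul_mem (mul_mem hq (cE hbE)) (cE hp))) (mul_mem (mul_mem hp hbE) (cE hq)))
      (mul_mem (mul_mem (mul_mem (mul_mem (natCast_mem_Eis N) (natCast_mem_Eis N))
        (intCast_mem_Eis c))
        hq) (cE hq))
  · exact add_mem (add_mem (add_mem (mul_mem (mul_mem hw (intCast_mem_Eis c)) (cE hw))
      (mul_mem (mul_mem hr hbE) (cE hw))) (mul_mem (mul_mem hw (cE hbE)) (cE hr)))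
      (mul_mem (mul_mem (mul_mem (mul_mem (natCast_mem_Eis N) (natCast_mem_Eis N))
        (intCast_mem_Eis a))
        hr) (cE hr))
  · obtain ⟨x, hx⟩ := hdiv
    rw [show offNorm n' = offNorm n + (N : ℤ) * x by linear_combination hx]
    exact hn2.add_mul_left_left x

theorem latSet_Lvl {N : ℕ} (hN : N ≠ 0) (k : ℤ) : LatSet (congGroup N) (k : ℝ) (Lvl N k) := by
  refine ⟨?_, ⟨1, one_pos, ?_⟩, ?_⟩
  · rintro g hg _ ⟨n, ⟨hn, hk⟩, rfl⟩
    obtain ⟨n', hn'⟩ := exists_latVec_act hg.1.1 n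
    refine ⟨n', ⟨supp_act hN hg hn hn', ?_⟩, hn'.symm⟩
    rw [← hn', Qf_act, normSq_det_congGroup hg, one_mul, hk]
  · rintro _ ⟨n, -, rfl⟩
    exact ⟨n, by simp⟩
  · rintro _ ⟨n, ⟨-, hk⟩, rfl⟩
    exact hk

theorem Lvl_coprime {N : ℕ} {k : ℤ} {X : HVec} (h : X ∈ Lvl N k) : IsCoprime k (N : ℤ) := by
  obtain ⟨n, ⟨⟨⟨a, ha⟩, -, h2⟩, hk⟩, -⟩ := h
  have hkk : k = offNorm n + (N : ℤ) * (-(a * n 1)) := by
    have : ((k : ℤ) : ℝ) = ((offNorm n - n 0 * n 1 : ℤ) : ℝ) := by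
      rw [← hk]; simp [Qf, offNorm, latVec_apply]
    have := (Int.cast_injective this : k = offNorm n - n 0 * n 1)
    rw [this, ha]; ring
  rw [hkk]
  exact h2.add_mul_left_left _

variable {w : H3 → ℝ≥0∞} {φ : H3 → ℂ} {s : ℤ} {κ : ℂ} {Φ : ℍ → H3 → HVec → ℂ} {N : ℕ}

/-- The lift with a given kernel. -/
def liftFn (w : H3 → ℝ≥0∞) (φ : H3 → ℂ) (Φ : ℍ → H3 → HVec → ℂ) (N : ℕ) (τ : ℍ) : ℂ :=
  ∫ P, wmul w φ P * thetaH Φ N τ P ∂H3.volH3

/-- A term of the lift. -/
def liftTerm (w : H3 → ℝ≥0∞) (φ : H3 → ℂ) (Φ : ℍ → H3 → HVec → ℂ) (Λ : Set HVec) (τ : ℍ) : ℂ :=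
  ∑' X : Λ, ∫ P, wmul w φ P * Φ τ P X.1 ∂H3.volH3

theorem hasSum_liftFn {H : Subgroup (GL (Fin 2) ℂ)} (hw : IsWt H w) (hφ : SphFn H φ)
    (hΦ : IsKernel s κ Φ) (τ : ℍ) :
    HasSum (fun k : ℤ => liftTerm w φ Φ (Lvl N k) τ) (liftFn w φ Φ N τ) := by
  classical
  set v : Supp N → HVec := fun n => latVec n.1 with hv
  have hvi : Function.Injective v := latVec_injective.comp Subtype.val_injective
  obtain ⟨hs, he⟩ := integral_lat_tsum hw hφ hΦ τ one_pos hvi (fun n => ⟨n.1, by simp [v]⟩)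
    (c := fun _ => (1 : ℂ)) (C := 1) (fun _ => by simp)
  simp only [one_mul] at hs he
  have hth : ∀ P, thetaH Φ N τ P = ∑' n : Supp N, Φ τ P (v n) := fun P =>
    (tsum_subtype (Supp N) fun n => Φ τ P (latVec n)).symm
  have hfn : liftFn w φ Φ N τ = ∑' n : Supp N, ∫ P, wmul w φ P * Φ τ P (v n) ∂H3.volH3 := by
    rw [← he, liftFn]
    simp only [hth]
  have hk : ∀ n : Supp N, ∃ k : ℤ, Qf (v n) = k := fun n => Qf_latVec n.1
  choose kq hkq using hk
  let e : ∀ k : ℤ, {n : Supp N // kq n = k} ≃ Lvl N k := fun k =>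
    Equiv.ofBijective (fun n => ⟨v n.1, n.1.1, ⟨n.1.2, (hkq n.1).trans (by rw [n.2])⟩, rfl⟩)
      ⟨fun n n' h => Subtype.ext (hvi (congrArg Subtype.val h)), fun ⟨_, m, ⟨hm, hmk⟩, e⟩ =>
        ⟨⟨⟨m, hm⟩, by
          have := hkq ⟨m, hm⟩
          simp only [v] at this
          rw [hmk] at this
          exact_mod_cast this.symm⟩, Subtype.ext e⟩⟩
  have hsig := ((Equiv.sigmaFiberEquiv kq).hasSum_iff.mpr hs.hasSum).sigma fun k =>
    ((Summable.hasSum (f := fun n : {n : Supp N // kq n = k} =>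
      ∫ P, wmul w φ P * Φ τ P (v n.1) ∂H3.volH3)
      (hs.subtype {n | kq n = k})))
  rw [← hfn] at hsig
  refine hsig.congr_fun fun k => ?_
  rw [liftTerm, ← (e k).tsum_eq]
  rfl

theorem wmul_const_mul (c : ℝ≥0∞) (w : H3 → ℝ≥0∞) (φ : H3 → ℂ) (P : H3) :
    wmul (fun P => c * w P) φ P = (c.toReal : ℂ) * wmul w φ P := by
  simp [wmul, ENNReal.toReal_mul, mul_assoc]

theorem liftTerm_const_mul (c : ℝ≥0∞) (Λ : Set HVec) (τ : ℍ) :
    liftTerm (fun P => c * w P) φ Φ Λ τ = (c.toReal : ℂ) * liftTerm w φ Φ Λ τ := by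
  simp only [liftTerm, wmul_const_mul, mul_assoc, integral_const_mul, tsum_mul_left]

theorem liftFn_const_mul (c : ℝ≥0∞) (τ : ℍ) :
    liftFn (fun P => c * w P) φ Φ N τ = (c.toReal : ℂ) * liftFn w φ Φ N τ := by
  simp only [liftFn, wmul_const_mul, mul_assoc, integral_const_mul]

theorem liftTerm_zero (hN : N ≠ 0) {b : Fin 2 → ℂ}
    (hb : ∀ z : ℂ, z ∈ Eis ↔ ∃ k : Fin 2 → ℤ, z = ∑ j, (k j : ℂ) * b j) {K : ℕ} (hK : 3 ≤ K)
    (hNK : N ∣ K) (hc : CuspAt K b φ) (hw : IsWt (principalGroup K) w)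
    (hφ : SphFn (principalGroup K) φ) (hΦ : IsKernel s κ Φ) (τ : ℍ) :
    liftTerm w φ Φ (Lvl N 0) τ = 0 := by
  have h := latSet_Lvl hN 0
  rw [Int.cast_zero] at h
  exact tsum_kernel_isotropic hK hb hc hw hφ hΦ τ
    ⟨fun g hg => h.stable g (principal_le_congGroup hNK hg), h.level, h.norm_eq⟩

/-- Decay of the lift at every cusp. -/
theorem tendsto_famSum (hN : 0 < N) {b : Fin 2 → ℂ}
    (hb : ∀ z : ℂ, z ∈ Eis ↔ ∃ k : Fin 2 → ℤ, z = ∑ j, (k j : ℂ) * b j)
    (hc : CuspAt (3 * N ^ 2) b φ) (hw : IsWt (principalGroup (3 * N ^ 2)) w)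
    (hφ : SphFn (principalGroup (3 * N ^ 2)) φ) (hΦ : IsKernel s κ Φ) (h : FamIdx N → ℂ) :
    IsZeroAtImInfty fun τ => ∫ P, wmul w φ P * famSum Φ N h τ P ∂H3.volH3 := by
  classical
  have := finite_famIdx hN
  have hN' : (N : ℝ) ≠ 0 := by exact_mod_cast hN.ne'
  have hK3 : 3 ≤ 3 * N ^ 2 := Nat.le_mul_of_pos_right 3 (pow_pos hN 2)
  obtain ⟨C, hC⟩ := Finite.exists_le fun a => ‖h a‖
  have hC0 : 0 ≤ C := (norm_nonneg _).trans (hC (0 : FamIdx N))
  obtain ⟨B, hB⟩ := hφ.bounded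
  have hB0 : 0 ≤ B := (norm_nonneg _).trans (hB H3.base)
  set v : (Fin 4 → ℤ) → HVec := fun m => (N : ℝ)⁻¹ • dualVec m with hv
  have hvi : Function.Injective v := fun m m' he => latVec_injective
    (dualLin_injective (smul_right_injective _ (inv_ne_zero hN') he))
  have hdual : ∀ m : Fin 4 → ℤ, ∃ m' : Fin 4 → ℤ, dualVec m = (3 : ℝ)⁻¹ • latVec m' := fun m =>
    ⟨![-3 * m 1, -3 * m 0, 2 * m 2 + m 3, m 2 + 2 * m 3], by
      funext i; fin_cases i <;> simp [dualVec, dualLin, latVec_apply] <;> ring⟩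
  have hlev : ∀ m, ∃ n : Fin 4 → ℤ, v m = ((3 * N : ℕ) : ℝ)⁻¹ • latVec n := fun m => by
    obtain ⟨m', hm'⟩ := hdual m
    refine ⟨m', ?_⟩
    simp only [hv, hm', smul_smul]
    congr 1
    push_cast
    field_simp
  set δ : ℝ := 1 / (3 * (N : ℝ) ^ 2) with hδ
  have hδ0 : 0 < δ := by positivity
  have hgap : ∀ m, Qf (v m) ≠ 0 → δ ≤ |Qf (v m)| := fun m hm => by
    obtain ⟨k, hk⟩ := three_mul_Qf_dualVec m
    have e : Qf (v m) = (k : ℝ) * δ := by
      rw [hv, Qf_smul, hδ, ← hk]; field_simp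
    have hk0 : k ≠ 0 := fun h0 => hm (by rw [e, h0]; simp)
    rw [e, abs_mul, abs_of_pos hδ0]
    exact le_mul_of_one_le_left hδ0.le (by exact_mod_cast Int.one_le_abs hk0)
  -- stability of the classes
  have hstab : ∀ g ∈ principalGroup (3 * N ^ 2), ∀ m, ∃ l,
      act g.val (v m) = v (m + perHom N l) := by
    intro g hg m
    obtain ⟨m', hm'⟩ := hdual m
    obtain ⟨l, hl⟩ := exists_act_principal hg (by omega) m'
    refine ⟨l, ?_⟩
    simp only [hv, map_smul, dualVec_add, dualVec_perHom, hm', hl, smul_add, smul_smul]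
    congr 2
    push_cast
    field_simp
  have hfib : ∀ a : FamIdx N, LatSet (principalGroup (3 * N ^ 2)) 0
      (v '' {m | Qf (v m) = 0 ∧ (m : FamIdx N) = a}) := by
    intro a
    refine ⟨?_, ⟨3 * N, by positivity, ?_⟩, ?_⟩
    · rintro g hg _ ⟨m, ⟨hq, hm⟩, rfl⟩
      obtain ⟨l, hl⟩ := hstab g hg m
      refine ⟨m + perHom N l, ⟨?_, ?_⟩, hl.symm⟩
      · rw [← hl, Qf_act, hq, mul_zero]
      · rw [QuotientAddGroup.mk_add, hm,
          (QuotientAddGroup.eq_zero_iff (N := (perHom N).range) _).mpr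
            (AddMonoidHom.mem_range.mpr ⟨l, rfl⟩),
          add_zero]
    · rintro _ ⟨m, -, rfl⟩
      obtain ⟨n, hn⟩ := hlev m
      exact ⟨n, hn.symm⟩
    · rintro _ ⟨m, ⟨hq, -⟩, rfl⟩
      exact hq
  set S0 : Set (Fin 4 → ℤ) := {m | Qf (v m) = 0}
  set T : ℍ → (Fin 4 → ℤ) → ℂ := fun τ m =>
    h (m : FamIdx N) * ∫ P, wmul w φ P * Φ τ P (v m) ∂H3.volH3 with hT
  have hzero : ∀ τ, ∑' m : S0, T τ m.1 = 0 := by
    intro τ
    have hs : Summable fun m : S0 => T τ m.1 :=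
        ((integral_lat_tsum hw hφ hΦ τ (by positivity) hvi hlev
      (c := fun m => h (m : FamIdx N)) (fun m => hC _)).1).subtype S0
    let cl : S0 → FamIdx N := fun m => (m.1 : FamIdx N)
    have hcomp := (Equiv.sigmaFiberEquiv cl).summable_iff.mpr hs
    simp only [Function.comp_def] at hcomp
    rw [← (Equiv.sigmaFiberEquiv cl).tsum_eq, hcomp.tsum_sigma]
    refine (tsum_congr fun a => ?_).trans tsum_zero
    let e : {m : S0 // cl m = a} ≃ v '' {m | Qf (v m) = 0 ∧ (m : FamIdx N) = a} :=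
      Equiv.ofBijective (fun m => ⟨v m.1.1, m.1.1, ⟨m.1.2, m.2⟩, rfl⟩)
        ⟨fun m m' he => Subtype.ext (Subtype.ext (hvi (congrArg Subtype.val he))),
          fun ⟨_, m, ⟨hq, hm⟩, e⟩ => ⟨⟨⟨m, hq⟩, hm⟩, Subtype.ext e⟩⟩
    have h0 := tsum_kernel_isotropic hK3 hb hc hw hφ hΦ τ (hfib a)
    rw [← e.tsum_eq] at h0
    calc ∑' m : {m : S0 // cl m = a}, T τ (Equiv.sigmaFiberEquiv cl ⟨a, m⟩).1
        = ∑' m : {m : S0 // cl m = a}, h a * ∫ P, wmul w φ P * Φ τ P (e m).1 ∂H3.volH3 := by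
          refine tsum_congr fun m => ?_
          simp only [hT, Equiv.sigmaFiberEquiv_apply]
          rw [show ((m.1.1 : Fin 4 → ℤ) : FamIdx N) = a from m.2]
          rfl
      _ = 0 := by rw [tsum_mul_left, h0, mul_zero]
  set Cst : ℝ := C * B * 8 *
    (∫⁻ P, w P * gaussSum (3 * N) (π / 2) P ∂H3.volH3).toReal with hCst
  have hbound : ∀ τ : ℍ, 1 ≤ τ.im → ‖∫ P, wmul w φ P * famSum Φ N h τ P ∂H3.volH3‖ ≤
      Cst * (Real.sqrt τ.im * Real.exp (-(π * δ / 2) * τ.im)) := by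
    intro τ hτ
    obtain ⟨hs, he⟩ := integral_lat_tsum hw hφ hΦ τ (by positivity) hvi hlev
      (c := fun m => h (m : FamIdx N)) (fun m => hC _)
    simp only [famSum]
    change ‖∫ P, wmul w φ P * ∑' m : Fin 4 → ℤ, h (m : FamIdx N) * Φ τ P (v m) ∂H3.volH3‖ ≤ _
    rw [he, ← hs.tsum_subtype_add_tsum_subtype_compl S0, hzero, zero_add]
    set G : ↑S0ᶜ → H3 → ℂ := fun m P => h (m.1 : FamIdx N) * (φ P * Φ τ P (v m.1)) with hG
    set E : ℝ := C * B * (8 * Real.sqrt τ.im * Real.exp (-(π * δ / 2) * τ.im)) with hE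
    have hE0 : 0 ≤ E := by positivity
    have hGb : ∀ m P, ‖G m P‖ ≤ E * Real.exp (-(π / 2) * Mf P (v m.1)) := fun m P => by
      have hM : δ ≤ Mf P (v m.1) := (hgap m.1 m.2).trans (abs_Qf_le_Mf P _)
      rw [hG, norm_mul, norm_mul, hE]
      calc ‖h (m.1 : FamIdx N)‖ * (‖φ P‖ * ‖Φ τ P (v m.1)‖)
          ≤ C * (B * (8 * Real.sqrt τ.im * Real.exp (-(π * τ.im) * Mf P (v m.1)))) :=
            mul_le_mul (hC _) (mul_le_mul (hB P) (hΦ.bound τ P _) (norm_nonneg _) hB0)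
              (by positivity) hC0
        _ ≤ C * (B * (8 * Real.sqrt τ.im * (Real.exp (-(π * δ / 2) * τ.im) *
              Real.exp (-(π / 2) * Mf P (v m.1))))) := by
            rw [← Real.exp_add]
            gcongr
            nlinarith [mul_le_mul_of_nonneg_left hM (mul_nonneg Real.pi_pos.le τ.im_pos.le),
              mul_le_mul_of_nonneg_right hτ (mul_nonneg Real.pi_pos.le (Mf_nonneg P (v m.1)))]
        _ = _ := by ring
    have hGm : ∀ m, Measurable (G m) := fun m =>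
      (continuous_const.mul (hφ.continuous.mul (hΦ.continuous_pt τ _))).measurable
    have hle := tsum_lintegral_lat_le (K := 3 * N) hw (v := fun m : ↑S0ᶜ => v m.1)
      (hvi.comp Subtype.val_injective) (fun m => hlev m.1) hGm hGb hE0
    have htop : ENNReal.ofReal E * ∫⁻ P, w P * gaussSum (3 * N) (π / 2) P ∂H3.volH3 ≠ ⊤ :=
      ENNReal.mul_ne_top ENNReal.ofReal_ne_top
        (hw.lintegral_gaussSum_lt_top (by positivity) (by positivity)).ne
    have hsum := ne_top_of_le_ne_top htop hle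
    have hterm : ∀ m : ↑S0ᶜ, ‖h (m.1 : FamIdx N) * ∫ P, wmul w φ P * Φ τ P (v m.1) ∂H3.volH3‖ ≤
        (∫⁻ P, ‖((w P).toReal : ℂ) * G m P‖ₑ ∂H3.volH3).toReal := fun m => by
      rw [← integral_const_mul]
      refine (le_of_eq ?_).trans ((norm_integral_le_lintegral_norm (μ := H3.volH3)
        fun P => ((w P).toReal : ℂ) * G m P).trans (le_of_eq ?_))
      · congr 1
        refine integral_congr_ae (Filter.Eventually.of_forall fun P => ?_)
        simp only [hG, wmul]; ring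
      · simp only [ofReal_norm]
    have hsr := ENNReal.summable_toReal hsum
    have hfinm := fun m => ne_top_of_le_ne_top hsum (ENNReal.le_tsum (f := fun m : ↑S0ᶜ =>
      ∫⁻ P, ‖((w P).toReal : ℂ) * G m P‖ₑ ∂H3.volH3) m)
    refine (tsum_of_norm_bounded hsr.hasSum hterm).trans ?_
    rw [← ENNReal.tsum_toReal_eq hfinm]
    refine (ENNReal.toReal_mono htop hle).trans (le_of_eq ?_)
    rw [ENNReal.toReal_mul, ENNReal.toReal_ofReal hE0, hCst, hE]
    ring
  have hdecay : Filter.Tendsto (fun y : ℝ => Cst * (Real.sqrt y * Real.exp (-(π * δ / 2) * y)))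
      Filter.atTop (𝓝 0) := by
    have := (tendsto_rpow_mul_exp_neg_mul_atTop_nhds_zero (1 / 2) (π * δ / 2)
        (by positivity)).const_mul Cst
    rw [mul_zero] at this
    refine this.congr fun y => ?_
    rw [Real.sqrt_eq_rpow]
  rw [IsZeroAtImInfty, Filter.ZeroAtFilter]
  refine squeeze_zero_norm' ?_ (hdecay.comp Filter.tendsto_comap)
  filter_upwards [Filter.tendsto_comap (f := UpperHalfPlane.im)
      (Filter.eventually_ge_atTop (1 : ℝ))]
    with τ hτ
  exact hbound τ hτ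

end FLTAgent.LanglandsTunnell.Lift
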