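import Fermat.Agent.LanglandsTunnell.Lift.Plane
import Fermat.Agent.LanglandsTunnell.Lift.Kernels

/-!
# The point of a negative vector, and stable sets of vectors

`negPt X` is the point of `H³` of a negative vector, compatible with the action and turning
Dirac measures into an equivariant family; `Stable` sets of vectors carry the permutations
`actPerm`.
-/

set_option autoImplicit false

noncomputable section

namespace FLTAgent.LanglandsTunnell.Lift

open FLTAgent.LanglandsTunnell MeasureTheory Complex ComplexConjugate Matrix Set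
open scoped Real

theorem ptVec_smul (g : GL (Fin 2) ℂ) (P : H3) :
    ptVec (g • P) = ‖g.val.det‖⁻¹ • act g.val (ptVec P) :=
  mat_injective (by rw [mat_ptVec, H3.form_smul, mat_smul, mat_act, mat_ptVec, Complex.ofReal_inv])

/-- The point of a negative vector. -/
def negPt (X : HVec) : H3 :=
  if h : X 1 ≠ 0 ∧ Qf X < 0 then
    ⟨offDiag X / (X 1 : ℂ), Real.sqrt (-Qf X) / |X 1|,
      div_pos (Real.sqrt_pos.mpr (neg_pos.mpr h.2)) (abs_pos.mpr h.1)⟩
  else H3.base

theorem offDiag_smul (r : ℝ) (X : HVec) : offDiag (r • X) = (r : ℂ) * offDiag X := by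
  simp [offDiag, eis]
  ring

theorem ptVec_one (P : H3) : ptVec P 1 = P.t⁻¹ := by simp [ptVec, ofMat, H3.form]

theorem offDiag_ptVec (P : H3) : offDiag (ptVec P) = P.z / P.t := by
  rw [ptVec, offDiag_ofMat]
  simp [H3.form]

theorem negPt_smul_ptVec {r : ℝ} (hr : r ≠ 0) (P : H3) : negPt (r • ptVec P) = P := by
  have ht := P.t_pos
  have h1 : (r • ptVec P) 1 = r / P.t := by simp [ptVec_one, div_eq_mul_inv]
  have hQ : Qf (r • ptVec P) = -r ^ 2 := by rw [Qf_smul, Qf_ptVec]; ring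
  have hr2 : 0 < r ^ 2 := by positivity
  rw [negPt, dif_pos ⟨by rw [h1]; exact div_ne_zero hr ht.ne', by rw [hQ]; linarith⟩]
  refine H3.ext ?_ ?_
  · show offDiag (r • ptVec P) / (((r • ptVec P) 1 : ℝ) : ℂ) = P.z
    rw [h1, offDiag_smul, offDiag_ptVec]
    have hrC : (r : ℂ) ≠ 0 := by exact_mod_cast hr
    have htC : (P.t : ℂ) ≠ 0 := by exact_mod_cast ht.ne'
    push_cast
    field_simp
  · show Real.sqrt (-Qf (r • ptVec P)) / |(r • ptVec P) 1| = P.t
    rw [hQ, h1, neg_neg, Real.sqrt_sq_eq_abs, abs_div, abs_of_pos ht,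
      div_div_eq_mul_div, mul_div_cancel_left₀ _ (abs_ne_zero.mpr hr)]

theorem exists_eq_smul_ptVec {X : HVec} (hX : Qf X < 0) :
    ∃ r : ℝ, r ≠ 0 ∧ X = r • ptVec (negPt X) := by
  have hQ : Qf X = normSq (offDiag X) - X 0 * X 1 := by rw [offDiag, normSq_eis]; rfl
  have hc : X 1 ≠ 0 := fun hc => by
    rw [hQ, hc, mul_zero, sub_zero] at hX
    exact absurd hX (not_lt.mpr (normSq_nonneg _))
  have hs : 0 < Real.sqrt (-Qf X) := Real.sqrt_pos.mpr (neg_pos.mpr hX)
  have ha : 0 < |X 1| := abs_pos.mpr hc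
  rw [negPt, dif_pos ⟨hc, hX⟩]
  generalize_proofs hpos
  revert hpos
  generalize ht : Real.sqrt (-Qf X) / |X 1| = t
  intro hpos
  refine ⟨X 1 * t, mul_ne_zero hc hpos.ne', mat_injective ?_⟩
  rw [mat_smul, mat_ptVec]
  have htC : (t : ℂ) ≠ 0 := by exact_mod_cast hpos.ne'
  have hcC : (X 1 : ℂ) ≠ 0 := by exact_mod_cast hc
  have ht2 : t ^ 2 * X 1 ^ 2 = -Qf X := by
    rw [← ht, div_pow, Real.sq_sqrt (by linarith), sq_abs, div_mul_cancel₀ _ (pow_ne_zero 2 hc)]
  have key : (normSq (offDiag X) : ℂ) + (t : ℂ) ^ 2 * (X 1 : ℂ) ^ 2 = (X 0 : ℂ) * X 1 := by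
    have : ((normSq (offDiag X) + t ^ 2 * X 1 ^ 2 : ℝ) : ℂ) = ((X 0 * X 1 : ℝ) : ℂ) := by
      rw [ht2, hQ]; congr 1; ring
    push_cast at this
    exact this
  ext i j
  fin_cases i <;> fin_cases j <;>
    simp [mat, H3.form, map_div₀, Complex.normSq_ofReal] <;> field_simp
  linear_combination -key

theorem Tf_sq_negPt {X : HVec} (hX : Qf X < 0) (P : H3) :
    Tf P X ^ 2 = -Qf X * H3.coshDist P (negPt X) ^ 2 := by
  obtain ⟨r, -, he⟩ := exists_eq_smul_ptVec hX
  conv_lhs => rw [he, Tf_smul_vec, Tf_ptVec]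
  conv_rhs => rw [show Qf X = -r ^ 2 by rw [he, Qf_smul, Qf_ptVec]; ring]
  ring

theorem negPt_act {X : HVec} (hX : Qf X < 0) (g : GL (Fin 2) ℂ) :
    negPt (act g.val X) = g • negPt X := by
  obtain ⟨r, hr, he⟩ := exists_eq_smul_ptVec hX
  have hn : ‖g.val.det‖ ≠ 0 := (norm_pos_iff.mpr g.det_ne_zero).ne'
  have e : act g.val X = (r * ‖g.val.det‖) • ptVec (g • negPt X) := by
    conv_lhs => rw [he, map_smul]
    rw [ptVec_smul, smul_smul, mul_assoc, mul_inv_cancel₀ hn, mul_one]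
  rw [e, negPt_smul_ptVec (mul_ne_zero hr hn)]

theorem measurePreserving_dirac_negPt {X : HVec} (hX : Qf X < 0) (g : GL (Fin 2) ℂ) :
    MeasurePreserving (g • ·) (Measure.dirac (negPt X))
      (Measure.dirac (negPt (act g.val X))) :=
  ⟨(continuous_const_smul g).measurable, by
    rw [Measure.map_dirac' (continuous_const_smul g).measurable, negPt_act hX]⟩

/-- Stability under a group. -/
def Stable (H : Subgroup (GL (Fin 2) ℂ)) (Λ : Set HVec) : Prop :=
  ∀ h ∈ H, ∀ X ∈ Λ, act h.val X ∈ Λ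

/-- The permutations of a stable set. -/
def actPerm {H : Subgroup (GL (Fin 2) ℂ)} {Λ : Set HVec} (hΛ : Stable H Λ) :
    H →* Equiv.Perm Λ where
  toFun h :=
    { toFun := fun X => ⟨act h.1.val X.1, hΛ h.1 h.2 X.1 X.2⟩
      invFun := fun X => ⟨act (h.1⁻¹).val X.1, hΛ _ (inv_mem h.2) X.1 X.2⟩
      left_inv := fun X => Subtype.ext (by
        show act _ (act _ X.1) = X.1
        rw [← act_mul, ← Units.val_mul, inv_mul_cancel, Units.val_one, act_one])
      right_inv := fun X => Subtype.ext (by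
        show act _ (act _ X.1) = X.1
        rw [← act_mul, ← Units.val_mul, mul_inv_cancel, Units.val_one, act_one]) }
  map_one' := Equiv.ext fun X => Subtype.ext (by simpa using act_one X.1)
  map_mul' g h := Equiv.ext fun X => Subtype.ext (by
    show act (g.1 * h.1).val X.1 = act g.1.val (act h.1.val X.1)
    rw [Units.val_mul, act_mul])

theorem actPerm_apply {H : Subgroup (GL (Fin 2) ℂ)} {Λ : Set HVec} (hΛ : Stable H Λ) (h : H)
    (X : Λ) : (actPerm hΛ h X).1 = act h.1.val X.1 := rfl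

end FLTAgent.LanglandsTunnell.Lift
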