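import Mathlib

/-!
# Lifting unimodular matrices modulo `N` with lower left entry divisible by three

`exists_SL2_lift_three`: a matrix of determinant `1` modulo `N` lifts to `SL(2, ℤ)` with lower
left entry divisible by `3`.  Used in `PlaneOrbit`.
-/

set_option autoImplicit false

namespace FLTAgent.LanglandsTunnell.Lift

theorem exists_coprime_shift {c d m : ℤ} (hc : c ≠ 0)
    (h : ∀ p : ℕ, p.Prime → (p : ℤ) ∣ c → (p : ℤ) ∣ d → ¬ (p : ℤ) ∣ m) :
    ∃ k : ℤ, IsCoprime c (d + k * m) := by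
  classical
  set S := c.natAbs.primeFactors.filter fun p : ℕ => ¬ (p : ℤ) ∣ d
  refine ⟨∏ p ∈ S, (p : ℤ), ?_⟩
  rw [Int.isCoprime_iff_nat_coprime]
  by_contra hn
  obtain ⟨p, hp, hp1, hp2⟩ := Nat.Prime.not_coprime_iff_dvd.mp hn
  have hp1' : (p : ℤ) ∣ c := Int.natCast_dvd.mpr hp1
  have hp2' : (p : ℤ) ∣ d + (∏ q ∈ S, (q : ℤ)) * m := Int.natCast_dvd.mpr hp2
  have hpp : Prime (p : ℤ) := Nat.prime_iff_prime_int.mp hp
  by_cases hd : (p : ℤ) ∣ d
  · have h2 : (p : ℤ) ∣ (∏ q ∈ S, (q : ℤ)) * m := (dvd_add_right hd).mp hp2'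
    rcases hpp.dvd_or_dvd h2 with h3 | h3
    · obtain ⟨q, hq, hq'⟩ := (hpp.dvd_finsetProd_iff _).mp h3
      obtain ⟨hqc, hqd⟩ := Finset.mem_filter.mp hq
      have hqp : q.Prime := (Nat.mem_primeFactors.mp hqc).1
      obtain rfl : p = q := (Nat.prime_dvd_prime_iff_eq hp hqp).mp (Int.natCast_dvd_natCast.mp hq')
      exact hqd hd
    · exact h p hp hp1' hd h3
  · have hm : p ∈ S := Finset.mem_filter.mpr
      ⟨Nat.mem_primeFactors.mpr ⟨hp, hp1, Int.natAbs_ne_zero.mpr hc⟩, hd⟩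
    exact hd ((dvd_add_left ((Finset.dvd_prod_of_mem _ hm).mul_right m)).mp hp2')

theorem exists_SL2_lift_three {N : ℕ} (hN : N ≠ 0) {a b c d : ℤ}
    (h : (N : ℤ) ∣ a * d - b * (3 * c) - 1) :
    ∃ a' b' u d' : ℤ, a' * d' - b' * (3 * u) = 1 ∧
      (N : ℤ) ∣ a' - a ∧ (N : ℤ) ∣ b' - b ∧ (N : ℤ) ∣ u - c ∧ (N : ℤ) ∣ d' - d := by
  obtain ⟨e, he⟩ := h
  have hN' : (N : ℤ) ≠ 0 := by exact_mod_cast hN
  obtain ⟨c₀, hc₀, hcd⟩ : ∃ c₀ : ℤ, c₀ ≠ 0 ∧ (N : ℤ) ∣ c₀ - c := by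
    rcases eq_or_ne c 0 with rfl | h0
    · exact ⟨N, hN', by simp⟩
    · exact ⟨c, h0, by simp⟩
  obtain ⟨j, hj⟩ := hcd
  obtain ⟨k, hk⟩ := exists_coprime_shift (c := 3 * c₀) (d := d) (m := N)
    (mul_ne_zero (by norm_num) hc₀) (fun p hp h1 h2 h3 => by
      have e1 : (p : ℤ) ∣ 1 := by
        have e2 : (1 : ℤ) = a * d - b * (3 * c₀) + (N : ℤ) * (b * 3 * j - e) := by
          linear_combination b * 3 * hj - he
        rw [e2]
        exact dvd_add (dvd_sub (h2.mul_left _) (h1.mul_left _)) (h3.mul_right _)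
      exact hp.not_dvd_one (by exact_mod_cast e1))
  obtain ⟨x, y, hxy⟩ := hk
  set d' := d + k * N with hd'
  -- a first solution is `(y, -x)`
  set t := (a - y) * x + (b + x) * y with ht
  refine ⟨y + t * (3 * c₀), -x + t * d', c₀, d', by linear_combination hxy, ?_, ?_, ⟨j, hj⟩,
    ⟨k, by rw [hd']; ring⟩⟩
  · refine ⟨y * (-(e + a * k - b * 3 * j)), ?_⟩
    have h1 : (b + x) * (3 * c₀) - (a - y) * d' = (N : ℤ) * (-(e + a * k - b * 3 * j)) := by
      linear_combination hxy - he + b * 3 * hj - a * hd'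
    linear_combination y * h1 + (a - y) * hxy + 3 * c₀ * ht
  · refine ⟨x * (e + a * k - b * 3 * j), ?_⟩
    have h1 : (b + x) * (3 * c₀) - (a - y) * d' = (N : ℤ) * (-(e + a * k - b * 3 * j)) := by
      linear_combination hxy - he + b * 3 * hj - a * hd'
    linear_combination -x * h1 + (b + x) * hxy + d' * ht

end FLTAgent.LanglandsTunnell.Lift
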