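import Fermat.Agent.LanglandsTunnell.Lift.Levels
import Fermat.Agent.LanglandsTunnell.Lift.SL2Lift

/-!
# The vectors of norm one in the support form one orbit

`exists_congGroup_frame`: every vector of `Lvl N 1` is the image of the standard one under
`congGroup N`, by a frame over `ℤ` and a multiplicative Hilbert 90 modulo `N`.  Used for the
nonvanishing in `Period`.
-/

set_option autoImplicit false

noncomputable section

namespace FLTAgent.LanglandsTunnell.Lift

open FLTAgent.LanglandsTunnell Complex ComplexConjugate Matrix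

theorem normSq_omega : normSq omega = 1 := by
  rw [show omega = eis 0 1 by simp [eis], normSq_eis]; norm_num

/-! ### A frame in `GL(2, 𝒪)` -/

theorem exists_int_frame (n : Fin 4 → ℤ) (hn : Qf (latVec n) = 1) :
    ∃ h ∈ congGroup 1, act h.val planeVec = latVec n := by
  suffices H : ∀ m : ℕ, ∀ n : Fin 4 → ℤ, Qf (latVec n) = 1 → (n 1).natAbs = m →
      ∃ h ∈ congGroup 1, act h.val planeVec = latVec n from H _ n hn rfl
  intro m
  induction m using Nat.strong_induction_on with
  | _ m IH =>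
    intro n hn hm
    set X := latVec n with hX
    set b := offDiag X with hb
    have hbE : b ∈ Eis := ⟨n 2, n 3, rfl⟩
    have hX0 : (X 0 : ℂ) = (n 0 : ℂ) := by simp [X, latVec_apply]
    have hX1 : (X 1 : ℂ) = (n 1 : ℂ) := by simp [X, latVec_apply]
    have hQ : normSq b = 1 + (n 0 : ℝ) * n 1 := by
      have : Qf X = normSq b - X 0 * X 1 := by rw [hb, offDiag, normSq_eis]; rfl
      rw [hn] at this
      simp only [X, latVec_apply] at this
      linarith
    have hom := omega_mem
    rcases eq_or_ne (n 1) 0 with hc | hc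
    · have hbb : b * conj b = 1 := by rw [Complex.mul_conj, hQ, hc]; simp
      obtain ⟨g, hg, hgv⟩ := exists_congGroup_one (M := !![b, b * ((-(n 0) : ℤ) * omega); 0, 1])
        (u := conj b) (fun i j => by
          fin_cases i <;> fin_cases j <;>
            simp [hbE, mul_mem, hom, one_mem, zero_mem])
        (conj_mem_Eis hbE) (by simpa [Matrix.det_fin_two_of] using hbb)
      refine ⟨g, hg, mat_injective ?_⟩
      rw [mat_act, mat_planeVec, hgv, mat, ← hb, hX0, hX1, hc]
      have hw : omega + conj omega = -1 := by rw [conj_omega]; ring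
      ext i j
      fin_cases i <;> fin_cases j <;> simp [Matrix.mul_apply, Fin.sum_univ_two]
      linear_combination (-(n 0 : ℂ) * (omega + conj omega)) * hbb + (-(n 0 : ℂ)) * hw
    · set c := n 1 with hcdef
      have hcR : (c : ℝ) ≠ 0 := by exact_mod_cast hc
      have hcC : (c : ℂ) ≠ 0 := by exact_mod_cast hc
      by_cases hc1 : c.natAbs = 1
      · have hcc : (c : ℂ) * c = 1 := by
          rcases Int.natAbs_eq c with h1 | h1 <;> rw [h1, hc1] <;> norm_num
        obtain ⟨T, hT, hTv⟩ := exists_congGroup_one (M := !![1, b * c; 0, 1]) (u := 1)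
          (fun i j => by
            fin_cases i <;> fin_cases j <;> simp [one_mem, zero_mem, hbE, mul_mem])
          (one_mem _) (by simp [Matrix.det_fin_two_of])
        have ho : (1 : ℂ) + omega ∈ Eis := add_mem (one_mem _) hom
        obtain ⟨g, hg, hgv, hgX⟩ : ∃ g ∈ congGroup 1, True ∧
            g.val * mat planeVec * g.valᴴ = !![-(c : ℂ), 0; 0, (c : ℂ)] := by
          have hsum : omega + conj omega = -1 := by rw [conj_omega]; ring
          have hprod : omega * conj omega = 1 := by rw [Complex.mul_conj, normSq_omega]; simp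
          rcases Int.natAbs_eq c with h1 | h1 <;> rw [hc1] at h1 <;> rw [h1]
          · obtain ⟨g, hg, hgv⟩ := exists_congGroup_one (M := !![1, omega; 1, 1 + omega]) (u := 1)
              (fun i j => by fin_cases i <;> fin_cases j <;> simp [one_mem, hom, ho])
              (one_mem _) (by simp [Matrix.det_fin_two_of])
            refine ⟨g, hg, trivial, ?_⟩
            rw [mat_planeVec, hgv]
            ext i j
            fin_cases i <;> fin_cases j <;> simp [Matrix.mul_apply, Fin.sum_univ_two] <;>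
              linear_combination hsum
          · obtain ⟨g, hg, hgv⟩ := exists_congGroup_one (M := !![1, 1 + omega; 1, omega]) (u := -1)
              (fun i j => by fin_cases i <;> fin_cases j <;> simp [one_mem, hom, ho])
              (neg_mem (one_mem _)) (by simp [Matrix.det_fin_two_of])
            refine ⟨g, hg, trivial, ?_⟩
            rw [mat_planeVec, hgv]
            ext i j
            fin_cases i <;> fin_cases j <;> simp [Matrix.mul_apply, Fin.sum_univ_two] <;>
              linear_combination hsum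
        refine ⟨T * g, mul_mem hT hg, mat_injective ?_⟩
        have hbb : b * conj b = 1 + (n 0 : ℂ) * c := by
          rw [Complex.mul_conj, hQ]; push_cast; ring
        rw [mat_act, Units.val_mul, Matrix.conjTranspose_mul,
          show T.val * g.val * mat planeVec * (g.valᴴ * T.valᴴ)
            = T.val * (g.val * mat planeVec * g.valᴴ) * T.valᴴ by simp only [Matrix.mul_assoc],
          hgX, hTv, mat, ← hb, hX0, hX1]
        ext i j
        fin_cases i <;> fin_cases j <;> simp [Matrix.mul_apply, Fin.sum_univ_two]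
        · linear_combination (c : ℂ) * hbb + ((c : ℂ) * b * conj b + (n 0 : ℂ)) * hcc
        · linear_combination b * hcc
        · linear_combination conj b * hcc
      · obtain ⟨q, hq, hqn⟩ := exists_near' (b / (c : ℂ))
        obtain ⟨T, hT, hTv⟩ := exists_congGroup_one (M := !![1, -q; 0, 1]) (u := 1)
          (fun i j => by fin_cases i <;> fin_cases j <;> simp [one_mem, zero_mem, hq])
          (one_mem _) (by simp [Matrix.det_fin_two_of])
        obtain ⟨W, hW, hWv⟩ := exists_congGroup_one (M := !![0, 1; 1, 0]) (u := -1)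
          (fun i j => by fin_cases i <;> fin_cases j <;> simp [one_mem, zero_mem])
          (neg_mem (one_mem _)) (by simp [Matrix.det_fin_two_of])
        obtain ⟨n', hn'⟩ := exists_latVec_act (M := (W * T).val) (mul_mem hW hT).1.1 n
        have hn'1 : Qf (latVec n') = 1 := by
          rw [← hn', Qf_act, normSq_det_congGroup (mul_mem hW hT), hn, one_mul]
        have hc' : (n' 1 : ℝ) * c = normSq (b - q * c) - 1 := by
          have := congrFun (congrFun (congrArg mat hn') 1) 1
          rw [mat_act, Units.val_mul, hWv, hTv, mat, mat, ← hb, hX0, hX1] at this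
          simp [Matrix.mul_apply, Fin.sum_univ_two, latVec_apply] at this
          apply Complex.ofReal_injective
          push_cast
          rw [← Complex.mul_conj, map_sub, map_mul, map_intCast, ← this]
          have hbb : b * conj b = 1 + (n 0 : ℂ) * c := by
            rw [Complex.mul_conj, hQ]; push_cast; ring
          linear_combination -hbb
        have hlt : (n' 1).natAbs < m := by
          have h2 : normSq (b - q * c) ≤ 3 / 4 * (c : ℝ) ^ 2 := by
            rw [show b - q * c = (b / (c : ℂ) - q) * ((c : ℝ) : ℂ) by push_cast; field_simp,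
              map_mul, normSq_ofReal, sq]
            exact mul_le_mul_of_nonneg_right hqn (mul_self_nonneg _)
          have h4 : (4 : ℤ) ≤ c * c := by
            have : 2 ≤ c.natAbs := by have := Int.natAbs_pos.mpr hc; omega
            nlinarith [Int.natAbs_mul_self' c,
                (show (2 : ℤ) ≤ (c.natAbs : ℤ) by exact_mod_cast this)]
          have h4' : (4 : ℝ) ≤ (c : ℝ) * c := by exact_mod_cast h4
          have h5 := normSq_nonneg (b - q * c)
          rw [← hm]
          by_contra hge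
          have h6 : ((n' 1 : ℝ)) * (n' 1) ≥ (c : ℝ) * c := by
            have h7 : (c.natAbs : ℤ) * c.natAbs ≤ (n' 1).natAbs * (n' 1).natAbs := by
              have := not_lt.mp hge
              exact_mod_cast Nat.mul_le_mul this this
            rw [Int.natAbs_mul_self' c, Int.natAbs_mul_self' (n' 1)] at h7
            exact_mod_cast h7
          have h8 : ((n' 1 : ℝ) * c) ^ 2 < ((c : ℝ) * c) ^ 2 := by
            rw [hc']; exact sq_lt_sq' (by nlinarith) (by nlinarith)
          nlinarith [mul_le_mul_of_nonneg_right h6 (mul_self_nonneg (c : ℝ))]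
        obtain ⟨h, hh, he⟩ := IH _ hlt n' hn'1 rfl
        refine ⟨(W * T)⁻¹ * h, mul_mem (inv_mem (mul_mem hW hT)) hh, ?_⟩
        rw [Units.val_mul, act_mul, he, ← hn', ← act_mul, ← Units.val_mul, inv_mul_cancel,
          Units.val_one, act_one]

/-! ### Congruences -/

/-- Congruence modulo `N` in the Eisenstein integers. -/
def EisMod (N : ℕ) (x y : ℂ) : Prop := ∃ z ∈ Eis, x - y = N * z

variable {N : ℕ} {x y x' y' u : ℂ}

theorem EisMod.refl (x : ℂ) : EisMod N x x := ⟨0, zero_mem _, by ring⟩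

theorem EisMod.symm (h : EisMod N x y) : EisMod N y x := by
  obtain ⟨z, hz, e⟩ := h
  exact ⟨-z, neg_mem hz, by linear_combination -e⟩

theorem EisMod.trans {w : ℂ} (h : EisMod N x y) (h' : EisMod N y w) : EisMod N x w := by
  obtain ⟨z, hz, e⟩ := h
  obtain ⟨z', hz', e'⟩ := h'
  exact ⟨z + z', add_mem hz hz', by linear_combination e + e'⟩

theorem EisMod.add (h : EisMod N x y) (h' : EisMod N x' y') : EisMod N (x + x') (y + y') := by
  obtain ⟨z, hz, e⟩ := h
  obtain ⟨z', hz', e'⟩ := h'
  exact ⟨z + z', add_mem hz hz', by linear_combination e + e'⟩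

theorem EisMod.neg (h : EisMod N x y) : EisMod N (-x) (-y) := by
  obtain ⟨z, hz, e⟩ := h
  exact ⟨-z, neg_mem hz, by linear_combination -e⟩

theorem EisMod.mul (hx' : x' ∈ Eis) (hy : y ∈ Eis) (h : EisMod N x y) (h' : EisMod N x' y') :
    EisMod N (x * x') (y * y') := by
  obtain ⟨z, hz, e⟩ := h
  obtain ⟨z', hz', e'⟩ := h'
  exact ⟨z * x' + y * z', add_mem (mul_mem hz hx') (mul_mem hy hz'),
    by linear_combination x' * e + y * e'⟩

theorem EisMod.mul_left (hu : u ∈ Eis) (h : EisMod N x y) : EisMod N (u * x) (u * y) := by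
  obtain ⟨z, hz, e⟩ := h
  exact ⟨u * z, mul_mem hu hz, by linear_combination u * e⟩

theorem EisMod.mul_right (hu : u ∈ Eis) (h : EisMod N x y) : EisMod N (x * u) (y * u) := by
  obtain ⟨z, hz, e⟩ := h
  exact ⟨z * u, mul_mem hz hu, by linear_combination u * e⟩

theorem EisMod.conj (h : EisMod N x y) : EisMod N (conj x) (conj y) := by
  obtain ⟨z, hz, e⟩ := h
  exact ⟨(starRingEnd ℂ) z, conj_mem_Eis hz, by rw [← map_sub, e, map_mul, map_natCast]⟩

theorem EisMod.mat_mul {A A' B B' : Matrix (Fin 2) (Fin 2) ℂ} (hB : ∀ i j, B i j ∈ Eis)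
    (hA' : ∀ i j, A' i j ∈ Eis) (h : ∀ i j, EisMod N (A i j) (A' i j))
    (h' : ∀ i j, EisMod N (B i j) (B' i j)) (i j : Fin 2) :
    EisMod N ((A * B) i j) ((A' * B') i j) := by
  simp only [Matrix.mul_apply, Fin.sum_univ_two]
  exact ((h i 0).mul (hB 0 j) (hA' i 0) (h' 0 j)).add ((h i 1).mul (hB 1 j) (hA' i 1) (h' 1 j))

theorem eisMod_zero_iff {x : ℂ} : EisMod N x 0 ↔ ∃ z ∈ Eis, x = N * z := by simp [EisMod]

theorem dvd_of_eisMod {m k : ℤ} (hN : N ≠ 0) (h : EisMod N (m : ℂ) (k : ℂ)) : (N : ℤ) ∣ m - k := by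
  obtain ⟨z, hz, e⟩ := h
  exact eis_dvd_int hN hz (by push_cast; exact e)

theorem eisMod_of_dvd {m k : ℤ} (h : (N : ℤ) ∣ m - k) : EisMod N (m : ℂ) (k : ℂ) := by
  obtain ⟨j, hj⟩ := h
  refine ⟨j, intCast_mem_Eis j, ?_⟩
  have := congrArg (fun i : ℤ => (i : ℂ)) hj
  push_cast at this
  exact this

/-! ### Norm one residues -/

/-- The norm of `(a, b)`. -/
def eisNorm (a b : ℤ) : ℤ := a * a - a * b + b * b

theorem eisNorm_coe (a b : ℤ) : normSq (eis a b) = (eisNorm a b : ℝ) := by
  rw [normSq_eis, eisNorm]; push_cast; ring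

/-- The coordinates of `t + s e t̄`. -/
def h90 (e0 e1 a b : ℤ) : ℤ × ℤ :=
  (a + (e0 * (a - b) + e1 * b), b + (-(e0 * b) + e1 * (a - b) + e1 * b))

theorem h90_eq (e0 e1 a b : ℤ) :
    eis (h90 e0 e1 a b).1 (h90 e0 e1 a b).2 = eis a b + eis e0 e1 * conj (eis a b) := by
  rw [conj_eis]
  simp only [h90, eis]
  push_cast
  linear_combination ((e1 : ℂ) * b) * omega_sq

theorem h90_base {e0 e1 : ℤ} {p : ℕ} (hp : p.Prime) (he : (p : ℤ) ∣ eisNorm e0 e1 - 1)
    (h3 : p = 3 → (e0 + e1) % 3 = 1) :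
    ∃ a b : ℤ, ¬ (p : ℤ) ∣ eisNorm (h90 e0 e1 a b).1 (h90 e0 e1 a b).2 := by
  by_contra hall
  push Not at hall
  have h1 := hall 1 0
  have h2 := hall 0 1
  have h3' := hall 1 1
  simp only [h90, eisNorm] at h1 h2 h3'
  simp only [eisNorm] at he
  have hpp : Prime (p : ℤ) := Nat.prime_iff_prime_int.mp hp
  have h6 : (p : ℤ) ∣ 6 := by
    have e : (6 : ℤ) = ((1 + (e0 * (1 - 0) + e1 * 0)) * (1 + (e0 * (1 - 0) + e1 * 0))
        - (1 + (e0 * (1 - 0) + e1 * 0)) * (0 + (-(e0 * 0) + e1 * (1 - 0) + e1 * 0))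
        + (0 + (-(e0 * 0) + e1 * (1 - 0) + e1 * 0)) * (0 + (-(e0 * 0) + e1 * (1 - 0) + e1 * 0)))
      + ((0 + (e0 * (0 - 1) + e1 * 1)) * (0 + (e0 * (0 - 1) + e1 * 1))
        - (0 + (e0 * (0 - 1) + e1 * 1)) * (1 + (-(e0 * 1) + e1 * (0 - 1) + e1 * 1))
        + (1 + (-(e0 * 1) + e1 * (0 - 1) + e1 * 1)) * (1 + (-(e0 * 1) + e1 * (0 - 1) + e1 * 1)))
      + ((1 + (e0 * (1 - 1) + e1 * 1)) * (1 + (e0 * (1 - 1) + e1 * 1))
        - (1 + (e0 * (1 - 1) + e1 * 1)) * (1 + (-(e0 * 1) + e1 * (1 - 1) + e1 * 1))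
        + (1 + (-(e0 * 1) + e1 * (1 - 1) + e1 * 1)) * (1 + (-(e0 * 1) + e1 * (1 - 1) + e1 * 1)))
      - 3 * (e0 * e0 - e0 * e1 + e1 * e1 - 1) := by ring
    rw [e]
    exact dvd_sub (dvd_add (dvd_add h1 h2) h3') (he.mul_left 3)
  have h23 : p = 2 ∨ p = 3 := by
    have h := hpp.dvd_or_dvd (show (p : ℤ) ∣ 2 * 3 from h6)
    rcases h with h | h
    · exact Or.inl ((Nat.prime_dvd_prime_iff_eq hp Nat.prime_two).mp (by exact_mod_cast h))
    · exact Or.inr ((Nat.prime_dvd_prime_iff_eq hp Nat.prime_three).mp (by exact_mod_cast h))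
  rcases h23 with rfl | rfl
  · have key : ∀ x y : ZMod 2, x * x - x * y + y * y - 1 = 0 →
        (1 + x) * (1 + x) - (1 + x) * y + y * y = 0 →
        (-x + y) * (-x + y) - (-x + y) * (1 + -x) + (1 + -x) * (1 + -x) = 0 → False := by decide
    refine key (e0 : ZMod 2) (e1 : ZMod 2) ?_ ?_ ?_
    · have := (ZMod.intCast_zmod_eq_zero_iff_dvd _ _).mpr he; push_cast at this; exact this
    · have := (ZMod.intCast_zmod_eq_zero_iff_dvd _ _).mpr h1; push_cast at this
      linear_combination this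
    · have := (ZMod.intCast_zmod_eq_zero_iff_dvd _ _).mpr h2; push_cast at this
      linear_combination this
  · have key : ∀ x y : ZMod 3, x + y = 1 → (1 + x) * (1 + x) - (1 + x) * y + y * y = 0 → False := by
      decide
    refine key (e0 : ZMod 3) (e1 : ZMod 3) ?_ ?_
    · have h := h3 rfl
      have h' : ((e0 + e1 - 1 : ℤ) : ZMod 3) = 0 :=
        (ZMod.intCast_zmod_eq_zero_iff_dvd _ _).mpr (by omega)
      push_cast at h'
      linear_combination h'
    · have := (ZMod.intCast_zmod_eq_zero_iff_dvd _ _).mpr h1; push_cast at this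
      linear_combination this

theorem h90_avoid {e0 e1 : ℤ} (S : Finset ℕ) (hS : ∀ p ∈ S, p.Prime ∧ (p : ℤ) ∣ eisNorm e0 e1 - 1 ∧
      (p = 3 → (e0 + e1) % 3 = 1)) :
    ∃ a b : ℤ, ∀ p ∈ S, ¬ (p : ℤ) ∣ eisNorm (h90 e0 e1 a b).1 (h90 e0 e1 a b).2 := by
  classical
  induction S using Finset.induction_on with
  | empty => exact ⟨0, 0, by simp⟩
  | insert p S hpS IH =>
    obtain ⟨hp, he, h3⟩ := hS p (Finset.mem_insert_self _ _)
    have hS' := fun q hq => hS q (Finset.mem_insert_of_mem hq)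
    obtain ⟨a, b, hab⟩ := IH hS'
    obtain ⟨u, v, huv⟩ := h90_base hp he h3
    set M : ℤ := ∏ q ∈ S, (q : ℤ) with hM
    have hpp : Prime (p : ℤ) := Nat.prime_iff_prime_int.mp hp
    have hpM : ¬ (p : ℤ) ∣ M := by
      rw [hM]
      intro h
      obtain ⟨q, hq, hq'⟩ := (hpp.dvd_finsetProd_iff _).mp h
      exact hpS ((Nat.prime_dvd_prime_iff_eq hp (hS' q hq).1).mp
          (Int.natCast_dvd_natCast.mp hq') ▸ hq)
    suffices ∃ k : ℤ, ¬ (p : ℤ) ∣ eisNorm (h90 e0 e1 (a + k * M * u) (b + k * M * v)).1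
        (h90 e0 e1 (a + k * M * u) (b + k * M * v)).2 by
      obtain ⟨k, hk⟩ := this
      refine ⟨a + k * M * u, b + k * M * v, fun q hq => ?_⟩
      rcases Finset.mem_insert.mp hq with rfl | hq'
      · exact hk
      · intro hd
        apply hab q hq'
        have hqM : (q : ℤ) ∣ M := Finset.dvd_prod_of_mem _ hq'
        set A := h90 e0 e1 a b
        set U := h90 e0 e1 u v
        have e : eisNorm (h90 e0 e1 (a + k * M * u) (b + k * M * v)).1
            (h90 e0 e1 (a + k * M * u) (b + k * M * v)).2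
            = eisNorm A.1 A.2 + M * (k * (2 * A.1 * U.1 - A.1 * U.2 - A.2 * U.1 + 2 * A.2 * U.2)
              + k * k * M * eisNorm U.1 U.2) := by
          simp only [A, U, h90, eisNorm]; ring
        rw [e] at hd
        exact (dvd_add_left (hqM.mul_right _)).mp hd
    set A := h90 e0 e1 a b
    set U := h90 e0 e1 u v
    have e : ∀ k : ℤ, eisNorm (h90 e0 e1 (a + k * M * u) (b + k * M * v)).1
        (h90 e0 e1 (a + k * M * u) (b + k * M * v)).2
        = eisNorm (A.1 + k * M * U.1) (A.2 + k * M * U.2) := fun k => by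
      simp only [A, U, h90, eisNorm]; ring
    simp only [e]
    by_contra hall
    push Not at hall
    have h0 := hall 0
    have h1 := hall 1
    have h2 := hall (-1)
    by_cases h2' : p = 2
    · subst h2'
      have key : ∀ x y r s m : ZMod 2, x * x - x * y + y * y = 0 →
          (x + m * r) * (x + m * r) - (x + m * r) * (y + m * s) + (y + m * s) * (y + m * s) = 0 →
          m = 0 ∨ r * r - r * s + s * s = 0 := by decide
      have h0' := (ZMod.intCast_zmod_eq_zero_iff_dvd _ _).mpr h0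
      have h1' := (ZMod.intCast_zmod_eq_zero_iff_dvd _ _).mpr h1
      simp only [eisNorm] at h0' h1'
      push_cast at h0' h1'
      rcases key A.1 A.2 U.1 U.2 M (by linear_combination h0')
          (by linear_combination h1') with h | h
      · exact hpM ((ZMod.intCast_zmod_eq_zero_iff_dvd _ _).mp h)
      · refine huv ((ZMod.intCast_zmod_eq_zero_iff_dvd _ _).mp ?_)
        simp only [eisNorm]; push_cast; exact h
    · have hd : (p : ℤ) ∣ 2 * (M * M * eisNorm U.1 U.2) := by
        have e : 2 * (M * M * eisNorm U.1 U.2) = eisNorm (A.1 + 1 * M * U.1) (A.2 + 1 * M * U.2)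
            + eisNorm (A.1 + -1 * M * U.1) (A.2 + -1 * M * U.2)
            - 2 * eisNorm (A.1 + 0 * M * U.1) (A.2 + 0 * M * U.2) := by
          simp only [eisNorm]; ring
        rw [e]
        exact dvd_sub (dvd_add h1 h2) (h0.mul_left 2)
      rcases hpp.dvd_or_dvd hd with h | h
      · exact h2' ((Nat.prime_dvd_prime_iff_eq hp Nat.prime_two).mp (by exact_mod_cast h))
      · rcases hpp.dvd_or_dvd h with h | h
        · rcases hpp.dvd_or_dvd h with h | h <;> exact hpM h
        · exact huv h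

/-- Hilbert's theorem 90 modulo `N`, up to sign. -/
theorem exists_h90 (hN : N ≠ 0) {e : ℂ} (he : e ∈ Eis) (h1 : EisMod N (e * conj e) 1) :
    ∃ (s : ℤ) (t : ℂ) (i : ℤ), (s = 1 ∨ s = -1) ∧ t ∈ Eis ∧
      EisMod N t ((s : ℂ) * e * conj t) ∧ EisMod N ((i : ℂ) * (t * conj t)) 1 := by
  obtain ⟨e0, e1, rfl⟩ := he
  have hn : (N : ℤ) ∣ eisNorm e0 e1 - 1 := by
    refine dvd_of_eisMod hN ?_
    rw [Complex.mul_conj, eisNorm_coe] at h1
    push_cast at h1 ⊢
    exact h1
  obtain ⟨s, hs, h3⟩ : ∃ s : ℤ, (s = 1 ∨ s = -1) ∧ (3 ∣ N → (s * e0 + s * e1) % 3 = 1) := by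
    by_cases h : (e0 + e1) % 3 = 1
    · exact ⟨1, Or.inl rfl, fun _ => by simpa using h⟩
    · refine ⟨-1, Or.inr rfl, fun hN3 => ?_⟩
      have h3 : ((3 : ℕ) : ℤ) ∣ eisNorm e0 e1 - 1 :=
        dvd_trans (Int.natCast_dvd_natCast.mpr hN3) hn
      have key : ∀ x y : ZMod 3, x * x - x * y + y * y - 1 = 0 → x + y = 1 ∨ -x + -y = 1 := by
        decide
      have h' := (ZMod.intCast_zmod_eq_zero_iff_dvd _ _).mpr h3
      simp only [eisNorm] at h'
      push_cast at h'
      rcases key _ _ h' with hk | hk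
      · exfalso; apply h
        have : ((e0 + e1 - 1 : ℤ) : ZMod 3) = 0 := by push_cast; linear_combination hk
        have := (ZMod.intCast_zmod_eq_zero_iff_dvd _ _).mp this
        omega
      · have : ((-e0 + -e1 - 1 : ℤ) : ZMod 3) = 0 := by push_cast; linear_combination hk
        have := (ZMod.intCast_zmod_eq_zero_iff_dvd _ _).mp this
        omega
  have hs2 : s * s = 1 := by rcases hs with rfl | rfl <;> rfl
  obtain ⟨a, b, hab⟩ := h90_avoid (e0 := s * e0) (e1 := s * e1) N.primeFactors fun p hp => by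
    obtain ⟨hpp, hpN, -⟩ := Nat.mem_primeFactors.mp hp
    refine ⟨hpp, ?_, fun h => h3 (h ▸ hpN)⟩
    have e : eisNorm (s * e0) (s * e1) - 1 = eisNorm e0 e1 - 1 := by
      simp only [eisNorm]; linear_combination (e0 * e0 - e0 * e1 + e1 * e1) * hs2
    rw [e]
    exact dvd_trans (Int.natCast_dvd_natCast.mpr hpN) hn
  set A := h90 (s * e0) (s * e1) a b with hA
  have hcop : IsCoprime (eisNorm A.1 A.2) (N : ℤ) := by
    rw [Int.isCoprime_iff_nat_coprime]
    by_contra hh
    obtain ⟨p, hp, hp1, hp2⟩ := Nat.Prime.not_coprime_iff_dvd.mp hh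
    exact hab p (Nat.mem_primeFactors.mpr ⟨hp, by simpa using hp2, hN⟩) (Int.natCast_dvd.mpr hp1)
  obtain ⟨i, j, hij⟩ := hcop
  refine ⟨s, eis A.1 A.2, i, hs, ⟨A.1, A.2, rfl⟩, ?_, ?_⟩
  · have hse : eis ((s * e0 : ℤ) : ℝ) ((s * e1 : ℤ) : ℝ) = (s : ℂ) * eis e0 e1 := by
      simp [eis]; ring
    have htE : eis a b ∈ Eis := ⟨a, b, rfl⟩
    obtain ⟨z, hz, hze⟩ := h1
    refine ⟨-(eis a b) * z, mul_mem (neg_mem htE) hz, ?_⟩
    rw [hA, h90_eq, hse, map_add, map_mul, map_mul, Complex.conj_conj, map_intCast]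
    have hsC : (s : ℂ) * s = 1 := by exact_mod_cast hs2
    linear_combination -eis a b * hze - eis (e0 : ℝ) e1 * conj (eis (e0 : ℝ) e1) * eis a b * hsC
  · refine ⟨-(j : ℂ), neg_mem (intCast_mem_Eis j), ?_⟩
    rw [Complex.mul_conj, eisNorm_coe]
    have := congrArg (fun m : ℤ => (m : ℂ)) hij
    push_cast at this ⊢
    linear_combination this

/-! ### The orbit -/

/-- A vector in the support has off-diagonal entry of norm one modulo `N`. -/
private theorem eisMod_offDiag_mul_conj {n : Fin 4 → ℤ} {a0 : ℤ} (ha0 : n 0 = N * a0)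
    (hk : Qf (latVec n) = 1) :
    EisMod N (offDiag (latVec n) * conj (offDiag (latVec n))) 1 := by
  refine ⟨(a0 : ℂ) * (n 1), mul_mem (intCast_mem_Eis _) (intCast_mem_Eis _), ?_⟩
  set b := offDiag (latVec n) with hb
  have hQ : Qf (latVec n) = normSq b - (n 0 : ℝ) * n 1 := by rw [hb, offDiag, normSq_eis]; rfl
  rw [hk] at hQ
  rw [Complex.mul_conj, show normSq b = 1 + (n 0 : ℝ) * n 1 by linarith, ha0]
  push_cast; ring

/-- The diagonal correction given by Hilbert 90 has determinant `s` modulo `N`. -/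
private theorem eisMod_diag_det {b d t : ℂ} {s i : ℤ} (hbE : b ∈ Eis) (hdE : d ∈ Eis)
    (htE : t ∈ Eis) (hd1 : d * conj d = 1) (hbb : EisMod N (b * conj b) 1)
    (hte : EisMod N t ((s : ℂ) * conj (b * d) * conj t))
    (hti : EisMod N ((i : ℂ) * (t * conj t)) 1) :
    EisMod N (b * (i : ℂ) * t * t * d) (s : ℂ) := by
  have hctE := conj_mem_Eis htE
  have hiE : (i : ℂ) ∈ Eis := intCast_mem_Eis i
  have hsE : (s : ℂ) ∈ Eis := intCast_mem_Eis s
  have h1 : EisMod N (b * d * (i : ℂ) * t * t)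
      (b * d * (i : ℂ) * t * ((s : ℂ) * conj (b * d) * conj t)) :=
    hte.mul_left (mul_mem (mul_mem (mul_mem hbE hdE) hiE) htE)
  have h2 : EisMod N ((s : ℂ) * (b * conj b) * ((i : ℂ) * (t * conj t))) ((s : ℂ) * 1 * 1) :=
    (hbb.mul_left hsE).mul (mul_mem hiE (mul_mem htE hctE)) (mul_mem hsE (one_mem _)) hti
  rw [show b * (i : ℂ) * t * t * d = b * d * (i : ℂ) * t * t by ring]
  refine h1.trans ?_
  rw [show b * d * (i : ℂ) * t * ((s : ℂ) * conj (b * d) * conj t)
      = (s : ℂ) * (b * conj b) * ((i : ℂ) * (t * conj t)) by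
    rw [map_mul]; linear_combination ((s : ℂ) * (b * conj b) * ((i : ℂ) * (t * conj t))) * hd1]
  simpa using h2

/-- A stabiliser of the standard vector with determinant a given sign. -/
private theorem exists_congGroup_sign {s : ℤ} (hs : s = 1 ∨ s = -1) :
    ∃ W ∈ congGroup 1, act W.val planeVec = planeVec ∧ W.val.det = (s : ℂ) := by
  rcases hs with rfl | rfl
  · exact ⟨1, one_mem _, by simp [act_one], by simp⟩
  · obtain ⟨W, hW, hWv⟩ := exists_congGroup_one (M := !![0, 1; 1, 0]) (u := -1)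
      (fun i j => by fin_cases i <;> fin_cases j <;> simp [one_mem, zero_mem])
      (neg_mem (one_mem _)) (by simp [Matrix.det_fin_two_of])
    refine ⟨W, hW, mat_injective ?_, by simp [hWv, Matrix.det_fin_two_of]⟩
    rw [mat_act, hWv, mat_planeVec]
    ext i j
    fin_cases i <;> fin_cases j <;> simp [Matrix.mul_apply, Fin.sum_univ_two]

/-- The matrix of the standard vector has Eisenstein entries. -/
private theorem mat_planeVec_mem (i j : Fin 2) : mat planeVec i j ∈ Eis := by
  rw [mat_planeVec]; fin_cases i <;> fin_cases j <;> simp [zero_mem, one_mem]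

/-- A product of matrices with Eisenstein entries has Eisenstein entries. -/
private theorem mul_mem_Eis {A B : Matrix (Fin 2) (Fin 2) ℂ} (hA : ∀ i j, A i j ∈ Eis)
    (hB : ∀ i j, B i j ∈ Eis) (i j : Fin 2) : (A * B) i j ∈ Eis := by
  rw [Matrix.mul_apply]
  exact sum_mem fun l _ => mul_mem (hA i l) (hB l j)

/-- A diagonal matrix moves the standard vector to a vector in the support modulo `N`. -/
private theorem eisMod_diag_conj {n : Fin 4 → ℤ} {a0 c0 : ℤ} (ha0 : n 0 = N * a0)
    (hc0 : n 1 = N * c0) {d1 d2 : ℂ} (hdd : EisMod N (d1 * conj d2) (offDiag (latVec n)))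
    (i j : Fin 2) :
    EisMod N ((!![d1, 0; 0, d2] * mat planeVec * (!![d1, 0; 0, d2])ᴴ) i j)
      ((mat (latVec n)) i j) := by
  rw [mat_planeVec]
  fin_cases i <;> fin_cases j <;>
    simp [Matrix.mul_apply, Fin.sum_univ_two, mat, latVec_apply]
  · exact (eisMod_zero_iff.mpr ⟨a0, intCast_mem_Eis _, by rw [ha0]; push_cast; ring⟩).symm
  · exact hdd
  · have := hdd.conj
    rw [map_mul, Complex.conj_conj] at this
    rwa [mul_comm]
  · exact (eisMod_zero_iff.mpr ⟨c0, intCast_mem_Eis _, by rw [hc0]; push_cast; ring⟩).symm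

/-- Congruent forms stay congruent under an integral change of frame. -/
private theorem eisMod_mul_conjTranspose {U X Y : Matrix (Fin 2) (Fin 2) ℂ}
    (hU : ∀ i j, U i j ∈ Eis) (hX : ∀ i j, X i j ∈ Eis) (hY : ∀ i j, Y i j ∈ Eis)
    (h : ∀ i j, EisMod N (X i j) (Y i j)) (i j : Fin 2) :
    EisMod N ((U * X * Uᴴ) i j) ((U * Y * Uᴴ) i j) :=
  EisMod.mat_mul (fun i j => by simpa using conj_mem_Eis (hU j i)) (mul_mem_Eis hU hY)
    (EisMod.mat_mul hX hU (fun _ _ => EisMod.refl _) h) (fun _ _ => EisMod.refl _) i j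

/-- A matrix of determinant one preserving the standard form modulo `N` commutes with it up to the
adjugate. -/
private theorem eisMod_mul_planeVec_adjugate {M : Matrix (Fin 2) (Fin 2) ℂ}
    (hME : ∀ i j, M i j ∈ Eis) (hMdet : EisMod N M.det 1)
    (hrel : ∀ i j, EisMod N ((M * mat planeVec * Mᴴ) i j) ((mat planeVec) i j)) (i j : Fin 2) :
    EisMod N ((M * mat planeVec) i j) ((mat planeVec * (Mᴴ).adjugate) i j) := by
  have hAE : ∀ i j, (Mᴴ).adjugate i j ∈ Eis := fun i j => by
    rw [Matrix.adjugate_fin_two]; fin_cases i <;> fin_cases j <;> simp [conj_mem_Eis, hME]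
  have h1 := EisMod.mat_mul (N := N) (A := M * mat planeVec * Mᴴ) (A' := mat planeVec)
    (B := (Mᴴ).adjugate) (B' := (Mᴴ).adjugate) hAE mat_planeVec_mem hrel
    (fun _ _ => EisMod.refl _) i j
  rw [Matrix.mul_assoc, Matrix.mul_adjugate, Matrix.mul_smul, Matrix.mul_one,
    Matrix.smul_apply, smul_eq_mul, Matrix.det_conjTranspose, Complex.star_def] at h1
  refine (EisMod.trans ?_ h1)
  have := (hMdet.conj.symm).mul_right (mul_mem_Eis hME mat_planeVec_mem i j)
  simpa using this

/-- An Eisenstein integer congruent to its conjugate is congruent to a rational integer. -/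
private theorem exists_eisMod_intCast {z : ℂ} (hz : z ∈ Eis) (h : EisMod N z (conj z)) :
    ∃ x : ℤ, EisMod N z (x : ℂ) := by
  obtain ⟨x, y, rfl⟩ := hz
  obtain ⟨_, ⟨z0, z1, rfl⟩, e⟩ := h
  have h' : eis ((y : ℤ) : ℝ) ((2 * y : ℤ) : ℝ)
      = eis ((N : ℤ) * z0 : ℤ) (((N : ℤ) * z1 : ℤ) : ℝ) := by
    rw [conj_eis] at e
    simp only [eis] at e ⊢
    push_cast at e ⊢
    linear_combination e
  obtain ⟨e1, -⟩ := eis_inj h'
  refine ⟨x, (z0 : ℂ) * omega, mul_mem (intCast_mem_Eis z0) omega_mem, ?_⟩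
  have hy : (y : ℂ) = N * z0 := by exact_mod_cast congrArg (fun r : ℝ => (r : ℂ)) e1
  simp only [eis]; push_cast
  linear_combination omega * hy

/-- An Eisenstein integer congruent to minus its conjugate is congruent to a multiple of `√-3`. -/
private theorem exists_eisMod_sqrtNegThree {z : ℂ} (hz : z ∈ Eis)
    (h : EisMod N z (-conj z)) : ∃ x : ℤ, EisMod N z ((x : ℂ) * (1 + 2 * omega)) := by
  obtain ⟨x, y, rfl⟩ := hz
  obtain ⟨_, ⟨z0, z1, rfl⟩, e⟩ := h
  have h' : eis ((2 * x - y : ℤ) : ℝ) ((0 : ℤ) : ℝ)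
      = eis ((N : ℤ) * z0 : ℤ) (((N : ℤ) * z1 : ℤ) : ℝ) := by
    rw [conj_eis] at e
    simp only [eis] at e ⊢
    push_cast at e ⊢
    linear_combination e
  obtain ⟨e1, -⟩ := eis_inj h'
  refine ⟨x, -(z0 : ℂ) * omega, mul_mem (neg_mem (intCast_mem_Eis z0)) omega_mem, ?_⟩
  have hy : ((2 * x - y : ℤ) : ℂ) = N * z0 := by
    exact_mod_cast congrArg (fun r : ℝ => (r : ℂ)) e1
  simp only [eis]; push_cast at hy ⊢
  linear_combination -omega * hy

/-- `1 + 2ω` squares to `-3`. -/
private theorem one_add_two_omega_sq : (1 + 2 * omega) * (1 + 2 * omega) = -3 := by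
  linear_combination 4 * omega_sq

/-- `1 + 2ω` is an Eisenstein integer. -/
private theorem one_add_two_omega_mem : (1 : ℂ) + 2 * omega ∈ Eis := by
  rw [two_mul]; exact add_mem (one_mem _) (add_mem omega_mem omega_mem)

/-- A matrix preserving the standard form modulo `N` lifts to one of its stabilisers. -/
private theorem exists_stabiliser (hN : N ≠ 0) {M : Matrix (Fin 2) (Fin 2) ℂ}
    (hME : ∀ i j, M i j ∈ Eis) (hMdet : EisMod N M.det 1)
    (hrel : ∀ i j, EisMod N ((M * mat planeVec * Mᴴ) i j) ((mat planeVec) i j)) :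
    ∃ ν ∈ congGroup 1, act ν.val planeVec = planeVec ∧ ∀ i j, EisMod N (ν.val i j) (M i j) := by
  have hshape := eisMod_mul_planeVec_adjugate hME hMdet hrel
  have hp := hshape 0 1
  have hq := hshape 0 0
  have hr := hshape 1 1
  have hw := hshape 1 0
  simp [mat_planeVec, Matrix.adjugate_fin_two, Matrix.mul_apply,
      Fin.sum_univ_two] at hp hq hr hw
  obtain ⟨px, e00⟩ := exists_eisMod_intCast (hME 0 0) hp
  obtain ⟨qx, e01⟩ := exists_eisMod_sqrtNegThree (hME 0 1) hq
  obtain ⟨rx, e10⟩ := exists_eisMod_sqrtNegThree (hME 1 0) hr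
  obtain ⟨wx, e11⟩ := exists_eisMod_intCast (hME 1 1) hw
  have hrt := one_add_two_omega_sq
  have hrtE := one_add_two_omega_mem
  have hdiv : (N : ℤ) ∣ px * wx - qx * (3 * (-rx)) - 1 := by
    refine dvd_of_eisMod hN (((?_ : EisMod N _ M.det).trans hMdet).trans (by
      rw [Int.cast_one]; exact EisMod.refl _))
    rw [Matrix.det_fin_two]
    have h1 := (e00.mul (hME 1 1) (intCast_mem_Eis px) e11).add
      ((e01.mul (hME 1 0) (mul_mem (intCast_mem_Eis qx) hrtE) e10).neg)
    rw [← sub_eq_add_neg] at h1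
    refine EisMod.trans ?_ h1.symm
    push_cast
    rw [show (px : ℂ) * wx + -((qx : ℂ) * (1 + 2 * omega) * ((rx : ℂ) * (1 + 2 * omega)))
        = (px : ℂ) * wx - (qx : ℂ) * (3 * -(rx : ℂ)) by linear_combination -((qx : ℂ) * rx) * hrt]
    exact EisMod.refl _
  obtain ⟨a', b', u, d', hdet', ha, hb', hu, hd⟩ := exists_SL2_lift_three hN hdiv
  obtain ⟨ν, hν, hνv⟩ := exists_congGroup_one
    (M := !![(a' : ℂ), (b' : ℂ) * (1 + 2 * omega); -(u : ℂ) * (1 + 2 * omega), (d' : ℂ)]) (u := 1)
    (fun i j => by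
      fin_cases i <;> fin_cases j <;> simp [hrtE, mul_mem])
    (one_mem _) (by
      rw [Matrix.det_fin_two_of, mul_one]
      have := congrArg (fun m : ℤ => (m : ℂ)) hdet'
      push_cast at this
      linear_combination this + (b' : ℂ) * u * hrt)
  refine ⟨ν, hν, mat_injective ?_, fun i j => ?_⟩
  · rw [mat_act, mat_planeVec, hνv]
    have := congrArg (fun m : ℤ => (m : ℂ)) hdet'
    push_cast at this
    ext i j
    fin_cases i <;> fin_cases j <;>
      simp [Matrix.mul_apply, Fin.sum_univ_two, conj_omega, map_ofNat]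
    all_goals first
      | ring1
      | linear_combination this + (b' : ℂ) * u * hrt
  · rw [hνv]
    fin_cases i <;> fin_cases j <;> simp only [Matrix.of_apply, Matrix.cons_val',
      Matrix.cons_val_zero,
      Matrix.cons_val_one, Matrix.cons_val_fin_one, Fin.zero_eta, Fin.mk_one, Fin.isValue]
    · exact (eisMod_of_dvd ha).trans e00.symm
    · exact ((eisMod_of_dvd hb').mul_right hrtE).trans e01.symm
    · refine ((eisMod_of_dvd hu).neg.mul_right hrtE).trans ?_
      simpa using e10.symm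
    · exact (eisMod_of_dvd hd).trans e11.symm

/-- An integral unit congruent to a diagonal matrix lies in `congGroup N`. -/
private theorem mem_congGroup_of_diag {g : GL (Fin 2) ℂ} (hg : g ∈ congGroup 1)
    (h01 : EisMod N (g.val 0 1) 0) (h10 : EisMod N (g.val 1 0) 0) : g ∈ congGroup N := by
  obtain ⟨z, hz, hz'⟩ := eisMod_zero_iff.mp h01
  obtain ⟨y, hy, hy'⟩ := eisMod_zero_iff.mp h10
  refine ⟨⟨hg.1.1, ⟨z, hz, hz'⟩, ⟨y, hy, hy'⟩⟩, hg.2.1, ?_⟩
  have hdetinv : (g⁻¹).val.det * g.val.det = 1 := by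
    rw [← Matrix.det_mul, ← Units.val_mul, inv_mul_cancel, Units.val_one, Matrix.det_one]
  have hadj : (g⁻¹).val = (g⁻¹).val.det • g.val.adjugate := by
    rw [← Matrix.one_mul ((g⁻¹).val.det • g.val.adjugate), ← Units.val_one, ← inv_mul_cancel g,
      Units.val_mul, Matrix.mul_assoc, Matrix.mul_smul, Matrix.mul_adjugate, smul_smul, hdetinv,
      one_smul, Matrix.mul_one]
  have hdI := eisCong_det_mem hg.2
  refine ⟨⟨(g⁻¹).val.det * -z, mul_mem hdI (neg_mem hz), ?_⟩,
    ⟨(g⁻¹).val.det * -y, mul_mem hdI (neg_mem hy), ?_⟩⟩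
  · generalize (g⁻¹).val.det = δ at hadj ⊢
    rw [hadj]; simp [Matrix.adjugate_fin_two, hz']; ring
  · generalize (g⁻¹).val.det = δ at hadj ⊢
    rw [hadj]; simp [Matrix.adjugate_fin_two, hy']; ring

/-- Every vector of norm one in the support is moved to from the standard one by `congGroup N`. -/
theorem exists_congGroup_frame (hN : N ≠ 0) {X : HVec} (hX : X ∈ Lvl N 1) :
    ∃ g ∈ congGroup N, act g.val planeVec = X := by
  obtain ⟨n, ⟨⟨⟨a0, ha0⟩, ⟨c0, hc0⟩, hcop⟩, hk⟩, rfl⟩ := hX
  rw [Int.cast_one] at hk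
  -- a frame over `ℤ`, and Hilbert 90 for its off-diagonal entry
  obtain ⟨h, hh, hact⟩ := exists_int_frame n hk
  set b := offDiag (latVec n) with hb
  have hbE : b ∈ Eis := ⟨n 2, n 3, rfl⟩
  set k := h⁻¹ with hk'
  have hdE : k.val.det ∈ Eis := eisCong_det_mem hh.2
  have hd1 : k.val.det * conj k.val.det = 1 := by
    rw [Complex.mul_conj, normSq_det_congGroup (inv_mem hh), Complex.ofReal_one]
  have hbb : EisMod N (b * conj b) 1 := eisMod_offDiag_mul_conj ha0 hk
  obtain ⟨s, t, i, hs, ht, hte, hti⟩ := exists_h90 hN (e := conj (b * k.val.det))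
    (conj_mem_Eis (mul_mem hbE hdE)) (by
      rw [Complex.conj_conj, show conj (b * k.val.det) * (b * k.val.det) = b * conj b by
        rw [map_mul]; linear_combination (b * conj b) * hd1]
      exact hbb)
  -- the frame corrected by the diagonal and the sign
  set D : Matrix (Fin 2) (Fin 2) ℂ := !![b * (i : ℂ) * t, 0; 0, t]
  have hDE : ∀ i j, D i j ∈ Eis := fun i' j => by
    fin_cases i' <;> fin_cases j <;>
      simp [D, zero_mem, ht, mul_mem (mul_mem hbE (intCast_mem_Eis i)) ht]
  obtain ⟨W, hW, hWX, hWd⟩ := exists_congGroup_sign hs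
  set k' := W * k with hk''
  have hk'm : k' ∈ congGroup 1 := mul_mem hW (inv_mem hh)
  set M := k'.val * D
  have hME : ∀ i j, M i j ∈ Eis := mul_mem_Eis hk'm.1.1 hDE
  have hMdet : EisMod N M.det 1 := by
    have := (eisMod_diag_det hbE hdE ht hd1 hbb hte hti).mul_left (intCast_mem_Eis s)
    rw [show (s : ℂ) * s = 1 by rcases hs with rfl | rfl <;> norm_num] at this
    rwa [show M.det = (s : ℂ) * (b * (i : ℂ) * t * t * k.val.det) by
      simp only [M, hk'', D, Units.val_mul, Matrix.det_mul, hWd, Matrix.det_fin_two_of]; ring]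
  have hact' : act k'.val (latVec n) = planeVec := by
    rw [hk'', Units.val_mul, act_mul, ← hact, hk', ← act_mul, ← act_mul, mul_assoc,
      ← Units.val_mul h⁻¹, inv_mul_cancel, Units.val_one, mul_one, hWX]
  have hrel : ∀ i j, EisMod N ((M * mat planeVec * Mᴴ) i j) ((mat planeVec) i j) := by
    intro i' j
    have hdd : EisMod N (b * (i : ℂ) * t * conj t) b := by
      have := hti.mul_left hbE
      rw [mul_one] at this
      rwa [show b * (i : ℂ) * t * conj t = b * ((i : ℂ) * (t * conj t)) by ring]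
    have hDX := mul_mem_Eis (mul_mem_Eis hDE mat_planeVec_mem)
      (fun i j => by simpa using conj_mem_Eis (hDE j i) : ∀ i j, Dᴴ i j ∈ Eis)
    nth_rewrite 2 [show mat planeVec = k'.val * mat (latVec n) * k'.valᴴ by rw [← mat_act, hact']]
    rw [show M * mat planeVec * Mᴴ = k'.val * (D * mat planeVec * Dᴴ) * k'.valᴴ by
      simp only [M, Matrix.conjTranspose_mul, Matrix.mul_assoc]]
    exact eisMod_mul_conjTranspose hk'm.1.1 hDX (mat_latVec_mem n)
      (eisMod_diag_conj ha0 hc0 hdd) i' j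
  -- lift to a stabiliser of the standard vector
  obtain ⟨ν, hν, hνX, hcl⟩ := exists_stabiliser hN hME hMdet hrel
  refine ⟨k'⁻¹ * ν, ?_, ?_⟩
  · have hgD : ∀ i j, EisMod N ((k'⁻¹ * ν).val i j) (D i j) := fun i j => by
      have := EisMod.mat_mul (N := N) (A := (k'⁻¹).val) (A' := (k'⁻¹).val) (B := ν.val) (B' := M)
        hν.1.1 (inv_mem hk'm).1.1 (fun _ _ => EisMod.refl _) hcl i j
      rwa [← Units.val_mul, show (k'⁻¹).val * M = D by
        rw [← Matrix.mul_assoc, ← Units.val_mul, inv_mul_cancel, Units.val_one,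
            Matrix.one_mul]] at this
    exact mem_congGroup_of_diag (mul_mem (inv_mem hk'm) hν) (by simpa [D] using hgD 0 1)
      (by simpa [D] using hgD 1 0)
  · rw [Units.val_mul, act_mul, hνX, ← hact', ← act_mul, ← Units.val_mul, inv_mul_cancel,
      Units.val_one, act_one]

end FLTAgent.LanglandsTunnell.Lift
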