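import Fermat.Agent.LanglandsTunnell.Lift.Lattice

/-!
# Theta series with characteristics and their laws under `Γ₀(3)`

`IsKernel.theta_poisson` is the Poisson formula for `thetaSum`; it gives the laws under upper and
lower unipotents, and `law_Gamma0` propagates them to all of `Γ₀(3)`.  Used in `Modular`.
-/

set_option autoImplicit false

noncomputable section

namespace FLTAgent.LanglandsTunnell.Lift

open FLTAgent.LanglandsTunnell FLTAgent.LanglandsTunnell.Seed MeasureTheory Complex Matrix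
open UpperHalfPlane hiding I
open scoped Real MatrixGroups

variable {s : ℤ} {κ : ℂ} {Φ : ℍ → H3 → HVec → ℂ}

/-- The theta series with characteristics. -/
def thetaSum (Φ : ℍ → H3 → HVec → ℂ) (τ : ℍ) (P : H3) (u v : HVec) : ℂ :=
  ∑' n : Fin 4 → ℤ, Φ τ P (latVec n + u) * ee (Bf (latVec n) v)

/-- The Fourier side of the Poisson formula. -/
def dualSum (Φ : ℍ → H3 → HVec → ℂ) (σ : ℍ) (P : H3) (u v : HVec) : ℂ :=
  ∑' m : Fin 4 → ℤ, Φ σ P (dualVec m - v) * ee (Bf u (dualVec m))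

theorem ee_Bf_continuous (v : HVec) : Continuous fun X : HVec => ee (Bf X v) :=
  continuous_ee.comp (continuous_ofReal.comp (by unfold Bf; fun_prop))

theorem IsKernel.summable_dual (hΦ : IsKernel s κ Φ) (σ : ℍ) (P : H3) (v : HVec) :
    Summable fun m => ‖Φ σ P (dualVec m - v)‖ := by
  simpa [dualVec, sub_eq_add_neg] using hΦ.summable_lat σ P dualLin_injective (-v)

theorem IsKernel.theta_poisson (hΦ : IsKernel s κ Φ) (τ : ℍ) (P : H3) (u v : HVec) :
    thetaSum Φ τ P u v = κ / τ * ee (-(Bf u v : ℂ)) * dualSum Φ (negInv τ) P u v := by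
  set g : HVec → ℂ := fun X => Φ τ P X * ee (Bf X v) with hg
  have hgc : Continuous g := (hΦ.continuous_vec τ P).mul (ee_Bf_continuous v)
  have hgn : ∀ X, ‖g X‖ = ‖Φ τ P X‖ := fun X => by rw [hg, norm_mul, norm_ee_real, mul_one]
  have hb : HasLatticeBound g := fun R => by
    obtain ⟨w, hw, h⟩ := exists_gauss_bound P (L := LinearMap.id) Function.injective_id
      (mul_pos Real.pi_pos τ.im_pos) R
    refine ⟨fun n => 8 * Real.sqrt τ.im * w n, hw.mul_left _, fun x hx n => ?_⟩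
    rw [hgn, add_comm x]
    exact (hΦ.bound τ P _).trans (mul_le_mul_of_nonneg_left (h x hx n) (by positivity))
  have hfour : ∀ m, fourierVec g m = κ / τ * Φ (negInv τ) P (dualVec m - v) := fun m => by
    rw [fourierVec, ← hΦ.fourier τ P (dualVec m - v)]
    refine integral_congr_ae (Filter.Eventually.of_forall fun X => ?_)
    simp only [hg]
    rw [mul_comm (Φ τ P X), ← mul_assoc]
    congr 1
    rw [charVec, ← ee, ← ee_add, sub_eq_add_neg, Bf_add_right, Bf_neg_right, dualVec, Bf_dualLin]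
    congr 1
    simp only [Pi.neg_apply, latVec_apply]
    push_cast
    simp [Finset.sum_neg_distrib]
    ring
  have hs : Summable fun m => fourierVec g m := by
    refine Summable.of_norm ?_
    simp only [hfour, norm_mul]
    exact (hΦ.summable_dual _ P v).mul_left _
  have h := periodize_eq_tsum hgc hb hs u
  have hL : periodize g u = ee (Bf u v) * thetaSum Φ τ P u v := by
    rw [periodize, thetaSum, ← tsum_mul_left]
    refine tsum_congr fun n => ?_
    rw [hg, add_comm u]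
    show Φ τ P (latVec n + u) * ee (Bf (latVec n + u) v) = _
    rw [Bf_add_left, Complex.ofReal_add, ee_add]
    ring
  have hR : ∑' m, charVec m u * fourierVec g m = κ / τ * dualSum Φ (negInv τ) P u v := by
    rw [dualSum, ← tsum_mul_left]
    refine tsum_congr fun m => ?_
    rw [hfour, charVec, ← ee, dualVec, Bf_dualLin]
    simp only [latVec_apply]
    ring
  rw [hL, hR] at h
  have h1 : ee (-(Bf u v : ℂ)) * ee (Bf u v) = 1 := by rw [← ee_add, neg_add_cancel, ee_zero]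
  linear_combination ee (-(Bf u v : ℂ)) * h - thetaSum Φ τ P u v * h1

theorem IsKernel.vadd_int (hΦ : IsKernel s κ Φ) (n : ℤ) (τ : ℍ) (P : H3) (X : HVec) :
    Φ ((n : ℝ) +ᵥ τ) P X = ee (s * n * Qf X) * Φ τ P X := by
  induction n using Int.induction_on generalizing τ with
  | zero => simp [ee_zero]
  | succ k ih =>
    rw [show (((k : ℤ) + 1 : ℤ) : ℝ) = 1 + ((k : ℤ) : ℝ) by push_cast; ring, add_vadd, hΦ.vadd, ih,
      ← mul_assoc, ← ee_add]
    congr 2
    push_cast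
    ring
  | pred k ih =>
    have h := hΦ.vadd (((-(k : ℤ) - 1 : ℤ) : ℝ) +ᵥ τ) P X
    rw [vadd_vadd, show (1 : ℝ) + ((-(k : ℤ) - 1 : ℤ) : ℝ) = ((-(k : ℤ) : ℤ) : ℝ) by
      push_cast; ring, ih] at h
    have h1 : ee (s * ((-(k : ℤ) - 1 : ℤ) : ℂ) * Qf X) * ee (s * Qf X)
        = ee (s * ((-(k : ℤ) : ℤ) : ℂ) * Qf X) := by
      rw [← ee_add]; congr 1; push_cast; ring
    rw [← h1, mul_comm (ee (s * ((-(k : ℤ) - 1 : ℤ) : ℂ) * Qf X)), mul_assoc] at h
    exact mul_left_cancel₀ (Complex.exp_ne_zero _) h.symm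

theorem ee_mul_intCast {x : ℝ} {k : ℤ} (h : x = k) (n : ℤ) : ee (n * (x : ℂ)) = 1 := by
  rw [h, Complex.ofReal_intCast, ← Int.cast_mul, ee_intCast]

theorem IsKernel.theta_vadd (hΦ : IsKernel s κ Φ) (n : ℤ) (τ : ℍ) (P : H3) (u v : HVec) :
    thetaSum Φ ((n : ℝ) +ᵥ τ) P u v =
      ee (s * n * Qf u) * thetaSum Φ τ P u (v + ((s * n : ℤ) : ℝ) • u) := by
  rw [thetaSum, thetaSum, ← tsum_mul_left]
  refine tsum_congr fun m => ?_
  obtain ⟨k, hk⟩ := Qf_latVec m
  have h1 : ee ((s * n : ℤ) * (Qf (latVec m) : ℂ)) = 1 := ee_mul_intCast hk _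
  rw [hΦ.vadd_int, Qf_add, Bf_add_right, Bf_smul_right]
  push_cast at h1 ⊢
  rw [mul_add, mul_add, ee_add, ee_add, ee_add, h1]
  ring

theorem negInv_lowerStep (n : ℤ) (τ τ' : ℍ)
    (h : (τ' : ℂ) = τ / (3 * n * τ + 1)) :
    negInv τ' = (((-(3 * n) : ℤ) : ℝ) +ᵥ negInv τ) := by
  have hτ := τ.ne_zero
  refine UpperHalfPlane.ext ?_
  rw [UpperHalfPlane.coe_vadd, coe_negInv, coe_negInv, h]
  push_cast
  field_simp
  ring

theorem IsKernel.theta_lower (hΦ : IsKernel s κ Φ) (hs : s * s = 1) (hκ : κ ≠ 0) (n : ℤ)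
    (τ τ' : ℍ) (h : (τ' : ℂ) = τ / (3 * n * τ + 1)) (P : H3) (u v : HVec) :
    thetaSum Φ τ' P u v = (3 * n * (τ : ℂ) + 1) * ee (3 * s * n * Qf v) *
      thetaSum Φ τ P (u + ((3 * s * n : ℤ) : ℝ) • v) v := by
  have hd : dualSum Φ (negInv τ') P u v =
      ee (-(3 * s * n * Qf v : ℂ)) *
        dualSum Φ (negInv τ) P (u + ((3 * s * n : ℤ) : ℝ) • v) v := by
    rw [negInv_lowerStep n τ τ' h, dualSum, dualSum, ← tsum_mul_left]
    refine tsum_congr fun m => ?_
    obtain ⟨k, hk⟩ := three_mul_Qf_dualVec m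
    have h1 : ee ((-(s * n) : ℤ) * ((3 * Qf (dualVec m) : ℝ) : ℂ)) = 1 := ee_mul_intCast hk _
    rw [hΦ.vadd_int, sub_eq_add_neg (dualVec m), Qf_add, Bf_neg_right,
      show Qf (-v) = Qf v by simp [Qf], Bf_add_left, Bf_smul_left, Bf_comm (dualVec m) v]
    push_cast at h1 ⊢
    rw [show (s : ℂ) * -(3 * n) * (Qf (dualVec m) + -(Bf v (dualVec m)) + Qf v)
        = -(s * n) * (3 * Qf (dualVec m)) + 3 * s * n * Bf v (dualVec m) + -(3 * s * n * Qf v) by
      ring, ee_add, ee_add, h1, ee_add]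
    ring
  have hτ : (τ : ℂ) ≠ 0 := τ.ne_zero
  have hj : (3 * n * (τ : ℂ) + 1) ≠ 0 := by
    intro h0
    rw [h0, div_zero] at h
    exact τ'.ne_zero h
  rw [hΦ.theta_poisson τ', hd, hΦ.theta_poisson τ, h, Bf_add_left, Bf_smul_left, Bf_self]
  have hs' : (s : ℂ) * s = 1 := by exact_mod_cast hs
  generalize dualSum Φ (negInv τ) P (u + ((3 * s * n : ℤ) : ℝ) • v) v = D
  push_cast
  rw [neg_add, ee_add, show -(3 * s * n * (2 * (Qf v : ℂ)))
      = -(3 * s * n * Qf v) + -(3 * s * n * Qf v) by ring, ee_add]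
  have h1 : ee (3 * s * n * (Qf v : ℂ)) * ee (-(3 * s * n * (Qf v : ℂ))) = 1 := by
    rw [← ee_add, add_neg_cancel, ee_zero]
  generalize ee (3 * s * n * (Qf v : ℂ)) = e at h1 ⊢
  generalize ee (-(3 * s * n * (Qf v : ℂ))) = e' at h1 ⊢
  field_simp
  linear_combination (-(ee (-(Bf u v : ℂ)) * D * e') * (3 * n * (τ : ℂ) + 1)) * h1

theorem IsKernel.theta_neg (hΦ : IsKernel s κ Φ) (τ : ℍ) (P : H3) (u v : HVec) :
    thetaSum Φ τ P (-u) (-v) = thetaSum Φ τ P u v := by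
  rw [thetaSum, thetaSum, ← (Equiv.neg (Fin 4 → ℤ)).tsum_eq]
  refine tsum_congr fun n => ?_
  have h : latVec ((Equiv.neg (Fin 4 → ℤ)) n) = -latVec n := by
    ext i; simp [latVec_apply]
  rw [h, ← neg_add, hΦ.even, Bf_neg_left, Bf_neg_right, neg_neg]

/-! ### The law under `Γ₀(3)` -/

/-- The symmetrically normalised theta series. -/
def thetaT (s : ℤ) (Φ : ℍ → H3 → HVec → ℂ) (τ : ℍ) (P : H3) (u w : HVec) : ℂ :=
  ee (s * Bf u w / 2) * thetaSum Φ τ P u ((s : ℝ) • w)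

/-- The transformation law for one element. -/
def Law (s : ℤ) (Φ : ℍ → H3 → HVec → ℂ) (γ : SL(2, ℤ)) : Prop :=
  ∀ τ P u w, thetaT s Φ (γ • τ) P u w =
    (WeightOneWiring.chiInt (γ 1 1) : ℂ) * ((γ 1 0 : ℂ) * τ + γ 1 1) *
      thetaT s Φ τ P (((γ 0 0 : ℤ) : ℝ) • u + ((γ 1 0 : ℤ) : ℝ) • w)
        (((γ 0 1 : ℤ) : ℝ) • u + ((γ 1 1 : ℤ) : ℝ) • w)

theorem chiInt_of_three_dvd_sub {d d' : ℤ} (h : (3 : ℤ) ∣ d - d') :
    WeightOneWiring.chiInt d = WeightOneWiring.chiInt d' := by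
  have : d % 3 = d' % 3 := by omega
  rw [WeightOneWiring.chiInt, WeightOneWiring.chiInt, this]

theorem chiInt_mul (d d' : ℤ) :
    WeightOneWiring.chiInt (d * d') = WeightOneWiring.chiInt d * WeightOneWiring.chiInt d' := by
  have h : ∀ x, WeightOneWiring.chiInt x = WeightOneWiring.chiInt (x % 3) := fun x => by
    rw [WeightOneWiring.chiInt, WeightOneWiring.chiInt, Int.emod_emod]
  rw [h (d * d'), h d, h d', Int.mul_emod]
  have h1 := Int.emod_nonneg d (by norm_num : (3 : ℤ) ≠ 0)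
  have h2 := Int.emod_lt_of_pos d (by norm_num : (0 : ℤ) < 3)
  have h3 := Int.emod_nonneg d' (by norm_num : (3 : ℤ) ≠ 0)
  have h4 := Int.emod_lt_of_pos d' (by norm_num : (0 : ℤ) < 3)
  generalize d % 3 = r at h1 h2
  generalize d' % 3 = r' at h3 h4
  interval_cases r <;> interval_cases r' <;> decide

theorem coe_smul_SL (γ : SL(2, ℤ)) (τ : ℍ) :
    ((γ • τ : ℍ) : ℂ) = ((γ 0 0 : ℂ) * τ + γ 0 1) / ((γ 1 0 : ℂ) * τ + γ 1 1) := by
  rw [UpperHalfPlane.coe_specialLinearGroup_apply]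
  simp

theorem denom_SL_mul (γ δ : SL(2, ℤ)) (τ : ℍ) :
    ((γ 1 0 : ℂ) * (δ • τ : ℍ) + γ 1 1) * ((δ 1 0 : ℂ) * τ + δ 1 1) =
      (((γ * δ) 1 0 : ℤ) : ℂ) * τ + (((γ * δ) 1 1 : ℤ) : ℂ) := by
  have hne : ((δ 1 0 : ℂ) * τ + δ 1 1) ≠ 0 := by
    intro h0
    have := (δ • τ).ne_zero
    rw [coe_smul_SL, h0, div_zero] at this
    exact this rfl
  rw [coe_smul_SL, add_mul, mul_assoc, div_mul_cancel₀ _ hne]
  simp only [Matrix.SpecialLinearGroup.coe_mul, Matrix.mul_apply, Fin.sum_univ_two]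
  push_cast
  ring

theorem Law.mul {γ δ : SL(2, ℤ)} (hγ : Law s Φ γ) (hδ : Law s Φ δ) (h3 : (3 : ℤ) ∣ γ 1 0) :
    Law s Φ (γ * δ) := by
  intro τ P u w
  rw [mul_smul, hγ, hδ]
  have hchi : WeightOneWiring.chiInt ((γ * δ) 1 1) =
      WeightOneWiring.chiInt (γ 1 1) * WeightOneWiring.chiInt (δ 1 1) := by
    rw [← chiInt_mul]
    refine chiInt_of_three_dvd_sub ?_
    simp only [Matrix.SpecialLinearGroup.coe_mul, Matrix.mul_apply, Fin.sum_univ_two]
    simp [h3.mul_right]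
  rw [← denom_SL_mul, hchi]
  have e1 : ((((γ * δ) 0 0 : ℤ) : ℝ) • u + (((γ * δ) 1 0 : ℤ) : ℝ) • w) =
      ((δ 0 0 : ℤ) : ℝ) • (((γ 0 0 : ℤ) : ℝ) • u + ((γ 1 0 : ℤ) : ℝ) • w) +
      ((δ 1 0 : ℤ) : ℝ) • (((γ 0 1 : ℤ) : ℝ) • u + ((γ 1 1 : ℤ) : ℝ) • w) := by
    simp only [Matrix.SpecialLinearGroup.coe_mul, Matrix.mul_apply, Fin.sum_univ_two]
    push_cast
    module
  have e2 : ((((γ * δ) 0 1 : ℤ) : ℝ) • u + (((γ * δ) 1 1 : ℤ) : ℝ) • w) =
      ((δ 0 1 : ℤ) : ℝ) • (((γ 0 0 : ℤ) : ℝ) • u + ((γ 1 0 : ℤ) : ℝ) • w) +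
      ((δ 1 1 : ℤ) : ℝ) • (((γ 0 1 : ℤ) : ℝ) • u + ((γ 1 1 : ℤ) : ℝ) • w) := by
    simp only [Matrix.SpecialLinearGroup.coe_mul, Matrix.mul_apply, Fin.sum_univ_two]
    push_cast
    module
  rw [e1, e2]
  push_cast
  ring

/-- `T ^ n`. -/
def upper (n : ℤ) : SL(2, ℤ) := ⟨!![1, n; 0, 1], by simp [Matrix.det_fin_two_of]⟩

/-- `[[1, 0], [3 n, 1]]`. -/
def lower (n : ℤ) : SL(2, ℤ) := ⟨!![1, 0; 3 * n, 1], by simp [Matrix.det_fin_two_of]⟩

theorem chiInt_one : WeightOneWiring.chiInt 1 = 1 := by decide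

theorem law_upper (hΦ : IsKernel s κ Φ) (hs : s * s = 1) (n : ℤ) : Law s Φ (upper n) := by
  intro τ P u w
  have hτ : upper n • τ = ((n : ℝ) +ᵥ τ) := by
    refine UpperHalfPlane.ext ?_
    rw [coe_smul_SL, UpperHalfPlane.coe_vadd]
    simp [upper, add_comm]
  have hs' : (s : ℝ) * s = 1 := by exact_mod_cast hs
  have hsC : (s : ℂ) * s = 1 := by exact_mod_cast hs
  simp only [thetaT]
  rw [hτ, hΦ.theta_vadd]
  simp only [upper, Matrix.of_apply, Matrix.cons_val', Matrix.cons_val_zero,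
    Matrix.cons_val_one, Matrix.cons_val_fin_one, chiInt_one, Int.cast_one,
      Int.cast_zero, zero_smul,
    one_smul, add_zero, zero_mul, zero_add, one_mul, Fin.isValue]
  rw [show (s : ℝ) • w + ((s * n : ℤ) : ℝ) • u = (s : ℝ) • ((n : ℝ) • u + w) by
    push_cast; module, ← mul_assoc, ← ee_add]
  congr 2
  rw [Bf_add_right, Bf_smul_right, Bf_self]
  push_cast
  ring

theorem law_lower (hΦ : IsKernel s κ Φ) (hs : s * s = 1) (hκ : κ ≠ 0) (n : ℤ) :
    Law s Φ (lower n) := by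
  intro τ P u w
  have hτ : ((lower n • τ : ℍ) : ℂ) = τ / (3 * n * τ + 1) := by
    rw [coe_smul_SL]; simp [lower]
  have hs' : (s : ℝ) * s = 1 := by exact_mod_cast hs
  have hsC : (s : ℂ) * s = 1 := by exact_mod_cast hs
  simp only [thetaT]
  rw [hΦ.theta_lower hs hκ n τ _ hτ]
  simp only [lower, Matrix.of_apply, Matrix.cons_val',
    Matrix.cons_val_zero, Matrix.cons_val_one, Matrix.cons_val_fin_one, chiInt_one, Int.cast_one,
    Int.cast_zero, zero_smul, one_smul, zero_add, one_mul, Fin.isValue]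
  rw [show u + ((3 * s * n : ℤ) : ℝ) • (s : ℝ) • w = u + ((3 * n : ℤ) : ℝ) • w by
    rw [smul_smul]
    congr 2
    push_cast
    linear_combination (3 * n : ℝ) * hs', Qf_smul, Bf_add_left, Bf_smul_left, Bf_self]
  push_cast
  rw [show ((s : ℂ) * (Bf u w + 3 * n * (2 * Qf w)) / 2)
      = s * Bf u w / 2 + 3 * s * n * Qf w by ring,
    show (3 * s * n * ((s : ℂ) ^ 2 * Qf w)) = 3 * s * n * Qf w by
      linear_combination (3 * s * n * (Qf w : ℂ)) * hsC, ee_add]
  ring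

theorem law_neg_one (hΦ : IsKernel s κ Φ) : Law s Φ (-1) := by
  intro τ P u w
  have h : WeightOneWiring.chiInt (-1) = -1 := by decide
  simp only [thetaT, ModularGroup.SL_neg_smul, one_smul, Matrix.SpecialLinearGroup.coe_neg,
    Matrix.SpecialLinearGroup.coe_one, Matrix.neg_apply, Matrix.one_apply_eq, Fin.isValue,
    Int.cast_neg, Int.cast_one, h, neg_one_smul, ne_eq, one_ne_zero, zero_ne_one, not_false_eq_true,
    Matrix.one_apply_ne, neg_zero, Int.cast_zero, zero_smul, add_zero, zero_add, zero_mul]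
  rw [Bf_neg_left, Bf_neg_right, neg_neg, smul_neg, hΦ.theta_neg]
  ring

theorem exists_centred (x : ℤ) {y : ℤ} (hy : y ≠ 0) :
    ∃ j : ℤ, 2 * (x + j * y).natAbs ≤ y.natAbs := by
  have h1 := Int.emod_add_mul_ediv x y
  have h2 := Int.emod_nonneg x hy
  have h3 := Int.emod_lt_abs x hy
  by_cases h : 2 * (x % y).natAbs ≤ y.natAbs
  · refine ⟨-(x / y), ?_⟩
    rw [show x + -(x / y) * y = x % y by linear_combination h1.symm]
    exact h
  · rcases lt_or_gt_of_ne hy with hn | hp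
    · refine ⟨-(x / y) + 1, ?_⟩
      rw [show x + (-(x / y) + 1) * y = x % y + y by linear_combination h1.symm]
      rw [abs_of_neg hn] at h3
      omega
    · refine ⟨-(x / y) - 1, ?_⟩
      rw [show x + (-(x / y) - 1) * y = x % y - y by linear_combination h1.symm]
      rw [abs_of_pos hp] at h3
      omega

/-- The transformation law holds on all of `Γ₀(3)`. -/
theorem law_Gamma0 (hΦ : IsKernel s κ Φ) (hs : s * s = 1) (hκ : κ ≠ 0) (γ : SL(2, ℤ))
    (h3 : (3 : ℤ) ∣ γ 1 0) : Law s Φ γ := by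
  induction hn : (γ 1 0 : ℤ).natAbs using Nat.strong_induction_on generalizing γ with
  | _ c ih =>
    subst hn
    have hdet := (Matrix.det_fin_two γ.1).symm.trans γ.2
    by_cases hc : γ 1 0 = 0
    · rw [hc, mul_zero, sub_zero] at hdet
      rcases Int.eq_one_or_neg_one_of_mul_eq_one' hdet with ⟨ha, hd⟩ | ⟨ha, hd⟩
      · have : γ = upper (γ 0 1) := by
          ext i j; fin_cases i <;> fin_cases j <;> simp [upper, ha, hd, hc]
        rw [this]
        exact law_upper hΦ hs _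
      · have : γ = -1 * upper (-(γ 0 1)) := by
          ext i j; fin_cases i <;> fin_cases j <;>
            simp [upper, ha, hd, hc]
        rw [this]
        exact (law_neg_one hΦ).mul (law_upper hΦ hs _) (by simp)
    obtain ⟨j, hj⟩ := exists_centred (γ 1 1) hc
    set d : ℤ := γ 1 1 + j * γ 1 0
    have hd0 : d ≠ 0 := by
      intro h0
      have h1 : (γ 1 0) ∣ (1 : ℤ) := ⟨-j * γ 0 0 - γ 0 1, by
        linear_combination -hdet + γ 0 0 * h0⟩
      have := Int.dvd_trans h3 h1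
      norm_num at this
    obtain ⟨i, hi⟩ := exists_centred (γ 1 0) (show 3 * d ≠ 0 by simp [hd0])
    set δ : SL(2, ℤ) := γ * upper j * lower i with hδ
    have hδ10 : δ 1 0 = γ 1 0 + i * (3 * d) := by
      simp [hδ, upper, lower, Matrix.mul_apply, Fin.sum_univ_two, d]
      ring
    have hlt : (δ 1 0).natAbs < (γ 1 0).natAbs := by
      rw [hδ10]
      have hdj : d.natAbs * 2 ≤ (γ 1 0).natAbs := by
        rw [mul_comm]
        exact hj
      have h3d : (3 * d).natAbs = 3 * d.natAbs := by rw [Int.natAbs_mul]; rfl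
      have : 0 < (γ 1 0).natAbs := Int.natAbs_pos.mpr hc
      omega
    have hd3 : (3 : ℤ) ∣ δ 1 0 := by
      rw [hδ10]
      exact h3.add (((dvd_mul_right 3 d)).mul_left _)
    have hγ : γ = δ * (lower (-i) * upper (-j)) := by
      have e1 : lower i * lower (-i) = 1 := by
        ext r t; fin_cases r <;> fin_cases t <;> simp [lower, Matrix.mul_apply, Fin.sum_univ_two]
      have e2 : upper j * upper (-j) = 1 := by
        ext r t; fin_cases r <;> fin_cases t <;> simp [upper, Matrix.mul_apply, Fin.sum_univ_two]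
      rw [hδ, mul_assoc (γ * upper j), ← mul_assoc (lower i), e1, one_mul, mul_assoc, e2, mul_one]
    rw [hγ]
    exact (ih _ hlt δ hd3 rfl).mul
      ((law_lower hΦ hs hκ _).mul (law_upper hΦ hs _) (by simp [lower])) hd3

end FLTAgent.LanglandsTunnell.Lift
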