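import Fermat.Agent.LanglandsTunnell.Lift.Isotropic
import Fermat.Agent.LanglandsTunnell.Trace.Unfold

/-!
# Integrals of lattice series against weights, deep weights, and holomorphy of power series in `q`

`integral_lat_tsum` exchanges the integral against a weighted spherical function with a sum
over lattice vectors, `exists_deep_weight` gives a weight for a principal congruence subgroup
which up to scaling is also one for a larger group, and `mdiff_of_hasSum` makes `q`-series
holomorphic.  Used in `Levels`.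
-/

set_option autoImplicit false

noncomputable section

namespace FLTAgent.LanglandsTunnell.Lift

open FLTAgent.LanglandsTunnell MeasureTheory Complex Matrix
open UpperHalfPlane hiding I
open scoped Real ENNReal Manifold

variable {H : Subgroup (GL (Fin 2) ℂ)} {w : H3 → ℝ≥0∞} {φ : H3 → ℂ} {s : ℤ} {κ : ℂ}
  {Φ : ℍ → H3 → HVec → ℂ} {ι : Type*}

theorem tsum_gauss_comp_le {K : ℕ} {v : ι → HVec} (hv : Function.Injective v)
    (hlev : ∀ i, ∃ n : Fin 4 → ℤ, v i = (K : ℝ)⁻¹ • latVec n) (α : ℝ) (P : H3) :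
    ∑' i, ENNReal.ofReal (Real.exp (-α * Mf P (v i))) ≤ gaussSum K α P := by
  choose f hf using hlev
  have hinj : Function.Injective f := fun i j h => hv (by rw [hf i, hf j, h])
  simp only [hf]
  exact ENNReal.tsum_comp_le_tsum_of_injective hinj
    fun n => ENNReal.ofReal (Real.exp (-α * Mf P ((K : ℝ)⁻¹ • latVec n)))

theorem countable_of_level {K : ℕ} {v : ι → HVec} (hv : Function.Injective v)
    (hlev : ∀ i, ∃ n : Fin 4 → ℤ, v i = (K : ℝ)⁻¹ • latVec n) : Countable ι := by
  choose f hf using hlev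
  exact Function.Injective.countable (f := f) fun i j h => hv (by rw [hf i, hf j, h])

theorem tsum_lintegral_lat_le [Countable ι] (hw : IsWt H w) {K : ℕ} {v : ι → HVec}
    (hv : Function.Injective v) (hlev : ∀ i, ∃ n : Fin 4 → ℤ, v i = (K : ℝ)⁻¹ • latVec n)
    {G : ι → H3 → ℂ} (hG : ∀ i, Measurable (G i)) {B α : ℝ}
    (hb : ∀ i P, ‖G i P‖ ≤ B * Real.exp (-α * Mf P (v i))) (hB : 0 ≤ B) :
    ∑' i, ∫⁻ P, ‖((w P).toReal : ℂ) * G i P‖ₑ ∂H3.volH3 ≤
      ENNReal.ofReal B * ∫⁻ P, w P * gaussSum K α P ∂H3.volH3 := by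
  rw [← lintegral_tsum (f := fun i P => ‖((w P).toReal : ℂ) * G i P‖ₑ) fun i =>
    ((continuous_ofReal.measurable.comp hw.measurable.ennreal_toReal).mul
      (hG i)).enorm.aemeasurable, ← lintegral_const_mul' _ _ ENNReal.ofReal_ne_top]
  refine lintegral_mono fun P => ?_
  have e : ∀ i, ‖((w P).toReal : ℂ) * G i P‖ₑ ≤
      ENNReal.ofReal B * (w P * ENNReal.ofReal (Real.exp (-α * Mf P (v i)))) := fun i => by
    rw [enorm_mul, ← ofReal_norm ((w P).toReal : ℂ), Complex.norm_real,
      Real.norm_of_nonneg ENNReal.toReal_nonneg,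
      ENNReal.ofReal_toReal (ne_top_of_le_ne_top ENNReal.one_ne_top (hw.le_one P)),
      mul_left_comm (ENNReal.ofReal B), ← ENNReal.ofReal_mul hB, ← ofReal_norm]
    exact mul_le_mul_right (ENNReal.ofReal_le_ofReal (hb i P)) _
  refine (ENNReal.tsum_le_tsum e).trans ?_
  rw [ENNReal.tsum_mul_left, ENNReal.tsum_mul_left]
  gcongr
  exact tsum_gauss_comp_le hv hlev α P

theorem integral_lat_tsum (hw : IsWt H w) (hφ : SphFn H φ) (hΦ : IsKernel s κ Φ) (τ : ℍ) {K : ℕ}
    (hK : 0 < K) {v : ι → HVec} (hv : Function.Injective v)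
    (hlev : ∀ i, ∃ n : Fin 4 → ℤ, v i = (K : ℝ)⁻¹ • latVec n) {c : ι → ℂ} {C : ℝ}
    (hc : ∀ i, ‖c i‖ ≤ C) :
    (Summable fun i => c i * ∫ P, wmul w φ P * Φ τ P (v i) ∂H3.volH3) ∧
      ∫ P, wmul w φ P * ∑' i, c i * Φ τ P (v i) ∂H3.volH3 =
        ∑' i, c i * ∫ P, wmul w φ P * Φ τ P (v i) ∂H3.volH3 := by
  have := countable_of_level hv hlev
  rcases isEmpty_or_nonempty ι with h | ⟨⟨i₀⟩⟩
  · simp
  obtain ⟨B, hB⟩ := hφ.bounded
  have hB0 : 0 ≤ B := (norm_nonneg _).trans (hB H3.base)
  have hC0 : 0 ≤ C := (norm_nonneg _).trans (hc i₀)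
  set G : ι → H3 → ℂ := fun i P => c i * (φ P * Φ τ P (v i)) with hG
  have hGm : ∀ i, Measurable (G i) := fun i =>
    (continuous_const.mul (hφ.continuous.mul (hΦ.continuous_pt τ (v i)))).measurable
  have hb : ∀ i P, ‖G i P‖ ≤ C * B * (8 * Real.sqrt τ.im) *
      Real.exp (-(π * τ.im) * Mf P (v i)) := fun i P => by
    rw [hG, norm_mul, norm_mul]
    calc ‖c i‖ * (‖φ P‖ * ‖Φ τ P (v i)‖)
        ≤ C * (B * (8 * Real.sqrt τ.im * Real.exp (-(π * τ.im) * Mf P (v i)))) :=
          mul_le_mul (hc i) (mul_le_mul (hB P) (hΦ.bound τ P (v i)) (norm_nonneg _) hB0)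
            (by positivity) hC0
      _ = _ := by ring
  have hfin : ∑' i, ∫⁻ P, ‖((w P).toReal : ℂ) * G i P‖ₑ ∂H3.volH3 ≠ ⊤ :=
    ne_top_of_le_ne_top (ENNReal.mul_ne_top ENNReal.ofReal_ne_top
      (hw.lintegral_gaussSum_lt_top hK (mul_pos Real.pi_pos τ.im_pos)).ne)
      (tsum_lintegral_lat_le hw hv hlev hGm hb (by positivity))
  have e : ∀ i, ∫ P, ((w P).toReal : ℂ) * G i P ∂H3.volH3
      = c i * ∫ P, wmul w φ P * Φ τ P (v i) ∂H3.volH3 := fun i => by
    rw [← integral_const_mul]
    refine integral_congr_ae (Filter.Eventually.of_forall fun P => ?_)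
    simp only [G, wmul]
    ring
  constructor
  · simp only [← e]
    refine Summable.of_norm_bounded
      (g := fun i => (∫⁻ P, ‖((w P).toReal : ℂ) * G i P‖ₑ ∂H3.volH3).toReal)
      (ENNReal.summable_toReal hfin) fun i => ?_
    refine (norm_integral_le_lintegral_norm _).trans (le_of_eq ?_)
    simp only [ofReal_norm]
  · simp only [← e]
    rw [← integral_tsum (f := fun i P => ((w P).toReal : ℂ) * G i P) (fun i =>
      ((continuous_ofReal.measurable.comp hw.measurable.ennreal_toReal).mul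
        (hGm i)).aestronglyMeasurable) hfin]
    refine integral_congr_ae (Filter.Eventually.of_forall fun P => ?_)
    simp only [wmul, G]
    rw [← tsum_mul_left]
    exact tsum_congr fun i => by ring

theorem exists_deep_weight {K : ℕ} (hK : K ≠ 0) (hKH : principalGroup K ≤ H)
    (hH : H ≤ congGroup 1) :
    ∃ (c : ℝ≥0∞) (wD : H3 → ℝ≥0∞),
      IsWt (principalGroup K) wD ∧ IsWt H fun P => c * wD P := by
  classical
  obtain ⟨wD, hwD⟩ := exists_isWt hK le_rfl (principal_le_congGroup (one_dvd K))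
  obtain ⟨R, -, hcov⟩ := exists_right_reps hK (le_refl (principalGroup K))
  have : Countable H :=
    Function.Injective.countable (f := Subgroup.inclusion hH) (Subgroup.inclusion_injective hH)
  set Hs : Subgroup H := (principalGroup K).subgroupOf H
  have hfin : Finite (H ⧸ Hs) := by
    have key : ∀ q : H ⧸ Hs, ∃ r : R, (q.out : GL (Fin 2) ℂ)⁻¹ * (r : GL (Fin 2) ℂ)⁻¹ ∈
        principalGroup K :=
      fun q => by
        obtain ⟨r, hr, hm⟩ := hcov _ (hH (inv_mem q.out.2))
        exact ⟨⟨r, hr⟩, hm⟩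
    choose f hf using key
    refine Finite.of_injective f fun q q' h => ?_
    rw [← q.out_eq, ← q'.out_eq]
    refine QuotientGroup.eq.mpr (Subgroup.mem_subgroupOf.mpr ?_)
    have := mul_mem (hf q) (inv_mem (hf q'))
    rw [h] at this
    simpa [mul_assoc] using this
  let := Fintype.ofFinite (H ⧸ Hs)
  refine ⟨(Fintype.card (H ⧸ Hs) : ℝ≥0∞)⁻¹, wD, hwD,
    hwD.measurable.const_mul _, fun P => ?_, ?_⟩
  · rw [ENNReal.tsum_mul_left, ← (Equiv.inv H).tsum_eq,
      ← (Equiv.ofBijective _ (LanglandsTunnell.Trace.bijective_out_mul Hs)).tsum_eq,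
      ENNReal.tsum_prod']
    have h1 : ∀ q : H ⧸ Hs, ∑' k : Hs,
        wD ((((Equiv.inv H) (Equiv.ofBijective _ (LanglandsTunnell.Trace.bijective_out_mul Hs)
          (q, k)) : H) :
          GL (Fin 2) ℂ) • P) = 1 := by
      intro q
      rw [← hwD.sum_eq (((q.out⁻¹ : H) : GL (Fin 2) ℂ) • P),
        ← ((Equiv.inv Hs).trans (Subgroup.subgroupOfEquivOfLe hKH).toEquiv).tsum_eq]
      refine tsum_congr fun k => congrArg wD ?_
      simp [← mul_smul]
      rfl
    simp only [h1]
    rw [tsum_fintype, Finset.sum_const, Finset.card_univ, nsmul_one]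
    exact ENNReal.inv_mul_cancel (Nat.cast_ne_zero.mpr Fintype.card_ne_zero)
      (ENNReal.natCast_ne_top _)
  · obtain ⟨R', hR', hle⟩ := hwD.support
    refine ⟨R', hR', fun P => le_trans ?_ (hle P)⟩
    refine mul_le_of_le_one_left' (ENNReal.inv_le_one.mpr ?_)
    exact_mod_cast Fintype.card_pos

/-- A function given by a series in `q` is holomorphic. -/
theorem mdiff_of_hasSum {f : ℍ → ℂ} {a : ℕ → ℂ}
    (hf : ∀ τ : ℍ, HasSum (fun m => a m • Function.Periodic.qParam 1 τ ^ m) (f τ)) : MDiff f := by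
  rw [UpperHalfPlane.mdifferentiable_iff]
  have hd : DifferentiableOn ℂ (fun z => ∑' m, a m • Function.Periodic.qParam 1 z ^ m)
      {z : ℂ | 0 < z.im} := by
    intro z hz
    have hz' : 0 < z.im := hz
    set δ := z.im / 2
    have hδ : 0 < δ := half_pos hz'
    let τ₀ : ℍ := ⟨Complex.I * δ, by simpa using hδ⟩
    have hopen : IsOpen {w : ℂ | δ < w.im} := isOpen_lt continuous_const Complex.continuous_im
    refine DifferentiableAt.differentiableWithinAt ((differentiableOn_tsum_of_summable_norm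
      (hf τ₀).summable.norm (fun m => ?_) hopen fun m w hw => ?_).differentiableAt
      (hopen.mem_nhds (show δ < z.im from half_lt_self hz')))
    · exact (((Function.Periodic.differentiable_qParam (h := 1)).pow m).const_smul
          (a m)).differentiableOn
    · rw [norm_smul, norm_smul, norm_pow, norm_pow, Function.Periodic.norm_qParam,
        Function.Periodic.norm_qParam]
      refine mul_le_mul_of_nonneg_left
        (pow_le_pow_left₀ (Real.exp_pos _).le (Real.exp_le_exp.mpr ?_) m) (norm_nonneg _)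
      have e : ((τ₀ : ℍ) : ℂ).im = δ := by simp [τ₀]
      rw [e]
      have hw' : δ < w.im := hw
      simp only [div_one]
      nlinarith [Real.pi_pos]
  refine hd.congr fun z hz => ?_
  rw [Function.comp_apply, UpperHalfPlane.ofComplex_apply_of_im_pos hz]
  exact (hf ⟨z, hz⟩).tsum_eq.symm

end FLTAgent.LanglandsTunnell.Lift
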