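import Fermat.Agent.LanglandsTunnell.Lift.Herm

/-!
# Reduction on `H³` for the Eisenstein integers and weights for congruence groups

Every point moves into the Siegel set and only finitely often (`exists_smul_mem_siegel`,
`finite_smul_mem_siegel`); hence congruence groups have weights with translates summing to one
(`IsWt`, `exists_isWt`), replacing fundamental domains.
-/

set_option autoImplicit false

noncomputable section

namespace FLTAgent.LanglandsTunnell.Lift

open FLTAgent.LanglandsTunnell MeasureTheory Complex ComplexConjugate Matrix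
open scoped ENNReal

/-- Entries congruent to those of the identity modulo `K`. -/
def EisOne (K : ℕ) (M : Matrix (Fin 2) (Fin 2) ℂ) : Prop :=
  ∀ i j, ∃ z ∈ Eis, (M - 1) i j = K * z

theorem EisOne.mul {K : ℕ} {A B : Matrix (Fin 2) (Fin 2) ℂ} (hA : EisOne K A) (hB : EisOne K B) :
    EisOne K (A * B) := by
  intro i j
  choose a ha hAe using hA
  choose b hb hBe using hB
  refine ⟨(∑ l, a i l * (K * b l j)) + a i j + b i j, ?_, ?_⟩
  · exact add_mem (add_mem (sum_mem fun l _ => mul_mem (ha i l)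
      (mul_mem (natCast_mem_Eis K) (hb l j))) (ha i j)) (hb i j)
  · have e : A * B - 1 = (A - 1) * (B - 1) + (A - 1) + (B - 1) := by
      rw [Matrix.sub_mul, Matrix.mul_sub, Matrix.mul_one, Matrix.one_mul]
      abel
    rw [e, Matrix.add_apply, Matrix.add_apply, Matrix.mul_apply, mul_add, mul_add, Finset.mul_sum]
    simp only [hAe, hBe]
    refine congrArg (fun x => x + _ + _) (Finset.sum_congr rfl fun l _ => by ring)

/-- The principal congruence group. -/
def principalGroup (K : ℕ) : Subgroup (GL (Fin 2) ℂ) where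
  carrier := {g | EisOne K g.val ∧ EisOne K (g⁻¹).val}
  one_mem' := by
    have h : EisOne K (1 : Matrix (Fin 2) (Fin 2) ℂ) := fun i j => ⟨0, zero_mem _, by simp⟩
    refine ⟨h, ?_⟩
    rw [inv_one]
    exact h
  mul_mem' {a b} ha hb := ⟨ha.1.mul hb.1, by
    rw [_root_.mul_inv_rev, Units.val_mul]
    exact hb.2.mul ha.2⟩
  inv_mem' {a} ha := ⟨ha.2, by rw [inv_inv]; exact ha.1⟩

theorem EisOne.eisCong {K N : ℕ} (h : N ∣ K) {M : Matrix (Fin 2) (Fin 2) ℂ} (hM : EisOne K M) :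
    EisCong N M := by
  obtain ⟨k, rfl⟩ := h
  refine ⟨fun i j => ?_, ?_, ?_⟩
  · obtain ⟨z, hz, e⟩ := hM i j
    rw [Matrix.sub_apply, sub_eq_iff_eq_add] at e
    rw [e]
    refine add_mem (mul_mem (natCast_mem_Eis _) hz) ?_
    rw [Matrix.one_apply]
    split_ifs
    · exact one_mem _
    · exact zero_mem _
  · obtain ⟨z, hz, e⟩ := hM 0 1
    refine ⟨k * z, mul_mem (natCast_mem_Eis k) hz, ?_⟩
    simpa [Matrix.one_apply, mul_assoc] using e
  · obtain ⟨z, hz, e⟩ := hM 1 0
    refine ⟨k * z, mul_mem (natCast_mem_Eis k) hz, ?_⟩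
    simpa [Matrix.one_apply, mul_assoc] using e

theorem principal_le_congGroup {K N : ℕ} (h : N ∣ K) : principalGroup K ≤ congGroup N :=
  fun _ hg => ⟨hg.1.eisCong h, hg.2.eisCong h⟩

theorem mem_congGroup_one {g : GL (Fin 2) ℂ} (h : ∀ i j, g.val i j ∈ Eis)
    (h' : ∀ i j, (g⁻¹).val i j ∈ Eis) : g ∈ congGroup 1 :=
  ⟨⟨h, ⟨_, h 0 1, by simp⟩, _, h 1 0, by simp⟩, ⟨h', ⟨_, h' 0 1, by simp⟩, _, h' 1 0, by simp⟩⟩

/-- An integral matrix of unit determinant as a group element. -/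
theorem exists_congGroup_one {M : Matrix (Fin 2) (Fin 2) ℂ} (h : ∀ i j, M i j ∈ Eis) {u : ℂ}
    (hu : u ∈ Eis) (hdet : M.det * u = 1) : ∃ g ∈ congGroup 1, g.val = M := by
  have hne : M.det ≠ 0 := left_ne_zero_of_mul_eq_one hdet
  refine ⟨GeneralLinearGroup.mkOfDetNeZero M hne, mem_congGroup_one ?_ ?_, ?_⟩
  · simpa [GeneralLinearGroup.val_mkOfDetNeZero] using h
  · intro i j
    have e : M.det⁻¹ = u := inv_eq_of_mul_eq_one_right hdet
    rw [Matrix.coe_units_inv, GeneralLinearGroup.val_mkOfDetNeZero, Matrix.inv_def,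
      Ring.inverse_eq_inv', e, Matrix.smul_apply, smul_eq_mul, Matrix.adjugate_fin_two]
    refine mul_mem hu ?_
    fin_cases i <;> fin_cases j <;> simp [h]
  · simp [GeneralLinearGroup.val_mkOfDetNeZero]

/-- Finitely many representatives of `congGroup 1` modulo a congruence group. -/
theorem exists_right_reps {K : ℕ} (hK : K ≠ 0) {H : Subgroup (GL (Fin 2) ℂ)}
    (hKH : principalGroup K ≤ H) :
    ∃ R : Finset (GL (Fin 2) ℂ), ↑R ⊆ (congGroup 1 : Set (GL (Fin 2) ℂ)) ∧
      ∀ g ∈ congGroup 1, ∃ r ∈ R, g * r⁻¹ ∈ H := by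
  classical
  have : NeZero K := ⟨hK⟩
  have hz : ∀ z : Eis, ∃ p : ℤ × ℤ, (z : ℂ) = eis p.1 p.2 := fun z => by
    obtain ⟨x, y, h⟩ := z.2; exact ⟨(x, y), h⟩
  choose co hco using hz
  let res : (congGroup 1) → (Fin 2 → Fin 2 → ZMod K × ZMod K) := fun g i j =>
    (((co ⟨g.1.val i j, g.2.1.1 i j⟩).1 : ZMod K), ((co ⟨g.1.val i j, g.2.1.1 i j⟩).2 : ZMod K))
  have key : ∀ g g' : congGroup 1, res g = res g' → ∀ i j, ∃ z ∈ Eis,
      g.1.val i j - g'.1.val i j = K * z := by
    intro g g' he i j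
    have h1 := congrArg Prod.fst (congrFun (congrFun he i) j)
    have h2 := congrArg Prod.snd (congrFun (congrFun he i) j)
    obtain ⟨a, ha⟩ := (ZMod.intCast_eq_intCast_iff_dvd_sub _ _ _).mp h1.symm
    obtain ⟨b, hb⟩ := (ZMod.intCast_eq_intCast_iff_dvd_sub _ _ _).mp h2.symm
    refine ⟨eis a b, ⟨a, b, rfl⟩, ?_⟩
    have e1 := hco ⟨g.1.val i j, g.2.1.1 i j⟩
    have e2 := hco ⟨g'.1.val i j, g'.2.1.1 i j⟩
    simp only at e1 e2
    rw [e1, e2]
    simp only [eis]
    have ha' : ((co ⟨g.1.val i j, g.2.1.1 i j⟩).1 : ℂ) - (co ⟨g'.1.val i j, g'.2.1.1 i j⟩).1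
        = (K : ℂ) * a := by exact_mod_cast ha
    have hb' : ((co ⟨g.1.val i j, g.2.1.1 i j⟩).2 : ℂ) - (co ⟨g'.1.val i j, g'.2.1.1 i j⟩).2
        = (K : ℂ) * b := by exact_mod_cast hb
    push_cast
    linear_combination ha' + omega * hb'
  let sect := fun v => Function.invFun res v
  refine ⟨(Finset.univ.image fun v => ((sect v : congGroup 1) : GL (Fin 2) ℂ)), ?_, fun g hg => ?_⟩
  · intro x hx
    simp only [Finset.coe_image, Finset.coe_univ, Set.image_univ] at hx
    obtain ⟨v, rfl⟩ := hx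
    exact (sect v).2
  · set r := sect (res ⟨g, hg⟩) with hr
    have he : res r = res ⟨g, hg⟩ := Function.invFun_eq ⟨⟨g, hg⟩, rfl⟩
    refine ⟨r.1, Finset.mem_image.mpr ⟨_, Finset.mem_univ _, rfl⟩, hKH ?_⟩
    have one : ∀ a b : congGroup 1, res a = res b →
        EisOne K (a.1 * (b.1)⁻¹).val := by
      intro a b hab i j
      choose z hz hze using key a b hab
      have e : (a.1 * (b.1)⁻¹).val - 1 = (a.1.val - b.1.val) * (b.1⁻¹).val := by
        rw [Units.val_mul, Matrix.sub_mul]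
        congr 1
        rw [← Units.val_mul, mul_inv_cancel, Units.val_one]
      refine ⟨∑ l, z i l * (b.1⁻¹).val l j, sum_mem fun l _ => mul_mem (hz i l) (b.2.2.1 l j), ?_⟩
      rw [e, Matrix.mul_apply, Finset.mul_sum]
      exact Finset.sum_congr rfl fun l _ => by rw [Matrix.sub_apply, hze]; ring
    refine ⟨one ⟨g, hg⟩ r he.symm, ?_⟩
    rw [_root_.mul_inv_rev, inv_inv]
    exact one r ⟨g, hg⟩ he

/-- The size of a bottom row at a point. -/
def rowD (P : H3) (x y : ℂ) : ℝ := normSq (x * P.z + y) + normSq x * P.t ^ 2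

theorem finite_rowD_le (P : H3) (B : ℝ) :
    {p : ℂ × ℂ | p.1 ∈ Eis ∧ p.2 ∈ Eis ∧ rowD P p.1 p.2 ≤ B}.Finite := by
  set C1 : ℝ := B / P.t ^ 2
  set C2 : ℝ := 2 * B + 2 * C1 * normSq P.z
  refine ((finite_normSq_le C1).prod (finite_normSq_le C2)).subset ?_
  rintro ⟨x, y⟩ ⟨hx, hy, h⟩
  have h0 := normSq_nonneg (x * P.z + y)
  have h0' := mul_nonneg (normSq_nonneg x) (sq_nonneg P.t)
  simp only [rowD] at h
  have h1 : normSq x ≤ C1 := by
    rw [le_div_iff₀ (pow_pos P.t_pos 2)]; linarith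
  have h2 : normSq y ≤ C2 := by
    have e : normSq y ≤ 2 * normSq (x * P.z + y) + 2 * normSq (x * P.z) := by
      have := normSq_nonneg (x * P.z + y + x * P.z)
      simp only [normSq_apply, add_re, add_im] at this ⊢
      nlinarith
    rw [map_mul] at e
    nlinarith [normSq_nonneg P.z, mul_le_mul_of_nonneg_right h1 (normSq_nonneg P.z)]
  exact ⟨⟨hx, h1⟩, ⟨hy, h2⟩⟩

theorem smul_t_rowD (g : GL (Fin 2) ℂ) (hg : ‖g.val.det‖ = 1) (P : H3) :
    (g • P).t = P.t / rowD P (g.val 1 0) (g.val 1 1) := by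
  rw [H3.smul_t, hg, one_mul]
  simp only [H3.denom, rowD]

theorem topRow_eq (g : GL (Fin 2) ℂ) (hg : ‖g.val.det‖ = 1) (P : H3) :
    rowD P (g.val 0 0) (g.val 0 1) =
      P.t * ((normSq (g • P).z + (g • P).t ^ 2) / (g • P).t) := by
  have h := congrFun (congrFun (H3.form_smul g P) 0) 0
  rw [hg] at h
  have ht : (P.t : ℂ) ≠ 0 := by exact_mod_cast P.t_ne_zero
  apply Complex.ofReal_injective
  rw [Complex.ofReal_mul]
  simp only [H3.form, Matrix.of_apply, Matrix.cons_val_zero, Matrix.cons_val',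
    Matrix.cons_val_fin_one, Fin.isValue, Complex.ofReal_one, inv_one, one_smul, Matrix.mul_apply,
    Fin.sum_univ_two, Matrix.conjTranspose_apply, Complex.star_def, Matrix.cons_val_one] at h
  rw [h]
  simp only [rowD]
  push_cast
  simp only [Complex.normSq_eq_conj_mul_self, map_add, map_mul]
  field_simp
  ring

theorem norm_det_eq_one {g : GL (Fin 2) ℂ} (h : g ∈ congGroup 1) : ‖g.val.det‖ = 1 :=
  norm_det_congGroup h

/-- The coarse fundamental set. -/
def siegelSet : Set H3 := {P | |P.z.re| ≤ 1 ∧ |P.z.im| ≤ 1 ∧ 1 / 2 ≤ P.t}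

theorem measurableSet_siegelSet : MeasurableSet siegelSet :=
  ((isClosed_le (continuous_abs.comp (continuous_re.comp H3.continuous_z)) continuous_const).inter
    ((isClosed_le (continuous_abs.comp (continuous_im.comp H3.continuous_z)) continuous_const).inter
      (isClosed_le continuous_const H3.continuous_t))).measurableSet

theorem exists_near' (z : ℂ) : ∃ q ∈ Eis, normSq (z - q) ≤ 3 / 4 := by
  set a := z.re + z.im / Real.sqrt 3
  set b := 2 * z.im / Real.sqrt 3
  refine ⟨eis (round a) (round b), ⟨round a, round b, rfl⟩, ?_⟩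
  have hz : z - eis (round a) (round b) = eis (a - round a) (b - round b) := by
    nth_rewrite 1 [eis_eq z]
    simp only [eis, a, b]
    push_cast
    ring
  have ha := abs_le.mp (abs_sub_round a)
  have hb := abs_le.mp (abs_sub_round b)
  rw [hz, normSq_eis]
  nlinarith

theorem exists_smul_mem_siegel (P : H3) : ∃ g ∈ congGroup 1, g • P ∈ siegelSet := by
  set S : Set (GL (Fin 2) ℂ) := {g | g ∈ congGroup 1 ∧ P.t ≤ (g • P).t}
  let row : GL (Fin 2) ℂ → ℂ × ℂ := fun g => (g.val 1 0, g.val 1 1)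
  have hfin : (row '' S).Finite := by
    refine (finite_rowD_le P 1).subset ?_
    rintro _ ⟨g, ⟨hg, ht⟩, rfl⟩
    refine ⟨hg.1.1 1 0, hg.1.1 1 1, ?_⟩
    have hd := smul_t_rowD g (norm_det_eq_one hg) P
    have hpos : 0 < rowD P (g.val 1 0) (g.val 1 1) := by
      by_contra hle
      have h1 := (g • P).t_pos
      rw [hd] at h1
      exact absurd h1 (not_lt.mpr (div_nonpos_of_nonneg_of_nonpos P.t_pos.le (not_lt.mp hle)))
    rw [hd, le_div_iff₀ hpos] at ht
    show rowD P (g.val 1 0) (g.val 1 1) ≤ 1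
    nlinarith [P.t_pos]
  have hne : (row '' S).Nonempty := ⟨_, 1, ⟨one_mem _, by rw [one_smul]⟩, rfl⟩
  obtain ⟨r, hr, hmin⟩ := Set.exists_min_image _ (fun p => rowD P p.1 p.2) hfin hne
  obtain ⟨g₀, ⟨hg₀, hg₀t⟩, rfl⟩ := hr
  obtain ⟨q, hq, hqn⟩ := exists_near' (g₀ • P).z
  obtain ⟨T, hT, hTv⟩ := exists_congGroup_one (M := !![1, -q; 0, 1]) (u := 1)
    (fun i j => by fin_cases i <;> fin_cases j <;> simp [hq, one_mem, zero_mem])
    (one_mem _) (by simp [Matrix.det_fin_two_of])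
  obtain ⟨W, hW, hWv⟩ := exists_congGroup_one (M := !![0, -1; 1, 0]) (u := 1)
    (fun i j => by fin_cases i <;> fin_cases j <;> simp [one_mem, zero_mem])
    (one_mem _) (by simp [Matrix.det_fin_two_of])
  set Q := (T * g₀) • P with hQ
  have hQz : Q.z = (g₀ • P).z - q := by
    rw [hQ, mul_smul, H3.smul_z]
    simp [H3.denom, hTv, sub_eq_add_neg]
  have hQt : Q.t = (g₀ • P).t := by
    rw [hQ, mul_smul, H3.smul_t]
    simp [H3.denom, hTv, Matrix.det_fin_two]
  have hz : normSq Q.z ≤ 3 / 4 := by rw [hQz]; exact hqn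
  have hWt : (W • Q).t = Q.t / (normSq Q.z + Q.t ^ 2) := by
    rw [smul_t_rowD W (norm_det_eq_one hW)]
    simp [rowD, hWv]
  have hbig : 1 ≤ normSq Q.z + Q.t ^ 2 := by
    by_contra hlt
    have hpos : 0 < normSq Q.z + Q.t ^ 2 := by
      have := normSq_nonneg Q.z; have := pow_pos Q.t_pos 2; linarith
    set g' := W * (T * g₀)
    have hg' : g' ∈ congGroup 1 := mul_mem hW (mul_mem hT hg₀)
    have ht' : (g₀ • P).t < (g' • P).t := by
      rw [mul_smul, ← hQ, hWt, ← hQt, lt_div_iff₀ hpos]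
      nlinarith [Q.t_pos, not_le.mp hlt]
    have hmem : row g' ∈ row '' S := ⟨g', ⟨hg', hg₀t.trans ht'.le⟩, rfl⟩
    have hle := hmin _ hmem
    rw [smul_t_rowD _ (norm_det_eq_one hg₀), smul_t_rowD _ (norm_det_eq_one hg')] at ht'
    have hpos' : 0 < rowD P (g₀.val 1 0) (g₀.val 1 1) := by
      by_contra hle'
      have h1 := (g₀ • P).t_pos
      rw [smul_t_rowD _ (norm_det_eq_one hg₀)] at h1
      exact absurd h1 (not_lt.mpr (div_nonpos_of_nonneg_of_nonpos P.t_pos.le (not_lt.mp hle')))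
    exact absurd ht' (not_lt.mpr (div_le_div_of_nonneg_left P.t_pos.le hpos' hle))
  refine ⟨T * g₀, mul_mem hT hg₀, ?_, ?_, ?_⟩
  · rw [abs_le]; rw [normSq_apply] at hz
    constructor <;> nlinarith [sq_nonneg Q.z.im, sq_nonneg (Q.z.re - 1), sq_nonneg (Q.z.re + 1)]
  · rw [abs_le]; rw [normSq_apply] at hz
    constructor <;> nlinarith [sq_nonneg Q.z.re, sq_nonneg (Q.z.im - 1), sq_nonneg (Q.z.im + 1)]
  · nlinarith [Q.t_pos]

theorem finite_smul_mem_siegel (P : H3) :
    {g : GL (Fin 2) ℂ | g ∈ congGroup 1 ∧ g • P ∈ siegelSet}.Finite := by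
  set B2 : ℝ := 2 * P.t
  set B1 : ℝ := P.t * (4 + P.t / min (P.t ^ 2) 1)
  refine Set.Finite.of_finite_image (f := fun g : GL (Fin 2) ℂ =>
    ((g.val 0 0, g.val 0 1), (g.val 1 0, g.val 1 1)))
    (((finite_rowD_le P B1).prod (finite_rowD_le P B2)).subset ?_) ?_
  · rintro _ ⟨g, ⟨hg, h1, h2, h3⟩, rfl⟩
    have hd := smul_t_rowD g (norm_det_eq_one hg) P
    have hD : min (P.t ^ 2) 1 ≤ rowD P (g.val 1 0) (g.val 1 1) := by
      rcases eq_or_ne (g.val 1 0) 0 with h | h
      · have hd0 : g.val 1 1 ≠ 0 := (H3.row_ne_zero g).resolve_left (not_not.mpr h)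
        refine (min_le_right _ _).trans ?_
        simpa [rowD, h] using one_le_normSq_Eis (hg.1.1 1 1) hd0
      · refine (min_le_left _ _).trans ?_
        have := one_le_normSq_Eis (hg.1.1 1 0) h
        simp only [rowD]
        nlinarith [normSq_nonneg (g.val 1 0 * P.z + g.val 1 1), sq_nonneg P.t]
    have hm : 0 < min (P.t ^ 2) 1 := lt_min (pow_pos P.t_pos 2) one_pos
    have hpos : 0 < rowD P (g.val 1 0) (g.val 1 1) := hm.trans_le hD
    refine ⟨⟨hg.1.1 0 0, hg.1.1 0 1, ?_⟩, ⟨hg.1.1 1 0, hg.1.1 1 1, ?_⟩⟩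
    · show rowD P (g.val 0 0) (g.val 0 1) ≤ B1
      rw [topRow_eq g (norm_det_eq_one hg)]
      refine mul_le_mul_of_nonneg_left ?_ P.t_pos.le
      have htop : (g • P).t ≤ P.t / min (P.t ^ 2) 1 := by
        rw [hd]; exact div_le_div_of_nonneg_left P.t_pos.le hm hD
      have hz : normSq (g • P).z ≤ 2 := by
        rw [normSq_apply]
        nlinarith [abs_le.mp h1, abs_le.mp h2, abs_mul_abs_self (g • P).z.re,
          abs_mul_abs_self (g • P).z.im, abs_nonneg (g • P).z.re, abs_nonneg (g • P).z.im]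
      rw [div_le_iff₀ (g • P).t_pos]
      nlinarith [(g • P).t_pos, sq_nonneg P.t, div_nonneg P.t_pos.le hm.le]
    · show rowD P (g.val 1 0) (g.val 1 1) ≤ B2
      rw [hd, le_div_iff₀ hpos] at h3
      show _ ≤ 2 * P.t
      linarith
  · intro g _ g' _ h
    simp only [Prod.mk.injEq] at h
    exact Units.ext (Matrix.ext fun i j => by
      fin_cases i <;> fin_cases j <;> simp [h.1.1, h.1.2, h.2.1, h.2.2])

/-! ### Weights -/

/-- A union of finitely many translates of the coarse fundamental set. -/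
def coverSet (R : Finset (GL (Fin 2) ℂ)) : Set H3 := {P | ∃ r ∈ R, r⁻¹ • P ∈ siegelSet}

theorem measurableSet_coverSet (R : Finset (GL (Fin 2) ℂ)) : MeasurableSet (coverSet R) := by
  have : coverSet R = ⋃ r ∈ R, (fun P => r⁻¹ • P) ⁻¹' siegelSet := by
    ext P; simp [coverSet]
  rw [this]
  exact Finset.measurableSet_biUnion _ fun r _ =>
    measurableSet_siegelSet.preimage (continuous_const_smul _).measurable

/-- Multiplicity in the covering. -/
def coverCount (H : Subgroup (GL (Fin 2) ℂ)) (R : Finset (GL (Fin 2) ℂ)) (P : H3) : ℝ≥0∞ :=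
  ∑' h : H, (coverSet R).indicator 1 ((h : GL (Fin 2) ℂ) • P)

/-- A weight. -/
structure IsWt (H : Subgroup (GL (Fin 2) ℂ)) (w : H3 → ℝ≥0∞) : Prop where
  measurable : Measurable w
  sum_eq : ∀ P, ∑' h : H, w ((h : GL (Fin 2) ℂ) • P) = 1
  support : ∃ R : Finset (GL (Fin 2) ℂ), ↑R ⊆ (congGroup 1 : Set (GL (Fin 2) ℂ)) ∧
    ∀ P, w P ≤ (coverSet R).indicator 1 P

theorem exists_isWt {K : ℕ} (hK : K ≠ 0) {H : Subgroup (GL (Fin 2) ℂ)}
    (hKH : principalGroup K ≤ H) (hH : H ≤ congGroup 1) : ∃ w, IsWt H w := by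
  classical
  obtain ⟨R, hR, hcov⟩ := exists_right_reps hK hKH
  have : Countable H :=
    Function.Injective.countable (f := Subgroup.inclusion hH) (Subgroup.inclusion_injective hH)
  have hge : ∀ P, 1 ≤ coverCount H R P := fun P => by
    obtain ⟨g, hg, hgP⟩ := exists_smul_mem_siegel P
    obtain ⟨r, hr, hh⟩ := hcov g⁻¹ (inv_mem hg)
    refine le_trans ?_ (ENNReal.le_tsum (⟨(g⁻¹ * r⁻¹)⁻¹, inv_mem hh⟩ : H))
    rw [Set.indicator_of_mem, Pi.one_apply]
    refine ⟨r, hr, ?_⟩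
    show r⁻¹ • (g⁻¹ * r⁻¹)⁻¹ • P ∈ siegelSet
    rwa [← mul_smul, _root_.mul_inv_rev, inv_inv, inv_inv, inv_mul_cancel_left]
  have hfin : ∀ P, coverCount H R P ≠ ⊤ := fun P => by
    have hF : {h : H | (h : GL (Fin 2) ℂ) • P ∈ coverSet R}.Finite := by
      have : {h : H | (h : GL (Fin 2) ℂ) • P ∈ coverSet R} ⊆
          ⋃ r ∈ R, (fun h : H => r⁻¹ * (h : GL (Fin 2) ℂ)) ⁻¹'
            {g | g ∈ congGroup 1 ∧ g • P ∈ siegelSet} := by
        rintro h ⟨r, hr, hP⟩
        simp only [Set.mem_iUnion, Set.mem_preimage]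
        exact ⟨r, hr, mul_mem (inv_mem (hR hr)) (hH h.2), by rwa [mul_smul]⟩
      refine Set.Finite.subset (Set.Finite.biUnion (Finset.finite_toSet R) fun r _ => ?_) this
      exact (finite_smul_mem_siegel P).preimage fun a _ b _ e => Subtype.ext (mul_left_cancel e)
    rw [coverCount, tsum_eq_sum (s := hF.toFinset) fun h hh =>
      Set.indicator_of_notMem (by simpa using hh) _]
    refine ENNReal.sum_ne_top.mpr fun h _ => ?_
    by_cases hh : (h : GL (Fin 2) ℂ) • P ∈ coverSet R <;> simp [hh]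
  have hinv : ∀ (h : H) (P : H3), coverCount H R ((h : GL (Fin 2) ℂ) • P) = coverCount H R P := by
    intro h P
    rw [coverCount, coverCount, ← (Equiv.mulRight h⁻¹).tsum_eq]
    refine tsum_congr fun k => ?_
    simp [← mul_smul]
  have hm : Measurable (coverCount H R) := Measurable.tsum fun h =>
    (measurable_one.indicator (measurableSet_coverSet R)).comp
      (continuous_const_smul (h : GL (Fin 2) ℂ)).measurable
  refine ⟨fun P => (coverSet R).indicator 1 P * (coverCount H R P)⁻¹,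
    (measurable_one.indicator (measurableSet_coverSet R)).mul hm.inv, fun P => ?_, R,
      hR, fun P => ?_⟩
  · simp only [hinv]
    rw [ENNReal.tsum_mul_right]
    exact ENNReal.mul_inv_cancel (fun h0 => not_lt.mpr (hge P)
        (by rw [show coverCount H R P = 0 from h0]; exact one_pos)) (hfin P)
  · exact mul_le_of_le_one_right' (ENNReal.inv_le_one.mpr (hge P))

end FLTAgent.LanglandsTunnell.Lift
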